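/-
S14 team interface (architect: helper14).  Statements only (`def Stmt_* : Prop`), no proofs.
Every work package proves `theorem xxx : Stmt_xxx` (possibly from other `Stmt_*` as hypotheses)
in its own file `Fermat/Agent/S14/<Package>.lean`, namespace `Fermat.Agent.S14`.
-/
import Mathlib
import Fermat.Prelude.Def_ExtCitation_AdmissibleExtension_v2

set_option autoImplicit false

namespace Fermat.Agent.S14

open NumberField

/-! ## 0. Vocabulary -/

/-- Class of an ideal of a ring of integers (junk value `1` for the zero ideal). -/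
noncomputable def cls {K : Type} [Field K] [NumberField K] (I : Ideal (𝓞 K)) :
    ClassGroup (𝓞 K) :=
  open Classical in
  if h : I ∈ nonZeroDivisors (Ideal (𝓞 K)) then ClassGroup.mk0 ⟨I, h⟩ else 1

/-- The subgroup of `Cl(K)` generated by the classes of relative norms of ideals of `L`. -/
noncomputable def normCl (K L : Type) [Field K] [NumberField K] [Field L] [NumberField L]
    [Algebra K L] : Subgroup (ClassGroup (𝓞 K)) :=
  Subgroup.closure {c | ∃ J : Ideal (𝓞 L), J ≠ ⊥ ∧ c = cls (Ideal.relNorm (𝓞 K) J)}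

/-- `L/K` has trivial inertia groups at all maximal ideals of `𝓞 L`. -/
def TrivialInertia (K L : Type) [Field K] [Field L] [Algebra K L] : Prop :=
  ∀ P : Ideal (𝓞 L), P.IsMaximal → ∀ h : L ≃ₐ[K] L, (∀ x : 𝓞 L, h • x - x ∈ P) → h = 1

/-- Partial zeta function of an ideal class, real variable. -/
noncomputable def zetaC {T : Type} [Field T] [NumberField T] (C : ClassGroup (𝓞 T)) (s : ℝ) : ℝ :=
  ∑' I : {I : Ideal (𝓞 T) // I ≠ ⊥ ∧ cls I = C}, ((Ideal.absNorm I.1 : ℕ) : ℝ) ^ (-s)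

/-! ## 1. Algebra: Herbrand quotient -/

/-- AL1. Herbrand quotient of a finitely generated abelian group with an automorphism of prime
order `p`, computed from ranks. `D = τ - 1`, `N = 1 + τ + ... + τ^(p-1)`,
`h0 = [ker D : im N]`, `h1 = [ker N : im D]`, `β = rk ker D`, `rk A = β + (p-1) m`:
`h0 * p^m = h1 * p^β` and both indices are nonzero (finite). -/
def Stmt_Herbrand : Prop :=
  ∀ (p : ℕ), p.Prime → ∀ (A : Type) [AddCommGroup A] [Module.Finite ℤ A] (τ : A →ₗ[ℤ] A),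
    τ ^ p = 1 → ∀ (β m : ℕ),
    Module.finrank ℤ (LinearMap.ker (τ - 1)) = β →
    Module.finrank ℤ A = β + (p - 1) * m →
    let D : A →ₗ[ℤ] A := τ - 1
    let N : A →ₗ[ℤ] A := ∑ i ∈ Finset.range p, τ ^ i
    let h0 := (LinearMap.range N).toAddSubgroup.relIndex (LinearMap.ker D).toAddSubgroup
    let h1 := (LinearMap.range D).toAddSubgroup.relIndex (LinearMap.ker N).toAddSubgroup
    h0 ≠ 0 ∧ h1 ≠ 0 ∧ h0 * p ^ m = h1 * p ^ β

/-! ## 2. Analysis -/

/-- Real Dedekind zeta as a sum over nonzero ideals. -/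
noncomputable def zetaI (T : Type) [Field T] [NumberField T] (s : ℝ) : ℝ :=
  ∑' I : {I : Ideal (𝓞 T) // I ≠ ⊥}, ((Ideal.absNorm I.1 : ℕ) : ℝ) ^ (-s)

/-- AN0. Bridge to Mathlib's `dedekindZeta`: summability over ideals and simple pole at `1`. -/
def Stmt_ZetaPole : Prop :=
  ∀ (T : Type) [Field T] [NumberField T],
    (∀ s : ℝ, 1 < s →
      Summable (fun I : {I : Ideal (𝓞 T) // I ≠ ⊥} => ((Ideal.absNorm I.1 : ℕ) : ℝ) ^ (-s))) ∧
    ∃ κ : ℝ, 0 < κ ∧
      Filter.Tendsto (fun s : ℝ => (s - 1) * zetaI T s) (nhdsWithin 1 (Set.Ioi 1)) (nhds κ)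

/-- AN1. Euler product (exp-log form) for completely multiplicative functions on ideals. -/
def Stmt_EulerIdeal : Prop :=
  ∀ (T : Type) [Field T] [NumberField T] (f : Ideal (𝓞 T) → ℂ),
    f ⊤ = 1 → (∀ I J, f (I * J) = f I * f J) →
    Summable (fun I : {I : Ideal (𝓞 T) // I ≠ ⊥} => ‖f I.1‖) →
    (∀ q : {q : Ideal (𝓞 T) // q.IsPrime ∧ q ≠ ⊥}, ‖f q.1‖ < 1) ∧
    Summable (fun q : {q : Ideal (𝓞 T) // q.IsPrime ∧ q ≠ ⊥} => -Complex.log (1 - f q.1)) ∧
    Complex.exp (∑' q : {q : Ideal (𝓞 T) // q.IsPrime ∧ q ≠ ⊥}, -Complex.log (1 - f q.1)) =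
      ∑' I : {I : Ideal (𝓞 T) // I ≠ ⊥}, f I.1

open NumberField.mixedEmbedding NumberField.Units Classical in
/-- Tent-function partition of unity for the action of the units on the mixed space. -/
noncomputable def hatW (T : Type) [Field T] [NumberField T] (x : mixedSpace T) : ℝ :=
  ∏ i, max 0 (1 - |((basisUnitLattice T).ofZLatticeBasis ℝ (unitLattice T)).repr (logMap x) i|)

open NumberField.mixedEmbedding in
/-- The homogeneous kernel `G_s(x) = hatW(x) |N x|^{-s}` (zero where `N x = 0`, for `s ≠ 0`). -/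
noncomputable def Gs (T : Type) [Field T] [NumberField T] (s : ℝ) (x : mixedSpace T) : ℝ :=
  hatW T x * (mixedEmbedding.norm x) ^ (-s)

open NumberField.mixedEmbedding Classical in
/-- AN2a. Size and Lipschitz-type bound for `G_s`, uniform for `s ∈ [1,2]`. -/
def Stmt_GsBound : Prop :=
  ∀ (T : Type) [Field T] [NumberField T], ∃ C : ℝ, ∀ s : ℝ, 1 ≤ s → s ≤ 2 →
    (∀ x : mixedSpace T, x ≠ 0 → |Gs T s x| ≤ C * ‖x‖ ^ (-(Module.finrank ℚ T * s))) ∧
    (∀ x v : mixedSpace T, x ≠ 0 → 2 * ‖v‖ ≤ ‖x‖ →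
      |Gs T s (x + v) - Gs T s x| ≤ C * ‖v‖ * ‖x‖ ^ (-(Module.finrank ℚ T * s) - 1))

open NumberField.mixedEmbedding in
/-- AN2b. Unfolding over the unit group. -/
def Stmt_Unfold : Prop :=
  ∀ (T : Type) [Field T] [NumberField T] (b : Ideal (𝓞 T)), b ≠ ⊥ → ∀ s : ℝ, 1 < s →
    Summable (fun ξ : b => Gs T s (mixedEmbedding T (ξ : 𝓞 T))) ∧
    ∑' ξ : b, Gs T s (mixedEmbedding T (ξ : 𝓞 T)) =
      (Units.torsionOrder T : ℝ) * ((Ideal.absNorm b : ℕ) : ℝ) ^ (-s) * zetaC (cls b)⁻¹ s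

open NumberField.mixedEmbedding in
/-- AN2c. Shift lemma. -/
def Stmt_Shift : Prop :=
  ∀ (T : Type) [Field T] [NumberField T] (b : Ideal (𝓞 T)), b ≠ ⊥ → ∀ v : 𝓞 T,
    ∃ B : ℝ, ∀ s : ℝ, 1 < s → s ≤ 2 →
      Summable (fun ξ : b => Gs T s (mixedEmbedding T ((v + ξ : 𝓞 T) : T))) ∧
      |∑' ξ : b, Gs T s (mixedEmbedding T ((v + ξ : 𝓞 T) : T)) -
        ∑' ξ : b, Gs T s (mixedEmbedding T (ξ : 𝓞 T))| ≤ B

/-- AN2d. Differences of partial zeta functions stay bounded as `s → 1⁺`. -/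
def Stmt_ZetaCDiff : Prop :=
  ∀ (T : Type) [Field T] [NumberField T] (C C' : ClassGroup (𝓞 T)),
    ∃ B : ℝ, ∀ s : ℝ, 1 < s → s ≤ 2 → |zetaC C s - zetaC C' s| ≤ B

/-- AN3 = (U'). The "universal norm index inequality": a subgroup of the class group of `T`
containing the classes of almost all primes having a prime of relative degree one above them
in `N` has index at most `[N : T]`. -/
def Stmt_U : Prop :=
  ∀ (T N : Type) [Field T] [NumberField T] [Field N] [NumberField N] [Algebra T N]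
    (Y : Subgroup (ClassGroup (𝓞 T))) (S : Finset (Ideal (𝓞 T))),
    (∀ (q : Ideal (𝓞 T)) (Q : Ideal (𝓞 N)), q.IsPrime → q ≠ ⊥ → q ∉ S → Q.IsPrime →
      Q.LiesOver q → Ideal.absNorm Q = Ideal.absNorm q → cls q ∈ Y) →
    Y.index ≤ Module.finrank T N

/-- AN4 = (GL3). -/
def Stmt_GL3 : Prop :=
  ∀ (N₁ N₂ : Type) [Field N₁] [NumberField N₁] [Field N₂] [NumberField N₂] [IsGalois ℚ N₂],
    Module.finrank ℚ N₁ < Module.finrank ℚ N₂ → ∀ B : ℕ, ∃ r : ℕ, r.Prime ∧ B < r ∧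
      (∃ Q : Ideal (𝓞 N₁), Q.IsPrime ∧ Ideal.absNorm Q = r) ∧
      ¬ ∃ Q : Ideal (𝓞 N₂), Q.IsPrime ∧ Ideal.absNorm Q = r

open scoped Pointwise

/-! ## 3. Arithmetic statements -/

/-- KU+GL3: the auxiliary prime `r`. -/
def Stmt_AuxPrime : Prop :=
  ∀ (p l l' k : ℕ), p.Prime → p ≠ 2 → l.Prime → l'.Prime → l ≠ l' → l ≠ p → l' ≠ p →
    1 ≤ k → k < p → ∀ B : ℕ, ∃ r : ℕ, r.Prime ∧ B < r ∧ r % p = 1 ∧
      (∃ b : ZMod r, b ^ p = (l' : ZMod r) * (l : ZMod r) ^ (p - k)) ∧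
      ¬ ∃ b : ZMod r, b ^ p = (l : ZMod r)

/-- ST: Stickelberger for the Jacobi sum `J(χ,χ)`: for a degree one prime `λ` of `ℚ(ζ_p)`
not above `p`, the ideal `∏_{1 ≤ c ≤ (p-1)/2} σ_c⁻¹ λ` is principal. -/
def Stmt_Stickelberger : Prop :=
  ∀ (p : ℕ) (K : Type) [Field K] [NumberField K] [IsCyclotomicExtension {p} ℚ K],
    p.Prime → p ≠ 2 → ∀ (ζ : K), IsPrimitiveRoot ζ p →
    ∀ (lam : Ideal (𝓞 K)) (l : ℕ), lam.IsPrime → l.Prime → l ≠ p → Ideal.absNorm lam = l →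
    ∀ σ : ℕ → (K ≃ₐ[ℚ] K), (∀ c ∈ Finset.Icc 1 ((p - 1) / 2), σ c ζ = ζ ^ c) →
      (∏ c ∈ Finset.Icc 1 ((p - 1) / 2), ((σ c)⁻¹ • lam : Ideal (𝓞 K))).IsPrincipal

/-- The data contradicting S14: an everywhere unramified cyclic degree `p` extension `L` of
`K = ℚ(ζ_p)`, Galois over `ℚ`, on whose Galois group `Gal(K/ℚ)` acts through `χ⁻¹`. -/
structure NFData (p : ℕ) (K L : Type) [Field K] [NumberField K] [Field L] [NumberField L]
    [Algebra K L] : Prop where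
  prime : p.Prime
  odd : p ≠ 2
  cyc : IsCyclotomicExtension {p} ℚ K
  galQ : IsGalois ℚ L
  deg : Module.finrank K L = p
  unram : TrivialInertia K L
  conj : ∀ (g : L ≃ₐ[ℚ] L) (h : L ≃ₐ[K] L) (ζ : K) (a : ℕ), IsPrimitiveRoot ζ p →
    g (algebraMap K L ζ) = algebraMap K L ζ ^ a → ∀ x : L, g ((h ^ a) (g.symm x)) = h x

/-- `h ∈ Gal(L/K)` is a Frobenius element at the prime `lam` of `K`. -/
def IsFrob (K L : Type) [Field K] [NumberField K] [Field L] [NumberField L] [Algebra K L]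
    (lam : Ideal (𝓞 K)) (h : L ≃ₐ[K] L) : Prop :=
  ∃ P : Ideal (𝓞 L), P.IsPrime ∧ P.LiesOver lam ∧ ∀ x : 𝓞 L, h • x - x ^ Ideal.absNorm lam ∈ P

/-- (Lo) the norm map on class groups is not surjective for an unramified cyclic extension of
odd prime degree of a totally complex field. -/
def Stmt_Lo : Prop :=
  ∀ (p : ℕ) (K L : Type) [Field K] [NumberField K] [Field L] [NumberField L] [Algebra K L]
    [IsGalois K L], p.Prime → p ≠ 2 → Module.finrank K L = p → TrivialInertia K L →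
    IsTotallyComplex K → normCl K L ≠ ⊤

/-- (CR) comparison lemma. -/
def Stmt_CR : Prop :=
  ∀ (p : ℕ) (K L : Type) [Field K] [NumberField K] [Field L] [NumberField L] [Algebra K L],
    NFData p K L → ∀ (lam lam' : Ideal (𝓞 K)) (h h' : L ≃ₐ[K] L) (k : ℕ),
    lam.IsPrime → lam ≠ ⊥ → lam'.IsPrime → lam' ≠ ⊥ →
    IsFrob K L lam h → IsFrob K L lam' h' → h ≠ 1 → h' ≠ 1 → h' = h ^ k →
    Ideal.absNorm lam ≠ Ideal.absNorm lam' →
    cls lam' * (cls lam ^ k)⁻¹ ∈ normCl K L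

/-- Theorem NF. -/
def Stmt_NF : Prop :=
  ∀ (p : ℕ) (K L : Type) [Field K] [NumberField K] [Field L] [NumberField L] [Algebra K L],
    NFData p K L → False

/-- (DI) dictionary from the Galois module to number fields. -/
def Stmt_DI : Prop :=
  ∀ (p : ℕ) [Fact p.Prime], 3 ≤ p → ∀ (V : Type) [AddCommGroup V] [Module (ZMod p) V]
    [DistribMulAction (AlgebraicClosure ℚ ≃ₐ[ℚ] AlgebraicClosure ℚ) V]
    [SMulCommClass (AlgebraicClosure ℚ ≃ₐ[ℚ] AlgebraicClosure ℚ) (ZMod p) V]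
    (C : Submodule (ZMod p) V), ExtCitation.IsAdmissibleExtensionCts p V C →
    ¬ ExtCitation.SplitsGlobally C →
    ∃ (K L : Type) (_ : Field K) (_ : NumberField K) (_ : Field L) (_ : NumberField L)
      (_ : Algebra K L), NFData p K L

theorem S14_of_stmts (hDI : Stmt_DI) (hNF : Stmt_NF) {p : ℕ} [Fact p.Prime] (h3 : 3 ≤ p) :
    ExtCitation.ExtVanishingCts p := by
  intro V _ _ _ _ C hC
  by_contra hs
  obtain ⟨K, L, _, _, _, _, _, hd⟩ := hDI p h3 V C hC hs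
  exact hNF p K L hd

end Fermat.Agent.S14
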