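/-
S14 package AN1 (helper65): Euler product in exp-log form over the nonzero ideals of a Dedekind
domain, by the sieve identity `prod (1 - g q) * sum g = sum over ideals prime to S`.
-/
import Fermat.Agent.S14.Interface

set_option autoImplicit false

namespace Fermat.Agent.S14

open NumberField Filter Topology

section EulerGeneral

variable {R : Type*} [CommRing R] [IsDedekindDomain R]

/-- Ideals not divisible by any prime of the finite set `S`. -/
def EI_cop (S : Finset {q : Ideal R // q.IsPrime ∧ q ≠ ⊥}) : Set (Ideal R) :=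
  {I | ∀ q ∈ S, ¬ (q.1 ∣ I)}

lemma EI_prime_dvd_prime {q q' : Ideal R} (hq : q.IsPrime ∧ q ≠ ⊥) (hq' : q'.IsPrime ∧ q' ≠ ⊥)
    (h : q' ∣ q) : q' = q := by
  have h1 : q ≤ q' := Ideal.dvd_iff_le.mp h
  have hm : q.IsMaximal := hq.1.isMaximal hq.2
  exact (hm.eq_of_le hq'.1.ne_top h1).symm

lemma EI_sieve_step (g : Ideal R → ℂ) (hmul : ∀ I J, g (I * J) = g I * g J)
    (S : Finset {q : Ideal R // q.IsPrime ∧ q ≠ ⊥}) (q : {q : Ideal R // q.IsPrime ∧ q ≠ ⊥})
    (hq : q ∉ S) (hsum : Summable ((EI_cop S).indicator g)) :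
    (1 - g q.1) * ∑' I, (EI_cop S).indicator g I = ∑' I, (EI_cop (insert q S)).indicator g I := by
  classical
  set h := (EI_cop S).indicator g with hh
  have hqI : ∀ I, h (q.1 * I) = g q.1 * h I := by
    intro I
    have hiff : q.1 * I ∈ EI_cop S ↔ I ∈ EI_cop S := by
      simp only [EI_cop, Set.mem_ofPred_eq]
      refine forall₂_congr fun q' hq' => not_congr ?_
      constructor
      · intro hd
        have hp : Prime q'.1 := Ideal.prime_of_isPrime q'.2.2 q'.2.1
        rcases hp.dvd_or_dvd hd with h1 | h1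
        · exfalso
          apply hq
          have := EI_prime_dvd_prime q.2 q'.2 h1
          have h2 : q' = q := Subtype.ext this
          exact h2 ▸ hq'
        · exact h1
      · intro hd
        exact Dvd.dvd.mul_left hd _
    by_cases hI : I ∈ EI_cop S
    · rw [hh, Set.indicator_of_mem (hiff.mpr hI), Set.indicator_of_mem hI, hmul]
    · rw [hh, Set.indicator_of_notMem (fun hc => hI (hiff.mp hc)), Set.indicator_of_notMem hI,
        mul_zero]
  have hinj : Function.Injective (fun I : Ideal R => q.1 * I) := mul_right_injective₀ q.2.2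
  have h1 : ∑' I, ({J : Ideal R | q.1 ∣ J}.indicator h) (q.1 * I)
      = ∑' J, ({J : Ideal R | q.1 ∣ J}.indicator h) J := by
    apply hinj.tsum_eq
    intro J hJ
    have : J ∈ {J : Ideal R | q.1 ∣ J} := by
      by_contra hc
      exact hJ (Set.indicator_of_notMem hc _)
    obtain ⟨c, hc⟩ := this
    exact ⟨c, hc.symm⟩
  have h2 : ∀ I, ({J : Ideal R | q.1 ∣ J}.indicator h) (q.1 * I) = g q.1 * h I := by
    intro I
    rw [Set.indicator_of_mem (by exact Dvd.intro _ rfl), hqI]
  have h3 : g q.1 * ∑' I, h I = ∑' J, ({J : Ideal R | q.1 ∣ J}.indicator h) J := by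
    rw [← h1, ← tsum_mul_left]
    exact tsum_congr fun I => (h2 I).symm
  have h4 : ∀ I, (EI_cop (insert q S)).indicator g I
      = h I - ({J : Ideal R | q.1 ∣ J}.indicator h) I := by
    intro I
    by_cases hd : q.1 ∣ I
    · rw [Set.indicator_of_mem (s := {J : Ideal R | q.1 ∣ J}) hd, sub_self,
        Set.indicator_of_notMem]
      intro hc
      exact hc q (Finset.mem_insert_self _ _) hd
    · rw [Set.indicator_of_notMem (s := {J : Ideal R | q.1 ∣ J}) hd, sub_zero]
      by_cases hI : I ∈ EI_cop S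
      · rw [hh, Set.indicator_of_mem hI, Set.indicator_of_mem]
        intro q' hq'
        rcases Finset.mem_insert.mp hq' with rfl | h5
        · exact hd
        · exact hI q' h5
      · rw [hh, Set.indicator_of_notMem hI, Set.indicator_of_notMem]
        intro hc
        exact hI fun q' hq' => hc q' (Finset.mem_insert_of_mem hq')
  rw [sub_mul, one_mul, h3, ← (hsum.tsum_sub (hsum.indicator _))]
  exact tsum_congr fun I => (h4 I).symm

lemma EI_sieve (g : Ideal R → ℂ) (hmul : ∀ I J, g (I * J) = g I * g J) (hsum : Summable g)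
    (S : Finset {q : Ideal R // q.IsPrime ∧ q ≠ ⊥}) :
    (∏ q ∈ S, (1 - g q.1)) * ∑' I, g I = ∑' I, (EI_cop S).indicator g I := by
  classical
  induction S using Finset.induction with
  | empty =>
    simp [EI_cop]
  | insert q S hq ih =>
    rw [Finset.prod_insert hq, mul_assoc, ih]
    exact EI_sieve_step g hmul S q hq (hsum.indicator _)

lemma EI_tendsto (g : Ideal R → ℂ) (h1 : g ⊤ = 1) (h0 : g ⊥ = 0) (hsum : Summable fun I => ‖g I‖) :
    Tendsto (fun S : Finset {q : Ideal R // q.IsPrime ∧ q ≠ ⊥} => ∑' I, (EI_cop S).indicator g I)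
      atTop (𝓝 1) := by
  classical
  have key := tendsto_tsum_of_dominated_convergence
    (𝓕 := (atTop : Filter (Finset {q : Ideal R // q.IsPrime ∧ q ≠ ⊥})))
    (f := fun S I => (EI_cop S).indicator g I) (g := fun I : Ideal R => if I = ⊤ then (1 : ℂ) else 0)
    (bound := fun I => ‖g I‖) hsum ?_ ?_
  · simpa using key
  · intro I
    by_cases hI : I = ⊤
    · subst hI
      simp only [if_true]
      refine tendsto_const_nhds.congr fun S => ?_
      rw [Set.indicator_of_mem, h1]
      intro q _ hd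
      exact q.2.1.ne_top (top_le_iff.mp (Ideal.dvd_iff_le.mp hd))
    · simp only [if_neg hI]
      by_cases hI0 : I = ⊥
      · subst hI0
        refine tendsto_const_nhds.congr fun S => ?_
        by_cases hm : (⊥ : Ideal R) ∈ EI_cop S
        · rw [Set.indicator_of_mem hm, h0]
        · rw [Set.indicator_of_notMem hm]
      · obtain ⟨M, hM, hIM⟩ := Ideal.exists_le_maximal I hI
        have hM0 : M ≠ ⊥ := fun hc => hI0 (le_bot_iff.mp (hc ▸ hIM))
        refine tendsto_const_nhds.congr' ?_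
        filter_upwards [eventually_ge_atTop ({⟨M, hM.isPrime, hM0⟩} : Finset _)] with S hS
        rw [Set.indicator_of_notMem]
        intro hc
        exact hc ⟨M, hM.isPrime, hM0⟩ (hS (Finset.mem_singleton_self _)) (Ideal.dvd_iff_le.mpr hIM)
  · refine Eventually.of_forall fun S I => ?_
    exact norm_indicator_le_norm_self _ _

lemma EI_norm_lt_one (g : Ideal R → ℂ) (h1 : g ⊤ = 1) (hmul : ∀ I J, g (I * J) = g I * g J)
    (hsum : Summable fun I => ‖g I‖) (q : {q : Ideal R // q.IsPrime ∧ q ≠ ⊥}) : ‖g q.1‖ < 1 := by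
  have hpow : ∀ n : ℕ, g (q.1 ^ n) = g q.1 ^ n := by
    intro n
    induction n with
    | zero => simpa using h1
    | succ n ih => rw [pow_succ, hmul, ih, pow_succ]
  have hinj : Function.Injective (fun n : ℕ => q.1 ^ n) :=
    (Ideal.pow_right_strictAnti q.1 q.2.2 q.2.1.ne_top).injective
  have h2 := hsum.comp_injective hinj
  have h3 : Summable fun n : ℕ => ‖g q.1‖ ^ n := by
    refine h2.congr fun n => ?_
    simp [hpow]
  simpa using summable_geometric_iff_norm_lt_one.mp h3

theorem EI_main (g : Ideal R → ℂ) (h1 : g ⊤ = 1) (h0 : g ⊥ = 0)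
    (hmul : ∀ I J, g (I * J) = g I * g J) (hsum : Summable fun I => ‖g I‖) :
    Summable (fun q : {q : Ideal R // q.IsPrime ∧ q ≠ ⊥} => -Complex.log (1 - g q.1)) ∧
    Complex.exp (∑' q : {q : Ideal R // q.IsPrime ∧ q ≠ ⊥}, -Complex.log (1 - g q.1)) =
      ∑' I, g I := by
  classical
  have hlt := EI_norm_lt_one g h1 hmul hsum
  have hne : ∀ q : {q : Ideal R // q.IsPrime ∧ q ≠ ⊥}, 1 - g q.1 ≠ 0 := by
    intro q hc
    have h2 : g q.1 = 1 := (sub_eq_zero.mp hc).symm
    have h3 := hlt q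
    rw [h2, norm_one] at h3
    exact lt_irrefl _ h3
  have hsq : Summable (fun q : {q : Ideal R // q.IsPrime ∧ q ≠ ⊥} => g q.1) :=
    hsum.of_norm.comp_injective Subtype.val_injective
  have hlog : Summable (fun q : {q : Ideal R // q.IsPrime ∧ q ≠ ⊥} => -Complex.log (1 - g q.1)) :=
    hsq.clog_one_sub.neg
  refine ⟨hlog, ?_⟩
  have H := hlog.hasSum.cexp
  have H2 : Tendsto (fun S : Finset {q : Ideal R // q.IsPrime ∧ q ≠ ⊥} =>
      ∏ q ∈ S, (1 - g q.1)⁻¹) atTop
      (𝓝 (Complex.exp (∑' q : {q : Ideal R // q.IsPrime ∧ q ≠ ⊥}, -Complex.log (1 - g q.1)))) := by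
    have H3 : Tendsto (fun S : Finset {q : Ideal R // q.IsPrime ∧ q ≠ ⊥} =>
      ∏ q ∈ S, (Complex.exp ∘ fun q : {q : Ideal R // q.IsPrime ∧ q ≠ ⊥} =>
        -Complex.log (1 - g q.1)) q) atTop
      (𝓝 (Complex.exp (∑' q : {q : Ideal R // q.IsPrime ∧ q ≠ ⊥}, -Complex.log (1 - g q.1)))) := by
      simpa [HasProd] using H
    refine H3.congr fun S => Finset.prod_congr rfl fun q _ => ?_
    simp only [Function.comp_apply, Complex.exp_neg, Complex.exp_log (hne q)]
  have H4 := H2.mul (EI_tendsto g h1 h0 hsum)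
  rw [mul_one] at H4
  have H5 : ∀ S : Finset {q : Ideal R // q.IsPrime ∧ q ≠ ⊥},
      (∏ q ∈ S, (1 - g q.1)⁻¹) * ∑' I, (EI_cop S).indicator g I = ∑' I, g I := by
    intro S
    rw [← EI_sieve g hmul hsum.of_norm S, ← mul_assoc, ← Finset.prod_mul_distrib]
    rw [Finset.prod_eq_one fun q _ => inv_mul_cancel₀ (hne q), one_mul]
  have H6 : Tendsto (fun _ : Finset {q : Ideal R // q.IsPrime ∧ q ≠ ⊥} => ∑' I, g I) atTop
      (𝓝 (Complex.exp (∑' q : {q : Ideal R // q.IsPrime ∧ q ≠ ⊥}, -Complex.log (1 - g q.1)))) :=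
    H4.congr H5
  exact (tendsto_nhds_unique H6 tendsto_const_nhds)

/-- General Dedekind-domain version of the Euler product in exp-log form, in the shape of
`Stmt_EulerIdeal`. -/
theorem EI_dedekind (f : Ideal R → ℂ) (h1 : f ⊤ = 1) (hmul : ∀ I J, f (I * J) = f I * f J)
    (hsum : Summable (fun I : {I : Ideal R // I ≠ ⊥} => ‖f I.1‖)) :
    (∀ q : {q : Ideal R // q.IsPrime ∧ q ≠ ⊥}, ‖f q.1‖ < 1) ∧
    Summable (fun q : {q : Ideal R // q.IsPrime ∧ q ≠ ⊥} => -Complex.log (1 - f q.1)) ∧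
    Complex.exp (∑' q : {q : Ideal R // q.IsPrime ∧ q ≠ ⊥}, -Complex.log (1 - f q.1)) =
      ∑' I : {I : Ideal R // I ≠ ⊥}, f I.1 := by
  classical
  set g : Ideal R → ℂ := ({I : Ideal R | I ≠ ⊥}).indicator f with hg
  have hgf : ∀ I : Ideal R, I ≠ ⊥ → g I = f I := fun I hI => Set.indicator_of_mem hI f
  have hg0 : g ⊥ = 0 :=
    Set.indicator_of_notMem (s := {I : Ideal R | I ≠ ⊥}) (fun hc : (⊥ : Ideal R) ≠ ⊥ => hc rfl) f
  have hg1 : g ⊤ = 1 := by rw [hgf _ top_ne_bot, h1]
  have hgmul : ∀ I J, g (I * J) = g I * g J := by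
    intro I J
    by_cases hI : I = ⊥
    · subst hI; simp [hg0]
    by_cases hJ : J = ⊥
    · subst hJ; simp [hg0]
    rw [hgf _ (mul_ne_zero hI hJ), hgf _ hI, hgf _ hJ, hmul]
  have hgsum : Summable fun I => ‖g I‖ := by
    have h2 : (fun I => ‖g I‖) = ({I : Ideal R | I ≠ ⊥}).indicator (fun I => ‖f I‖) := by
      funext I
      by_cases hI : I = ⊥
      · subst hI; simp [hg0]
      · rw [hgf _ hI, Set.indicator_of_mem (by exact hI)]
    rw [h2]
    exact summable_subtype_iff_indicator.mp hsum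
  have hlt := EI_norm_lt_one g hg1 hgmul hgsum
  obtain ⟨hA, hB⟩ := EI_main g hg1 hg0 hgmul hgsum
  have hq : ∀ q : {q : Ideal R // q.IsPrime ∧ q ≠ ⊥}, g q.1 = f q.1 := fun q => hgf _ q.2.2
  simp only [hq] at hlt hA hB
  refine ⟨hlt, hA, hB.trans ?_⟩
  exact (tsum_subtype ({I : Ideal R | I ≠ ⊥}) f).symm

end EulerGeneral

/-- AN1. -/
theorem eulerIdeal : Stmt_EulerIdeal := by
  intro T _ _ f h1 hmul hsum
  exact EI_dedekind f h1 hmul hsum

end Fermat.Agent.S14
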