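/-
S14 package AN0 (helper39): bridge to Mathlib's `dedekindZeta`.
-/
import Fermat.Agent.S14.Interface

set_option autoImplicit false

namespace Fermat.Agent.S14

open NumberField Filter Topology Ideal

section AN0

variable (T : Type) [Field T] [NumberField T]

/-- number of ideals of norm `n`. -/
noncomputable def an0Cnt (n : ℕ) : ℕ := Nat.card {I : Ideal (𝓞 T) // absNorm I = n}

theorem an0_tendsto_sum_div :
    Tendsto (fun n : ℕ ↦ (∑ k ∈ Finset.Icc 1 n, (an0Cnt T k : ℝ)) / n) atTop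
      (𝓝 (dedekindZeta_residue T)) := by
  refine ((Ideal.tendsto_norm_le_div_atTop₀ T).comp tendsto_natCast_atTop_atTop).congr fun n ↦ ?_
  simp only [Function.comp_apply, Nat.cast_le, ← Nat.cast_sum, an0Cnt]
  congr
  rw [← add_left_inj 1, ← card_norm_le_eq_card_norm_le_add_one,
    show Finset.Icc 1 n = Finset.Ioc 0 n from Finset.Icc_succ_left_eq_Ioc _ _,
    show 1 = Nat.card {I : Ideal (𝓞 T) // absNorm I = 0} by simp [Ideal.absNorm_eq_zero_iff],
    Finset.sum_Ioc_add_eq_sum_Icc (n.zero_le),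
    ← Finset.card_preimage_eq_sum_card_image_eq (fun k _ ↦ finite_setOfPred_absNorm_eq k)]
  simp [Set.coe_eq_subtype]

theorem an0_lseriesSummable {s : ℂ} (hs : 1 < s.re) :
    LSeriesSummable (fun n ↦ ((an0Cnt T n : ℝ) : ℂ)) s := by
  refine LSeriesSummable_of_sum_norm_bigO_and_nonneg (r := 1) ?_ (fun _ ↦ Nat.cast_nonneg _)
    zero_le_one hs
  have h1 := ((an0_tendsto_sum_div T).isBigO_one ℝ).mul
    (Asymptotics.isBigO_refl (fun n : ℕ ↦ (n : ℝ)) atTop)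
  refine h1.congr' ?_ ?_
  · filter_upwards [eventually_ne_atTop 0] with n hn
    have : (n : ℝ) ≠ 0 := Nat.cast_ne_zero.mpr hn
    field_simp
  · filter_upwards with n
    simp

/-- the real term of the Dedekind zeta series. -/
noncomputable def an0Term (s : ℝ) (n : ℕ) : ℝ := (an0Cnt T n : ℝ) * (n : ℝ) ^ (-s)

theorem an0_term_eq {s : ℝ} (hs : s ≠ 0) (n : ℕ) :
    LSeries.term (fun n ↦ ((an0Cnt T n : ℝ) : ℂ)) (s : ℂ) n = ((an0Term T s n : ℝ) : ℂ) := by
  rw [LSeries.term_def, an0Term]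
  split_ifs with h
  · subst h
    simp [Real.zero_rpow (neg_ne_zero.mpr hs)]
  · rw [Real.rpow_neg (Nat.cast_nonneg n), Complex.ofReal_mul, Complex.ofReal_inv,
      Complex.ofReal_cpow (Nat.cast_nonneg n), div_eq_mul_inv]
    simp

theorem an0_summable_term {s : ℝ} (hs : 1 < s) : Summable (an0Term T s) := by
  have h := an0_lseriesSummable T (s := (s : ℂ)) (by simpa using hs)
  rw [LSeriesSummable] at h
  have h2 : LSeries.term (fun n ↦ ((an0Cnt T n : ℝ) : ℂ)) (s : ℂ) =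
      fun n ↦ ((an0Term T s n : ℝ) : ℂ) := funext (an0_term_eq T (by linarith))
  rw [h2] at h
  exact Complex.summable_ofReal.mp h

theorem an0_dedekindZeta_eq {s : ℝ} (hs : 1 < s) :
    dedekindZeta T (s : ℂ) = ((∑' n, an0Term T s n : ℝ) : ℂ) := by
  rw [Complex.ofReal_tsum, dedekindZeta, LSeries]
  refine tsum_congr fun n ↦ ?_
  rw [← an0_term_eq T (by linarith)]
  simp [an0Cnt]

/-- the norm map on nonzero ideals -/
noncomputable def an0Nm (I : {I : Ideal (𝓞 T) // I ≠ ⊥}) : ℕ := absNorm I.1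

instance an0_finite_fiber (n : ℕ) : Finite {a : {I : Ideal (𝓞 T) // I ≠ ⊥} // an0Nm T a = n} := by
  have : Finite {I : Ideal (𝓞 T) // absNorm I = n} := (finite_setOfPred_absNorm_eq n).to_subtype
  refine Finite.of_injective
    (fun a ↦ (⟨a.1.1, a.2⟩ : {I : Ideal (𝓞 T) // absNorm I = n})) ?_
  intro a b h
  have h' : a.1.1 = b.1.1 := congrArg (fun z : {I : Ideal (𝓞 T) // absNorm I = n} ↦ z.1) h
  exact Subtype.ext (Subtype.ext h')

theorem an0_card_fiber (n : ℕ) (hn : n ≠ 0) :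
    Nat.card {a : {I : Ideal (𝓞 T) // I ≠ ⊥} // an0Nm T a = n} = an0Cnt T n := by
  refine Nat.card_congr
    { toFun := fun a ↦ ⟨a.1.1, a.2⟩
      invFun := fun I ↦ ⟨⟨I.1, ?_⟩, I.2⟩
      left_inv := fun a ↦ rfl
      right_inv := fun I ↦ rfl }
  intro h
  apply hn
  rw [← I.2, h]
  simp

theorem an0_fiber_tsum (s : ℝ) (hs : s ≠ 0) (n : ℕ) :
    ∑' y : {a : {I : Ideal (𝓞 T) // I ≠ ⊥} // an0Nm T a = n},
      ((absNorm y.1.1 : ℕ) : ℝ) ^ (-s) = an0Term T s n := by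
  have h1 : ∀ y : {a : {I : Ideal (𝓞 T) // I ≠ ⊥} // an0Nm T a = n},
      ((absNorm y.1.1 : ℕ) : ℝ) ^ (-s) = (n : ℝ) ^ (-s) := by
    intro y
    have := y.2
    rw [an0Nm] at this
    rw [this]
  rw [tsum_congr h1, tsum_const, an0Term, nsmul_eq_mul]
  rcases eq_or_ne n 0 with rfl | hn
  · simp [Real.zero_rpow (neg_ne_zero.mpr hs)]
  · rw [an0_card_fiber T n hn]

theorem an0_summable_ideals {s : ℝ} (hs : 1 < s) :
    Summable (fun I : {I : Ideal (𝓞 T) // I ≠ ⊥} => ((Ideal.absNorm I.1 : ℕ) : ℝ) ^ (-s)) := by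
  rw [← (Equiv.sigmaFiberEquiv (an0Nm T)).summable_iff, summable_sigma_of_nonneg]
  · refine ⟨fun n ↦ Summable.of_finite, ?_⟩
    have := an0_summable_term T hs
    refine this.congr fun n ↦ ?_
    exact (an0_fiber_tsum T s (by linarith) n).symm
  · intro x
    exact Real.rpow_nonneg (Nat.cast_nonneg _) _

theorem an0_zetaI_eq {s : ℝ} (hs : 1 < s) : zetaI T s = ∑' n, an0Term T s n := by
  rw [zetaI, ← (Equiv.sigmaFiberEquiv (an0Nm T)).tsum_eq, Summable.tsum_sigma']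
  · exact tsum_congr fun n ↦ an0_fiber_tsum T s (by linarith) n
  · exact fun n ↦ Summable.of_finite
  · exact (Equiv.sigmaFiberEquiv (an0Nm T)).summable_iff.mpr (an0_summable_ideals T hs)

theorem an0_zetaI_eq_dedekindZeta {s : ℝ} (hs : 1 < s) :
    ((zetaI T s : ℝ) : ℂ) = dedekindZeta T (s : ℂ) := by
  rw [an0_zetaI_eq T hs, an0_dedekindZeta_eq T hs]

theorem an0_tendsto :
    Tendsto (fun s : ℝ => (s - 1) * zetaI T s) (𝓝[>] 1) (𝓝 (dedekindZeta_residue T)) := by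
  have h := tendsto_sub_one_mul_dedekindZeta_nhdsGT T
  have h2 := (Complex.continuous_re.tendsto _).comp h
  simp only [Complex.ofReal_re] at h2
  refine h2.congr' ?_
  filter_upwards [self_mem_nhdsWithin] with s hs
  simp only [Function.comp_apply]
  rw [← an0_zetaI_eq_dedekindZeta T hs, ← Complex.ofReal_one, ← Complex.ofReal_sub,
    ← Complex.ofReal_mul, Complex.ofReal_re]

/-- Two-sided bound `c₁/(s-1) ≤ ζ_T(s) ≤ c₂/(s-1)` near `1⁺`. -/
theorem an0_bounds : ∃ c₁ c₂ δ : ℝ, 0 < c₁ ∧ 0 < c₂ ∧ 0 < δ ∧ ∀ s : ℝ, 1 < s → s ≤ 1 + δ →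
    c₁ / (s - 1) ≤ zetaI T s ∧ zetaI T s ≤ c₂ / (s - 1) := by
  have hκ := dedekindZeta_residue_pos T
  set κ := dedekindZeta_residue T with hκdef
  have h1 : ∀ᶠ s in 𝓝[>] (1 : ℝ), (s - 1) * zetaI T s ∈ Set.Ioo (κ / 2) (2 * κ) :=
    (an0_tendsto T).eventually (Ioo_mem_nhds (by linarith) (by linarith))
  obtain ⟨u, hu, hsub⟩ := mem_nhdsGT_iff_exists_Ioc_subset.mp h1
  refine ⟨κ / 2, 2 * κ, u - 1, by linarith, by linarith, by simpa using hu, fun s hs hs' ↦ ?_⟩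
  have h2 := hsub ⟨hs, by linarith⟩
  have hpos : 0 < s - 1 := by linarith
  simp only [Set.mem_ofPred_eq, Set.mem_Ioo] at h2
  constructor
  · rw [div_le_iff₀ hpos]; nlinarith [h2.1]
  · rw [le_div_iff₀ hpos]; nlinarith [h2.2]

theorem an0_zetaI_pos_near : ∃ δ : ℝ, 0 < δ ∧ ∀ s : ℝ, 1 < s → s ≤ 1 + δ → 0 < zetaI T s := by
  obtain ⟨c₁, c₂, δ, h1, _, hδ, h⟩ := an0_bounds T
  refine ⟨δ, hδ, fun s hs hs' ↦ lt_of_lt_of_le ?_ (h s hs hs').1⟩
  exact div_pos h1 (by linarith)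

/-- `log ζ_T(s) = log (1/(s-1)) + O(1)` near `1⁺`. -/
theorem an0_log_bound : ∃ B δ : ℝ, 0 < δ ∧ ∀ s : ℝ, 1 < s → s ≤ 1 + δ →
    |Real.log (zetaI T s) - Real.log (1 / (s - 1))| ≤ B := by
  obtain ⟨c₁, c₂, δ, h1, h2, hδ, h⟩ := an0_bounds T
  refine ⟨max |Real.log c₁| |Real.log c₂|, δ, hδ, fun s hs hs' ↦ ?_⟩
  obtain ⟨ha, hb⟩ := h s hs hs'
  have hpos : 0 < s - 1 := by linarith
  have hz : 0 < zetaI T s := lt_of_lt_of_le (div_pos h1 hpos) ha
  have e : Real.log (zetaI T s) - Real.log (1 / (s - 1)) = Real.log ((s - 1) * zetaI T s) := by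
    rw [Real.log_mul hpos.ne' hz.ne', one_div, Real.log_inv]; ring
  rw [e]
  have hl : c₁ ≤ (s - 1) * zetaI T s := by
    rw [div_le_iff₀ hpos] at ha; linarith
  have hu : (s - 1) * zetaI T s ≤ c₂ := by
    rw [le_div_iff₀ hpos] at hb; linarith
  have l1 : Real.log c₁ ≤ Real.log ((s - 1) * zetaI T s) := Real.log_le_log h1 hl
  have l2 : Real.log ((s - 1) * zetaI T s) ≤ Real.log c₂ :=
    Real.log_le_log (lt_of_lt_of_le h1 hl) hu
  rw [abs_le]
  constructor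
  · have := neg_abs_le (Real.log c₁)
    have := le_max_left |Real.log c₁| |Real.log c₂|
    linarith
  · have := le_abs_self (Real.log c₂)
    have := le_max_right |Real.log c₁| |Real.log c₂|
    linarith

/-- `ζ_T(s) > 0` (indeed `≥ 1`) for all `s > 1`. -/
theorem an0_one_le_zetaI {s : ℝ} (hs : 1 < s) : 1 ≤ zetaI T s := by
  have hsum := an0_summable_ideals T hs
  have h := hsum.le_tsum (⟨⊤, top_ne_bot⟩ : {I : Ideal (𝓞 T) // I ≠ ⊥})
    (fun j _ ↦ Real.rpow_nonneg (Nat.cast_nonneg _) _)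
  simpa [zetaI] using h

end AN0

theorem zetaPole : Stmt_ZetaPole := by
  intro T _ _
  exact ⟨fun s hs ↦ an0_summable_ideals T hs, dedekindZeta_residue T, dedekindZeta_residue_pos T,
    an0_tendsto T⟩

end Fermat.Agent.S14
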