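/-
S14 package AN1, part 2 (helper65): real corollaries of the Euler product over ideals.
-/
import Fermat.Agent.S14.EulerIdeal
import Fermat.Agent.S14.ZetaPole

set_option autoImplicit false

namespace Fermat.Agent.S14

open NumberField Filter Topology

section EulerReal

variable {T : Type} [Field T] [NumberField T]

lemma ER_two_le_absNorm (q : {q : Ideal (𝓞 T) // q.IsPrime ∧ q ≠ ⊥}) :
    2 ≤ Ideal.absNorm q.1 := by
  have h0 : Ideal.absNorm q.1 ≠ 0 := fun h => q.2.2 (Ideal.absNorm_eq_zero_iff.mp h)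
  have h1 : Ideal.absNorm q.1 ≠ 1 := fun h => q.2.1.ne_top (Ideal.absNorm_eq_one_iff.mp h)
  omega

lemma ER_rpow_le_half (q : {q : Ideal (𝓞 T) // q.IsPrime ∧ q ≠ ⊥}) {s : ℝ} (hs : 1 ≤ s) :
    ((Ideal.absNorm q.1 : ℕ) : ℝ) ^ (-s) ≤ 1 / 2 := by
  have h2 : (2 : ℝ) ≤ ((Ideal.absNorm q.1 : ℕ) : ℝ) := by exact_mod_cast ER_two_le_absNorm q
  calc ((Ideal.absNorm q.1 : ℕ) : ℝ) ^ (-s) ≤ (2 : ℝ) ^ (-s) :=
        Real.rpow_le_rpow_of_nonpos (by norm_num) h2 (by linarith)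
    _ ≤ (2 : ℝ) ^ (-1 : ℝ) := Real.rpow_le_rpow_of_exponent_le (by norm_num) (by linarith)
    _ = 1 / 2 := by rw [Real.rpow_neg_one]; norm_num

lemma ER_rpow_nonneg (I : Ideal (𝓞 T)) (s : ℝ) : 0 ≤ ((Ideal.absNorm I : ℕ) : ℝ) ^ (-s) :=
  Real.rpow_nonneg (Nat.cast_nonneg _) _

/-- Summability over the primes follows from summability over all nonzero ideals. -/
lemma ER_summable_primes {s : ℝ}
    (hsum : Summable (fun I : {I : Ideal (𝓞 T) // I ≠ ⊥} => ((Ideal.absNorm I.1 : ℕ) : ℝ) ^ (-s))) :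
    Summable (fun q : {q : Ideal (𝓞 T) // q.IsPrime ∧ q ≠ ⊥} =>
      ((Ideal.absNorm q.1 : ℕ) : ℝ) ^ (-s)) := by
  have hinj : Function.Injective (fun q : {q : Ideal (𝓞 T) // q.IsPrime ∧ q ≠ ⊥} =>
      (⟨q.1, q.2.2⟩ : {I : Ideal (𝓞 T) // I ≠ ⊥})) := by
    intro a b h
    simp only [Subtype.mk.injEq] at h
    exact Subtype.ext h
  have h3 := hsum.comp_injective hinj
  simp only [Function.comp_def] at h3
  exact h3

/-- `exp (∑_q -log (1 - N q ^ (-s))) = ζ_T(s)`, real version. -/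
theorem ER_exp_eq_zetaI {s : ℝ} (hs : 1 ≤ s)
    (hsum : Summable (fun I : {I : Ideal (𝓞 T) // I ≠ ⊥} => ((Ideal.absNorm I.1 : ℕ) : ℝ) ^ (-s))) :
    Summable (fun q : {q : Ideal (𝓞 T) // q.IsPrime ∧ q ≠ ⊥} =>
      -Real.log (1 - ((Ideal.absNorm q.1 : ℕ) : ℝ) ^ (-s))) ∧
    Real.exp (∑' q : {q : Ideal (𝓞 T) // q.IsPrime ∧ q ≠ ⊥},
      -Real.log (1 - ((Ideal.absNorm q.1 : ℕ) : ℝ) ^ (-s))) = zetaI T s := by
  have hs0 : -s ≠ 0 := by linarith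
  obtain ⟨-, hA, hB⟩ := eulerIdeal T
    (fun I => ((((Ideal.absNorm I : ℕ) : ℝ) ^ (-s) : ℝ) : ℂ))
    (by simp)
    (by
      intro I J
      rw [map_mul, Nat.cast_mul, Real.mul_rpow (Nat.cast_nonneg _) (Nat.cast_nonneg _)]
      push_cast
      rfl)
    (by
      refine hsum.congr fun I => ?_
      rw [Complex.norm_real, Real.norm_of_nonneg (ER_rpow_nonneg _ _)])
  have hlog : ∀ q : {q : Ideal (𝓞 T) // q.IsPrime ∧ q ≠ ⊥},
      -Complex.log (1 - ((((Ideal.absNorm q.1 : ℕ) : ℝ) ^ (-s) : ℝ) : ℂ))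
        = ((-Real.log (1 - ((Ideal.absNorm q.1 : ℕ) : ℝ) ^ (-s)) : ℝ) : ℂ) := by
    intro q
    have h1 := ER_rpow_le_half q hs
    rw [Complex.ofReal_neg, Complex.ofReal_log (by linarith)]
    push_cast
    rfl
  simp only [hlog] at hA hB
  have hA' : Summable (fun q : {q : Ideal (𝓞 T) // q.IsPrime ∧ q ≠ ⊥} =>
      -Real.log (1 - ((Ideal.absNorm q.1 : ℕ) : ℝ) ^ (-s))) := by
    exact_mod_cast hA
  refine ⟨hA', ?_⟩
  rw [← Complex.ofReal_tsum, ← Complex.ofReal_tsum, ← Complex.ofReal_exp] at hB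
  exact_mod_cast hB

lemma ER_zetaI_pos {s : ℝ} (hs : 1 ≤ s)
    (hsum : Summable (fun I : {I : Ideal (𝓞 T) // I ≠ ⊥} => ((Ideal.absNorm I.1 : ℕ) : ℝ) ^ (-s))) :
    0 < zetaI T s := by
  rw [← (ER_exp_eq_zetaI hs hsum).2]
  exact Real.exp_pos _

/-- `log ζ_T(s) = ∑_q -log (1 - N q ^ (-s))`. -/
theorem ER_log_zetaI {s : ℝ} (hs : 1 ≤ s)
    (hsum : Summable (fun I : {I : Ideal (𝓞 T) // I ≠ ⊥} => ((Ideal.absNorm I.1 : ℕ) : ℝ) ^ (-s))) :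
    Real.log (zetaI T s) = ∑' q : {q : Ideal (𝓞 T) // q.IsPrime ∧ q ≠ ⊥},
      -Real.log (1 - ((Ideal.absNorm q.1 : ℕ) : ℝ) ^ (-s)) := by
  rw [← (ER_exp_eq_zetaI hs hsum).2, Real.log_exp]

lemma ER_le_neg_log {x : ℝ} (hx : x < 1) : x ≤ -Real.log (1 - x) := by
  have := Real.log_le_sub_one_of_pos (x := 1 - x) (by linarith)
  linarith

lemma ER_neg_log_le {x : ℝ} (h0 : 0 ≤ x) (hx : x ≤ 1 / 2) :
    -Real.log (1 - x) ≤ x + 2 * x ^ 2 := by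
  have hpos : 0 < 1 - x := by linarith
  have h1 := Real.log_le_sub_one_of_pos (x := (1 - x)⁻¹) (inv_pos.mpr hpos)
  rw [Real.log_inv] at h1
  have h2 : (1 - x)⁻¹ - 1 ≤ x + 2 * x ^ 2 := by
    rw [sub_le_iff_le_add, inv_le_iff_one_le_mul₀ hpos]
    nlinarith [mul_nonneg h0 h0, mul_nonneg (mul_nonneg h0 h0) (by linarith : 0 ≤ 1 / 2 - x)]
  linarith

/-- Lower bound: `P(s) ≤ log ζ_T(s)`. -/
theorem ER_primeSum_le_log_zetaI {s : ℝ} (hs : 1 ≤ s)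
    (hsum : Summable (fun I : {I : Ideal (𝓞 T) // I ≠ ⊥} => ((Ideal.absNorm I.1 : ℕ) : ℝ) ^ (-s))) :
    ∑' q : {q : Ideal (𝓞 T) // q.IsPrime ∧ q ≠ ⊥}, ((Ideal.absNorm q.1 : ℕ) : ℝ) ^ (-s)
      ≤ Real.log (zetaI T s) := by
  rw [ER_log_zetaI hs hsum]
  refine (ER_summable_primes hsum).tsum_le_tsum (fun q => ?_) (ER_exp_eq_zetaI hs hsum).1
  exact ER_le_neg_log (by linarith [ER_rpow_le_half q hs])

/-- Upper bound: `log ζ_T(s) ≤ P(s) + 2 ∑_q N q ^ (-2)`, the error term being independent of `s`. -/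
theorem ER_log_zetaI_le {s : ℝ} (hs : 1 ≤ s)
    (hsum : Summable (fun I : {I : Ideal (𝓞 T) // I ≠ ⊥} => ((Ideal.absNorm I.1 : ℕ) : ℝ) ^ (-s)))
    (hsum2 : Summable (fun I : {I : Ideal (𝓞 T) // I ≠ ⊥} =>
      ((Ideal.absNorm I.1 : ℕ) : ℝ) ^ (-(2 : ℝ)))) :
    Real.log (zetaI T s) ≤
      ∑' q : {q : Ideal (𝓞 T) // q.IsPrime ∧ q ≠ ⊥}, ((Ideal.absNorm q.1 : ℕ) : ℝ) ^ (-s)
      + 2 * ∑' q : {q : Ideal (𝓞 T) // q.IsPrime ∧ q ≠ ⊥},
          ((Ideal.absNorm q.1 : ℕ) : ℝ) ^ (-(2 : ℝ)) := by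
  rw [ER_log_zetaI hs hsum, ← tsum_mul_left,
    ← (ER_summable_primes hsum).tsum_add ((ER_summable_primes hsum2).mul_left 2)]
  refine (ER_exp_eq_zetaI hs hsum).1.tsum_le_tsum (fun q => ?_)
    ((ER_summable_primes hsum).add ((ER_summable_primes hsum2).mul_left 2))
  refine (ER_neg_log_le (ER_rpow_nonneg _ _) (ER_rpow_le_half q hs)).trans ?_
  have h2 : (1 : ℝ) ≤ ((Ideal.absNorm q.1 : ℕ) : ℝ) := by
    have := ER_two_le_absNorm q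
    exact_mod_cast (by omega : 1 ≤ Ideal.absNorm q.1)
  have h3 : (((Ideal.absNorm q.1 : ℕ) : ℝ) ^ (-s)) ^ 2 ≤ ((Ideal.absNorm q.1 : ℕ) : ℝ) ^ (-(2 : ℝ)) := by
    rw [← Real.rpow_natCast, ← Real.rpow_mul (Nat.cast_nonneg _)]
    exact Real.rpow_le_rpow_of_exponent_le h2 (by push_cast; linarith)
  linarith

/-! ### Unconditional forms (using `an0_summable_ideals`) -/

variable (T)

/-- The prime ideal sum `P_T(s) = ∑_q N q ^ (-s)`. -/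
noncomputable def primeSum (s : ℝ) : ℝ :=
  ∑' q : {q : Ideal (𝓞 T) // q.IsPrime ∧ q ≠ ⊥}, ((Ideal.absNorm q.1 : ℕ) : ℝ) ^ (-s)

theorem ER_summable_primeSum {s : ℝ} (hs : 1 < s) :
    Summable (fun q : {q : Ideal (𝓞 T) // q.IsPrime ∧ q ≠ ⊥} =>
      ((Ideal.absNorm q.1 : ℕ) : ℝ) ^ (-s)) :=
  ER_summable_primes (an0_summable_ideals T hs)

theorem ER_primeSum_nonneg (s : ℝ) : 0 ≤ primeSum T s :=
  tsum_nonneg fun _ => ER_rpow_nonneg _ _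

theorem ER_primeSum_le {s : ℝ} (hs : 1 < s) : primeSum T s ≤ Real.log (zetaI T s) :=
  ER_primeSum_le_log_zetaI hs.le (an0_summable_ideals T hs)

theorem ER_le_primeSum {s : ℝ} (hs : 1 < s) :
    Real.log (zetaI T s) ≤ primeSum T s + 2 * primeSum T 2 :=
  ER_log_zetaI_le hs.le (an0_summable_ideals T hs) (an0_summable_ideals T (by norm_num))

/-- `P_T(s) = log (1/(s-1)) + O(1)` as `s → 1⁺`. -/
theorem ER_primeSum_log_bound : ∃ B δ : ℝ, 0 < δ ∧ ∀ s : ℝ, 1 < s → s ≤ 1 + δ →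
    |primeSum T s - Real.log (1 / (s - 1))| ≤ B := by
  obtain ⟨B, δ, hδ, h⟩ := an0_log_bound T
  refine ⟨B + 2 * primeSum T 2, δ, hδ, fun s hs hs' => ?_⟩
  have h1 := abs_le.mp (h s hs hs')
  have h2 := ER_primeSum_le T hs
  have h3 := ER_le_primeSum T hs
  have h4 := ER_primeSum_nonneg T 2
  rw [abs_le]
  constructor <;> linarith [h1.1, h1.2]

end EulerReal

end Fermat.Agent.S14
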