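/-
S14 / AN4 = (GL3): primes with a degree-one prime in `N₁` but none in `N₂` (helper4).
`theorem GL3 (hZ : Stmt_ZetaPole) (hE : Stmt_EulerIdeal) : Stmt_GL3`.
-/
import Fermat.Agent.S14.Interface

set_option autoImplicit false

namespace Fermat.Agent.S14

open NumberField Ideal

section
variable (T : Type) [Field T] [NumberField T]

theorem GL3_exists_prime_under (Q : Ideal (𝓞 T)) (hQ : Q.IsPrime) (h0 : Q ≠ ⊥) :
    ∃ r : ℕ, r.Prime ∧ Q.LiesOver (span {(r : ℤ)}) := by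
  obtain ⟨p, hp⟩ := IsPrincipalIdealRing.principal <| under ℤ Q
  have hp0 : p ≠ 0 := fun h ↦ h0 <|
    eq_bot_of_comap_eq_bot (R := ℤ) <| by simpa only [hp, submodule_span_eq, span_singleton_eq_bot]
  have hpprime := (span_singleton_prime hp0).mp
  simp only [← submodule_span_eq, ← hp] at hpprime
  have hlies : Q.LiesOver (span {p}) := by
    rcases abs_choice p with h | h <;>
    simpa [h, span_singleton_neg p, ← submodule_span_eq, ← hp] using over_under Q
  have hspan : span {(p.natAbs : ℤ)} = span {p} := by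
    rcases abs_choice p with h | h <;> simp [h]
  exact ⟨p.natAbs, Int.prime_iff_natAbs_prime.mp (hpprime (hQ.under _)), hspan ▸ hlies⟩

theorem GL3_absNorm_eq (Q : Ideal (𝓞 T)) [Q.IsPrime] (r : ℕ) [Q.LiesOver (span {(r : ℤ)})] :
    absNorm Q = r ^ Q.inertiaDeg ℤ := (pow_inertiaDeg r Q).symm

theorem GL3_inertiaDeg_pos (Q : Ideal (𝓞 T)) [Q.IsPrime] : 0 < Q.inertiaDeg ℤ :=
  inertiaDeg_pos Q ℤ

instance GL3_isPrime_span (r : ℕ) [hr : Fact r.Prime] : (span {(r : ℤ)}).IsPrime :=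
  (span_singleton_prime (by exact_mod_cast hr.out.ne_zero)).mpr (Nat.prime_iff_prime_int.mp hr.out)

theorem GL3_card_primesOver_le (r : ℕ) [hr : Fact r.Prime] :
    Fintype.card ((span {(r : ℤ)}).primesOver (𝓞 T)) ≤ Module.finrank ℚ T := by
  rw [← RingOfIntegers.rank T, ← sum_ramification_inertia_eq_finrank (span {(r : ℤ)}) (𝓞 T),
    Fintype.card_eq_sum_ones]
  refine Finset.sum_le_sum fun q _ => ?_
  have := q.2.1
  exact Nat.one_le_iff_ne_zero.mpr (Nat.mul_ne_zero (ramificationIdx_pos q.1 ℤ).ne'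
    (inertiaDeg_pos q.1 ℤ).ne')

end

end Fermat.Agent.S14

namespace Fermat.Agent.S14

open NumberField Ideal

section
variable (T : Type) [Field T] [NumberField T]

/-- a prime ideal of prime norm `r` lies over `r` and has inertia degree one -/
theorem GL3_of_absNorm_prime (Q : Ideal (𝓞 T)) [hQ : Q.IsPrime] (r : ℕ) (hr : r.Prime)
    (hN : absNorm Q = r) : Q.LiesOver (span {(r : ℤ)}) ∧ Q.inertiaDeg ℤ = 1 := by
  have h0 : Q ≠ ⊥ := by
    rintro rfl
    rw [absNorm_bot] at hN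
    exact hr.ne_zero hN.symm
  obtain ⟨r', hr', hl⟩ := GL3_exists_prime_under T Q hQ h0
  have h1 := GL3_absNorm_eq T Q r'
  rw [hN] at h1
  have hf := GL3_inertiaDeg_pos T Q
  have h2 : r' ∣ r := by rw [h1]; exact dvd_pow_self _ hf.ne'
  have h3 : r' = r := (Nat.prime_dvd_prime_iff_eq hr' hr).mp h2
  subst h3
  refine ⟨hl, ?_⟩
  have h4 : r' ^ 1 = r' ^ Q.inertiaDeg ℤ := by rw [pow_one]; exact h1
  exact (Nat.pow_right_injective hr'.two_le h4).symm

theorem GL3_galois (hG : IsGalois ℚ T) (r : ℕ) [hr : Fact r.Prime] (hd : ¬ (r : ℤ) ∣ discr T)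
    (hex : ∃ Q : Ideal (𝓞 T), Q.IsPrime ∧ absNorm Q = r) :
    Fintype.card ((span {(r : ℤ)}).primesOver (𝓞 T)) = Module.finrank ℚ T ∧
      ∀ P ∈ (span {(r : ℤ)}).primesOver (𝓞 T), absNorm P = r := by
  obtain ⟨Q, hQ, hN⟩ := hex
  obtain ⟨hl, hf⟩ := GL3_of_absNorm_prime T Q r hr.out hN
  have hfall : ∀ P ∈ (span {(r : ℤ)}).primesOver (𝓞 T), P.inertiaDeg ℤ = 1 := by
    intro P hP
    have := hP.1
    have := hP.2
    rw [inertiaDeg_eq_of_isGaloisGroup (span {(r : ℤ)}) P Q (T ≃ₐ[ℚ] T), hf]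
  have heall : ∀ P ∈ (span {(r : ℤ)}).primesOver (𝓞 T), P.ramificationIdx ℤ = 1 := by
    intro P hP
    have h1 := hP.1
    have h2 := hP.2
    have := (not_dvd_discr_iff_forall_mem T (𝓞 T) (Nat.prime_iff_prime_int.mp hr.out)).mp hd P h1
      (by
        have : ((r : ℤ) : 𝓞 T) = algebraMap ℤ (𝓞 T) (r : ℤ) := by simp
        rw [this]
        exact (mem_of_liesOver P (span {(r : ℤ)}) _).mp (mem_span_singleton_self _))
    exact ramificationIdx_eq_one_of_isUnramifiedAt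
  constructor
  · rw [← RingOfIntegers.rank T, ← sum_ramification_inertia_eq_finrank (span {(r : ℤ)}) (𝓞 T),
      Fintype.card_eq_sum_ones]
    refine Finset.sum_congr rfl fun q _ => ?_
    rw [hfall q.1 q.2, heall q.1 q.2]
  · intro P hP
    have := hP.1
    have := hP.2
    rw [GL3_absNorm_eq T P r, hfall P hP, pow_one]

end

end Fermat.Agent.S14

namespace Fermat.Agent.S14

theorem GL3_tsum_le_of_fiber {ι : Type*} (π : ι → ℕ) (g : ι → ℝ) (h : ℕ → ℝ) (d : ℕ)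
    (hg0 : ∀ i, 0 ≤ g i) (hh0 : ∀ n, 0 ≤ h n) (hh : Summable h) (hgh : ∀ i, g i ≤ h (π i))
    (hcard : ∀ (F : Finset ι) (n : ℕ), (∀ i ∈ F, π i = n) → F.card ≤ d) :
    Summable g ∧ ∑' i, g i ≤ d * ∑' n, h n := by
  classical
  have key : ∀ F : Finset ι, ∑ i ∈ F, g i ≤ d * ∑' n, h n := by
    intro F
    calc ∑ i ∈ F, g i ≤ ∑ i ∈ F, h (π i) := Finset.sum_le_sum fun i _ => hgh i
      _ = ∑ n ∈ F.image π, ∑ i ∈ F with π i = n, h (π i) :=
          (Finset.sum_fiberwise_of_maps_to (fun i hi => Finset.mem_image_of_mem π hi) _).symm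
      _ ≤ ∑ n ∈ F.image π, (d : ℝ) * h n := by
          refine Finset.sum_le_sum fun n _ => ?_
          have h1 : ∑ i ∈ F with π i = n, h (π i) = ((F.filter (fun i => π i = n)).card : ℝ) * h n := by
            rw [Finset.sum_congr rfl (fun i hi => by rw [(Finset.mem_filter.mp hi).2]),
              Finset.sum_const, nsmul_eq_mul]
          rw [h1]
          refine mul_le_mul_of_nonneg_right ?_ (hh0 n)
          exact_mod_cast hcard _ n (fun i hi => (Finset.mem_filter.mp hi).2)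
      _ = d * ∑ n ∈ F.image π, h n := by rw [Finset.mul_sum]
      _ ≤ d * ∑' n, h n :=
          mul_le_mul_of_nonneg_left (hh.sum_le_tsum _ (fun n _ => hh0 n)) (Nat.cast_nonneg d)
  have hs : Summable g := summable_of_sum_le hg0 key
  exact ⟨hs, hs.tsum_le_of_sum_le key⟩

theorem GL3_le_tsum_of_fiber {ι : Type*} (π : ι → ℕ) (g : ι → ℝ) (h : ℕ → ℝ) (d : ℕ) (hd : 0 < d)
    (hg0 : ∀ i, 0 ≤ g i) (hg : Summable g) (hh0 : ∀ n, 0 ≤ h n)
    (hF : ∀ n, h n ≠ 0 → ∃ F : Finset ι, F.card = d ∧ ∀ i ∈ F, π i = n ∧ h n ≤ g i) :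
    Summable h ∧ d * ∑' n, h n ≤ ∑' i, g i := by
  classical
  choose! Fib hFib using hF
  have key : ∀ u : Finset ℕ, (d : ℝ) * ∑ n ∈ u, h n ≤ ∑' i, g i := by
    intro u
    have hdisj : Set.PairwiseDisjoint (↑(u.filter (fun n => h n ≠ 0)) : Set ℕ) Fib := by
      intro a ha b hb hab
      rw [Function.onFun, Finset.disjoint_left]
      intro i hia hib
      have ha' := (Finset.mem_filter.mp (Finset.mem_coe.mp ha)).2
      have hb' := (Finset.mem_filter.mp (Finset.mem_coe.mp hb)).2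
      exact hab (((hFib a ha').2 i hia).1.symm.trans ((hFib b hb').2 i hib).1)
    calc (d : ℝ) * ∑ n ∈ u, h n = ∑ n ∈ u with h n ≠ 0, (d : ℝ) * h n := by
          rw [Finset.mul_sum, Finset.sum_filter]
          refine Finset.sum_congr rfl fun n _ => ?_
          by_cases hn : h n = 0 <;> simp [hn]
      _ ≤ ∑ n ∈ u with h n ≠ 0, ∑ i ∈ Fib n, g i := by
          refine Finset.sum_le_sum fun n hn => ?_
          have hn' := (Finset.mem_filter.mp hn).2
          calc (d : ℝ) * h n = ∑ i ∈ Fib n, h n := by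
                rw [Finset.sum_const, (hFib n hn').1, nsmul_eq_mul]
            _ ≤ ∑ i ∈ Fib n, g i := Finset.sum_le_sum fun i hi => ((hFib n hn').2 i hi).2
      _ = ∑ i ∈ (u.filter (fun n => h n ≠ 0)).biUnion Fib, g i := (Finset.sum_biUnion hdisj).symm
      _ ≤ ∑' i, g i := hg.sum_le_tsum _ (fun i _ => hg0 i)
  have hd' : (0 : ℝ) < d := by exact_mod_cast hd
  have key2 : ∀ u : Finset ℕ, ∑ n ∈ u, h n ≤ (∑' i, g i) / d := by
    intro u
    rw [le_div_iff₀ hd', mul_comm]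
    exact key u
  have hs : Summable h := summable_of_sum_le hh0 key2
  refine ⟨hs, ?_⟩
  have := hs.tsum_le_of_sum_le key2
  rwa [le_div_iff₀ hd', mul_comm] at this

end Fermat.Agent.S14

namespace Fermat.Agent.S14

open NumberField Ideal

theorem GL3_neg_log_bounds {x : ℝ} (h0 : 0 ≤ x) (h1 : x ≤ 1 / 2) :
    x ≤ -Real.log (1 - x) ∧ -Real.log (1 - x) ≤ x + 2 * x ^ 2 := by
  have hpos : 0 < 1 - x := by linarith
  constructor
  · have := Real.log_le_sub_one_of_pos hpos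
    linarith
  · have := Real.one_sub_inv_le_log_of_pos hpos
    have h2 : (1 - x)⁻¹ ≤ 1 + x + 2 * x ^ 2 := by
      rw [inv_le_iff_one_le_mul₀ hpos]
      nlinarith [mul_nonneg h0 h0, mul_nonneg (mul_nonneg h0 h0) (by linarith : (0:ℝ) ≤ 1 - 2 * x)]
    linarith

section
variable (T : Type) [Field T] [NumberField T]

theorem GL3_two_le_absNorm (q : Ideal (𝓞 T)) (hq : q.IsPrime) (h0 : q ≠ ⊥) : 2 ≤ absNorm q := by
  have h1 : absNorm q ≠ 0 := by
    rw [Ne, absNorm_eq_zero_iff]; exact h0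
  have h2 : absNorm q ≠ 1 := by
    rw [Ne, absNorm_eq_one_iff]; exact hq.ne_top
  omega

theorem GL3_rpow_le_half (q : Ideal (𝓞 T)) (hq : q.IsPrime) (h0 : q ≠ ⊥) {s : ℝ} (hs : 1 ≤ s) :
    ((absNorm q : ℕ) : ℝ) ^ (-s) ≤ 1 / 2 := by
  have h2 : (2 : ℝ) ≤ ((absNorm q : ℕ) : ℝ) := by exact_mod_cast GL3_two_le_absNorm T q hq h0
  calc ((absNorm q : ℕ) : ℝ) ^ (-s) ≤ ((absNorm q : ℕ) : ℝ) ^ (-1 : ℝ) :=
        Real.rpow_le_rpow_of_exponent_le (by linarith) (by linarith)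
    _ = (((absNorm q : ℕ) : ℝ))⁻¹ := Real.rpow_neg_one _
    _ ≤ 1 / 2 := by
        rw [one_div]
        exact inv_anti₀ (by norm_num) h2

end

end Fermat.Agent.S14

namespace Fermat.Agent.S14

open NumberField Ideal

section
variable (T : Type) [Field T] [NumberField T]

/-- inclusion of the nonzero primes in the nonzero ideals -/
def GL3_incl : {q : Ideal (𝓞 T) // q.IsPrime ∧ q ≠ ⊥} → {I : Ideal (𝓞 T) // I ≠ ⊥} :=
  fun q => ⟨q.1, q.2.2⟩

omit [NumberField T] in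
theorem GL3_incl_injective : Function.Injective (GL3_incl T) := by
  intro a b h
  have := congrArg Subtype.val h
  exact Subtype.ext this

theorem GL3_summable_ideals (hZ : Stmt_ZetaPole) {s : ℝ} (hs : 1 < s) :
    Summable (fun I : {I : Ideal (𝓞 T) // I ≠ ⊥} => ((absNorm I.1 : ℕ) : ℝ) ^ (-s)) :=
  (hZ T).1 s hs

theorem GL3_summable_primes (hZ : Stmt_ZetaPole) {s : ℝ} (hs : 1 < s) :
    Summable (fun q : {q : Ideal (𝓞 T) // q.IsPrime ∧ q ≠ ⊥} =>
      ((absNorm q.1 : ℕ) : ℝ) ^ (-s)) := by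
  have h := (GL3_summable_ideals T hZ hs).comp_injective (GL3_incl_injective T)
  simpa only [Function.comp_def, GL3_incl] using h

theorem GL3_tsum_primes_le (hZ : Stmt_ZetaPole) {s : ℝ} (hs : 1 < s) :
    ∑' q : {q : Ideal (𝓞 T) // q.IsPrime ∧ q ≠ ⊥}, ((absNorm q.1 : ℕ) : ℝ) ^ (-s) ≤ zetaI T s := by
  have h := tsum_comp_le_tsum_of_inj (GL3_summable_ideals T hZ hs)
    (fun I => Real.rpow_nonneg (Nat.cast_nonneg _) _) (GL3_incl_injective T)
  simpa only [Function.comp_def, GL3_incl, zetaI] using h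

theorem GL3_log_zeta (hZ : Stmt_ZetaPole) (hE : Stmt_EulerIdeal) {s : ℝ} (hs : 1 < s) :
    ∑' q : {q : Ideal (𝓞 T) // q.IsPrime ∧ q ≠ ⊥}, ((absNorm q.1 : ℕ) : ℝ) ^ (-s)
        ≤ Real.log (zetaI T s) ∧
    Real.log (zetaI T s) ≤
      ∑' q : {q : Ideal (𝓞 T) // q.IsPrime ∧ q ≠ ⊥}, ((absNorm q.1 : ℕ) : ℝ) ^ (-s)
        + 2 * zetaI T 2 := by
  set x : {q : Ideal (𝓞 T) // q.IsPrime ∧ q ≠ ⊥} → ℝ := fun q => ((absNorm q.1 : ℕ) : ℝ) ^ (-s)
    with hx
  have hxs : Summable x := GL3_summable_primes T hZ hs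
  have hx0 : ∀ q, 0 ≤ x q := fun q => Real.rpow_nonneg (Nat.cast_nonneg _) _
  have hxh : ∀ q, x q ≤ 1 / 2 := fun q => GL3_rpow_le_half T q.1 q.2.1 q.2.2 hs.le
  obtain ⟨-, h2, h3⟩ := hE T (fun I => ((((absNorm I : ℕ) : ℝ) ^ (-s) : ℝ) : ℂ))
    (by simp)
    (by
      intro I J
      rw [map_mul, Nat.cast_mul, Real.mul_rpow (Nat.cast_nonneg _) (Nat.cast_nonneg _)]
      push_cast
      rfl)
    (by
      refine (GL3_summable_ideals T hZ hs).congr fun I => ?_
      rw [Complex.norm_real, Real.norm_of_nonneg (Real.rpow_nonneg (Nat.cast_nonneg _) _)])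
  set L : {q : Ideal (𝓞 T) // q.IsPrime ∧ q ≠ ⊥} → ℝ := fun q => -Real.log (1 - x q) with hL
  have hLc : ∀ q, -Complex.log (1 - ((x q : ℝ) : ℂ)) = ((L q : ℝ) : ℂ) := by
    intro q
    have : (0 : ℝ) ≤ 1 - x q := by linarith [hxh q]
    rw [hL]
    push_cast
    rw [Complex.ofReal_log this]
    push_cast
    rfl
  have hLs : Summable L := by
    have : Summable (fun q => ((L q : ℝ) : ℂ)) := h2.congr hLc
    exact Complex.summable_ofReal.mp this
  have hexp : Real.exp (∑' q, L q) = zetaI T s := by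
    have h4 : Complex.exp (∑' q, ((L q : ℝ) : ℂ)) = ((zetaI T s : ℝ) : ℂ) := by
      rw [← tsum_congr hLc, zetaI, Complex.ofReal_tsum]
      exact h3
    rw [← Complex.ofReal_tsum, ← Complex.ofReal_exp] at h4
    exact_mod_cast h4
  have hlog : Real.log (zetaI T s) = ∑' q, L q := by
    rw [← hexp, Real.log_exp]
  rw [hlog]
  constructor
  · exact hxs.tsum_le_tsum (fun q => (GL3_neg_log_bounds (hx0 q) (hxh q)).1) hLs
  · have hsq : ∀ q, x q ^ 2 ≤ ((absNorm q.1 : ℕ) : ℝ) ^ (-(2 : ℝ)) := by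
      intro q
      have h1 : (1 : ℝ) ≤ ((absNorm q.1 : ℕ) : ℝ) := by
        have := GL3_two_le_absNorm T q.1 q.2.1 q.2.2
        exact_mod_cast (by omega : 1 ≤ absNorm q.1)
      rw [hx, ← Real.rpow_natCast, ← Real.rpow_mul (Nat.cast_nonneg _)]
      refine Real.rpow_le_rpow_of_exponent_le h1 ?_
      push_cast
      linarith
    have hs2 : Summable (fun q : {q : Ideal (𝓞 T) // q.IsPrime ∧ q ≠ ⊥} =>
        ((absNorm q.1 : ℕ) : ℝ) ^ (-(2 : ℝ))) := GL3_summable_primes T hZ (by norm_num)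
    have hsqs : Summable (fun q => x q ^ 2) :=
      Summable.of_nonneg_of_le (fun q => sq_nonneg _) hsq hs2
    calc ∑' q, L q ≤ ∑' q, (x q + 2 * x q ^ 2) :=
          hLs.tsum_le_tsum (fun q => (GL3_neg_log_bounds (hx0 q) (hxh q)).2)
            (hxs.add (hsqs.mul_left 2))
      _ = ∑' q, x q + 2 * ∑' q, x q ^ 2 := by
          rw [hxs.tsum_add (hsqs.mul_left 2), tsum_mul_left]
      _ ≤ ∑' q, x q + 2 * zetaI T 2 := by
          have := (hsqs.tsum_le_tsum hsq hs2).trans (GL3_tsum_primes_le T hZ (by norm_num))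
          linarith

end

end Fermat.Agent.S14

namespace Fermat.Agent.S14

open Filter Topology

theorem GL3_limit_contra (Z₁ Z₂ : ℝ → ℝ) (κ₁ κ₂ : ℝ) (h1 : 0 < κ₁) (h2 : 0 < κ₂)
    (t1 : Tendsto (fun s : ℝ => (s - 1) * Z₁ s) (𝓝[>] 1) (𝓝 κ₁))
    (t2 : Tendsto (fun s : ℝ => (s - 1) * Z₂ s) (𝓝[>] 1) (𝓝 κ₂))
    (c C : ℝ) (hc : c < 1)
    (H : ∀ s : ℝ, 1 < s → Real.log (Z₁ s) ≤ c * Real.log (Z₂ s) + C) : False := by
  have u1 : Tendsto (fun s : ℝ => Real.log ((s - 1) * Z₁ s)) (𝓝[>] 1) (𝓝 (Real.log κ₁)) :=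
    (Real.continuousAt_log h1.ne').tendsto.comp t1
  have u2 : Tendsto (fun s : ℝ => Real.log ((s - 1) * Z₂ s)) (𝓝[>] 1) (𝓝 (Real.log κ₂)) :=
    (Real.continuousAt_log h2.ne').tendsto.comp t2
  have hsub : Tendsto (fun s : ℝ => s - 1) (𝓝[>] 1) (𝓝[>] 0) := by
    refine tendsto_nhdsWithin_iff.mpr ⟨?_, ?_⟩
    · have : Tendsto (fun s : ℝ => s - 1) (𝓝 1) (𝓝 (1 - 1)) := by
        exact (continuous_id.sub continuous_const).tendsto 1
      rw [sub_self] at this
      exact this.mono_left nhdsWithin_le_nhds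
    · filter_upwards [self_mem_nhdsWithin] with s hs
      simpa using hs
  have hl : Tendsto (fun s : ℝ => Real.log (s - 1)) (𝓝[>] 1) atBot :=
    Real.tendsto_log_nhdsGT_zero.comp hsub
  have hL : Tendsto (fun s : ℝ => (1 - c) * (-Real.log (s - 1))) (𝓝[>] 1) atTop :=
    (tendsto_neg_atBot_atTop.comp hl).const_mul_atTop (by linarith)
  have hR : Tendsto (fun s : ℝ => c * Real.log ((s - 1) * Z₂ s) - Real.log ((s - 1) * Z₁ s) + C)
      (𝓝[>] 1) (𝓝 (c * Real.log κ₂ - Real.log κ₁ + C)) :=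
    ((u2.const_mul c).sub u1).add_const C
  have e1 := hL.eventually_gt_atTop (c * Real.log κ₂ - Real.log κ₁ + C + 1)
  have e2 := hR.eventually_lt_const (show c * Real.log κ₂ - Real.log κ₁ + C
    < c * Real.log κ₂ - Real.log κ₁ + C + 1 by linarith)
  have p1 := t1.eventually_const_lt h1
  have p2 := t2.eventually_const_lt h2
  obtain ⟨s, hs1, hs2, hp1, hp2, hs⟩ :=
    (e1.and (e2.and (p1.and (p2.and self_mem_nhdsWithin)))).exists
  have hs' : (0 : ℝ) < s - 1 := by simpa using hs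
  have hZ1 : Z₁ s ≠ 0 := by
    rintro h; rw [h, mul_zero] at hp1; exact lt_irrefl _ hp1
  have hZ2 : Z₂ s ≠ 0 := by
    rintro h; rw [h, mul_zero] at hp2; exact lt_irrefl _ hp2
  rw [Real.log_mul hs'.ne' hZ1, Real.log_mul hs'.ne' hZ2] at hs2
  have := H s (by simpa using hs)
  nlinarith

end Fermat.Agent.S14

namespace Fermat.Agent.S14

open NumberField Ideal

section
variable (T : Type) [Field T] [NumberField T]

/-- `n` is a prime which is the norm of a prime ideal of `T`. -/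
def GL3_P (n : ℕ) : Prop := n.Prime ∧ ∃ Q : Ideal (𝓞 T), Q.IsPrime ∧ absNorm Q = n

theorem GL3_minFac (q : Ideal (𝓞 T)) (hq : q.IsPrime) (h0 : q ≠ ⊥) :
    (absNorm q).minFac.Prime ∧ q.LiesOver (span {((absNorm q).minFac : ℤ)}) := by
  obtain ⟨r, hr, hl⟩ := GL3_exists_prime_under T q hq h0
  have h1 := GL3_absNorm_eq T q r
  have h2 : (absNorm q).minFac = r := by
    rw [h1]; exact hr.pow_minFac (GL3_inertiaDeg_pos T q).ne'
  rw [h2]
  exact ⟨hr, hl⟩

open Classical in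
theorem GL3_upper {s : ℝ} (hs : 1 < s) :
    ∑' q : {q : Ideal (𝓞 T) // q.IsPrime ∧ q ≠ ⊥}, ((absNorm q.1 : ℕ) : ℝ) ^ (-s) ≤
      (Module.finrank ℚ T : ℕ) * ∑' n : ℕ, ((if GL3_P T n then (n : ℝ) ^ (-s) else 0)
        + (n : ℝ) ^ (-(2 : ℝ))) := by
  have hsum1 : Summable (fun n : ℕ => (n : ℝ) ^ (-s)) := Real.summable_nat_rpow.mpr (by linarith)
  have hsum2 : Summable (fun n : ℕ => (n : ℝ) ^ (-(2 : ℝ))) :=
    Real.summable_nat_rpow.mpr (by norm_num)
  have hsum1' : Summable (fun n : ℕ => if GL3_P T n then (n : ℝ) ^ (-s) else 0) := by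
    refine Summable.of_nonneg_of_le (fun n => ?_) (fun n => ?_) hsum1
    · split_ifs
      · exact Real.rpow_nonneg (Nat.cast_nonneg _) _
      · exact le_rfl
    · split_ifs
      · exact le_rfl
      · exact Real.rpow_nonneg (Nat.cast_nonneg _) _
  refine (GL3_tsum_le_of_fiber (fun q : {q : Ideal (𝓞 T) // q.IsPrime ∧ q ≠ ⊥} =>
    (absNorm q.1).minFac) _ _ (Module.finrank ℚ T)
    (fun q => Real.rpow_nonneg (Nat.cast_nonneg _) _) (fun n => ?_) (hsum1'.add hsum2)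
    (fun q => ?_) (fun F n hF => ?_)).2
  · refine add_nonneg ?_ (Real.rpow_nonneg (Nat.cast_nonneg _) _)
    split_ifs
    · exact Real.rpow_nonneg (Nat.cast_nonneg _) _
    · exact le_rfl
  · -- pointwise bound
    obtain ⟨hr, hl⟩ := GL3_minFac T q.1 q.2.1 q.2.2
    set r := (absNorm q.1).minFac with hrdef
    have := q.2.1
    have h1 := GL3_absNorm_eq T q.1 r
    have hf := GL3_inertiaDeg_pos T q.1
    rcases Nat.lt_or_ge 1 (q.1.inertiaDeg ℤ) with hf2 | hf1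
    · -- degree at least two
      have hr1 : (1 : ℝ) ≤ (r : ℝ) := by exact_mod_cast hr.one_le
      have h2 : ((absNorm q.1 : ℕ) : ℝ) ^ (-s) ≤ (r : ℝ) ^ (-(2 : ℝ)) := by
        rw [h1]
        push_cast
        rw [← Real.rpow_natCast, ← Real.rpow_mul (Nat.cast_nonneg _)]
        refine Real.rpow_le_rpow_of_exponent_le hr1 ?_
        have : (2 : ℝ) ≤ (q.1.inertiaDeg ℤ : ℝ) := by exact_mod_cast hf2
        nlinarith
      refine h2.trans (le_add_of_nonneg_left ?_)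
      split_ifs
      · exact Real.rpow_nonneg (Nat.cast_nonneg _) _
      · exact le_rfl
    · have hf' : q.1.inertiaDeg ℤ = 1 := le_antisymm hf1 hf
      rw [hf', pow_one] at h1
      have hP : GL3_P T r := ⟨hr, q.1, q.2.1, h1⟩
      rw [if_pos hP, h1]
      exact le_add_of_nonneg_right (Real.rpow_nonneg (Nat.cast_nonneg _) _)
  · -- cardinality of fibres
    rcases F.eq_empty_or_nonempty with rfl | ⟨q0, hq0⟩
    · simp
    have hn : n.Prime := by
      rw [← hF q0 hq0]; exact (GL3_minFac T q0.1 q0.2.1 q0.2.2).1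
    have : Fact n.Prime := ⟨hn⟩
    calc F.card = (F.image Subtype.val).card :=
          (Finset.card_image_of_injective _ Subtype.val_injective).symm
      _ ≤ ((span {(n : ℤ)}).primesOver (𝓞 T)).toFinset.card := by
          refine Finset.card_le_card fun Q hQ => ?_
          obtain ⟨q, hq, rfl⟩ := Finset.mem_image.mp hQ
          rw [Set.mem_toFinset]
          refine ⟨q.2.1, ?_⟩
          have := (GL3_minFac T q.1 q.2.1 q.2.2).2
          rwa [hF q hq] at this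
      _ = Fintype.card ((span {(n : ℤ)}).primesOver (𝓞 T)) := Set.toFinset_card _
      _ ≤ Module.finrank ℚ T := GL3_card_primesOver_le T n

end

end Fermat.Agent.S14

namespace Fermat.Agent.S14

open NumberField Ideal

section
variable (T : Type) [Field T] [NumberField T]

open Classical in
theorem GL3_lower (hZ : Stmt_ZetaPole) (hG : IsGalois ℚ T) {s : ℝ} (hs : 1 < s) :
    (Module.finrank ℚ T : ℕ) * ∑' n : ℕ,
        (if GL3_P T n ∧ ¬ (n : ℤ) ∣ discr T then (n : ℝ) ^ (-s) else 0) ≤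
      ∑' q : {q : Ideal (𝓞 T) // q.IsPrime ∧ q ≠ ⊥}, ((absNorm q.1 : ℕ) : ℝ) ^ (-s) := by
  refine (GL3_le_tsum_of_fiber (fun q : {q : Ideal (𝓞 T) // q.IsPrime ∧ q ≠ ⊥} =>
    (absNorm q.1).minFac) _ _ (Module.finrank ℚ T) Module.finrank_pos
    (fun q => Real.rpow_nonneg (Nat.cast_nonneg _) _) (GL3_summable_primes T hZ hs)
    (fun n => ?_) (fun n hn => ?_)).2
  · split_ifs
    · exact Real.rpow_nonneg (Nat.cast_nonneg _) _
    · exact le_rfl
  · have hP : GL3_P T n ∧ ¬ (n : ℤ) ∣ discr T := by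
      by_contra h
      exact hn (if_neg h)
    obtain ⟨⟨hp, hex⟩, hd⟩ := hP
    have : Fact n.Prime := ⟨hp⟩
    obtain ⟨hcard, hall⟩ := GL3_galois T hG n hd hex
    refine ⟨Finset.univ.map ⟨fun P : (span {(n : ℤ)}).primesOver (𝓞 T) =>
      (⟨P.1, P.2.1, fun h => by
        have := hall P.1 P.2
        rw [h, absNorm_bot] at this
        exact hp.ne_zero this.symm⟩ : {q : Ideal (𝓞 T) // q.IsPrime ∧ q ≠ ⊥}),
      fun a b hab => Subtype.ext (congrArg (fun q => q.1) hab)⟩, ?_, ?_⟩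
    · rw [Finset.card_map, Finset.card_univ, hcard]
    · intro i hi
      obtain ⟨P, -, rfl⟩ := Finset.mem_map.mp hi
      have h1 := hall P.1 P.2
      refine ⟨?_, ?_⟩
      · show (absNorm P.1).minFac = n
        rw [h1]; exact hp.minFac_eq
      · show _ ≤ ((absNorm P.1 : ℕ) : ℝ) ^ (-s)
        rw [h1, if_pos ⟨⟨hp, hex⟩, hd⟩]

end

theorem GL3 (hZ : Stmt_ZetaPole) (hE : Stmt_EulerIdeal) : Stmt_GL3 := by
  classical
  intro N₁ N₂ _ _ _ _ hG hlt B
  by_contra hcon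
  push Not at hcon
  obtain ⟨-, κ₁, hκ₁, t1⟩ := hZ N₁
  obtain ⟨-, κ₂, hκ₂, t2⟩ := hZ N₂
  set d₁ := Module.finrank ℚ N₁ with hd₁
  set d₂ := Module.finrank ℚ N₂ with hd₂
  have hd₂pos : (0 : ℝ) < d₂ := by
    have : 0 < d₂ := Module.finrank_pos
    exact_mod_cast this
  have hd₁nn : (0 : ℝ) ≤ d₁ := Nat.cast_nonneg _
  set E : Finset ℕ := Finset.range (B + 1) ∪ (discr N₂).natAbs.divisors with hEdef
  set Z2 : ℝ := ∑' n : ℕ, (n : ℝ) ^ (-(2 : ℝ)) with hZ2
  refine GL3_limit_contra (zetaI N₁) (zetaI N₂) κ₁ κ₂ hκ₁ hκ₂ t1 t2 ((d₁ : ℝ) / d₂)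
    (d₁ * (E.card + Z2) + 2 * zetaI N₁ 2) ?_ (fun s hs => ?_)
  · rw [div_lt_one hd₂pos]
    exact_mod_cast hlt
  have hsum1 : Summable (fun n : ℕ => (n : ℝ) ^ (-s)) := Real.summable_nat_rpow.mpr (by linarith)
  have hsum2 : Summable (fun n : ℕ => (n : ℝ) ^ (-(2 : ℝ))) :=
    Real.summable_nat_rpow.mpr (by norm_num)
  have hind : ∀ (p : ℕ → Prop) [DecidablePred p],
      Summable (fun n : ℕ => if p n then (n : ℝ) ^ (-s) else 0) := by
    intro p _
    refine Summable.of_nonneg_of_le (fun n => ?_) (fun n => ?_) hsum1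
    · split_ifs
      · exact Real.rpow_nonneg (Nat.cast_nonneg _) _
      · exact le_rfl
    · split_ifs
      · exact le_rfl
      · exact Real.rpow_nonneg (Nat.cast_nonneg _) _
  have hEs : Summable (fun n : ℕ => if n ∈ E then (1 : ℝ) else 0) :=
    summable_of_ne_finset_zero (s := E) (fun n hn => if_neg hn)
  have hEsum : ∑' n : ℕ, (if n ∈ E then (1 : ℝ) else 0) = E.card := by
    rw [tsum_eq_sum (s := E) (fun n hn => if_neg hn), Finset.sum_congr rfl (fun n hn => if_pos hn)]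
    simp
  -- comparison of the two sets of primes
  have hcmp : ∀ n : ℕ, (if GL3_P N₁ n then (n : ℝ) ^ (-s) else 0) ≤
      (if GL3_P N₂ n ∧ ¬ (n : ℤ) ∣ discr N₂ then (n : ℝ) ^ (-s) else 0)
        + (if n ∈ E then (1 : ℝ) else 0) := by
    intro n
    by_cases h1 : GL3_P N₁ n
    · rw [if_pos h1]
      by_cases hnE : n ∈ E
      · rw [if_pos hnE]
        have h1n : (1 : ℝ) ≤ n := by exact_mod_cast h1.1.one_le
        have : (n : ℝ) ^ (-s) ≤ 1 := Real.rpow_le_one_of_one_le_of_nonpos h1n (by linarith)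
        refine this.trans (le_add_of_nonneg_left ?_)
        split_ifs
        · exact Real.rpow_nonneg (Nat.cast_nonneg _) _
        · exact le_rfl
      · rw [if_neg hnE, add_zero]
        rw [hEdef, Finset.mem_union, not_or, Finset.mem_range, Nat.mem_divisors] at hnE
        have hB : B < n := by omega
        have hdvd : ¬ (n : ℤ) ∣ discr N₂ := by
          intro h
          refine hnE.2 ⟨?_, by simpa using discr_ne_zero N₂⟩
          exact Int.natCast_dvd.mp h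
        have h2 : GL3_P N₂ n := ⟨h1.1, hcon n h1.1 hB h1.2⟩
        rw [if_pos ⟨h2, hdvd⟩]
    · rw [if_neg h1]
      refine add_nonneg ?_ ?_
      · split_ifs
        · exact Real.rpow_nonneg (Nat.cast_nonneg _) _
        · exact le_rfl
      · split_ifs <;> norm_num
  have hA := (GL3_log_zeta N₁ hZ hE hs).2
  have hB' := GL3_upper N₁ hs
  have hC := GL3_lower N₂ hZ hG hs
  have hD := (GL3_log_zeta N₂ hZ hE hs).1
  have hsplit : ∑' n : ℕ, ((if GL3_P N₁ n then (n : ℝ) ^ (-s) else 0) + (n : ℝ) ^ (-(2 : ℝ)))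
      ≤ ∑' n : ℕ, (if GL3_P N₂ n ∧ ¬ (n : ℤ) ∣ discr N₂ then (n : ℝ) ^ (-s) else 0)
        + E.card + Z2 := by
    have hi1 := hind (GL3_P N₁)
    have hi2 := hind (fun n => GL3_P N₂ n ∧ ¬ (n : ℤ) ∣ discr N₂)
    have h8 := hi1.tsum_le_tsum hcmp (hi2.add hEs)
    rw [hi2.tsum_add hEs, hEsum] at h8
    rw [hi1.tsum_add hsum2]
    linarith
  set S2 := ∑' n : ℕ, (if GL3_P N₂ n ∧ ¬ (n : ℤ) ∣ discr N₂ then (n : ℝ) ^ (-s) else 0) with hS2
  have hS2le : S2 ≤ Real.log (zetaI N₂ s) / d₂ := by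
    rw [le_div_iff₀ hd₂pos, mul_comm]
    exact hC.trans hD
  have h5 := mul_le_mul_of_nonneg_left hsplit hd₁nn
  have h6 := mul_le_mul_of_nonneg_left hS2le hd₁nn
  have h7 : (d₁ : ℝ) * (Real.log (zetaI N₂ s) / d₂) = (d₁ : ℝ) / d₂ * Real.log (zetaI N₂ s) := by
    ring
  nlinarith

end Fermat.Agent.S14

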