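import Fermat.Agent.S14.Interface

/-!
# S14 / KU : the auxiliary prime `r`  (`Stmt_GL3 → Stmt_AuxPrime`)
-/

set_option autoImplicit false

namespace Fermat.Agent.S14

namespace KU

open Polynomial NumberField IntermediateField

/-! ### Field theory: `[ℚ(l^(1/p), u^(1/p)) : ℚ] = p²` -/

theorem not_pow_of_not_dvd {p q : ℕ} [Fact q.Prime] {a : ℚ}
    (h : ¬ (p : ℤ) ∣ padicValRat q a) (b : ℚ) : b ^ p ≠ a := by
  rintro rfl
  apply h
  rw [padicValRat.pow]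
  exact dvd_mul_right _ _

theorem padicValRat_aux {l l' : ℕ} (hl : l.Prime) (hl' : l'.Prime) (hne : l ≠ l') (e : ℕ) :
    haveI : Fact l'.Prime := ⟨hl'⟩
    padicValRat l' ((l' : ℚ) * (l : ℚ) ^ e) = 1 := by
  haveI : Fact l'.Prime := ⟨hl'⟩
  haveI : Fact l.Prime := ⟨hl⟩
  have h1 : (l' : ℚ) ≠ 0 := by exact_mod_cast hl'.ne_zero
  have h2 : (l : ℚ) ≠ 0 := by exact_mod_cast hl.ne_zero
  rw [padicValRat.mul h1 (pow_ne_zero _ h2), padicValRat.pow, padicValRat.self hl'.one_lt,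
    padicValRat.of_nat, padicValNat_primes hne.symm]
  simp

theorem not_pow_aux {p l l' : ℕ} (hp : p.Prime) (hl : l.Prime) (hl' : l'.Prime) (hne : l ≠ l')
    (e : ℕ) (b : ℚ) : b ^ p ≠ (l' : ℚ) * (l : ℚ) ^ e := by
  haveI : Fact l'.Prime := ⟨hl'⟩
  apply not_pow_of_not_dvd (q := l')
  rw [padicValRat_aux hl hl' hne]
  intro h
  have := Int.le_of_dvd one_pos h
  have := hp.two_le
  omega

theorem not_pow_prime {p l : ℕ} (hp : p.Prime) (hl : l.Prime) (b : ℚ) : b ^ p ≠ (l : ℚ) := by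
  haveI : Fact l.Prime := ⟨hl⟩
  apply not_pow_of_not_dvd (q := l)
  rw [padicValRat.self hl.one_lt]
  intro h
  have := Int.le_of_dvd one_pos h
  have := hp.two_le
  omega

theorem nextCoeff_X_pow_sub_C {K : Type*} [Field K] {p : ℕ} (hp : 2 ≤ p) (a : K) :
    (X ^ p - C a : K[X]).nextCoeff = 0 := by
  have hdeg : (X ^ p - C a : K[X]).natDegree = p := natDegree_X_pow_sub_C
  rw [nextCoeff_of_natDegree_pos (by rw [hdeg]; omega), hdeg]
  rw [coeff_sub, coeff_X_pow, coeff_C, if_neg (by omega), if_neg (by omega), sub_zero]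

theorem minpoly_eq {K F : Type*} [Field K] [Field F] [Algebra K F] {p : ℕ} (hp : p.Prime)
    {x : F} {a : K} (hx : x ^ p = algebraMap K F a) (ha : ∀ b : K, b ^ p ≠ a) :
    minpoly K x = X ^ p - C a := by
  have hirr := X_pow_sub_C_irreducible_of_prime hp ha
  exact (minpoly.eq_of_irreducible_of_monic hirr (by simp [hx])
    (monic_X_pow_sub_C a hp.ne_zero)).symm

theorem trace_eq_zero {p : ℕ} (hp : p.Prime) {F : Type*} [Field F] [Algebra ℚ F]
    [FiniteDimensional ℚ F] {x : F} {a : ℚ} (hx : x ^ p = algebraMap ℚ F a)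
    (ha : ∀ b : ℚ, b ^ p ≠ a) : Algebra.trace ℚ F x = 0 := by
  rw [trace_eq_finrank_mul_minpoly_nextCoeff, minpoly_eq hp hx ha,
    nextCoeff_X_pow_sub_C hp.two_le]
  simp

theorem not_pow_of_gen {p l l' m : ℕ} (hp : p.Prime) (hl : l.Prime) (hl' : l'.Prime)
    (hne : l ≠ l') {F : Type*} [Field F] [Algebra ℚ F] [FiniteDimensional ℚ F] {a : F}
    (ha : a ^ p = (l : F)) (hgen : ∀ y : F, ∃ g : ℚ[X], y = aeval a g) (β : F) :
    β ^ p ≠ ((l' * l ^ m : ℕ) : F) := by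
  intro hβ
  haveI : CharZero F := charZero_of_injective_algebraMap (algebraMap ℚ F).injective
  have hβ0 : β ≠ 0 := by
    rintro rfl
    rw [zero_pow hp.ne_zero] at hβ
    have : (l' * l ^ m : ℕ) ≠ 0 := mul_ne_zero hl'.ne_zero (pow_ne_zero _ hl.ne_zero)
    exact this (by exact_mod_cast hβ.symm)
  have htr : ∀ e : ℕ, Algebra.trace ℚ F (β * a ^ e) = 0 := by
    intro e
    apply trace_eq_zero hp (a := (l' : ℚ) * (l : ℚ) ^ (m + e)) _ (not_pow_aux hp hl hl' hne _)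
    rw [mul_pow, hβ, ← pow_mul, mul_comm e p, pow_mul, ha]
    simp [pow_add, mul_assoc]
  obtain ⟨g, hg⟩ := hgen β⁻¹
  have h1 : Algebra.trace ℚ F (β * β⁻¹) = 0 := by
    rw [hg, aeval_eq_sum_range, Finset.mul_sum, map_sum]
    apply Finset.sum_eq_zero
    intro i _
    rw [mul_smul_comm, map_smul, htr, smul_zero]
  rw [mul_inv_cancel₀ hβ0, ← map_one (algebraMap ℚ F), Algebra.trace_algebraMap] at h1
  have h2 : Module.finrank ℚ F ≠ 0 := Module.finrank_pos.ne'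
  simp at h1
  exact h2 h1

theorem sq_le_finrank {p l l' m : ℕ} (hp : p.Prime) (hl : l.Prime) (hl' : l'.Prime)
    (hne : l ≠ l') {N : Type*} [Field N] [Algebra ℚ N] [FiniteDimensional ℚ N] {α γ : N}
    (hα : α ^ p = (l : N)) (hγ : γ ^ p = ((l' * l ^ m : ℕ) : N)) :
    p ^ 2 ≤ Module.finrank ℚ N := by
  have hint : IsIntegral ℚ α := Algebra.IsIntegral.isIntegral α
  have h1 : Module.finrank ℚ ℚ⟮α⟯ = p := by
    rw [adjoin.finrank hint, minpoly_eq hp (a := (l : ℚ)) (by simpa using hα) (not_pow_prime hp hl),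
      natDegree_X_pow_sub_C]
  have hgen : ∀ y : ℚ⟮α⟯, ∃ g : ℚ[X],
      y = @aeval ℚ ℚ⟮α⟯ _ _ ℚ⟮α⟯.algebra' (AdjoinSimple.gen ℚ α) g := by
    intro y
    have := @PowerBasis.exists_eq_aeval' ℚ ℚ⟮α⟯ _ _ ℚ⟮α⟯.algebra' (adjoin.powerBasis hint) y
    simpa using this
  have hgp : (AdjoinSimple.gen ℚ α) ^ p = ((l : ℕ) : ℚ⟮α⟯) := by
    apply Subtype.ext
    simpa using hα
  have h2 := @not_pow_of_gen p l l' m hp hl hl' hne ℚ⟮α⟯ _ ℚ⟮α⟯.algebra' _ _ hgp hgen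
  have h3 : minpoly ℚ⟮α⟯ γ = X ^ p - C (((l' * l ^ m : ℕ) : ℚ⟮α⟯)) :=
    minpoly_eq hp (by simpa using hγ) h2
  have h4 : p ≤ Module.finrank ℚ⟮α⟯ N := by
    have := minpoly.natDegree_le (A := ℚ⟮α⟯) γ
    rwa [h3, natDegree_X_pow_sub_C] at this
  rw [← Module.finrank_mul_finrank ℚ ℚ⟮α⟯ N, h1, sq]
  exact Nat.mul_le_mul_left p h4

/-! ### Frobenius argument -/

/-- Two roots of `G` which are congruent modulo `ker π` coincide if `G` is separable mod `π`. -/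
theorem eq_of_map_eq {R k : Type*} [CommRing R] [IsDomain R] [CommRing k] [Nontrivial k]
    (π : R →+* k) (G : R[X]) (hsep : (G.map π).Separable) {a b : R} (ha : G.IsRoot a)
    (hb : G.IsRoot b) (hab : π a = π b) : a = b := by
  by_contra hne
  obtain ⟨h, hh⟩ := dvd_iff_isRoot.2 ha
  have hb' : eval b h = 0 := by
    have : eval b G = 0 := hb
    rw [hh, eval_mul, eval_sub, eval_X, eval_C] at this
    exact (mul_eq_zero.1 this).resolve_left (sub_ne_zero.2 (Ne.symm hne))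
  have h1 : (h.map π).IsRoot (π a) := by
    rw [hab, IsRoot.def, eval_map, eval₂_hom, hb', map_zero]
  obtain ⟨h', hh'⟩ := dvd_iff_isRoot.2 h1
  have h2 : (X - C (π a)) * (X - C (π a)) ∣ G.map π := by
    rw [hh, Polynomial.map_mul, hh']
    simp only [Polynomial.map_sub, map_X, map_C]
    exact ⟨h', by ring⟩
  exact not_isUnit_X_sub_C _ (hsep.squarefree _ h2)

theorem frob_fix {R : Type*} [CommRing R] [IsDomain R] {r p : ℕ} (hr : r.Prime) (Q : Ideal R)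
    [Q.IsPrime] (hrQ : (r : R) ∈ Q) (φ : R →+* R) (hφ : ∀ x, φ x - x ^ r ∈ Q)
    {ω : ZMod r} (hω : IsPrimitiveRoot ω p) (hpr : (p : ZMod r) ≠ 0) {c : ℕ}
    (hc : (c : ZMod r) ≠ 0) {b : ZMod r} (hb : b ^ p = c) {a : R} (ha : a ^ p = c) :
    φ a = a := by
  haveI : Fact r.Prime := ⟨hr⟩
  haveI : CharP (R ⧸ Q) r := (CharP.charP_iff_prime_eq_zero hr).2 (by
    rw [← map_natCast (Ideal.Quotient.mk Q)]
    exact Ideal.Quotient.eq_zero_iff_mem.2 hrQ)
  let ι : ZMod r →+* R ⧸ Q := ZMod.castHom (dvd_refl r) (R ⧸ Q)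
  let π : R →+* R ⧸ Q := Ideal.Quotient.mk Q
  let g : (ZMod r)[X] := X ^ p - C (c : ZMod r)
  let G : R[X] := X ^ p - C (c : R)
  have hp0 : p ≠ 0 := by
    rintro rfl
    simp at hpr
  have hmap : G.map π = g.map ι := by
    simp [G, g]
  have hsplit : g.Splits := X_pow_sub_C_splits_of_isPrimitiveRoot hω hb
  have hsep : g.Separable := separable_X_pow_sub_C _ hpr hc
  have hg0 : g ≠ 0 := (monic_X_pow_sub_C _ hp0).ne_zero
  have hroot : (g.map ι).IsRoot (π a) := by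
    rw [← hmap, IsRoot.def, eval_map, eval₂_hom]
    simp [G, ha]
  obtain ⟨t, ht⟩ := hsplit.mem_range_of_isRoot hg0 hroot
  have h1 : π (φ a) = π a := by
    have : π (φ a) = π (a ^ r) := Ideal.Quotient.eq.2 (hφ a)
    rw [this, map_pow, ← ht, ← map_pow, ZMod.pow_card]
  apply eq_of_map_eq π G (by rw [hmap]; exact hsep.map) _ _ h1
  · simp [G, ← map_pow, ha]
  · simp [G, ha]

theorem card_eq_of_pow_eq {k : Type*} [CommRing k] [IsDomain k] [Finite k] {r : ℕ}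
    (hr : r.Prime) [CharP k r] (hpow : ∀ x : k, x ^ r = x) : Nat.card k = r := by
  haveI : Fact r.Prime := ⟨hr⟩
  haveI : Fintype k := Fintype.ofFinite _
  rw [Nat.card_eq_fintype_card]
  apply le_antisymm
  · have hdeg : (X ^ r - X : k[X]).natDegree = r := by
      have h1 : (X : k[X]).degree < (X ^ r : k[X]).degree := by
        rw [degree_X_pow, degree_X]
        exact mod_cast hr.one_lt
      rw [natDegree_eq_of_degree_eq (degree_sub_eq_left_of_degree_lt h1), natDegree_X_pow]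
    have hne : (X ^ r - X : k[X]) ≠ 0 :=
      ne_zero_of_natDegree_gt (n := 1) (by rw [hdeg]; exact hr.one_lt)
    have hsub : (Finset.univ : Finset k).val ⊆ (X ^ r - X : k[X]).roots := by
      intro x _
      rw [mem_roots hne]
      simp [hpow x]
    have h1 := card_le_degree_of_subset_roots hsub
    rwa [hdeg, Finset.card_univ] at h1
  · have := Fintype.card_le_of_injective _ (ZMod.castHom (dvd_refl r) k).injective
    rwa [ZMod.card] at this

theorem absNorm_eq_of_pow_eq {N : Type*} [Field N] [NumberField N] {r : ℕ} (hr : r.Prime)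
    (Q : Ideal (𝓞 N)) [Q.IsPrime] (hrQ : (r : 𝓞 N) ∈ Q) (h : ∀ x : 𝓞 N, x - x ^ r ∈ Q) :
    Ideal.absNorm Q = r := by
  have hQ : Q ≠ ⊥ := by
    rintro rfl
    have : (r : 𝓞 N) = 0 := by simpa using hrQ
    exact hr.ne_zero (by exact_mod_cast this)
  haveI : Finite (𝓞 N ⧸ Q) := Ideal.finiteQuotientOfFreeOfNeBot Q hQ
  haveI : CharP (𝓞 N ⧸ Q) r := (CharP.charP_iff_prime_eq_zero hr).2 (by
    rw [← map_natCast (Ideal.Quotient.mk Q)]
    exact Ideal.Quotient.eq_zero_iff_mem.2 hrQ)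
  have hpow : ∀ x : 𝓞 N ⧸ Q, x ^ r = x := by
    intro x
    obtain ⟨y, rfl⟩ := Ideal.Quotient.mk_surjective x
    rw [← map_pow]
    exact (Ideal.Quotient.eq.2 (h y)).symm
  rw [Ideal.absNorm_apply, Submodule.cardQuot_apply]
  exact card_eq_of_pow_eq hr hpow

theorem card_under_eq {N : Type*} [Field N] [NumberField N] {r : ℕ} (hr : r.Prime)
    (Q : Ideal (𝓞 N)) [Q.IsPrime] (hrQ : (r : 𝓞 N) ∈ Q) :
    Nat.card (ℤ ⧸ Q.under ℤ) = r := by
  have h1 : Ideal.span {(r : ℤ)} ≤ Q.under ℤ := by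
    rw [Ideal.span_singleton_le_iff_mem, Ideal.mem_comap]
    simpa using hrQ
  have hmax : (Ideal.span {(r : ℤ)}).IsMaximal :=
    (Ideal.span_singleton_prime (by exact_mod_cast hr.ne_zero)).2
      (Nat.prime_iff_prime_int.1 hr) |>.isMaximal (by
        simpa using hr.ne_zero)
  have h2 : Q.under ℤ = Ideal.span {(r : ℤ)} :=
    (hmax.eq_of_le (Ideal.IsPrime.under ℤ Q).ne_top h1).symm
  rw [h2, Nat.card_congr (Int.quotientSpanNatEquivZMod r).toEquiv, Nat.card_zmod]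

/-! ### The residue field at a prime of norm `r` -/

theorem residue_facts {N₁ : Type*} [Field N₁] [NumberField N₁] {p r u : ℕ} (hp : p.Prime)
    (hr : r.Prime) (hpr : p < r) {ζ γ : N₁} (hζ : IsPrimitiveRoot ζ p) (hγ : γ ^ p = (u : N₁))
    (Q : Ideal (𝓞 N₁)) (hQ : Ideal.absNorm Q = r) :
    (∃ ω : ZMod r, IsPrimitiveRoot ω p) ∧ ∃ b : ZMod r, b ^ p = (u : ZMod r) := by
  haveI : Fact r.Prime := ⟨hr⟩
  rw [Ideal.absNorm_apply, Submodule.cardQuot_apply] at hQ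
  haveI : Finite (𝓞 N₁ ⧸ Q) := Nat.finite_of_card_ne_zero (by rw [hQ]; exact hr.ne_zero)
  haveI : Fintype (𝓞 N₁ ⧸ Q) := Fintype.ofFinite _
  let e : ZMod r ≃+* 𝓞 N₁ ⧸ Q :=
    ZMod.ringEquivOfPrime _ hr (by rw [← Nat.card_eq_fintype_card]; exact hQ)
  let ψ : 𝓞 N₁ →+* ZMod r := (e.symm : 𝓞 N₁ ⧸ Q →+* ZMod r).comp (Ideal.Quotient.mk Q)
  haveI : NeZero p := ⟨hp.ne_zero⟩
  refine ⟨⟨ψ hζ.toInteger, ?_⟩, ?_⟩
  · have h1 : (ψ hζ.toInteger) ^ p = 1 := by
      rw [← map_pow, hζ.toInteger_isPrimitiveRoot.pow_eq_one, map_one]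
    have h2 : ψ hζ.toInteger ≠ 1 := by
      intro h
      have h3 := hζ.toInteger_isPrimitiveRoot.geom_sum_eq_zero hp.one_lt
      have h4 := congrArg ψ h3
      rw [map_sum, map_zero] at h4
      simp only [map_pow, h, one_pow, Finset.sum_const, Finset.card_range, nsmul_eq_mul,
        mul_one] at h4
      rw [ZMod.natCast_eq_zero_iff] at h4
      exact absurd (Nat.le_of_dvd hp.pos h4) (by omega)
    haveI : Fact p.Prime := ⟨hp⟩
    have h5 := orderOf_eq_prime h1 h2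
    have h6 := IsPrimitiveRoot.orderOf (ψ hζ.toInteger)
    rwa [h5] at h6
  · have hint : IsIntegral ℤ γ := by
      refine ⟨X ^ p - C (u : ℤ), monic_X_pow_sub_C _ hp.ne_zero, ?_⟩
      simp [hγ]
    let γ' : 𝓞 N₁ := ⟨γ, hint⟩
    have hγ' : γ' ^ p = (u : 𝓞 N₁) := by
      apply RingOfIntegers.ext
      have h0 : (algebraMap (𝓞 N₁) N₁) γ' = γ := rfl
      simpa [h0] using hγ
    refine ⟨ψ γ', ?_⟩
    rw [← map_pow, hγ', map_natCast]

theorem mod_eq_one_of_primitiveRoot {p r : ℕ} (hp : p.Prime) (hr : r.Prime) {ω : ZMod r}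
    (hω : IsPrimitiveRoot ω p) : r % p = 1 := by
  haveI : Fact r.Prime := ⟨hr⟩
  have h0 : ω ≠ 0 := hω.ne_zero hp.ne_zero
  have h1 := hω.dvd_of_pow_eq_one _ (ZMod.pow_card_sub_one_eq_one h0)
  obtain ⟨t, ht⟩ := h1
  have h2 : r = p * t + 1 := by have := hr.one_lt; omega
  rw [h2, Nat.mul_add_mod, Nat.mod_eq_of_lt hp.one_lt]

/-! ### Main argument -/

theorem finrank_sup_lt {p l l' m : ℕ} (hp : p.Prime) (hl : l.Prime) (hl' : l'.Prime)
    (hne : l ≠ l') {N : Type} [Field N] [NumberField N] {ζ α γ : N} (hζ : IsPrimitiveRoot ζ p)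
    (hα : α ^ p = (l : N)) (hγ : γ ^ p = ((l' * l ^ m : ℕ) : N)) :
    Module.finrank ℚ (ℚ⟮ζ⟯ ⊔ ℚ⟮γ⟯ : IntermediateField ℚ N) < Module.finrank ℚ N := by
  have h1 : Module.finrank ℚ ℚ⟮ζ⟯ = p - 1 := by
    rw [adjoin.finrank (Algebra.IsIntegral.isIntegral ζ), ← cyclotomic_eq_minpoly_rat hζ hp.pos,
      natDegree_cyclotomic, Nat.totient_prime hp]
  have h2 : Module.finrank ℚ ℚ⟮γ⟯ ≤ p := by
    rw [adjoin.finrank (Algebra.IsIntegral.isIntegral γ)]
    have hd : minpoly ℚ γ ∣ X ^ p - C ((l' * l ^ m : ℕ) : ℚ) :=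
      minpoly.dvd _ _ (by simp [hγ])
    have := natDegree_le_of_dvd hd (monic_X_pow_sub_C _ hp.ne_zero).ne_zero
    rwa [natDegree_X_pow_sub_C] at this
  calc Module.finrank ℚ (ℚ⟮ζ⟯ ⊔ ℚ⟮γ⟯ : IntermediateField ℚ N)
      ≤ Module.finrank ℚ ℚ⟮ζ⟯ * Module.finrank ℚ ℚ⟮γ⟯ := finrank_sup_le _ _
    _ ≤ (p - 1) * p := by rw [h1]; exact Nat.mul_le_mul_left _ h2
    _ < p ^ 2 := by
        rw [sq]
        exact Nat.mul_lt_mul_of_pos_right (Nat.sub_lt hp.pos one_pos) hp.pos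
    _ ≤ Module.finrank ℚ N := sq_le_finrank hp hl hl' hne hα hγ

theorem main_abstract (hGL3 : Stmt_GL3) {p l l' m : ℕ} (hp : p.Prime) (hl : l.Prime)
    (hl' : l'.Prime) (hne : l ≠ l') (N : Type) [Field N] [NumberField N] [IsGalois ℚ N]
    {ζ α γ : N} (hζ : IsPrimitiveRoot ζ p) (hα : α ^ p = (l : N))
    (hγ : γ ^ p = ((l' * l ^ m : ℕ) : N))
    (hgen : ∀ σ : N ≃ₐ[ℚ] N, (∀ (x : N) (c : ℕ), (c = 1 ∨ c = l ∨ c = l' * l ^ m) →
      x ^ p = (c : N) → σ x = x) → σ = 1) (B : ℕ) :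
    ∃ r : ℕ, r.Prime ∧ B < r ∧ r % p = 1 ∧
      (∃ b : ZMod r, b ^ p = (l' : ZMod r) * (l : ZMod r) ^ m) ∧
      ¬ ∃ b : ZMod r, b ^ p = (l : ZMod r) := by
  have hu0 : 0 < l' * l ^ m := Nat.mul_pos hl'.pos (pow_pos hl.pos _)
  let N₁ : IntermediateField ℚ N := ℚ⟮ζ⟯ ⊔ ℚ⟮γ⟯
  have hdeg : Module.finrank ℚ N₁ < Module.finrank ℚ N := finrank_sup_lt hp hl hl' hne hζ hα hγ
  obtain ⟨r, hr, hBr, ⟨Q₁, hQ₁p, hQ₁⟩, hno⟩ := hGL3 N₁ N hdeg (B + p + l + l' * l ^ m)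
  haveI : Fact r.Prime := ⟨hr⟩
  have hζmem : ζ ∈ N₁ := (le_sup_left : ℚ⟮ζ⟯ ≤ N₁) (mem_adjoin_simple_self ℚ ζ)
  have hγmem : γ ∈ N₁ := (le_sup_right : ℚ⟮γ⟯ ≤ N₁) (mem_adjoin_simple_self ℚ γ)
  have hζ₁ : IsPrimitiveRoot (⟨ζ, hζmem⟩ : N₁) p :=
    IsPrimitiveRoot.of_map_of_injective (f := algebraMap N₁ N) hζ (algebraMap N₁ N).injective
  have hγ₁ : (⟨γ, hγmem⟩ : N₁) ^ p = ((l' * l ^ m : ℕ) : N₁) := Subtype.ext (by simpa using hγ)
  obtain ⟨⟨ω, hω⟩, b, hb⟩ := residue_facts hp hr (by omega) hζ₁ hγ₁ Q₁ hQ₁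
  refine ⟨r, hr, by omega, mod_eq_one_of_primitiveRoot hp hr hω,
    ⟨b, by rw [hb]; push_cast; rfl⟩, ?_⟩
  rintro ⟨b₀, hb₀⟩
  apply hno
  have hmax : (Ideal.span {(r : ℤ)}).IsMaximal :=
    (Ideal.span_singleton_prime (by exact_mod_cast hr.ne_zero)).2
      (Nat.prime_iff_prime_int.1 hr) |>.isMaximal (by
        simpa using hr.ne_zero)
  obtain ⟨Q, hQmax, hQover⟩ :=
    Ideal.exists_maximal_ideal_liesOver_of_isIntegral (S := 𝓞 N) (Ideal.span {(r : ℤ)})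
  haveI := hQmax.isPrime
  have hrQ : (r : 𝓞 N) ∈ Q := by
    have h1 : (r : ℤ) ∈ Q.under ℤ := by
      rw [← hQover.over]
      exact Ideal.mem_span_singleton_self _
    simpa [Ideal.mem_comap] using h1
  have hQ0 : Q ≠ ⊥ := by
    rintro rfl
    have : (r : 𝓞 N) = 0 := by simpa using hrQ
    exact hr.ne_zero (by exact_mod_cast this)
  haveI : Finite (𝓞 N ⧸ Q) := Ideal.finiteQuotientOfFreeOfNeBot Q hQ0
  obtain ⟨σ, hσ⟩ := IsArithFrobAt.exists_of_isInvariant ℤ (N ≃ₐ[ℚ] N) Q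
  have hσ' : ∀ x : 𝓞 N, σ • x - x ^ r ∈ Q := by
    intro x
    have := hσ x
    rw [card_under_eq hr Q hrQ] at this
    exact this
  have hcast : ∀ c : ℕ, 0 < c → c < r → (c : ZMod r) ≠ 0 := by
    intro c hc0 hcr h
    rw [ZMod.natCast_eq_zero_iff] at h
    exact absurd (Nat.le_of_dvd hc0 h) (by omega)
  have hσ1 : σ = 1 := by
    apply hgen
    intro x c hc hx
    have hcr : (c : ZMod r) ≠ 0 := by
      apply hcast
      · rcases hc with rfl | rfl | rfl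
        · exact one_pos
        · exact hl.pos
        · exact hu0
      · rcases hc with rfl | rfl | rfl
        · exact hr.one_lt
        · omega
        · omega
    obtain ⟨b', hb'⟩ : ∃ b' : ZMod r, b' ^ p = (c : ZMod r) := by
      rcases hc with rfl | rfl | rfl
      · exact ⟨1, by simp⟩
      · exact ⟨b₀, hb₀⟩
      · exact ⟨b, hb⟩
    have hint : IsIntegral ℤ x :=
      ⟨X ^ p - C (c : ℤ), monic_X_pow_sub_C _ hp.ne_zero, by simp [hx]⟩
    let a : 𝓞 N := ⟨x, hint⟩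
    have ha : a ^ p = (c : 𝓞 N) := by
      apply RingOfIntegers.ext
      have h0 : (algebraMap (𝓞 N) N) a = x := rfl
      simpa [h0] using hx
    have := frob_fix hr Q hrQ (MulSemiringAction.toRingHom (N ≃ₐ[ℚ] N) (𝓞 N) σ) hσ' hω
      (hcast p hp.pos (by omega)) hcr hb' ha
    exact congrArg (fun y : 𝓞 N => (y : N)) this
  refine ⟨Q, inferInstance, absNorm_eq_of_pow_eq hr Q hrQ (fun x => ?_)⟩
  have := hσ' x
  rwa [hσ1, one_smul] at this

theorem normal_splittingField {K : Type*} [Field K] (f : K[X]) : Normal K f.SplittingField :=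
  Normal.of_isSplittingField f

theorem exists_field {p : ℕ} (hp : p.Prime) (l u : ℕ) :
    ∃ (N : Type) (_ : Field N) (_ : NumberField N) (_ : IsGalois ℚ N) (ζ α γ : N),
      IsPrimitiveRoot ζ p ∧ α ^ p = (l : N) ∧ γ ^ p = (u : N) ∧
      ∀ σ : N ≃ₐ[ℚ] N, (∀ (x : N) (c : ℕ), (c = 1 ∨ c = l ∨ c = u) →
        x ^ p = (c : N) → σ x = x) → σ = 1 := by
  let f : ℚ[X] := (X ^ p - C ((1 : ℕ) : ℚ)) * (X ^ p - C ((l : ℕ) : ℚ)) * (X ^ p - C ((u : ℕ) : ℚ))
  have hmonic : ∀ c : ℕ, (X ^ p - C ((c : ℕ) : ℚ)).Monic := fun c => monic_X_pow_sub_C _ hp.ne_zero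
  have hf0 : f ≠ 0 := (((hmonic 1).mul (hmonic l)).mul (hmonic u)).ne_zero
  haveI : CharZero f.SplittingField :=
    charZero_of_injective_algebraMap (algebraMap ℚ f.SplittingField).injective
  haveI : NumberField f.SplittingField :=
    { to_charZero := inferInstance
      to_finiteDimensional := inferInstance }
  haveI : IsGalois ℚ f.SplittingField :=
    { to_isSeparable := inferInstance
      to_normal := normal_splittingField f }
  have hsplit : (f.map (algebraMap ℚ f.SplittingField)).Splits := SplittingField.splits f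
  have hfac : ∀ g : ℚ[X], g ∣ f → g.degree ≠ 0 → ∃ x : f.SplittingField, aeval x g = 0 := by
    intro g hg hdeg
    have h1 : (g.map (algebraMap ℚ f.SplittingField)).Splits :=
      hsplit.of_dvd (map_ne_zero hf0) (Polynomial.map_dvd _ hg)
    obtain ⟨x, hx⟩ := h1.exists_eval_eq_zero (by rwa [degree_map])
    exact ⟨x, by rwa [aeval_def, eval₂_eq_eval_map]⟩
  have hdegc : ∀ c : ℕ, (X ^ p - C ((c : ℕ) : ℚ)).degree ≠ 0 := by
    intro c
    rw [degree_X_pow_sub_C hp.pos]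
    exact_mod_cast hp.ne_zero
  obtain ⟨ζ, hζ⟩ := hfac (cyclotomic p ℚ)
    (((cyclotomic.dvd_X_pow_sub_one p ℚ).trans (by simp)).trans
      ((Dvd.intro _ rfl).trans (Dvd.intro _ rfl)))
    (by
      rw [degree_cyclotomic, Nat.totient_prime hp]
      have := hp.two_le
      exact_mod_cast (by omega : p - 1 ≠ 0))
  obtain ⟨α, hα⟩ := hfac _ ((Dvd.intro_left _ rfl).trans (Dvd.intro _ rfl)) (hdegc l)
  obtain ⟨γ, hγ⟩ := hfac _ (Dvd.intro_left _ rfl) (hdegc u)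
  refine ⟨f.SplittingField, inferInstance, inferInstance, inferInstance, ζ, α, γ, ?_, ?_, ?_, ?_⟩
  · haveI : NeZero ((p : ℕ) : f.SplittingField) := ⟨by exact_mod_cast hp.ne_zero⟩
    rw [← isRoot_cyclotomic_iff, IsRoot.def, ← map_cyclotomic p (algebraMap ℚ f.SplittingField),
      eval_map, ← aeval_def]
    exact hζ
  · simpa [sub_eq_zero] using hα
  · simpa [sub_eq_zero] using hγ
  · intro σ hσ
    apply Gal.ext f
    intro x hx
    rw [mem_rootSet] at hx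
    have hx2 := hx.2
    simp only [f, map_mul, mul_eq_zero, or_assoc] at hx2
    rcases hx2 with h | h | h
    · exact hσ x 1 (Or.inl rfl) (by simpa [sub_eq_zero] using h)
    · exact hσ x l (Or.inr (Or.inl rfl)) (by simpa [sub_eq_zero] using h)
    · exact hσ x u (Or.inr (Or.inr rfl)) (by simpa [sub_eq_zero] using h)

end KU

/-- KU : the auxiliary prime `r`, from (GL3). -/
theorem auxPrime_of_GL3 (hGL3 : Stmt_GL3) : Stmt_AuxPrime := by
  intro p l l' k hp _ hl hl' hne _ _ _ _ B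
  obtain ⟨N, _, _, _, ζ, α, γ, hζ, hα, hγ, hgen⟩ := KU.exists_field hp l (l' * l ^ (p - k))
  exact KU.main_abstract hGL3 hp hl hl' hne N hζ hα hγ hgen B

end Fermat.Agent.S14
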