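/-
S14 team interface, part 2 (architect: helper14): class group API, Frobenius API,
the comparison lemma (CR) and the endgame.
-/
import Fermat.Agent.S14.Interface

set_option autoImplicit false

namespace Fermat.Agent.S14

open NumberField
open scoped Pointwise

/-! ## 4. Class group API -/

/-- API0. Descent of a multiplicative function on a multiplicative set `𝕊` of nonzero ideals
meeting every class, trivial on the principal ideals of `𝕊`, to the class group. -/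
def Stmt_ClassHom : Prop :=
  ∀ (T : Type) [Field T] [NumberField T] (G : Type) [CommGroup G]
    (𝕊 : Set (Ideal (𝓞 T))) (F : Ideal (𝓞 T) → G),
    (∀ I ∈ 𝕊, I ≠ ⊥) → (∀ I ∈ 𝕊, ∀ J ∈ 𝕊, I * J ∈ 𝕊) → (∀ c, ∃ I ∈ 𝕊, cls I = c) →
    (∀ I ∈ 𝕊, ∀ J ∈ 𝕊, F (I * J) = F I * F J) → (∀ I ∈ 𝕊, I.IsPrincipal → F I = 1) →
    ∃ Ft : ClassGroup (𝓞 T) →* G, ∀ I ∈ 𝕊, Ft (cls I) = F I

/-- API1. Moving lemma: every class contains an integral ideal of norm prime to `r`. -/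
def Stmt_Moving : Prop :=
  ∀ (T : Type) [Field T] [NumberField T] (r : ℕ), r ≠ 0 → ∀ c : ClassGroup (𝓞 T),
    ∃ I : Ideal (𝓞 T), (Ideal.absNorm I).Coprime r ∧ cls I = c

/-- API2. The norm map on class groups. -/
def Stmt_ClNorm : Prop :=
  ∀ (K T : Type) [Field K] [NumberField K] [Field T] [NumberField T] [Algebra K T],
    ∃ Nb : ClassGroup (𝓞 T) →* ClassGroup (𝓞 K),
      ∀ I : Ideal (𝓞 T), I ≠ ⊥ → Nb (cls I) = cls (Ideal.relNorm (𝓞 K) I)

/-- API3. Basic facts on `cls` and `normCl`. -/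
def Stmt_ClsBasic : Prop :=
  ∀ (K : Type) [Field K] [NumberField K],
    (∀ I J : Ideal (𝓞 K), I ≠ ⊥ → J ≠ ⊥ → cls (I * J) = cls I * cls J) ∧
    (∀ I : Ideal (𝓞 K), I ≠ ⊥ → (cls I = 1 ↔ I.IsPrincipal)) ∧
    (∀ c : ClassGroup (𝓞 K), ∃ I : Ideal (𝓞 K), I ≠ ⊥ ∧ cls I = c) ∧
    (∀ Y : Subgroup (ClassGroup (𝓞 K)),
      (∀ q : Ideal (𝓞 K), q.IsPrime → q ≠ ⊥ → cls q ∈ Y) → Y = ⊤) ∧
    (∀ (L : Type) [Field L] [NumberField L] [Algebra K L] (I : Ideal (𝓞 K)), I ≠ ⊥ →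
      cls I ^ Module.finrank K L ∈ normCl K L) ∧
    (∀ (L : Type) [Field L] [NumberField L] [Algebra K L] (J : Ideal (𝓞 L)), J ≠ ⊥ →
      cls (Ideal.relNorm (𝓞 K) J) ∈ normCl K L)

/-! ## 5. Frobenius API (for `IsFrob`, see part 1) -/

/-- FR1. Existence of Frobenius elements, at a prescribed prime above. -/
def Stmt_FrobExists : Prop :=
  ∀ (K L : Type) [Field K] [NumberField K] [Field L] [NumberField L] [Algebra K L] [IsGalois K L]
    (lam : Ideal (𝓞 K)) (P : Ideal (𝓞 L)), P.IsPrime → P ≠ ⊥ → P.LiesOver lam →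
    ∃ h : L ≃ₐ[K] L, ∀ x : 𝓞 L, h • x - x ^ Ideal.absNorm lam ∈ P

/-- FR1'. There is a prime above every prime. -/
def Stmt_PrimeAbove : Prop :=
  ∀ (K L : Type) [Field K] [NumberField K] [Field L] [NumberField L] [Algebra K L]
    (lam : Ideal (𝓞 K)), lam.IsPrime → lam ≠ ⊥ →
    ∃ P : Ideal (𝓞 L), P.IsPrime ∧ P ≠ ⊥ ∧ P.LiesOver lam

/-- FR2. If all `x ∈ 𝓞 T` satisfy `x ^ N(lam) ≡ x` modulo a prime `P` above `lam`, then `P` has
relative degree one: same absolute norm, and relative norm `lam`. -/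
def Stmt_DegOne : Prop :=
  ∀ (K T : Type) [Field K] [NumberField K] [Field T] [NumberField T] [Algebra K T]
    (lam : Ideal (𝓞 K)) (P : Ideal (𝓞 T)), lam.IsPrime → lam ≠ ⊥ → P.IsPrime → P.LiesOver lam →
    ((∀ x : 𝓞 T, x ^ Ideal.absNorm lam - x ∈ P) ↔ Ideal.absNorm P = Ideal.absNorm lam) ∧
    (Ideal.absNorm P = Ideal.absNorm lam → Ideal.relNorm (𝓞 K) P = lam)

/-- FR3. Conjugation of Frobenius elements by `Gal(L/ℚ)`. -/
def Stmt_FrobConj : Prop :=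
  ∀ (K L : Type) [Field K] [NumberField K] [Field L] [NumberField L] [Algebra K L]
    (lam : Ideal (𝓞 K)) (h h' : L ≃ₐ[K] L) (g : L ≃ₐ[ℚ] L) (gK : K ≃ₐ[ℚ] K),
    (∀ z : K, algebraMap K L (gK z) = g (algebraMap K L z)) →
    (∀ x : L, h' x = g (h (g.symm x))) →
    IsFrob K L lam h → IsFrob K L (gK • lam) h'

/-- FR4. In the situation `NFData`, a prime of `K` not above `p` with nontrivial Frobenius in
`L/K` has degree one over `ℚ`. -/
def Stmt_InertDegOne : Prop :=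
  ∀ (p : ℕ) (K L : Type) [Field K] [NumberField K] [Field L] [NumberField L] [Algebra K L],
    NFData p K L → ∀ (lam : Ideal (𝓞 K)) (h : L ≃ₐ[K] L), lam.IsPrime → lam ≠ ⊥ →
    (p : 𝓞 K) ∉ lam → IsFrob K L lam h → h ≠ 1 → (Ideal.absNorm lam).Prime

/-- FR5. Infinitely many degree one primes of `K` which do not split in `L`. -/
def Stmt_InertExists : Prop :=
  ∀ (K L : Type) [Field K] [NumberField K] [Field L] [NumberField L] [Algebra K L]
    [IsGalois ℚ L], 1 < Module.finrank K L → ∀ B : ℕ,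
    ∃ lam : Ideal (𝓞 K), lam.IsPrime ∧ (Ideal.absNorm lam).Prime ∧ B < Ideal.absNorm lam ∧
      ¬ IsFrob K L lam 1

/-! ## 6. The comparison lemma (CR) -/

/-- The fields `K ⊆ T ⊆ Ω ⊇ L` produced by crossing `L/K` with the degree `p` subfield of
`ℚ(ζ_r)`; only the properties used by `Stmt_CRcore` are recorded. -/
structure CrossFields (p r : ℕ) (K L T Ω : Type) [Field K] [NumberField K] [Field L]
    [NumberField L] [Field T] [NumberField T] [Field Ω] [NumberField Ω] [Algebra K L] [Algebra K T]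
    [Algebra K Ω] [Algebra L Ω] [Algebra T Ω] (lam lam' : Ideal (𝓞 K)) : Prop where
  towerL : IsScalarTower K L Ω
  towerT : IsScalarTower K T Ω
  deg_le : Module.finrank T Ω ≤ p
  norm_pow : ∀ y : 𝓞 T, ∃ b : ZMod r, b ^ p = ((Algebra.norm ℤ y : ℤ) : ZMod r)
  absNorm_pow : ∀ Q : Ideal (𝓞 Ω), Q.IsPrime → Q ≠ ⊥ → (r : 𝓞 Ω) ∉ Q →
    ∃ b : ZMod r, b ^ p = ((Ideal.absNorm Q : ℕ) : ZMod r)
  split : ∃ P : Ideal (𝓞 T), P.IsPrime ∧ P.LiesOver lam ∧ Ideal.absNorm P = Ideal.absNorm lam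
  split' : ∃ P : Ideal (𝓞 T), P.IsPrime ∧ P.LiesOver lam' ∧ Ideal.absNorm P = Ideal.absNorm lam'

/-- CR-A. The abstract core of the comparison lemma (uses `Stmt_U`). -/
def Stmt_CRcore : Prop :=
  ∀ (p r k : ℕ) (K L T Ω : Type) [Field K] [NumberField K] [Field L]
    [NumberField L] [Field T] [NumberField T] [Field Ω] [NumberField Ω] [Algebra K L] [Algebra K T]
    [Algebra K Ω] [Algebra L Ω] [Algebra T Ω] (lam lam' : Ideal (𝓞 K)),
    p.Prime → p ≠ 2 → r.Prime → lam.IsPrime → lam ≠ ⊥ → lam'.IsPrime → lam' ≠ ⊥ →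
    CrossFields p r K L T Ω lam lam' →
    (Ideal.absNorm lam).Coprime r → (Ideal.absNorm lam').Coprime r →
    (∃ b : ZMod r, b ^ p = (Ideal.absNorm lam' : ZMod r) * (Ideal.absNorm lam : ZMod r) ^ k) →
    (¬ ∃ b : ZMod r, b ^ p = (Ideal.absNorm lam : ZMod r)) →
    cls lam' * cls lam ^ k ∈ normCl K L

/-- CR-B. `L(ζ_r)/L` is totally ramified above `r` when `r` is unramified in `L`. -/
def Stmt_TotRam : Prop :=
  ∀ (r : ℕ) (L M : Type) [Field L] [NumberField L] [Field M] [NumberField M] [Algebra L M]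
    [IsCyclotomicExtension {r} L M], r.Prime → ¬ (r : ℤ) ∣ NumberField.discr L →
    Module.finrank L M = r - 1 ∧
    ∀ (Q : Ideal (𝓞 M)) (g : M ≃ₐ[L] M), Q.IsPrime → (r : 𝓞 M) ∈ Q → ∀ x : 𝓞 M, g • x - x ∈ Q

/-- CR-C. Construction of the crossed fields. -/
def Stmt_Cross : Prop :=
  ∀ (p r k : ℕ) (K L : Type) [Field K] [NumberField K] [Field L] [NumberField L] [Algebra K L],
    NFData p K L → ∀ (lam lam' : Ideal (𝓞 K)) (h h' : L ≃ₐ[K] L),
    lam.IsPrime → lam ≠ ⊥ → lam'.IsPrime → lam' ≠ ⊥ →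
    IsFrob K L lam h → IsFrob K L lam' h' → h ≠ 1 → h' * h ^ k = 1 →
    r.Prime → r % p = 1 → ¬ (r : ℤ) ∣ NumberField.discr L →
    (Ideal.absNorm lam).Coprime r → (Ideal.absNorm lam').Coprime r →
    (∃ b : ZMod r, b ^ p = (Ideal.absNorm lam' : ZMod r) * (Ideal.absNorm lam : ZMod r) ^ k) →
    ∃ (T Ω : Type) (_ : Field T) (_ : NumberField T) (_ : Field Ω) (_ : NumberField Ω)
      (_ : Algebra K T) (_ : Algebra K Ω) (_ : Algebra L Ω) (_ : Algebra T Ω),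
      CrossFields p r K L T Ω lam lam'

/-! ### Pieces of CR-C -/

/-- CRC1a. A prime of `M` whose Frobenius (over `lam`) fixes the subfield `E` lies over a prime
of `E` of relative degree one over `lam`. -/
def Stmt_SplitOfFrobFix : Prop :=
  ∀ (K E M : Type) [Field K] [NumberField K] [Field E] [NumberField E] [Field M] [NumberField M]
    [Algebra K E] [Algebra E M] [Algebra K M] [IsScalarTower K E M]
    (lam : Ideal (𝓞 K)) (Q : Ideal (𝓞 M)) (φ : M ≃ₐ[E] M),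
    lam.IsPrime → lam ≠ ⊥ → Q.IsPrime → Q.LiesOver lam →
    (∀ x : 𝓞 M, φ • x - x ^ Ideal.absNorm lam ∈ Q) →
    ∃ P : Ideal (𝓞 E), P.IsPrime ∧ P.LiesOver lam ∧ Ideal.absNorm P = Ideal.absNorm lam

/-- CRC1b. If `Gal(M/Ω)` acts on `ζ_r` through `p`-th powers mod `r`, the absolute norm of every
prime of `Ω` not above `r` is a `p`-th power mod `r`. -/
def Stmt_AbsNormPow : Prop :=
  ∀ (p r : ℕ) (Ω M : Type) [Field Ω] [NumberField Ω] [Field M] [NumberField M] [Algebra Ω M]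
    [IsGalois Ω M] (ζ : M), r.Prime → IsPrimitiveRoot ζ r →
    (∀ w : M ≃ₐ[Ω] M, ∃ a : ℕ, w ζ = ζ ^ a ∧ ∃ b : ZMod r, b ^ p = (a : ZMod r)) →
    ∀ Q : Ideal (𝓞 Ω), Q.IsPrime → Q ≠ ⊥ → (r : 𝓞 Ω) ∉ Q →
      ∃ b : ZMod r, b ^ p = ((Ideal.absNorm Q : ℕ) : ZMod r)

/-- CRC2. If `T/K` is Galois of degree `p`, `r` splits completely in the Galois field `K/ℚ` and
all of `Gal(T/K)` is inertia at some prime above each prime of `K` above `r`, then norms from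
`𝓞 T` to `ℤ` are `p`-th powers mod `r`. -/
def Stmt_NormPow : Prop :=
  ∀ (p r : ℕ) (K T : Type) [Field K] [NumberField K] [Field T] [NumberField T] [Algebra K T]
    [IsGalois ℚ K] [IsGalois K T], r.Prime → Module.finrank K T = p →
    (∀ q : Ideal (𝓞 K), q.IsPrime → (r : 𝓞 K) ∈ q → Ideal.absNorm q = r ∧
      ∃ Q : Ideal (𝓞 T), Q.IsPrime ∧ Q.LiesOver q ∧ ∀ (g : T ≃ₐ[K] T) (x : 𝓞 T), g • x - x ∈ Q) →
    ∀ y : 𝓞 T, ∃ b : ZMod r, b ^ p = ((Algebra.norm ℤ y : ℤ) : ZMod r)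

/-- CRC2'. Primes `r ≡ 1 mod p` split completely in `ℚ(ζ_p)`. -/
def Stmt_CycSplit : Prop :=
  ∀ (p r : ℕ) (K : Type) [Field K] [NumberField K] [IsCyclotomicExtension {p} ℚ K],
    p.Prime → r.Prime → r % p = 1 → ∀ q : Ideal (𝓞 K), q.IsPrime → (r : 𝓞 K) ∈ q →
    Ideal.absNorm q = r

/-- CRC3. Galois structure of `M = L(ζ_r)` over `K`: `Gal(M/K) = Gal(L/K) × (ℤ/r)ˣ`. -/
def Stmt_CrossGal : Prop :=
  ∀ (r : ℕ) (K L M : Type) [Field K] [NumberField K] [Field L] [NumberField L]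
    [Field M] [NumberField M] [Algebra K L] [Algebra L M] [Algebra K M] [IsScalarTower K L M]
    [IsGalois K L] [IsCyclotomicExtension {r} L M] (ζ : M), r.Prime → IsPrimitiveRoot ζ r →
    Module.finrank L M = r - 1 →
    IsGalois K M ∧
    (∀ g g' : M ≃ₐ[K] M, (∀ x : L, g (algebraMap L M x) = g' (algebraMap L M x)) →
      g ζ = g' ζ → g = g') ∧
    (∀ g : M ≃ₐ[K] M, (∃ h : L ≃ₐ[K] L, ∀ x : L, g (algebraMap L M x) = algebraMap L M (h x)) ∧
      ∃ a : ℕ, a.Coprime r ∧ g ζ = ζ ^ a) ∧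
    (∀ (h : L ≃ₐ[K] L) (a : ℕ), a.Coprime r →
      ∃ g : M ≃ₐ[K] M, (∀ x : L, g (algebraMap L M x) = algebraMap L M (h x)) ∧ g ζ = ζ ^ a)

/-- (CR), final form (replaces `Stmt_CR` of part 1: primes above `p` are excluded). -/
def Stmt_CR2 : Prop :=
  ∀ (p : ℕ) (K L : Type) [Field K] [NumberField K] [Field L] [NumberField L] [Algebra K L],
    NFData p K L → ∀ (lam lam' : Ideal (𝓞 K)) (h h' : L ≃ₐ[K] L) (k : ℕ),
    lam.IsPrime → lam ≠ ⊥ → lam'.IsPrime → lam' ≠ ⊥ → (p : 𝓞 K) ∉ lam → (p : 𝓞 K) ∉ lam' →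
    IsFrob K L lam h → IsFrob K L lam' h' → h ≠ 1 → h' ≠ 1 → h' = h ^ k →
    Ideal.absNorm lam ≠ Ideal.absNorm lam' →
    cls lam' * (cls lam ^ k)⁻¹ ∈ normCl K L

end Fermat.Agent.S14
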