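/-
S14 package FR (helper65): basic Frobenius API: FrobExists, PrimeAbove, DegOne, FrobConj + corollaries.
-/
import Fermat.Agent.S14.Interface2

set_option autoImplicit false

namespace Fermat.Agent.S14

open NumberField
open scoped Pointwise

theorem frobExists : Stmt_FrobExists := by
  intro K L _ _ _ _ _ _ lam P hP hP0 hlo
  have := hP
  have : Finite (𝓞 L ⧸ P) := Ideal.finiteQuotientOfFreeOfNeBot P hP0
  obtain ⟨σ, hσ⟩ := IsArithFrobAt.exists_of_isInvariant (𝓞 K) (L ≃ₐ[K] L) P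
  refine ⟨σ, fun x => ?_⟩
  have h1 := hσ x
  have h2 : P.under (𝓞 K) = lam := hlo.over.symm
  rw [h2] at h1
  exact h1

/-- A prime lying over a nonzero ideal is nonzero. -/
lemma FR_ne_bot_of_liesOver {K L : Type} [Field K] [NumberField K] [Field L] [NumberField L]
    [Algebra K L] {lam : Ideal (𝓞 K)} {P : Ideal (𝓞 L)} (hlam : lam ≠ ⊥) (hlo : P.LiesOver lam) :
    P ≠ ⊥ := by
  rintro rfl
  apply hlam
  rw [hlo.over]
  exact Ideal.under_bot (𝓞 K) (𝓞 L)

theorem primeAbove : Stmt_PrimeAbove := by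
  intro K L _ _ _ _ _ lam hlam hlam0
  have := hlam
  obtain ⟨⟨Q, hQ1, hQ2⟩⟩ := Ideal.nonempty_primesOver (S := 𝓞 L) lam
  exact ⟨Q, hQ1, FR_ne_bot_of_liesOver hlam0 hQ2, hQ2⟩

/-- `N(P) = N(lam) ^ f`. -/
lemma FR_absNorm_eq_pow {K T : Type} [Field K] [NumberField K] [Field T] [NumberField T]
    [Algebra K T] {lam : Ideal (𝓞 K)} {P : Ideal (𝓞 T)} (hlam : lam.IsPrime) (hlam0 : lam ≠ ⊥)
    (hP : P.IsPrime) (hlo : P.LiesOver lam) :
    Ideal.relNorm (𝓞 K) P = lam ^ P.inertiaDeg (𝓞 K) ∧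
    Ideal.absNorm P = Ideal.absNorm lam ^ P.inertiaDeg (𝓞 K) := by
  have hP0 := FR_ne_bot_of_liesOver hlam0 hlo
  have : lam.IsMaximal := hlam.isMaximal hlam0
  have : P.IsMaximal := hP.isMaximal hP0
  have h1 := Ideal.relNorm_eq_pow_of_isMaximal P lam
  refine ⟨h1, ?_⟩
  rw [← Ideal.absNorm_relNorm (R := 𝓞 K), h1, map_pow]

lemma FR_two_le_absNorm {K : Type} [Field K] [NumberField K] {q : Ideal (𝓞 K)} (hq : q.IsPrime)
    (hq0 : q ≠ ⊥) : 2 ≤ Ideal.absNorm q := by
  have h0 : Ideal.absNorm q ≠ 0 := fun h => hq0 (Ideal.absNorm_eq_zero_iff.mp h)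
  have h1 : Ideal.absNorm q ≠ 1 := fun h => hq.ne_top (Ideal.absNorm_eq_one_iff.mp h)
  omega

theorem degOne : Stmt_DegOne := by
  intro K T _ _ _ _ _ lam P hlam hlam0 hP hlo
  have hP0 := FR_ne_bot_of_liesOver hlam0 hlo
  obtain ⟨hrel, habs⟩ := FR_absNorm_eq_pow hlam hlam0 hP hlo
  have hq := FR_two_le_absNorm hlam hlam0
  have hQ := FR_two_le_absNorm hP hP0
  set q := Ideal.absNorm lam with hqdef
  set f := P.inertiaDeg (𝓞 K) with hf
  have hPm : P.IsMaximal := hP.isMaximal hP0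
  let : Field (𝓞 T ⧸ P) := Ideal.Quotient.field P
  have hfin : Finite (𝓞 T ⧸ P) := Ideal.finiteQuotientOfFreeOfNeBot P hP0
  let : Fintype (𝓞 T ⧸ P) := Fintype.ofFinite _
  have hcard : Fintype.card (𝓞 T ⧸ P) = Ideal.absNorm P := by
    rw [← Nat.card_eq_fintype_card]; rfl
  have hf1 : Ideal.absNorm P = q → f = 1 := by
    intro h
    rw [habs] at h
    exact Nat.pow_right_injective hq (by simpa using h)
  refine ⟨⟨fun h => ?_, fun h x => ?_⟩, fun h => ?_⟩
  · -- all elements are roots of `X ^ q - X`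
    have hroots : (Finset.univ : Finset (𝓞 T ⧸ P)).val ⊆
        (Polynomial.X ^ q - Polynomial.X : Polynomial (𝓞 T ⧸ P)).roots := by
      intro y _
      obtain ⟨x, rfl⟩ := Ideal.Quotient.mk_surjective y
      rw [Polynomial.mem_roots (FiniteField.X_pow_card_sub_X_ne_zero _ (by omega))]
      simp only [Polynomial.IsRoot.def, Polynomial.eval_sub, Polynomial.eval_pow,
        Polynomial.eval_X]
      rw [← map_pow, ← map_sub]
      exact Ideal.Quotient.eq_zero_iff_mem.mpr (h x)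
    have hle := Polynomial.card_le_degree_of_subset_roots hroots
    rw [FiniteField.X_pow_card_sub_X_natDegree_eq _ (by omega), Finset.card_univ, hcard] at hle
    have hf0 : f ≠ 0 := by
      intro h0
      rw [habs, h0, pow_zero] at hQ
      omega
    have hge : q ≤ Ideal.absNorm P := by
      rw [habs]
      exact Nat.le_self_pow hf0 q
    omega
  · rw [← Ideal.Quotient.eq_zero_iff_mem, map_sub, map_pow, ← h, ← hcard, FiniteField.pow_card,
      sub_self]
  · rw [hrel, hf1 h, pow_one]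

/-- coercion of the Galois action on the ring of integers -/
lemma FR_coe_smul {F L : Type} [Field F] [Field L] [Algebra F L] (g : L ≃ₐ[F] L) (x : 𝓞 L) :
    ((g • x : 𝓞 L) : L) = g (x : L) := rfl

lemma FR_absNorm_smul {K : Type} [Field K] [NumberField K] (g : K ≃ₐ[ℚ] K) (I : Ideal (𝓞 K)) :
    Ideal.absNorm (g • I) = Ideal.absNorm I := by
  have e : (𝓞 K ⧸ I) ≃+* (𝓞 K ⧸ (g • I)) :=
    Ideal.quotientEquiv I (g • I) (MulSemiringAction.toRingEquiv _ (𝓞 K) g) rfl
  exact (Nat.card_congr e.toEquiv).symm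

theorem frobConj : Stmt_FrobConj := by
  intro K L _ _ _ _ _ lam h h' g gK hcomp hconj hF
  obtain ⟨P, hP, hlo, hfr⟩ := hF
  have hcomp' : ∀ z : 𝓞 K, algebraMap (𝓞 K) (𝓞 L) (gK⁻¹ • z) = g⁻¹ • algebraMap (𝓞 K) (𝓞 L) z := by
    intro z
    apply RingOfIntegers.ext
    have h1 := hcomp (gK⁻¹ (z : K))
    have h2 : gK (gK⁻¹ (z : K)) = z := by
      change (gK * gK⁻¹) (z : K) = z
      simp
    rw [h2] at h1
    change algebraMap K L (gK⁻¹ (z : K)) = g⁻¹ (algebraMap K L (z : K))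
    rw [h1]
    change _ = (g⁻¹ * g) _
    simp
  refine ⟨g • P, ?_, ?_, ?_⟩
  · rw [Ideal.pointwise_smul_eq_comap]
    exact Ideal.comap_isPrime _ _
  · constructor
    ext z
    rw [Ideal.mem_comap, Ideal.mem_pointwise_smul_iff_inv_smul_mem,
      Ideal.mem_pointwise_smul_iff_inv_smul_mem, ← hcomp', hlo.over, Ideal.mem_comap]
  · intro x
    rw [FR_absNorm_smul, Ideal.mem_pointwise_smul_iff_inv_smul_mem]
    have h1 := hfr (g⁻¹ • x)
    have h2 : g⁻¹ • (h' • x - x ^ Ideal.absNorm lam)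
        = h • (g⁻¹ • x) - (g⁻¹ • x) ^ Ideal.absNorm lam := by
      rw [smul_sub, smul_pow']
      congr 1
      apply RingOfIntegers.ext
      change g⁻¹ (h' (x : L)) = h (g⁻¹ (x : L))
      rw [hconj]
      change (g⁻¹ * g) _ = _
      simp
    rw [h2]
    exact h1


/-! ### Convenient corollaries -/

/-- Two "Frobenius-like" elements at the same maximal ideal are equal if inertia is trivial. -/
theorem FR_frob_unique {K L : Type} [Field K] [Field L] [Algebra K L]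
    (hT : TrivialInertia K L) {P : Ideal (𝓞 L)} (hP : P.IsMaximal) {n : ℕ} {h h' : L ≃ₐ[K] L}
    (hh : ∀ x : 𝓞 L, h • x - x ^ n ∈ P) (hh' : ∀ x : 𝓞 L, h' • x - x ^ n ∈ P) : h = h' := by
  have h1 : h * h'⁻¹ = 1 := by
    apply hT P hP
    intro x
    have h2 := sub_mem (hh (h'⁻¹ • x)) (hh' (h'⁻¹ • x))
    simpa [mul_smul] using h2
  exact mul_inv_eq_one.mp h1

/-- Every nonzero prime has a Frobenius element in a Galois extension. -/
theorem FR_exists_isFrob {K L : Type} [Field K] [NumberField K] [Field L] [NumberField L]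
    [Algebra K L] [IsGalois K L] {lam : Ideal (𝓞 K)} (hlam : lam.IsPrime) (hlam0 : lam ≠ ⊥) :
    ∃ h : L ≃ₐ[K] L, IsFrob K L lam h := by
  obtain ⟨P, hP, hP0, hlo⟩ := primeAbove K L lam hlam hlam0
  obtain ⟨h, hh⟩ := frobExists K L lam P hP hP0 hlo
  exact ⟨h, P, hP, hlo, hh⟩

/-- Conjugating a Frobenius element by `τ ∈ Gal(L/K)` moves the prime `P` to `τ • P`. -/
theorem FR_frob_conj_at {K L : Type} [Field K] [NumberField K] [Field L] [NumberField L]
    [Algebra K L] {P : Ideal (𝓞 L)} {n : ℕ} {h : L ≃ₐ[K] L}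
    (hh : ∀ x : 𝓞 L, h • x - x ^ n ∈ P) (τ : L ≃ₐ[K] L) :
    ∀ x : 𝓞 L, (τ * h * τ⁻¹) • x - x ^ n ∈ τ • P := by
  intro x
  rw [Ideal.mem_pointwise_smul_iff_inv_smul_mem]
  have h1 := hh (τ⁻¹ • x)
  have h2 : τ⁻¹ • ((τ * h * τ⁻¹) • x - x ^ n) = h • (τ⁻¹ • x) - (τ⁻¹ • x) ^ n := by
    rw [smul_sub, smul_pow', ← mul_smul, ← mul_smul]
    congr 2
    group
  rw [h2]
  exact h1

/-- The Galois group acts transitively on the primes above `lam`. -/
theorem FR_exists_smul_eq {K L : Type} [Field K] [NumberField K] [Field L] [NumberField L]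
    [Algebra K L] [IsGalois K L] {lam : Ideal (𝓞 K)} {P P' : Ideal (𝓞 L)} (hP : P.IsPrime)
    (hP' : P'.IsPrime) (hlo : P.LiesOver lam) (hlo' : P'.LiesOver lam) :
    ∃ τ : L ≃ₐ[K] L, P' = τ • P := by
  have := hP
  have := hP'
  exact Algebra.IsInvariant.exists_smul_of_under_eq (𝓞 K) (𝓞 L) (L ≃ₐ[K] L) P P'
    (hlo.over.symm.trans hlo'.over)

/-- A Frobenius element for `lam` can be moved (up to conjugation) to any prime above `lam`. -/
theorem FR_isFrob_at {K L : Type} [Field K] [NumberField K] [Field L] [NumberField L]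
    [Algebra K L] [IsGalois K L] {lam : Ideal (𝓞 K)} {h : L ≃ₐ[K] L} (hF : IsFrob K L lam h)
    {P' : Ideal (𝓞 L)} (hP' : P'.IsPrime) (hlo' : P'.LiesOver lam) :
    ∃ τ : L ≃ₐ[K] L, ∀ x : 𝓞 L, (τ * h * τ⁻¹) • x - x ^ Ideal.absNorm lam ∈ P' := by
  obtain ⟨P, hP, hlo, hh⟩ := hF
  obtain ⟨τ, rfl⟩ := FR_exists_smul_eq hP hP' hlo hlo'
  exact ⟨τ, FR_frob_conj_at hh τ⟩

/-- In an abelian extension a Frobenius element for `lam` works at every prime above `lam`. -/
theorem FR_isFrob_at_of_comm {K L : Type} [Field K] [NumberField K] [Field L] [NumberField L]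
    [Algebra K L] [IsGalois K L] (hc : ∀ a b : L ≃ₐ[K] L, a * b = b * a)
    {lam : Ideal (𝓞 K)} {h : L ≃ₐ[K] L} (hF : IsFrob K L lam h)
    {P' : Ideal (𝓞 L)} (hP' : P'.IsPrime) (hlo' : P'.LiesOver lam) :
    ∀ x : 𝓞 L, h • x - x ^ Ideal.absNorm lam ∈ P' := by
  obtain ⟨τ, hτ⟩ := FR_isFrob_at hF hP' hlo'
  have : τ * h * τ⁻¹ = h := by rw [hc τ h, mul_assoc, mul_inv_cancel, mul_one]
  rwa [this] at hτ

/-- Uniqueness of the Frobenius element of `lam` in an abelian extension with trivial inertia. -/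
theorem FR_isFrob_unique {K L : Type} [Field K] [NumberField K] [Field L] [NumberField L]
    [Algebra K L] [IsGalois K L] (hT : TrivialInertia K L)
    (hc : ∀ a b : L ≃ₐ[K] L, a * b = b * a) {lam : Ideal (𝓞 K)} (hlam0 : lam ≠ ⊥)
    {h h' : L ≃ₐ[K] L} (hF : IsFrob K L lam h) (hF' : IsFrob K L lam h') : h = h' := by
  obtain ⟨P, hP, hlo, hh⟩ := hF
  have h2 := FR_isFrob_at_of_comm hc hF' hP hlo
  exact FR_frob_unique hT (hP.isMaximal (FR_ne_bot_of_liesOver hlam0 hlo)) hh h2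

/-- `1` is a Frobenius element for `lam` iff some prime above `lam` has relative degree one. -/
theorem FR_isFrob_one_iff {K L : Type} [Field K] [NumberField K] [Field L] [NumberField L]
    [Algebra K L] {lam : Ideal (𝓞 K)} (hlam : lam.IsPrime) (hlam0 : lam ≠ ⊥) :
    IsFrob K L lam 1 ↔
      ∃ P : Ideal (𝓞 L), P.IsPrime ∧ P.LiesOver lam ∧ Ideal.absNorm P = Ideal.absNorm lam := by
  constructor
  · rintro ⟨P, hP, hlo, hh⟩
    refine ⟨P, hP, hlo, ((degOne K L lam P hlam hlam0 hP hlo).1).mp fun x => ?_⟩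
    have := hh x
    rw [one_smul] at this
    simpa using neg_mem this
  · rintro ⟨P, hP, hlo, hN⟩
    refine ⟨P, hP, hlo, fun x => ?_⟩
    have := ((degOne K L lam P hlam hlam0 hP hlo).1).mpr hN x
    rw [one_smul]
    simpa using neg_mem this

end Fermat.Agent.S14
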