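/-
S14, package DI (dictionary): shared definitions and the statements of the sub-packages.
Sub-lead: helper89.
-/
import Fermat.Agent.S14.Interface
import Fermat.Agent.S54.Frob95

set_option autoImplicit false

namespace Fermat.Agent.S14

open Fermat.Agent.S54.Frob95 (GQ Zbar)

/-- `ℚ̄`. -/
abbrev Qb : Type := AlgebraicClosure ℚ

/-- The subgroup `G_K`, `K = ℚ(ζ_p)`: automorphisms fixing all `p`-th roots of unity. -/
def cycH (p : ℕ) : Subgroup GQ where
  carrier := {σ | ∀ ζ : Qb, ζ ^ p = 1 → σ ζ = ζ}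
  one_mem' := fun _ _ => rfl
  mul_mem' := fun {a b} ha hb ζ hζ => by
    rw [AlgEquiv.mul_apply, hb ζ hζ, ha ζ hζ]
  inv_mem' := fun {a} ha ζ hζ => by
    show a.symm ζ = ζ
    rw [AlgEquiv.symm_apply_eq, ha ζ hζ]

theorem mem_cycH {p : ℕ} {σ : GQ} : σ ∈ cycH p ↔ ∀ ζ : Qb, ζ ^ p = 1 → σ ζ = ζ := Iff.rfl

/-- The purely group theoretic data extracted from a non-split admissible extension:
`U` is the kernel of the action of `G_ℚ` on `V`. -/
structure GData (p : ℕ) (U : Subgroup GQ) : Prop where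
  isOpen : IsOpen (U : Set GQ)
  normal : U.Normal
  le : U ≤ cycH p
  relIndex : U.relIndex (cycH p) = p
  conj : ∀ (g h : GQ) (a : ℕ), h ∈ cycH p → (∀ ζ : Qb, ζ ^ p = 1 → g ζ = ζ ^ a) →
    g * h ^ a * g⁻¹ * h⁻¹ ∈ U
  inertia : ∀ (A : ValuationSubring Qb) (l : ℕ), l.Prime → A.LiesOverPrime l →
    ∀ σ ∈ A.inertiaSubgroupIn ℚ, σ ∈ cycH p → σ ∈ U

/-- DI-A: from the Galois module to the group theoretic data. -/
def Stmt_DIA : Prop :=
  ∀ (p : ℕ) [Fact p.Prime], 3 ≤ p → ∀ (V : Type) [AddCommGroup V] [Module (ZMod p) V]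
    [DistribMulAction (AlgebraicClosure ℚ ≃ₐ[ℚ] AlgebraicClosure ℚ) V]
    [SMulCommClass (AlgebraicClosure ℚ ≃ₐ[ℚ] AlgebraicClosure ℚ) (ZMod p) V]
    (C : Submodule (ZMod p) V), ExtCitation.IsAdmissibleExtensionCts p V C →
    ¬ ExtCitation.SplitsGlobally C → ∃ U : Subgroup GQ, GData p U

/-- DI-C: lifting of inertia.  `U` open normal in `G_ℚ`, `V` a valuation subring of `ℚ̄` over `l`,
`σ₀` acts trivially modulo `V.nonunits` on the `U`-invariant algebraic integers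
(= the integers of the fixed field of `U`).  Then some `u σ₀`, `u ∈ U`, lies in the inertia
group of `V`. -/
def Stmt_DIC : Prop :=
  ∀ (U : Subgroup GQ), IsOpen (U : Set GQ) → U.Normal →
    ∀ (V : ValuationSubring Qb) (l : ℕ), l.Prime → V.LiesOverPrime l →
    ∀ σ₀ : GQ, (∀ b : Qb, IsIntegral ℤ b → (∀ u ∈ U, u b = b) → σ₀ b - b ∈ V.nonunits) →
      ∃ u ∈ U, u * σ₀ ∈ V.inertiaSubgroupIn ℚ

/-- DI-B: Galois theory. -/
def Stmt_DIB : Prop :=
  Stmt_DIC → ∀ (p : ℕ), p.Prime → p ≠ 2 → ∀ U : Subgroup GQ, GData p U →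
    ∃ (K L : Type) (_ : Field K) (_ : NumberField K) (_ : Field L) (_ : NumberField L)
      (_ : Algebra K L), NFData p K L

theorem stmt_DI_of (hA : Stmt_DIA) (hB : Stmt_DIB) (hC : Stmt_DIC) : Stmt_DI := by
  intro p _ h3 V _ _ _ _ C hC' hs
  obtain ⟨U, hU⟩ := hA p h3 V C hC' hs
  exact hB hC p Fact.out (by omega) U hU

end Fermat.Agent.S14
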