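/-
S14, package DI-C: lifting of inertia from a finite Galois level to `Gal(ℚ̄/ℚ)`.
-/
import Fermat.Agent.S14.DIDefs

set_option autoImplicit false

namespace Fermat.Agent.S14

open Fermat.Agent.S54.Frob95
open scoped Pointwise

section Abstract

variable {B : Type*} [CommRing B] {G : Type*} [Group G] [MulSemiringAction G B]

instance dic_isInvariant (U : Subgroup G) :
    Algebra.IsInvariant (FixedPoints.subalgebra ℤ B ↥U) B ↥U where
  isInvariant b hb := ⟨⟨b, hb⟩, rfl⟩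

theorem dic_mem_A0 (U : Subgroup G) (b : B) :
    b ∈ FixedPoints.subalgebra ℤ B ↥U ↔ ∀ u ∈ U, u • b = b := by
  constructor
  · intro h u hu
    exact h ⟨u, hu⟩
  · intro h u
    exact h u.1 u.2

theorem dic_smul_mem_A0 (U : Subgroup G) [hUn : U.Normal] (g : G) (b : B)
    (hb : b ∈ FixedPoints.subalgebra ℤ B ↥U) :
    g • b ∈ FixedPoints.subalgebra ℤ B ↥U := by
  rw [dic_mem_A0] at hb ⊢
  intro u hu
  have h1 : g⁻¹ * u * g ∈ U := by
    have := hUn.conj_mem u hu g⁻¹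
    simpa using this
  have h2 := hb _ h1
  calc u • g • b = g • ((g⁻¹ * u * g) • b) := by
        simp only [← mul_smul]
        congr 1
        group
    _ = g • b := by rw [h2]

variable [TopologicalSpace G] [CompactSpace G] [IsTopologicalGroup G]

theorem dic_compactSpace (U : Subgroup G) (hUo : IsOpen (U : Set G)) : CompactSpace ↥U :=
  isCompact_iff_compactSpace.mp (Subgroup.isClosed_of_isOpen U hUo).isCompact

variable [TotallyDisconnectedSpace G] [TopologicalSpace B] [DiscreteTopology B]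
  [ContinuousSMul G B]

/-- Steps 1-4: abstract version. -/
theorem dic_abstract (U : Subgroup G) (hUo : IsOpen (U : Set G)) [hUn : U.Normal]
    (Q : Ideal B) [Q.IsPrime]
    (σ₀ : G) (h0 : ∀ b : B, (∀ u ∈ U, u • b = b) → σ₀ • b - b ∈ Q) :
    ∃ u ∈ U, (u * σ₀) • Q = Q ∧ ∀ b : B, (u * σ₀) • b - b ∈ Q := by
  have := dic_compactSpace U hUo
  set A0 := FixedPoints.subalgebra ℤ B ↥U with hA0
  -- Step 1
  have h1 : (σ₀ • Q).under A0 = Q.under A0 := by
    ext b
    simp only [Ideal.mem_comap]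
    change (b : B) ∈ σ₀ • Q ↔ (b : B) ∈ Q
    rw [Ideal.mem_pointwise_smul_iff_inv_smul_mem]
    have hc : σ₀⁻¹ • (b : B) ∈ A0 := dic_smul_mem_A0 U _ _ b.2
    have h2 := h0 _ ((dic_mem_A0 U _).mp hc)
    rw [smul_inv_smul] at h2
    constructor
    · intro h
      have := Q.add_mem h2 h
      simpa using this
    · intro h
      have := Q.sub_mem h h2
      simpa using this
  -- Step 2
  obtain ⟨u1, hu1⟩ := Algebra.IsInvariant.exists_smul_of_under_eq_of_profinite
    (A := A0) (G := ↥U) (σ₀ • Q) Q h1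
  set s1 : G := (u1 : G) * σ₀ with hs1def
  have hs1 : s1 • Q = Q := by
    rw [hs1def, mul_smul]
    exact hu1.symm
  -- Step 3
  have hs1A : ∀ a : B, a ∈ A0 → s1 • a - a ∈ Q := by
    intro a ha
    have h2 : σ₀ • a ∈ A0 := dic_smul_mem_A0 U _ _ ha
    have h3 : (u1 : G) • (σ₀ • a) = σ₀ • a := (dic_mem_A0 U _).mp h2 _ u1.2
    rw [hs1def, mul_smul, h3]
    exact h0 _ ((dic_mem_A0 U _).mp ha)
  let P0 : Ideal A0 := Q.under A0
  let ψ : (B ⧸ Q) ≃+* (B ⧸ Q) :=
    (Ideal.Quotient.stabilizerHom Q (Q.under ℤ) G ⟨s1, hs1⟩).toRingEquiv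
  have hψ : ∀ b : B, ψ (Ideal.Quotient.mk Q b) = Ideal.Quotient.mk Q (s1 • b) := by
    intro b
    exact Ideal.Quotient.stabilizerHom_apply Q (Q.under ℤ) G ⟨s1, hs1⟩ b
  let φ : (B ⧸ Q) ≃ₐ[A0 ⧸ P0] (B ⧸ Q) := AlgEquiv.ofRingEquiv (f := ψ) (by
    intro r
    obtain ⟨a, rfl⟩ := Ideal.Quotient.mk_surjective r
    have h4 : algebraMap (A0 ⧸ P0) (B ⧸ Q) (Ideal.Quotient.mk P0 a) =
        Ideal.Quotient.mk Q (a : B) := rfl
    rw [h4, hψ]
    exact Ideal.Quotient.eq.mpr (hs1A _ a.2))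
  -- Step 4
  obtain ⟨u2, hu2⟩ := Ideal.Quotient.stabilizerHom_surjective_of_profinite (G := ↥U) P0 Q φ
  obtain ⟨g2, hg2⟩ : ∃ g2 : G, g2 = ((u2 : ↥U) : G) := ⟨_, rfl⟩
  have hg2U : g2 ∈ U := hg2 ▸ (u2 : ↥U).2
  have hu2Q : g2 • Q = Q := hg2 ▸ u2.2
  have hu2Q' : g2⁻¹ • Q = Q := by
    conv_lhs => rw [← hu2Q]
    rw [inv_smul_smul]
  refine ⟨g2⁻¹ * u1, U.mul_mem (U.inv_mem hg2U) u1.2, ?_, ?_⟩
  · rw [mul_assoc, mul_smul, ← hs1def, hs1, hu2Q']
  · intro b
    have h5 := DFunLike.congr_fun hu2 (Ideal.Quotient.mk Q b)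
    rw [Ideal.Quotient.stabilizerHom_apply] at h5
    have h6 : φ (Ideal.Quotient.mk Q b) = Ideal.Quotient.mk Q (s1 • b) := hψ b
    rw [h6] at h5
    have h7 : g2 • b - s1 • b ∈ Q := hg2 ▸ Ideal.Quotient.eq.mp h5
    have h8 : g2⁻¹ • (g2 • b - s1 • b) ∈ g2⁻¹ • Q :=
      (Ideal.smul_mem_pointwise_smul_iff).mpr h7
    rw [hu2Q', smul_sub, inv_smul_smul] at h8
    have h9 := Q.neg_mem h8
    rw [neg_sub] at h9
    rw [mul_assoc, mul_smul, ← hs1def]
    exact h9

end Abstract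

section Val

/-- Step 5: an element of `G_ℚ` stabilising the prime of `Zbar` cut out by `V` and acting trivially
on the quotient lies in the inertia group of `V`. -/
theorem dic_val (V : ValuationSubring Qb) (l : ℕ) (hl : l.Prime) (hlV : V.LiesOverPrime l)
    (s : GQ) (hsQ : s • primeOf V = primeOf V) (hs : ∀ b : Zbar, s • b - b ∈ primeOf V) :
    s ∈ V.inertiaSubgroupIn ℚ := by
  have hsinv : s⁻¹ • primeOf V = primeOf V := by
    conv_lhs => rw [← hsQ]
    rw [inv_smul_smul]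
  have hdec : s ∈ V.decompositionSubgroup ℚ := by
    rw [MulAction.mem_stabilizer_iff]
    apply le_antisymm
    · rw [ValuationSubring.pointwise_smul_subset_iff]
      intro x hx
      rw [ValuationSubring.mem_inv_pointwise_smul_iff]
      exact map_mem_of_stabilizer V hl hlV s hsQ x hx
    · intro x hx
      rw [ValuationSubring.mem_pointwise_smul_iff_inv_smul_mem]
      exact map_mem_of_stabilizer V hl hlV s⁻¹ hsinv x hx
  refine ⟨⟨s, hdec⟩, ?_, rfl⟩
  change (⟨s, hdec⟩ : V.decompositionSubgroup ℚ) ∈ MonoidHom.ker _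
  rw [MonoidHom.mem_ker]
  ext xbar
  obtain ⟨x, rfl⟩ := IsLocalRing.residue_surjective xbar
  change (⟨s, hdec⟩ : V.decompositionSubgroup ℚ) • IsLocalRing.residue V x = IsLocalRing.residue V x
  rw [← IsLocalRing.ResidueField.residue_smul, ← sub_eq_zero, ← map_sub,
    IsLocalRing.residue_eq_zero_iff, ← ValuationSubring.coe_mem_nonunits_iff]
  change s (x : Qb) - (x : Qb) ∈ V.nonunits
  obtain ⟨t, ht, htu, htx⟩ := exists_unit_mul_isIntegral V hl hlV x x.2
  have ht1 : V.valuation t = 1 := val_eq_one V (mem_of_isIntegral V ht) htu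
  have h1 : s t - t ∈ V.nonunits := (mem_primeOf V _).mp (hs ⟨t, ht⟩)
  have h2 : s (t * x) - t * x ∈ V.nonunits := (mem_primeOf V _).mp (hs ⟨t * x, htx⟩)
  have hst1 : V.valuation (s t) = 1 := by
    refine val_eq_one V (mem_of_isIntegral V (map_isIntegral_int s ht)) ?_
    have h3 : s t = t + (s t - t) := by ring
    rw [h3]
    exact not_mem_nonunits_add V htu h1
  have hkey : (s (x : Qb) - (x : Qb)) * s t = (s (t * x) - t * x) + (-(s t - t)) * (x : Qb) := by
    rw [map_mul]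
    ring
  have h4 : (s (x : Qb) - (x : Qb)) * s t ∈ V.nonunits := by
    rw [hkey]
    exact add_mem h2 (mul_mem_nonunits V (neg_mem h1) x.2)
  rw [ValuationSubring.mem_nonunits_iff] at h4 ⊢
  rwa [map_mul, hst1, mul_one] at h4

end Val

/-- DI-C: lifting of inertia. -/
theorem stmt_DIC : Stmt_DIC := by
  intro U hUo hUn V l hl hlV σ₀ h0
  obtain ⟨u, hu, h1, h2⟩ := dic_abstract (B := Zbar) (G := GQ) U hUo (primeOf V) σ₀ (by
    intro b hb
    rw [mem_primeOf]
    exact h0 b.1 b.2 (fun u hu => congrArg Subtype.val (hb u hu)))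
  exact ⟨u, hu, dic_val V l hl hlV _ h1 h2⟩

end Fermat.Agent.S14
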