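/-
S14 team, package (Lo): interface of the sub-packages (sub-lead: helper15).
Statements only (`def Stmt_Lo* : Prop`) and the few definitions they need.
-/
import Fermat.Agent.S14.Interface

set_option autoImplicit false

namespace Fermat.Agent.S14

open NumberField
open scoped Pointwise nonZeroDivisors

/-! ## Lo1 : the abstract index computation (pure group theory) -/

/-- Lo1.  `I` = fractional ideals of `L`, `X = Lˣ`, `U` = units of `𝓞 L`, `d` = principal ideal map,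
`t, s, sU` = action of a generator `τ` of the Galois group, `nI, nX, nU` = norms `∏ σ`.
If `h1 = p * h0` (Herbrand) then some `τ`-invariant ideal is not (norm) * (principal ideal
generated by an invariant element). -/
def Stmt_LoAbstract : Prop :=
  ∀ (I X U : Type) [CommGroup I] [CommGroup X] [CommGroup U]
    (d : X →* I) (ι : U →* X) (t nI : I →* I) (s nX : X →* X) (sU nU : U →* U) (p : ℕ),
    Function.Injective ι → ι.range = d.ker →
    (∀ x, d (s x) = t (d x)) → (∀ x, d (nX x) = nI (d x)) →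
    (∀ u, ι (sU u) = s (ι u)) → (∀ u, ι (nU u) = nX (ι u)) →
    (∀ A, nI (t A) = nI A) → (∀ A, t (nI A) = nI A) →
    (∀ x, nX (s x) = nX x) → (∀ x, s (nX x) = nX x) →
    (∀ x, nX x = 1 → ∃ y, x = s y / y) →
    d.range.index ≠ 0 → 1 < p →
    nU.range.relIndex (sU / MonoidHom.id U).ker ≠ 0 →
    (sU / MonoidHom.id U).range.relIndex nU.ker =
      p * nU.range.relIndex (sU / MonoidHom.id U).ker →
    ∃ A : I, t A = A ∧ ∀ (B : I) (x : X), s x = x → A ≠ nI B * d x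

/-! ## Lo2 : units -/

section defs

variable (K L : Type) [Field K] [NumberField K] [Field L] [NumberField L] [Algebra K L]

/-- The action of `σ ∈ Gal(L/K)` on the units of `𝓞 L`, as a monoid hom. -/
noncomputable def loSU (σ : L ≃ₐ[K] L) : (𝓞 L)ˣ →* (𝓞 L)ˣ :=
  Units.map (MulSemiringAction.toRingHom (L ≃ₐ[K] L) (𝓞 L) σ : 𝓞 L →* 𝓞 L)

/-- The norm `u ↦ ∏ σ, σ u` on the units of `𝓞 L`. -/
noncomputable def loNU : (𝓞 L)ˣ →* (𝓞 L)ˣ :=
  ∏ σ : L ≃ₐ[K] L, loSU K L σ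

/-- The action of `σ ∈ Gal(L/K)` on `Lˣ`. -/
noncomputable def loSX (σ : L ≃ₐ[K] L) : Lˣ →* Lˣ :=
  Units.map (σ : L →* L)

/-- The norm `x ↦ ∏ σ, σ x` on `Lˣ`. -/
noncomputable def loNX : Lˣ →* Lˣ :=
  ∏ σ : L ≃ₐ[K] L, loSX K L σ

/-- The action of `σ ∈ Gal(L/K)` on the group of invertible fractional ideals of `L`. -/
noncomputable def loT (σ : L ≃ₐ[K] L) :
    (FractionalIdeal (𝓞 L)⁰ L)ˣ →* (FractionalIdeal (𝓞 L)⁰ L)ˣ :=
  Units.map ((FractionalIdeal.ringEquivOfRingEquiv L L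
    (MulSemiringAction.toRingEquiv (L ≃ₐ[K] L) (𝓞 L) σ)).toRingHom :
      FractionalIdeal (𝓞 L)⁰ L →* FractionalIdeal (𝓞 L)⁰ L)

/-- The norm `A ↦ ∏ σ, σ A` on the group of invertible fractional ideals of `L`. -/
noncomputable def loNI : (FractionalIdeal (𝓞 L)⁰ L)ˣ →* (FractionalIdeal (𝓞 L)⁰ L)ˣ :=
  ∏ σ : L ≃ₐ[K] L, loT K L σ

end defs

/-- Lo2.  Herbrand quotient of the units of `𝓞 L`: `h1 = p * h0`. -/
def Stmt_LoUnits : Prop :=
  ∀ (p : ℕ) (K L : Type) [Field K] [NumberField K] [Field L] [NumberField L] [Algebra K L]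
    [IsGalois K L], p.Prime → Module.finrank K L = p → IsTotallyComplex K →
    ∀ τ : L ≃ₐ[K] L, (∀ σ, σ ∈ Subgroup.zpowers τ) →
    (loNU K L).range.relIndex (loSU K L τ / MonoidHom.id _).ker ≠ 0 ∧
    (loSU K L τ / MonoidHom.id _).range.relIndex (loNU K L).ker =
      p * (loNU K L).range.relIndex (loSU K L τ / MonoidHom.id _).ker

/-! ## Lo3 : invariant ideals are extended -/

/-- Lo3. -/
def Stmt_LoInvariant : Prop :=
  ∀ (K L : Type) [Field K] [NumberField K] [Field L] [NumberField L] [Algebra K L] [IsGalois K L],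
    TrivialInertia K L → ∀ J : Ideal (𝓞 L), (∀ σ : L ≃ₐ[K] L, σ • J = J) →
    ∃ a : Ideal (𝓞 K), J = a.map (algebraMap (𝓞 K) (𝓞 L))

/-! ## Lo4 : the relative norm is the product of the conjugates -/

/-- Lo4. -/
def Stmt_LoRelNorm : Prop :=
  ∀ (K L : Type) [Field K] [NumberField K] [Field L] [NumberField L] [Algebra K L] [IsGalois K L]
    (J : Ideal (𝓞 L)),
    (Ideal.relNorm (𝓞 K) J).map (algebraMap (𝓞 K) (𝓞 L)) = ∏ σ : L ≃ₐ[K] L, σ • J

/-! ## Lo5 : API for the Galois action on fractional ideals -/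

/-- Lo5. -/
def Stmt_LoAction : Prop :=
  ∀ (K L : Type) [Field K] [NumberField K] [Field L] [NumberField L] [Algebra K L],
    (loT K L 1 = MonoidHom.id _) ∧
    (∀ σ τ : L ≃ₐ[K] L, loT K L (σ * τ) = (loT K L σ).comp (loT K L τ)) ∧
    (∀ (σ : L ≃ₐ[K] L) (x : Lˣ),
      loT K L σ (toPrincipalIdeal (𝓞 L) L x) = toPrincipalIdeal (𝓞 L) L (loSX K L σ x)) ∧
    (∀ (σ : L ≃ₐ[K] L) (A : (FractionalIdeal (𝓞 L)⁰ L)ˣ) (J : Ideal (𝓞 L)),
      (A : FractionalIdeal (𝓞 L)⁰ L) = (J : FractionalIdeal (𝓞 L)⁰ L) →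
      ((loT K L σ A : (FractionalIdeal (𝓞 L)⁰ L)ˣ) : FractionalIdeal (𝓞 L)⁰ L) =
        ((σ • J : Ideal (𝓞 L)) : FractionalIdeal (𝓞 L)⁰ L))

end Fermat.Agent.S14
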