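/-
S14, package AL1: the Herbrand quotient of a finitely generated abelian group with an automorphism
of prime order, computed from ranks.
-/
import Mathlib
import Fermat.Agent.S14.Interface

set_option autoImplicit false

namespace Fermat.Agent.S14

open Polynomial Finset Module

theorem AL1_poly_dvd (p : ℕ) (hp : p.Prime) :
    (C (p : ℤ) : ℤ[X]) ∣ (∑ i ∈ range p, (X : ℤ[X]) ^ i) - (X - 1) ^ (p - 1) := by
  have : Fact p.Prime := ⟨hp⟩
  rw [Polynomial.C_dvd_iff_dvd_coeff]
  intro n
  have key : Polynomial.map (Int.castRingHom (ZMod p))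
      ((∑ i ∈ range p, (X : ℤ[X]) ^ i) - (X - 1) ^ (p - 1)) = 0 := by
    simp only [Polynomial.map_sub, Polynomial.map_sum, Polynomial.map_pow, Polynomial.map_X,
      Polynomial.map_one]
    rw [sub_eq_zero]
    have hne : (X - 1 : (ZMod p)[X]) ≠ 0 := by
      simpa using X_sub_C_ne_zero (1 : ZMod p)
    apply mul_right_cancel₀ hne
    rw [geom_sum_mul, pow_sub_one_mul hp.ne_zero, sub_pow_char, one_pow]
  have := congrArg (fun q => Polynomial.coeff q n) key
  simp only [Polynomial.coeff_map, Polynomial.coeff_zero] at this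
  exact (ZMod.intCast_zmod_eq_zero_iff_dvd _ p).mp this

theorem AL1_poly (p : ℕ) (hp : p.Prime) : ∃ H V E : ℤ[X],
    (∑ i ∈ range p, (X : ℤ[X]) ^ i) = (X - 1) ^ (p - 1) + (p : ℤ[X]) * (1 + (X - 1) * H) ∧
    (1 + (X - 1) * H) * V = 1 - E * (∑ i ∈ range p, (X : ℤ[X]) ^ i) := by
  obtain ⟨u, hu⟩ := AL1_poly_dvd p hp
  have hp1 : p - 1 ≠ 0 := by have := hp.two_le; omega
  have hu1 : u.eval 1 = 1 := by
    have := congrArg (Polynomial.eval 1) hu
    simp [Polynomial.eval_finsetSum, hp1] at this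
    have hp0 : (p : ℤ) ≠ 0 := by exact_mod_cast hp.ne_zero
    exact (mul_left_cancel₀ hp0 (by rw [mul_one]; exact this)).symm
  obtain ⟨H, hH⟩ := Polynomial.X_sub_C_dvd_sub_C_eval (a := (1 : ℤ)) (p := u)
  rw [hu1] at hH
  simp only [map_one] at hH
  have hu' : u = 1 + (X - 1) * H := by linear_combination hH
  have hΦ : (∑ i ∈ range p, (X : ℤ[X]) ^ i) = (X - 1) ^ (p - 1) + (p : ℤ[X]) * (1 + (X - 1) * H) := by
    rw [← hu']
    have : (C (p : ℤ) : ℤ[X]) = (p : ℤ[X]) := by simp
    rw [← this]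
    linear_combination hu
  refine ⟨H, (∑ k ∈ range (p - 1), (-((X - 1) * H)) ^ k) - (p : ℤ[X]) * (-H) ^ (p - 1),
    (-H) ^ (p - 1), hΦ, ?_⟩
  have hgeom := mul_neg_geom_sum (-((X - 1) * H) : ℤ[X]) (p - 1)
  have hpow : (-((X - 1) * H) : ℤ[X]) ^ (p - 1) = (-H) ^ (p - 1) * (X - 1) ^ (p - 1) := by
    rw [← mul_pow]; congr 1; ring
  rw [hpow] at hgeom
  rw [hΦ]
  linear_combination hgeom

/-- index of the range of a power of an injective endomorphism -/
theorem AL1_index_range_pow {G : Type*} [AddCommGroup G] (φ : G →ₗ[ℤ] G)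
    (hφ : Function.Injective φ) (k : ℕ) :
    (LinearMap.range (φ ^ k)).toAddSubgroup.index = (LinearMap.range φ).toAddSubgroup.index ^ k := by
  induction k with
  | zero => simp [Module.End.one_eq_id]
  | succ k ih =>
    have hinj : Function.Injective (φ ^ k).toAddMonoidHom := by
      change Function.Injective (φ ^ k)
      rw [Module.End.coe_pow]
      exact hφ.iterate k
    have h1 : (LinearMap.range (φ ^ (k + 1))).toAddSubgroup =
        (LinearMap.range φ).toAddSubgroup.map (φ ^ k).toAddMonoidHom := by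
      rw [pow_succ, Module.End.mul_eq_comp, LinearMap.range_comp]
      rfl
    rw [h1, AddSubgroup.index_map_of_injective _ hinj, pow_succ, ← ih, mul_comm]
    rfl

theorem AL1_index_cyclotomic (p : ℕ) (hp : p.Prime) {G : Type*} [AddCommGroup G]
    [Module.Finite ℤ G] [Module.IsTorsionFree ℤ G] (σ : G →ₗ[ℤ] G)
    (hσ : ∑ i ∈ range p, σ ^ i = 0) (m : ℕ) (hm : finrank ℤ G = (p - 1) * m) :
    (LinearMap.range (σ - 1)).toAddSubgroup.index = p ^ m := by
  obtain ⟨H, V, E, h1, h2⟩ := AL1_poly p hp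
  have hp1 : p - 1 ≠ 0 := by have := hp.two_le; omega
  set d : G →ₗ[ℤ] G := σ - 1 with hd
  set u : G →ₗ[ℤ] G := aeval σ (1 + (X - 1) * H) with hu
  set v : G →ₗ[ℤ] G := aeval σ V with hv
  have e1 : d ^ (p - 1) + (p : G →ₗ[ℤ] G) * u = 0 := by
    have := congrArg (aeval σ) h1
    simp only [map_sum, map_pow, aeval_X, map_add, map_mul, map_sub, map_one, map_natCast] at this
    rw [hσ] at this
    simp only [hu, hd, map_add, map_mul, map_sub, map_one, aeval_X]
    exact this.symm
  have e2 : u * v = 1 := by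
    have := congrArg (aeval σ) h2
    simp only [map_sum, map_pow, aeval_X, map_mul, map_sub, map_one] at this
    rw [hσ, mul_zero, sub_zero] at this
    simp only [hu, hv]
    simpa using this
  have e3 : v * u = 1 := by
    rw [← e2, hu, hv, ← map_mul, ← map_mul, mul_comm]
  have e1' : ∀ x, (d ^ (p - 1)) x = -((p : ℤ) • u x) := by
    intro x
    have := congrArg (fun f : G →ₗ[ℤ] G => f x) e1
    simp only [LinearMap.add_apply, Module.End.mul_apply, LinearMap.zero_apply] at this
    rw [eq_neg_iff_add_eq_zero, ← this]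
    congr 1
    simp [Module.End.natCast_apply]
  have hp0 : (p : ℤ) ≠ 0 := by exact_mod_cast hp.ne_zero
  have hinj : Function.Injective d := by
    rw [← LinearMap.ker_eq_bot, LinearMap.ker_eq_bot']
    intro x hx
    have h3 : (d ^ (p - 1)) x = 0 := by
      obtain ⟨k, hk⟩ := Nat.exists_eq_succ_of_ne_zero hp1
      rw [hk, pow_succ, Module.End.mul_apply, hx, map_zero]
    rw [e1', neg_eq_zero, smul_eq_zero] at h3
    have h4 : u x = 0 := h3.resolve_left hp0
    have := congrArg (fun f : G →ₗ[ℤ] G => f x) e3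
    simp only [Module.End.mul_apply, h4, map_zero, Module.End.one_apply] at this
    exact this.symm
  have hrange : (LinearMap.range (d ^ (p - 1))).toAddSubgroup =
      (nsmulAddMonoidHom (α := G) p).range := by
    ext x
    simp only [Submodule.mem_toAddSubgroup, LinearMap.mem_range, AddMonoidHom.mem_range,
      nsmulAddMonoidHom_apply]
    constructor
    · rintro ⟨y, rfl⟩
      refine ⟨-(u y), ?_⟩
      rw [e1']
      simp
    · rintro ⟨y, rfl⟩
      refine ⟨-(v y), ?_⟩
      rw [map_neg, e1']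
      have := congrArg (fun f : G →ₗ[ℤ] G => f y) e2
      simp only [Module.End.mul_apply, Module.End.one_apply] at this
      rw [this]
      simp
  have hfree : Module.Free ℤ G := inferInstance
  have h5 := AL1_index_range_pow d hinj (p - 1)
  rw [hrange, AddSubgroup.index_range_nsmul, hm, mul_comm, pow_mul] at h5
  exact (Nat.pow_left_injective (n := p - 1) (by omega) h5).symm

/-- Core index identity. -/
theorem AL1_core {A : Type*} [AddCommGroup A] (f g : A →+ A) (hgf : g.range ≤ f.ker) :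
    g.range.relIndex f.ker * (f.ker ⊔ g.ker).index = (f.ker.map g).relIndex f.ker := by
  have h1 : (f.ker ⊔ g.ker).map g = f.ker.map g := by
    rw [AddSubgroup.map_sup]
    have : g.ker.map g = ⊥ := by
      rw [eq_bot_iff]
      rintro _ ⟨x, hx, rfl⟩
      exact hx
    rw [this, sup_bot_eq]
  have h2 : (f.ker.map g).relIndex g.range = (f.ker ⊔ g.ker).index := by
    rw [← h1, AddMonoidHom.range_eq_map, AddSubgroup.relIndex_map_map, sup_assoc, sup_idem,
      top_sup_eq, AddSubgroup.relIndex_top_right]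
  rw [← h2, mul_comm]
  exact AddSubgroup.relIndex_mul_relIndex _ _ _ (AddSubgroup.map_le_range g _) hgf

theorem AL1_relIndex_of_sub {A : Type*} [AddCommGroup A] (K : Submodule ℤ A)
    (H' : AddSubgroup K) :
    (H'.map K.subtype.toAddMonoidHom).relIndex K.toAddSubgroup = H'.index := by
  have h : K.toAddSubgroup = (⊤ : AddSubgroup K).map K.subtype.toAddMonoidHom := by
    ext x
    simp
  rw [h, AddSubgroup.relIndex_map_map_of_injective _ _ (by exact Subtype.val_injective),
    AddSubgroup.relIndex_top_right]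

theorem AL1_torsionFree (p : ℕ) (hp : p.Prime) {A : Type*} [AddCommGroup A] [Module.Finite ℤ A]
    [Module.IsTorsionFree ℤ A] (τ : A →ₗ[ℤ] A) (hτ : τ ^ p = 1) (β m : ℕ)
    (hβ : finrank ℤ (LinearMap.ker (τ - 1)) = β) (hm : finrank ℤ A = β + (p - 1) * m) :
    (LinearMap.range (∑ i ∈ range p, τ ^ i)).toAddSubgroup.relIndex
        (LinearMap.ker (τ - 1)).toAddSubgroup ≠ 0 ∧
    (LinearMap.range (τ - 1)).toAddSubgroup.relIndex
        (LinearMap.ker (∑ i ∈ range p, τ ^ i)).toAddSubgroup ≠ 0 ∧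
    (LinearMap.range (∑ i ∈ range p, τ ^ i)).toAddSubgroup.relIndex
        (LinearMap.ker (τ - 1)).toAddSubgroup * p ^ m =
    (LinearMap.range (τ - 1)).toAddSubgroup.relIndex
        (LinearMap.ker (∑ i ∈ range p, τ ^ i)).toAddSubgroup * p ^ β := by
  set D : A →ₗ[ℤ] A := τ - 1 with hD
  set N : A →ₗ[ℤ] A := ∑ i ∈ range p, τ ^ i with hN
  have hp0 : (p : ℤ) ≠ 0 := by exact_mod_cast hp.ne_zero
  have hND : N * D = 0 := by rw [hN, hD, geom_sum_mul, hτ, sub_self]
  have hDN : D * N = 0 := by rw [hN, hD, mul_geom_sum, hτ, sub_self]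
  have hND' : ∀ x, N (D x) = 0 := fun x => by
    have := congrArg (fun f : A →ₗ[ℤ] A => f x) hND
    simpa using this
  have hDN' : ∀ x, D (N x) = 0 := fun x => by
    have := congrArg (fun f : A →ₗ[ℤ] A => f x) hDN
    simpa using this
  -- `N = p` on `ker D`
  have F2 : ∀ x, D x = 0 → N x = p • x := by
    intro x hx
    have h1 : τ x = x := by
      have : τ x - x = 0 := by simpa [hD] using hx
      exact sub_eq_zero.mp this
    have h2 : ∀ i : ℕ, (τ ^ i) x = x := by
      intro i
      induction i with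
      | zero => simp
      | succ i ih => rw [pow_succ, Module.End.mul_apply, h1, ih]
    rw [hN, LinearMap.sum_apply]
    simp [h2]
  set f : A →+ A := D.toAddMonoidHom with hf
  set g : A →+ A := N.toAddMonoidHom with hg
  have kf : (LinearMap.ker D).toAddSubgroup = f.ker := rfl
  have kg : (LinearMap.ker N).toAddSubgroup = g.ker := rfl
  have rf : (LinearMap.range D).toAddSubgroup = f.range := rfl
  have rg : (LinearMap.range N).toAddSubgroup = g.range := rfl
  rw [kf, kg, rf, rg]
  have hgf : g.range ≤ f.ker := by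
    rintro _ ⟨x, rfl⟩
    exact hDN' x
  have hfg : f.range ≤ g.ker := by
    rintro _ ⟨x, rfl⟩
    exact hND' x
  have c1 := AL1_core f g hgf
  have c2 := AL1_core g f hfg
  rw [sup_comm] at c2
  -- C2
  have C2 : (f.ker.map g).relIndex f.ker = p ^ β := by
    have h1 : f.ker.map g =
        ((nsmulAddMonoidHom (α := LinearMap.ker D) p).range).map
          (LinearMap.ker D).subtype.toAddMonoidHom := by
      ext x
      constructor
      · rintro ⟨y, hy, rfl⟩
        refine ⟨p • (⟨y, hy⟩ : LinearMap.ker D), ⟨⟨y, hy⟩, rfl⟩, ?_⟩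
        exact (F2 y hy).symm
      · rintro ⟨_, ⟨y, rfl⟩, rfl⟩
        refine ⟨y, y.2, ?_⟩
        exact F2 y y.2
    rw [h1, ← kf, AL1_relIndex_of_sub, AddSubgroup.index_range_nsmul, hβ]
  -- rank of `ker N`
  have C5 : finrank ℤ (LinearMap.ker N) = (p - 1) * m := by
    have h1 : finrank ℤ (LinearMap.range N) + finrank ℤ (LinearMap.ker N) = finrank ℤ A := by
      rw [← N.quotKerEquivRange.finrank_eq]
      exact Submodule.finrank_quotient_add_finrank _
    have h2 : finrank ℤ (LinearMap.range N) ≤ β := by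
      rw [← hβ]
      apply Submodule.finrank_mono
      rintro _ ⟨x, rfl⟩
      exact hDN' x
    have h3 : β ≤ finrank ℤ (LinearMap.range N) := by
      rw [← hβ]
      apply LinearMap.finrank_le_finrank_of_injective
        (f := N.rangeRestrict.comp (LinearMap.ker D).subtype)
      rw [← LinearMap.ker_eq_bot, LinearMap.ker_eq_bot']
      intro x hx
      have h4 : N (x : A) = 0 := congrArg Subtype.val hx
      rw [F2 x x.2] at h4
      have h5 : (x : A) = 0 := by
        have : (p : ℤ) • (x : A) = 0 := by simpa using h4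
        exact (smul_eq_zero.mp this).resolve_left hp0
      exact Subtype.ext h5
    omega
  -- C3
  have C3 : (g.ker.map f).relIndex g.ker = p ^ m := by
    have hst : ∀ x ∈ LinearMap.ker N, τ x ∈ LinearMap.ker N := by
      intro x hx
      have h1 : τ x = D x + x := by simp [hD]
      rw [LinearMap.mem_ker] at hx ⊢
      rw [h1, map_add, hND', hx, add_zero]
    set σ : LinearMap.ker N →ₗ[ℤ] LinearMap.ker N := τ.restrict hst with hσ
    have hpow : ∀ (i : ℕ) (x : LinearMap.ker N), (((σ ^ i) x : LinearMap.ker N) : A) = (τ ^ i) x := by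
      intro i
      induction i with
      | zero => intro x; simp
      | succ i ih =>
        intro x
        rw [pow_succ, Module.End.mul_apply, ih, pow_succ, Module.End.mul_apply]
        rfl
    have hsum : ∑ i ∈ range p, σ ^ i = 0 := by
      ext x
      rw [LinearMap.sum_apply]
      simp only [AddSubmonoidClass.coe_finsetSum, hpow, LinearMap.zero_apply,
        ZeroMemClass.coe_zero]
      have h3 : N (x : A) = 0 := x.2
      have h4 : N (x : A) = ∑ i ∈ range p, (τ ^ i) (x : A) := by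
        simp only [hN, LinearMap.sum_apply]
      rw [← h4, h3]
    have h1 := AL1_index_cyclotomic p hp σ hsum m C5
    have h2 : g.ker.map f = ((LinearMap.range (σ - 1)).toAddSubgroup).map
        (LinearMap.ker N).subtype.toAddMonoidHom := by
      ext x
      constructor
      · rintro ⟨y, hy, rfl⟩
        refine ⟨(σ - 1) ⟨y, hy⟩, ⟨⟨y, hy⟩, rfl⟩, ?_⟩
        rfl
      · rintro ⟨_, ⟨y, rfl⟩, rfl⟩
        exact ⟨y, y.2, rfl⟩
    rw [h2, ← kg, AL1_relIndex_of_sub, h1]
  -- C4
  have C4 : (f.ker ⊔ g.ker).index ≠ 0 := by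
    have h1 : (nsmulAddMonoidHom (α := A) p).range ≤ f.ker ⊔ g.ker := by
      rintro _ ⟨x, rfl⟩
      have h2 : p • x = N x + (p • x - N x) := by abel
      change p • x ∈ _
      rw [h2]
      refine AddSubgroup.add_mem _ (AddSubgroup.mem_sup_left (hDN' x)) (AddSubgroup.mem_sup_right ?_)
      change N (p • x - N x) = 0
      rw [map_sub, F2 (N x) (hDN' x), map_nsmul, sub_self]
    have h3 := AddSubgroup.index_dvd_of_le h1
    rw [AddSubgroup.index_range_nsmul] at h3
    intro h0
    rw [h0, zero_dvd_iff] at h3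
    exact (pow_ne_zero _ hp.ne_zero) h3
  rw [C2] at c1
  rw [C3] at c2
  refine ⟨?_, ?_, ?_⟩
  · intro h0
    rw [h0, zero_mul] at c1
    exact (pow_ne_zero _ hp.ne_zero) c1.symm
  · intro h0
    rw [h0, zero_mul] at c2
    exact (pow_ne_zero _ hp.ne_zero) c2.symm
  · rw [← c1, ← c2]
    ring

/-- Transfer of the indices along a surjection with finite kernel. -/
theorem AL1_transfer {A B : Type*} [AddCommGroup A] [AddCommGroup B] (π : A →+ B)
    (hπ : Function.Surjective π) (f g : A →+ A) (f' g' : B →+ B)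
    (hf : ∀ x, π (f x) = f' (π x)) (hg : ∀ x, π (g x) = g' (π x)) (hgf : g.range ≤ f.ker) :
    g'.range.relIndex f'.ker * Nat.card π.ker =
      g.range.relIndex f.ker * Nat.card ↥(f.range ⊓ π.ker) * Nat.card ↥(g.range ⊓ π.ker) := by
  set T := π.ker with hT
  have h1 : g'.range.relIndex f'.ker = (g.range ⊔ T).relIndex (T.comap f) := by
    have e1 : g'.range.comap π = g.range ⊔ T := by
      ext x
      rw [AddSubgroup.mem_comap, AddSubgroup.mem_sup]
      constructor
      · rintro ⟨y, hy⟩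
        obtain ⟨z, rfl⟩ := hπ y
        refine ⟨g z, ⟨z, rfl⟩, x - g z, ?_, by abel⟩
        rw [hT, AddMonoidHom.mem_ker, map_sub, hg, hy, sub_self]
      · rintro ⟨_, ⟨z, rfl⟩, t, ht, rfl⟩
        refine ⟨π z, ?_⟩
        rw [map_add, hg, (AddMonoidHom.mem_ker).mp ht, add_zero]
    have e2 : f'.ker.comap π = T.comap f := by
      ext x
      simp only [AddSubgroup.mem_comap, AddMonoidHom.mem_ker, hT, hf]
    rw [← e1, ← e2, AddSubgroup.relIndex_comap, AddSubgroup.map_comap_eq_self_of_surjective hπ]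
  have hT1 : T ≤ T.comap f := by
    intro x hx
    rw [AddSubgroup.mem_comap, hT, AddMonoidHom.mem_ker, hf, (AddMonoidHom.mem_ker).mp hx, map_zero]
  have hk : f.ker ≤ T.comap f := by
    intro x hx
    rw [AddSubgroup.mem_comap, (AddMonoidHom.mem_ker).mp hx]
    exact T.zero_mem
  have c1 := AddSubgroup.relIndex_mul_relIndex g.range f.ker (T.comap f) hgf hk
  have c2 := AddSubgroup.relIndex_mul_relIndex g.range (g.range ⊔ T) (T.comap f) le_sup_left
    (sup_le (hgf.trans hk) hT1)
  have c3 : f.ker.relIndex (T.comap f) = Nat.card ↥(f.range ⊓ T) := by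
    rw [AddSubgroup.relIndex_ker, AddSubgroup.map_comap_eq]
  have c4 : g.range.relIndex (g.range ⊔ T) = g.range.relIndex T := AddSubgroup.relIndex_sup_left _ _
  have c5 : Nat.card ↥(g.range ⊓ T) * g.range.relIndex T = Nat.card T := by
    have := AddSubgroup.relIndex_mul_relIndex ⊥ (g.range ⊓ T) T bot_le inf_le_right
    rwa [AddSubgroup.relIndex_bot_left, AddSubgroup.relIndex_bot_left,
      AddSubgroup.inf_relIndex_right] at this
  rw [h1, ← c5, ← c3, c1, ← c2, c4]
  ring

/-- A linear map with torsion kernel and cokernel preserves the rank. -/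
theorem AL1_finrank_eq {M M' : Type*} [AddCommGroup M] [AddCommGroup M'] [Module.Finite ℤ M]
    [Module.Finite ℤ M'] (φ : M →ₗ[ℤ] M')
    (h1 : ∀ x, φ x = 0 → ∃ a : ℤ, a ≠ 0 ∧ a • x = 0)
    (h2 : ∀ y, ∃ a : ℤ, a ≠ 0 ∧ ∃ x, φ x = a • y) : finrank ℤ M = finrank ℤ M' := by
  have e1 : finrank ℤ (LinearMap.range φ) + finrank ℤ (LinearMap.ker φ) = finrank ℤ M := by
    rw [← φ.quotKerEquivRange.finrank_eq]
    exact Submodule.finrank_quotient_add_finrank _
  have e2 := Submodule.finrank_quotient_add_finrank (LinearMap.range φ)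
  have e3 : finrank ℤ (LinearMap.ker φ) = 0 := by
    rw [Module.finrank_eq_zero_iff]
    intro x
    obtain ⟨a, ha, hx⟩ := h1 x x.2
    exact ⟨a, ha, Subtype.ext hx⟩
  have e4 : finrank ℤ (M' ⧸ LinearMap.range φ) = 0 := by
    rw [Module.finrank_eq_zero_iff]
    intro y
    obtain ⟨y, rfl⟩ := Submodule.Quotient.mk_surjective _ y
    obtain ⟨a, ha, x, hx⟩ := h2 y
    refine ⟨a, ha, ?_⟩
    rw [← Submodule.Quotient.mk_smul, Submodule.Quotient.mk_eq_zero]
    exact ⟨x, hx⟩
  omega

theorem herbrand : Stmt_Herbrand := by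
  intro p hp A _ _ τ hτ β m hβ hm D N h0 h1
  set T : Submodule ℤ A := Submodule.torsion ℤ A with hT
  have memT : ∀ x : A, x ∈ T ↔ ∃ a : ℤ, a ≠ 0 ∧ a • x = 0 := by
    intro x
    rw [hT, Submodule.mem_torsion_iff]
    constructor
    · rintro ⟨a, ha⟩
      exact ⟨a, nonZeroDivisors.coe_ne_zero a, ha⟩
    · rintro ⟨a, ha, hx⟩
      exact ⟨⟨a, mem_nonZeroDivisors_of_ne_zero ha⟩, hx⟩
  have hTfin : Finite T := Module.finite_of_fg_torsion _ (Submodule.torsion_isTorsion)
  have hst : T ≤ T.comap τ := by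
    intro x hx
    rw [Submodule.mem_comap, memT]
    obtain ⟨a, ha, hx⟩ := (memT x).mp hx
    exact ⟨a, ha, by rw [← map_smul, hx, map_zero]⟩
  set π : A →ₗ[ℤ] A ⧸ T := T.mkQ with hπ
  have πsurj : Function.Surjective π := T.mkQ_surjective
  have πker : ∀ x, π x = 0 ↔ x ∈ T := fun x => by
    rw [hπ, Submodule.mkQ_apply, Submodule.Quotient.mk_eq_zero]
  set τ' : (A ⧸ T) →ₗ[ℤ] (A ⧸ T) := T.mapQ T τ hst with hτ'
  have e1 : ∀ x, τ' (π x) = π (τ x) := fun x => rfl
  have e2 : ∀ (i : ℕ) x, (τ' ^ i) (π x) = π ((τ ^ i) x) := by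
    intro i
    induction i with
    | zero => intro x; simp
    | succ i ih => intro x; rw [pow_succ, Module.End.mul_apply, e1, ih, pow_succ, Module.End.mul_apply]
  have hτ'p : τ' ^ p = 1 := by
    apply LinearMap.ext
    intro y
    obtain ⟨x, rfl⟩ := πsurj y
    rw [e2, hτ]
    rfl
  set D' : (A ⧸ T) →ₗ[ℤ] (A ⧸ T) := τ' - 1 with hD'
  set N' : (A ⧸ T) →ₗ[ℤ] (A ⧸ T) := ∑ i ∈ range p, τ' ^ i with hN'
  have eD : ∀ x, π (D x) = D' (π x) := by
    intro x
    simp only [D, hD', LinearMap.sub_apply, Module.End.one_apply, map_sub, e1]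
  have eN : ∀ x, π (N x) = N' (π x) := by
    intro x
    simp only [N, hN', LinearMap.sum_apply, map_sum, e2]
  have hND : N * D = 0 := by simp only [N, D]; rw [geom_sum_mul, hτ, sub_self]
  have hDN : D * N = 0 := by simp only [N, D]; rw [mul_geom_sum, hτ, sub_self]
  have hND' : ∀ x, N (D x) = 0 := fun x => by
    have := congrArg (fun f : A →ₗ[ℤ] A => f x) hND
    simpa using this
  have hDN' : ∀ x, D (N x) = 0 := fun x => by
    have := congrArg (fun f : A →ₗ[ℤ] A => f x) hDN
    simpa using this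
  -- ranks
  have r1 : finrank ℤ A = finrank ℤ (A ⧸ T) := by
    apply AL1_finrank_eq π
    · intro x hx
      exact (memT x).mp ((πker x).mp hx)
    · intro y
      obtain ⟨x, rfl⟩ := πsurj y
      exact ⟨1, one_ne_zero, x, by simp⟩
  have r2 : finrank ℤ (LinearMap.ker D) = finrank ℤ (LinearMap.ker D') := by
    apply AL1_finrank_eq ((π.comp (LinearMap.ker D).subtype).codRestrict (LinearMap.ker D')
      (fun x => by
        rw [LinearMap.mem_ker, LinearMap.comp_apply, ← eD]
        have : D (x : A) = 0 := x.2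
        simp [this]))
    · intro x hx
      have h3 : π (x : A) = 0 := congrArg Subtype.val hx
      obtain ⟨a, ha, hx'⟩ := (memT x).mp ((πker x).mp h3)
      exact ⟨a, ha, Subtype.ext hx'⟩
    · intro y
      obtain ⟨x, hx⟩ := πsurj (y : A ⧸ T)
      have h3 : D' (π x) = 0 := by rw [hx]; exact y.2
      rw [← eD, πker, memT] at h3
      obtain ⟨a, ha, h4⟩ := h3
      refine ⟨a, ha, ⟨a • x, by rw [LinearMap.mem_ker, map_smul, h4]⟩, ?_⟩
      apply Subtype.ext
      change π (a • x) = a • (y : A ⧸ T)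
      rw [map_smul, hx]
  obtain ⟨t1, t2, t3⟩ := AL1_torsionFree p hp τ' hτ'p β m (by rw [← r2]; exact hβ)
    (by rw [← r1]; exact hm)
  have q1 := AL1_transfer π.toAddMonoidHom πsurj D.toAddMonoidHom N.toAddMonoidHom
    D'.toAddMonoidHom N'.toAddMonoidHom eD eN (by rintro _ ⟨x, rfl⟩; exact hDN' x)
  have q2 := AL1_transfer π.toAddMonoidHom πsurj N.toAddMonoidHom D.toAddMonoidHom
    N'.toAddMonoidHom D'.toAddMonoidHom eN eD (by rintro _ ⟨x, rfl⟩; exact hND' x)
  have hfinK : Finite ↥(π.toAddMonoidHom.ker) := by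
    apply Finite.of_injective (fun x : ↥(π.toAddMonoidHom.ker) => (⟨x.1, (πker x.1).mp x.2⟩ : T))
    intro x y hxy
    exact Subtype.ext (congrArg (fun z : T => (z : A)) hxy)
  have hfin : ∀ H : AddSubgroup A, Nat.card ↥(H ⊓ π.toAddMonoidHom.ker) ≠ 0 := by
    intro H
    have : Finite ↥(H ⊓ π.toAddMonoidHom.ker) := by
      apply Finite.of_injective
        (fun x : ↥(H ⊓ π.toAddMonoidHom.ker) => (⟨x.1, x.2.2⟩ : ↥(π.toAddMonoidHom.ker)))
      intro x y hxy
      exact Subtype.ext (congrArg (fun z : ↥(π.toAddMonoidHom.ker) => (z : A)) hxy)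
    exact Nat.card_pos.ne'
  have hc : Nat.card ↥(π.toAddMonoidHom.ker) ≠ 0 := Nat.card_pos.ne'
  have ha := hfin D.toAddMonoidHom.range
  have hb := hfin N.toAddMonoidHom.range
  have q1' : (LinearMap.range N').toAddSubgroup.relIndex (LinearMap.ker D').toAddSubgroup *
      Nat.card ↥(π.toAddMonoidHom.ker) = h0 * Nat.card ↥(D.toAddMonoidHom.range ⊓ π.toAddMonoidHom.ker) *
      Nat.card ↥(N.toAddMonoidHom.range ⊓ π.toAddMonoidHom.ker) := q1
  have q2' : (LinearMap.range D').toAddSubgroup.relIndex (LinearMap.ker N').toAddSubgroup *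
      Nat.card ↥(π.toAddMonoidHom.ker) = h1 * Nat.card ↥(N.toAddMonoidHom.range ⊓ π.toAddMonoidHom.ker) *
      Nat.card ↥(D.toAddMonoidHom.range ⊓ π.toAddMonoidHom.ker) := q2
  generalize (LinearMap.range N').toAddSubgroup.relIndex (LinearMap.ker D').toAddSubgroup = H0
    at t1 t3 q1'
  generalize (LinearMap.range D').toAddSubgroup.relIndex (LinearMap.ker N').toAddSubgroup = H1
    at t2 t3 q2'
  generalize Nat.card ↥(π.toAddMonoidHom.ker) = c at hc q1' q2'
  generalize Nat.card ↥(D.toAddMonoidHom.range ⊓ π.toAddMonoidHom.ker) = a at ha q1' q2'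
  generalize Nat.card ↥(N.toAddMonoidHom.range ⊓ π.toAddMonoidHom.ker) = b at hb q1' q2'
  refine ⟨?_, ?_, ?_⟩
  · intro h
    rw [h] at q1'
    simp only [zero_mul, mul_eq_zero] at q1'
    tauto
  · intro h
    rw [h] at q2'
    simp only [zero_mul, mul_eq_zero] at q2'
    tauto
  · have hab : a * b ≠ 0 := mul_ne_zero ha hb
    apply Nat.eq_of_mul_eq_mul_right (Nat.pos_of_ne_zero hab)
    calc h0 * p ^ m * (a * b) = (h0 * a * b) * p ^ m := by ring
      _ = (H0 * c) * p ^ m := by rw [q1']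
      _ = (H0 * p ^ m) * c := by ring
      _ = (H1 * p ^ β) * c := by rw [t3]
      _ = (H1 * c) * p ^ β := by ring
      _ = (h1 * b * a) * p ^ β := by rw [q2']
      _ = h1 * p ^ β * (a * b) := by ring

end Fermat.Agent.S14
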