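/-
S14 team, package (Lo): assembly (helper15).
-/
import Fermat.Agent.S14.LoInterface

set_option autoImplicit false
set_option linter.unusedSectionVars false
set_option linter.style.haveILetI false
set_option linter.unnecessarySimpa false

namespace Fermat.Agent.S14

open NumberField
open scoped Pointwise nonZeroDivisors

section basic

variable (L : Type) [Field L] [NumberField L]

theorem lo6_range_eq_ker :
    (Units.map (algebraMap (𝓞 L) L : 𝓞 L →* L)).range = (toPrincipalIdeal (𝓞 L) L).ker := by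
  have key : ∀ x : Lˣ, toPrincipalIdeal (𝓞 L) L x = 1 → ∃ a : 𝓞 L, algebraMap (𝓞 L) L a = x := by
    intro x hx
    rw [toPrincipalIdeal_eq_iff] at hx
    have h1 : (x : L) ∈ FractionalIdeal.spanSingleton (𝓞 L)⁰ (x : L) :=
      FractionalIdeal.mem_spanSingleton_self _ _
    rw [hx, Units.val_one, FractionalIdeal.mem_one_iff] at h1
    exact h1
  ext x
  rw [MonoidHom.mem_range, MonoidHom.mem_ker]
  constructor
  · rintro ⟨u, rfl⟩
    rw [toPrincipalIdeal_eq_iff, Units.val_one, Units.coe_map, MonoidHom.coe_coe,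
      ← FractionalIdeal.coeIdeal_span_singleton, Ideal.span_singleton_eq_top.mpr u.isUnit,
      FractionalIdeal.coeIdeal_top]
  · intro hx
    obtain ⟨a, ha⟩ := key x hx
    obtain ⟨b, hb⟩ := key x⁻¹ (by rw [map_inv, hx, inv_one])
    have hab : a * b = 1 := by
      apply FaithfulSMul.algebraMap_injective (𝓞 L) L
      rw [map_mul, ha, hb, map_one, Units.mul_inv]
    refine ⟨⟨a, b, hab, by rw [mul_comm, hab]⟩, ?_⟩
    ext
    simpa using ha

theorem lo6_index_ne_zero : (toPrincipalIdeal (𝓞 L) L).range.index ≠ 0 := by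
  haveI : Finite ((FractionalIdeal (𝓞 L)⁰ L)ˣ ⧸ (toPrincipalIdeal (𝓞 L) L).range) :=
    Finite.of_equiv _ (ClassGroup.equiv (R := 𝓞 L) L).toEquiv
  exact Subgroup.index_ne_zero_of_finite

/-- every invertible fractional ideal becomes integral after multiplication by a positive
integer -/
theorem lo6_exists_integral (A : (FractionalIdeal (𝓞 L)⁰ L)ˣ) :
    ∃ (n : ℕ) (J : Ideal (𝓞 L)), n ≠ 0 ∧ J ≠ ⊥ ∧
      (A : FractionalIdeal (𝓞 L)⁰ L) * FractionalIdeal.spanSingleton (𝓞 L)⁰ (n : L) =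
        (J : FractionalIdeal (𝓞 L)⁰ L) := by
  obtain ⟨b, Jb, hb, hA⟩ := FractionalIdeal.exists_eq_spanSingleton_mul
    (A : FractionalIdeal (𝓞 L)⁰ L)
  have hn : Ideal.absNorm (Ideal.span {b}) ≠ 0 := by
    rw [Ne, Ideal.absNorm_eq_zero_iff, Ideal.span_singleton_eq_bot]
    exact hb
  obtain ⟨c, hc⟩ := Ideal.mem_span_singleton.mp (Ideal.absNorm_mem (Ideal.span {b}))
  have hbL : algebraMap (𝓞 L) L b ≠ 0 := by
    simpa using hb
  have hJb : Jb ≠ ⊥ := by
    rintro rfl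
    have : (A : FractionalIdeal (𝓞 L)⁰ L) = 0 := by simpa using hA
    exact A.ne_zero this
  have hc0 : c ≠ 0 := by
    rintro rfl
    rw [mul_zero] at hc
    exact hn (by exact_mod_cast hc)
  refine ⟨Ideal.absNorm (Ideal.span {b}), Ideal.span {c} * Jb, hn, ?_, ?_⟩
  · exact mul_ne_zero (by simpa using hc0) hJb
  · have h1 : ((Ideal.absNorm (Ideal.span {b}) : ℕ) : L) =
        algebraMap (𝓞 L) L b * algebraMap (𝓞 L) L c := by
      rw [← map_mul, ← hc, map_natCast]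
    rw [hA, h1, FractionalIdeal.coeIdeal_mul, FractionalIdeal.coeIdeal_span_singleton,
      mul_right_comm, FractionalIdeal.spanSingleton_mul_spanSingleton, ← mul_assoc,
      inv_mul_cancel₀ hbL, one_mul]

end basic

section cls

variable {K : Type} [Field K] [NumberField K]

theorem lo6_cls_of_ne_bot {I : Ideal (𝓞 K)} (h : I ≠ ⊥) :
    cls I = ClassGroup.mk0 ⟨I, mem_nonZeroDivisors_iff_ne_zero.mpr h⟩ := by
  unfold cls
  rw [dif_pos]

theorem lo6_cls_mul {I J : Ideal (𝓞 K)} (hI : I ≠ ⊥) (hJ : J ≠ ⊥) :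
    cls (I * J) = cls I * cls J := by
  rw [lo6_cls_of_ne_bot hI, lo6_cls_of_ne_bot hJ, lo6_cls_of_ne_bot (mul_ne_zero hI hJ),
    ← map_mul]
  rfl

theorem lo6_cls_top : cls (⊤ : Ideal (𝓞 K)) = 1 := by
  rw [lo6_cls_of_ne_bot top_ne_bot]
  exact (ClassGroup.mk0_eq_one_iff _).mpr top_isPrincipal

theorem lo6_cls_pow {I : Ideal (𝓞 K)} (hI : I ≠ ⊥) (n : ℕ) : cls (I ^ n) = cls I ^ n := by
  induction n with
  | zero => simpa using lo6_cls_top
  | succ n ih => rw [pow_succ, pow_succ, lo6_cls_mul (pow_ne_zero n hI) hI, ih]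

variable (K) (L : Type) [Field L] [NumberField L] [Algebra K L]

theorem lo6_mem_normCl {c : ClassGroup (𝓞 K)} (hc : c ∈ normCl K L) :
    ∃ J : Ideal (𝓞 L), J ≠ ⊥ ∧ c = cls (Ideal.relNorm (𝓞 K) J) := by
  have hne : ∀ {J : Ideal (𝓞 L)}, J ≠ ⊥ → Ideal.relNorm (𝓞 K) J ≠ ⊥ := fun {J} hJ => by
    rwa [Ne, Ideal.relNorm_eq_bot_iff]
  unfold normCl at hc
  induction hc using Subgroup.closure_induction with
  | mem x hx => exact hx
  | one => exact ⟨⊤, top_ne_bot, by rw [Ideal.relNorm_top, lo6_cls_top]⟩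
  | mul x y _ _ hx hy =>
    obtain ⟨J₁, h₁, rfl⟩ := hx
    obtain ⟨J₂, h₂, rfl⟩ := hy
    exact ⟨J₁ * J₂, mul_ne_zero h₁ h₂, by rw [map_mul, lo6_cls_mul (hne h₁) (hne h₂)]⟩
  | inv x _ hx =>
    obtain ⟨J, h, rfl⟩ := hx
    refine ⟨J ^ (Nat.card (ClassGroup (𝓞 K)) - 1), pow_ne_zero _ h, ?_⟩
    rw [map_pow, lo6_cls_pow (hne h), inv_eq_iff_mul_eq_one, ← pow_succ',
      Nat.sub_add_cancel Nat.card_pos, pow_card_eq_one']

theorem lo6_exists_of_top (htop : normCl K L = ⊤) (a : Ideal (𝓞 K)) (ha : a ≠ ⊥) :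
    ∃ (J : Ideal (𝓞 L)) (x y : 𝓞 K), J ≠ ⊥ ∧ x ≠ 0 ∧ y ≠ 0 ∧
      Ideal.span {x} * a = Ideal.span {y} * Ideal.relNorm (𝓞 K) J := by
  obtain ⟨J, hJ, hc⟩ := lo6_mem_normCl K L (c := cls a) (htop ▸ Subgroup.mem_top _)
  have hne : Ideal.relNorm (𝓞 K) J ≠ ⊥ := by rwa [Ne, Ideal.relNorm_eq_bot_iff]
  rw [lo6_cls_of_ne_bot ha, lo6_cls_of_ne_bot hne, ClassGroup.mk0_eq_mk0_iff] at hc
  obtain ⟨x, y, hx, hy, h⟩ := hc
  exact ⟨J, x, y, hJ, hx, hy, h⟩

end cls

theorem lo6_norm_comp {G M : Type*} [Group G] [Fintype G] [CommGroup M] (f : G → (M →* M))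
    (hf : ∀ σ τ, f (σ * τ) = (f σ).comp (f τ)) (τ : G) (x : M) :
    (∏ σ, f σ) (f τ x) = (∏ σ, f σ) x ∧ f τ ((∏ σ, f σ) x) = (∏ σ, f σ) x := by
  simp only [MonoidHom.finsetProd_apply, map_prod]
  constructor
  · exact Fintype.prod_equiv (Equiv.mulRight τ) _ _ (fun σ => by simp [hf])
  · exact Fintype.prod_equiv (Equiv.mulLeft τ) _ _ (fun σ => by simp [hf])

section galois

variable (K L : Type) [Field K] [NumberField K] [Field L] [NumberField L] [Algebra K L]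

theorem lo6_SX_mul (σ τ : L ≃ₐ[K] L) : loSX K L (σ * τ) = (loSX K L σ).comp (loSX K L τ) := by
  ext x
  simp [loSX]

theorem lo6_iota_SU (σ : L ≃ₐ[K] L) (u : (𝓞 L)ˣ) :
    Units.map (algebraMap (𝓞 L) L : 𝓞 L →* L) (loSU K L σ u) =
      loSX K L σ (Units.map (algebraMap (𝓞 L) L : 𝓞 L →* L) u) := by
  ext
  simp only [loSU, loSX, Units.coe_map, MonoidHom.coe_coe, MulSemiringAction.toRingHom_apply]
  exact algebraMap.coe_smul' σ (u : 𝓞 L) L

theorem lo6_iota_NU (u : (𝓞 L)ˣ) :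
    Units.map (algebraMap (𝓞 L) L : 𝓞 L →* L) (loNU K L u) =
      loNX K L (Units.map (algebraMap (𝓞 L) L : 𝓞 L →* L) u) := by
  simp only [loNU, loNX, MonoidHom.finsetProd_apply, map_prod, lo6_iota_SU]

theorem lo6_coe_NX (x : Lˣ) : ((loNX K L x : Lˣ) : L) = ∏ σ : L ≃ₐ[K] L, σ (x : L) := by
  simp only [loNX, MonoidHom.finsetProd_apply, Units.coe_prod]
  rfl

theorem lo6_hilbert90 [IsGalois K L] [IsCyclic (L ≃ₐ[K] L)] (τ : L ≃ₐ[K] L)
    (hτ : ∀ σ, σ ∈ Subgroup.zpowers τ) (x : Lˣ) (hx : loNX K L x = 1) :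
    ∃ y, x = loSX K L τ y / y := by
  have h1 : Algebra.norm K (x : L) = 1 := by
    apply (algebraMap K L).injective
    rw [Algebra.norm_eq_prod_automorphisms, ← lo6_coe_NX, hx, Units.val_one, map_one]
  obtain ⟨y, hy⟩ := groupCohomology.exists_div_of_norm_eq_one hτ h1
  refine ⟨y⁻¹, ?_⟩
  ext
  rw [← hy]
  simp [loSX, div_eq_mul_inv, mul_comm]

end galois

theorem lo_of (h1 : Stmt_LoAbstract) (h2 : Stmt_LoUnits) (h3 : Stmt_LoInvariant)
    (h4 : Stmt_LoRelNorm) (h5 : Stmt_LoAction) : Stmt_Lo := by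
  intro p K L _ _ _ _ _ _ hp hp2 hdeg hunr hK htop
  haveI : Fact p.Prime := ⟨hp⟩
  have hcard : Nat.card (L ≃ₐ[K] L) = p := by rw [IsGalois.card_aut_eq_finrank, hdeg]
  haveI : IsCyclic (L ≃ₐ[K] L) := isCyclic_of_prime_card hcard
  obtain ⟨τ, hτ⟩ := IsCyclic.exists_generator (α := L ≃ₐ[K] L)
  obtain ⟨hT1, hTmul, hTd, hTJ⟩ := h5 K L
  obtain ⟨hu0, hu1⟩ := h2 p K L hp hdeg hK τ hτ
  obtain ⟨A, hA, hAne⟩ := h1 (FractionalIdeal (𝓞 L)⁰ L)ˣ Lˣ (𝓞 L)ˣ (toPrincipalIdeal (𝓞 L) L)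
    (Units.map (algebraMap (𝓞 L) L : 𝓞 L →* L)) (loT K L τ) (loNI K L) (loSX K L τ) (loNX K L)
    (loSU K L τ) (loNU K L) p
    (Units.map_injective (FaithfulSMul.algebraMap_injective (𝓞 L) L))
    (lo6_range_eq_ker L)
    (fun x => (hTd τ x).symm)
    (fun x => by simp only [loNX, loNI, MonoidHom.finsetProd_apply, map_prod, hTd])
    (lo6_iota_SU K L τ) (lo6_iota_NU K L)
    (fun A => (lo6_norm_comp (loT K L) hTmul τ A).1)
    (fun A => (lo6_norm_comp (loT K L) hTmul τ A).2)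
    (fun x => (lo6_norm_comp (loSX K L) (lo6_SX_mul K L) τ x).1)
    (fun x => (lo6_norm_comp (loSX K L) (lo6_SX_mul K L) τ x).2)
    (lo6_hilbert90 K L τ hτ)
    (lo6_index_ne_zero L) hp.one_lt hu0 hu1
  -- `A` is invariant under the whole Galois group
  have hAall : ∀ σ : L ≃ₐ[K] L, loT K L σ A = A := by
    let S : Subgroup (L ≃ₐ[K] L) :=
      { carrier := {σ | loT K L σ A = A}
        mul_mem' := fun {a b} ha hb => by
          simp only [Set.mem_ofPred_eq] at *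
          rw [hTmul, MonoidHom.comp_apply, hb, ha]
        one_mem' := by simp [hT1]
        inv_mem' := fun {a} ha => by
          simp only [Set.mem_ofPred_eq] at *
          have : loT K L (a⁻¹ * a) A = A := by rw [inv_mul_cancel, hT1]; rfl
          rw [hTmul, MonoidHom.comp_apply, ha] at this
          exact this }
    intro σ
    have : Subgroup.zpowers τ ≤ S := Subgroup.zpowers_le.mpr hA
    exact this (hτ σ)
  obtain ⟨n, J, hn, hJ, hAJ⟩ := lo6_exists_integral L A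
  let nu : Lˣ := Units.mk0 (n : L) (by exact_mod_cast hn)
  have hAJ' : ((A * toPrincipalIdeal (𝓞 L) L nu : (FractionalIdeal (𝓞 L)⁰ L)ˣ) :
      FractionalIdeal (𝓞 L)⁰ L) = J := by
    rw [Units.val_mul, coe_toPrincipalIdeal]
    exact hAJ
  have hnu : ∀ σ, loSX K L σ nu = nu := by
    intro σ
    ext
    simp [loSX, nu]
  have hJinv : ∀ σ : L ≃ₐ[K] L, σ • J = J := by
    intro σ
    apply FractionalIdeal.coeIdeal_injective (K := L)
    show ((σ • J : Ideal (𝓞 L)) : FractionalIdeal (𝓞 L)⁰ L) = J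
    rw [← hTJ σ _ J hAJ', map_mul, hAall, hTd, hnu, hAJ']
  obtain ⟨a, ha⟩ := h3 K L hunr J hJinv
  have ha0 : a ≠ ⊥ := by
    rintro rfl
    exact hJ (by simpa using ha)
  obtain ⟨J', x, y, hJ', hx, hy, hxy⟩ := lo6_exists_of_top K L htop a ha0
  have hmap := congrArg (Ideal.map (algebraMap (𝓞 K) (𝓞 L))) hxy
  rw [Ideal.map_mul, Ideal.map_mul, ← ha, h4 K L J', Ideal.map_span, Ideal.map_span,
    Set.image_singleton, Set.image_singleton] at hmap
  let B : (FractionalIdeal (𝓞 L)⁰ L)ˣ :=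
    FractionalIdeal.mk0 L ⟨J', mem_nonZeroDivisors_iff_ne_zero.mpr hJ'⟩
  have hB : ((loNI K L B : (FractionalIdeal (𝓞 L)⁰ L)ˣ) : FractionalIdeal (𝓞 L)⁰ L) =
      ((∏ σ : L ≃ₐ[K] L, σ • J' : Ideal (𝓞 L)) : FractionalIdeal (𝓞 L)⁰ L) := by
    have h := map_prod (FractionalIdeal.coeIdealHom (𝓞 L)⁰ L) (fun σ : L ≃ₐ[K] L => σ • J')
      Finset.univ
    simp only [FractionalIdeal.coeIdealHom_apply] at h
    rw [h]
    simp only [loNI, MonoidHom.finsetProd_apply, Units.coe_prod]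
    exact Finset.prod_congr rfl fun σ _ => hTJ σ B J' (FractionalIdeal.coe_mk0 L _)
  have hxL : algebraMap K L (x : K) ≠ 0 := by
    simpa using hx
  have hyL : algebraMap K L (y : K) ≠ 0 := by
    simpa using hy
  let xu : Lˣ := Units.mk0 _ hxL
  let yu : Lˣ := Units.mk0 _ hyL
  have hxu : loSX K L τ xu = xu := by
    ext
    simp [loSX, xu]
  have hyu : loSX K L τ yu = yu := by
    ext
    simp [loSX, yu]
  have hgrp : toPrincipalIdeal (𝓞 L) L xu * (A * toPrincipalIdeal (𝓞 L) L nu) =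
      toPrincipalIdeal (𝓞 L) L yu * loNI K L B := by
    ext1
    rw [Units.val_mul _ (A * _), Units.val_mul _ (loNI K L B), hAJ', hB, coe_toPrincipalIdeal,
      coe_toPrincipalIdeal]
    have h := congrArg (fun I : Ideal (𝓞 L) => (I : FractionalIdeal (𝓞 L)⁰ L)) hmap
    simp only [FractionalIdeal.coeIdeal_mul, FractionalIdeal.coeIdeal_span_singleton] at h
    exact h
  refine hAne B (yu / (xu * nu)) ?_ ?_
  · rw [map_div, map_mul, hxu, hyu, hnu]
  · rw [map_div, map_mul, mul_div_assoc', mul_comm (loNI K L B), ← hgrp, ← mul_assoc,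
      mul_comm (toPrincipalIdeal (𝓞 L) L xu) A, mul_assoc, mul_div_cancel_right]

end Fermat.Agent.S14
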