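import Fermat.Agent.S14.LoInterface

set_option autoImplicit false
set_option linter.unusedSectionVars false

namespace Fermat.Agent.S14

open NumberField
open scoped Pointwise nonZeroDivisors

/-! ### Multiplicative endomorphisms as `ℤ`-linear maps -/

section Lin

variable {U : Type} [CommGroup U]

/-- An endomorphism of a commutative group as a `ℤ`-linear endomorphism of `Additive U`. -/
noncomputable def lo2Lin (f : U →* U) : Additive U →ₗ[ℤ] Additive U :=
  (MonoidHom.toAdditive f).toIntLinearMap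

theorem lo2Lin_apply (f : U →* U) (a : Additive U) :
    lo2Lin f a = Additive.ofMul (f a.toMul) := rfl

theorem lo2Lin_mul (f g : U →* U) : lo2Lin (f * g) = lo2Lin f + lo2Lin g := by
  ext a; rfl

theorem lo2Lin_div (f g : U →* U) : lo2Lin (f / g) = lo2Lin f - lo2Lin g := by
  ext a; rfl

theorem lo2Lin_id : lo2Lin (MonoidHom.id U) = 1 := by
  ext a; rfl

theorem lo2Lin_one : lo2Lin (1 : U →* U) = 0 := by
  ext a; rfl

theorem lo2Lin_comp (f g : U →* U) : lo2Lin (f.comp g) = lo2Lin f * lo2Lin g := by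
  ext a; rfl

theorem lo2Lin_prod {ι : Type*} (s : Finset ι) (f : ι → U →* U) :
    lo2Lin (∏ i ∈ s, f i) = ∑ i ∈ s, lo2Lin (f i) := by
  classical
  induction s using Finset.induction_on with
  | empty => simp [lo2Lin_one]
  | insert i s hi ih => rw [Finset.prod_insert hi, Finset.sum_insert hi, lo2Lin_mul, ih]

theorem lo2Lin_range (f : U →* U) :
    (LinearMap.range (lo2Lin f)).toAddSubgroup = Subgroup.toAddSubgroup f.range := by
  ext a
  constructor
  · rintro ⟨b, rfl⟩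
    exact ⟨b.toMul, rfl⟩
  · rintro ⟨b, hb⟩
    exact ⟨Additive.ofMul b, hb⟩

theorem lo2Lin_ker (f : U →* U) :
    (LinearMap.ker (lo2Lin f)).toAddSubgroup = Subgroup.toAddSubgroup f.ker := by
  ext a
  rfl

end Lin

/-! ### The Galois action on units -/

section Field

variable (K L : Type) [Field K] [NumberField K] [Field L] [NumberField L] [Algebra K L]

theorem lo2_loSU_apply (σ : L ≃ₐ[K] L) (u : (𝓞 L)ˣ) :
    ((loSU K L σ u : (𝓞 L)ˣ) : 𝓞 L) = σ • (u : 𝓞 L) := rfl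

theorem lo2_loSU_one : loSU K L 1 = MonoidHom.id _ := by
  ext u
  rw [lo2_loSU_apply, one_smul]
  rfl

theorem lo2_loSU_mul (σ σ' : L ≃ₐ[K] L) :
    loSU K L (σ * σ') = (loSU K L σ).comp (loSU K L σ') := by
  ext u
  rw [lo2_loSU_apply, mul_smul]
  rfl

theorem lo2_lin_pow (τ : L ≃ₐ[K] L) (i : ℕ) :
    (lo2Lin (loSU K L τ)) ^ i = lo2Lin (loSU K L (τ ^ i)) := by
  induction i with
  | zero => rw [pow_zero, pow_zero, lo2_loSU_one, lo2Lin_id]
  | succ i ih => rw [pow_succ, pow_succ, ih, lo2_loSU_mul, lo2Lin_comp]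

theorem lo2_sum_pow (τ : L ≃ₐ[K] L) (hτ : ∀ σ, σ ∈ Subgroup.zpowers τ) :
    ∑ i ∈ Finset.range (orderOf τ), (lo2Lin (loSU K L τ)) ^ i = lo2Lin (loNU K L) := by
  classical
  have h1 : (Finset.univ : Finset (L ≃ₐ[K] L)) =
      Finset.image (fun i => τ ^ i) (Finset.range (orderOf τ)) :=
    (IsCyclic.image_range_orderOf hτ).symm
  unfold loNU
  rw [h1, Finset.prod_image, lo2Lin_prod]
  · exact Finset.sum_congr rfl fun i _ => lo2_lin_pow K L τ i
  · intro i hi j hj hij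
    exact pow_injOn_Iio_orderOf (by simpa using hi) (by simpa using hj) hij

theorem lo2_rank (F : Type) [Field F] [NumberField F] [IsTotallyComplex F] :
    2 * (Units.rank F + 1) = Module.finrank ℚ F := by
  have h1 : 0 < Fintype.card (InfinitePlace F) := Fintype.card_pos
  rw [IsTotallyComplex.finrank, Units.rank]
  have h2 := InfinitePlace.card_eq_nrRealPlaces_add_nrComplexPlaces F
  rw [IsTotallyComplex.nrRealPlaces_eq_zero, zero_add] at h2
  omega

/-- The inclusion of the units of `𝓞 K` in the units of `𝓞 L`, as a `ℤ`-linear map. -/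
noncomputable def lo2Incl : Additive (𝓞 K)ˣ →ₗ[ℤ] Additive (𝓞 L)ˣ :=
  (MonoidHom.toAdditive (Units.map (algebraMap (𝓞 K) (𝓞 L) : 𝓞 K →* 𝓞 L))).toIntLinearMap

theorem lo2Incl_injective : Function.Injective (lo2Incl K L) := by
  intro a b hab
  have h1 : Units.map (algebraMap (𝓞 K) (𝓞 L) : 𝓞 K →* 𝓞 L) a.toMul =
      Units.map (algebraMap (𝓞 K) (𝓞 L) : 𝓞 K →* 𝓞 L) b.toMul := hab
  have h2 : algebraMap (𝓞 K) (𝓞 L) (a.toMul : 𝓞 K) = algebraMap (𝓞 K) (𝓞 L) (b.toMul : 𝓞 K) :=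
    congrArg Units.val h1
  have h3 : (a.toMul : 𝓞 K) = (b.toMul : 𝓞 K) :=
    FaithfulSMul.algebraMap_injective (𝓞 K) (𝓞 L) h2
  exact Units.ext h3

theorem lo2_smul_eq_of_zpowers (τ : L ≃ₐ[K] L) (hτ : ∀ σ, σ ∈ Subgroup.zpowers τ) (x : 𝓞 L)
    (hx : τ • x = x) (σ : L ≃ₐ[K] L) : σ • x = x := by
  have h1 : τ ∈ MulAction.stabilizer (L ≃ₐ[K] L) x := hx
  have h2 : Subgroup.zpowers τ ≤ MulAction.stabilizer (L ≃ₐ[K] L) x := by
    rw [Subgroup.zpowers_le]
    exact h1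
  exact h2 (hτ σ)

theorem lo2_range_incl [IsGalois K L] (τ : L ≃ₐ[K] L) (hτ : ∀ σ, σ ∈ Subgroup.zpowers τ) :
    LinearMap.range (lo2Incl K L) = LinearMap.ker (lo2Lin (loSU K L τ) - 1) := by
  ext a
  rw [LinearMap.mem_ker, LinearMap.sub_apply, sub_eq_zero]
  constructor
  · rintro ⟨b, rfl⟩
    have h1 : loSU K L τ (Units.map (algebraMap (𝓞 K) (𝓞 L) : 𝓞 K →* 𝓞 L) b.toMul) =
        Units.map (algebraMap (𝓞 K) (𝓞 L) : 𝓞 K →* 𝓞 L) b.toMul := by
      ext1
      rw [lo2_loSU_apply]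
      exact smul_algebraMap τ (b.toMul : 𝓞 K)
    exact congrArg Additive.ofMul h1
  · intro ha
    have h1 : loSU K L τ a.toMul = a.toMul := ha
    have h2 : τ • (a.toMul : 𝓞 L) = (a.toMul : 𝓞 L) := congrArg Units.val h1
    have h3 : τ • ((a.toMul⁻¹ : (𝓞 L)ˣ) : 𝓞 L) = ((a.toMul⁻¹ : (𝓞 L)ˣ) : 𝓞 L) := by
      have : loSU K L τ a.toMul⁻¹ = a.toMul⁻¹ := by rw [map_inv, h1]
      exact congrArg Units.val this
    obtain ⟨x, hx⟩ := Algebra.IsInvariant.isInvariant (A := 𝓞 K) (G := L ≃ₐ[K] L)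
      (a.toMul : 𝓞 L) (lo2_smul_eq_of_zpowers K L τ hτ _ h2)
    obtain ⟨y, hy⟩ := Algebra.IsInvariant.isInvariant (A := 𝓞 K) (G := L ≃ₐ[K] L)
      ((a.toMul⁻¹ : (𝓞 L)ˣ) : 𝓞 L) (lo2_smul_eq_of_zpowers K L τ hτ _ h3)
    have hxy : x * y = 1 := by
      apply FaithfulSMul.algebraMap_injective (𝓞 K) (𝓞 L)
      rw [map_mul, hx, hy, map_one, Units.mul_inv]
    refine ⟨Additive.ofMul ⟨x, y, hxy, by rw [mul_comm, hxy]⟩, ?_⟩
    have : Units.map (algebraMap (𝓞 K) (𝓞 L) : 𝓞 K →* 𝓞 L) ⟨x, y, hxy, by rw [mul_comm, hxy]⟩ =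
        a.toMul := Units.ext hx
    exact congrArg Additive.ofMul this

theorem lo2_finrank_ker [IsGalois K L] (τ : L ≃ₐ[K] L) (hτ : ∀ σ, σ ∈ Subgroup.zpowers τ) :
    Module.finrank ℤ (LinearMap.ker (lo2Lin (loSU K L τ) - 1)) = Units.rank K := by
  rw [← lo2_range_incl K L τ hτ, LinearMap.finrank_range_of_inj (lo2Incl_injective K L),
    Units.finrank_eq]

end Field

theorem loUnits (h : Stmt_Herbrand) : Stmt_LoUnits := by
  intro p K L _ _ _ _ _ _ hp hdeg hK τ hτ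
  have hL : IsTotallyComplex L := isTotallyComplex_of_algebra K L
  have hord : orderOf τ = p := by
    rw [orderOf_eq_card_of_forall_mem_zpowers hτ, IsGalois.card_aut_eq_finrank, hdeg]
  set τA : Additive (𝓞 L)ˣ →ₗ[ℤ] Additive (𝓞 L)ˣ := lo2Lin (loSU K L τ) with hτA
  have hpow : τA ^ p = 1 := by
    rw [hτA, lo2_lin_pow, ← hord, pow_orderOf_eq_one, lo2_loSU_one, lo2Lin_id]
  have hker : Module.finrank ℤ (LinearMap.ker (τA - 1)) = Units.rank K :=
    lo2_finrank_ker K L τ hτ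
  have hrank : Module.finrank ℤ (Additive (𝓞 L)ˣ) =
      Units.rank K + (p - 1) * (Units.rank K + 1) := by
    rw [Units.finrank_eq]
    have h1 := lo2_rank K
    have h2 := lo2_rank L
    have h3 := Module.finrank_mul_finrank ℚ K L
    rw [hdeg, ← h1, ← h2] at h3
    obtain ⟨q, rfl⟩ : ∃ q, p = q + 1 := ⟨p - 1, by have := hp.pos; omega⟩
    simp only [Nat.add_sub_cancel]
    nlinarith
  obtain ⟨h0ne, -, heq⟩ := h p hp (Additive (𝓞 L)ˣ) τA hpow (Units.rank K) (Units.rank K + 1)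
    hker hrank
  have hD : τA - 1 = lo2Lin (loSU K L τ / MonoidHom.id _) := by
    rw [lo2Lin_div, lo2Lin_id]
  have hN : ∑ i ∈ Finset.range p, τA ^ i = lo2Lin (loNU K L) := by
    rw [← hord]
    exact lo2_sum_pow K L τ hτ
  rw [hD, hN, lo2Lin_range, lo2Lin_ker, lo2Lin_range, lo2Lin_ker, Subgroup.relIndex_toAddSubgroup,
    Subgroup.relIndex_toAddSubgroup] at heq
  rw [hD, hN, lo2Lin_range, lo2Lin_ker, Subgroup.relIndex_toAddSubgroup] at h0ne
  refine ⟨h0ne, ?_⟩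
  have hpp : 0 < p ^ Units.rank K := pow_pos hp.pos _
  rw [pow_succ] at heq
  have : (p * (loNU K L).range.relIndex (loSU K L τ / MonoidHom.id _).ker) * p ^ Units.rank K =
      (loSU K L τ / MonoidHom.id _).range.relIndex (loNU K L).ker * p ^ Units.rank K := by
    rw [← heq]
    ring
  exact (Nat.eq_of_mul_eq_mul_right hpp this).symm

end Fermat.Agent.S14
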