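/-
S14, package Lo3: Galois invariant ideals of an unramified extension are extended.
-/
import Fermat.Agent.S14.LoInterface

set_option autoImplicit false

namespace Fermat.Agent.S14

open NumberField
open scoped Pointwise nonZeroDivisors

theorem lo3_ramificationIdx (K L : Type) [Field K] [NumberField K] [Field L] [NumberField L]
    [Algebra K L] [IsGalois K L] (h : TrivialInertia K L) (P : Ideal (𝓞 L)) [hP : P.IsMaximal] :
    P.ramificationIdx (𝓞 K) = 1 := by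
  have h1 : Nat.card (P.inertia (L ≃ₐ[K] L)) = 1 := by
    rw [Nat.card_eq_one_iff_unique]
    refine ⟨⟨fun a b => ?_⟩, ⟨1⟩⟩
    have ha : a.1 = 1 := h P hP a.1 a.2
    have hb : b.1 = 1 := h P hP b.1 b.2
    exact Subtype.ext (ha.trans hb.symm)
  have h2 := Ideal.card_inertia_eq_ramificationIdxIn (G := L ≃ₐ[K] L) (P.under (𝓞 K)) P
  rw [Ideal.ramificationIdxIn_eq_ramificationIdx (P.under (𝓞 K)) P (L ≃ₐ[K] L)] at h2
  rw [← h2, h1]

theorem lo3_smul_map (K L : Type) [Field K] [NumberField K] [Field L] [NumberField L]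
    [Algebra K L] (σ : L ≃ₐ[K] L) (a : Ideal (𝓞 K)) :
    σ • a.map (algebraMap (𝓞 K) (𝓞 L)) = a.map (algebraMap (𝓞 K) (𝓞 L)) := by
  rw [Ideal.pointwise_smul_def, Ideal.map_map]
  congr 1
  ext x
  simp only [RingHom.coe_comp, Function.comp_apply, MulSemiringAction.toRingHom_apply]
  change σ ((algebraMap (𝓞 K) (𝓞 L) x : 𝓞 L) : L) = ((algebraMap (𝓞 K) (𝓞 L) x : 𝓞 L) : L)
  have : ((algebraMap (𝓞 K) (𝓞 L) x : 𝓞 L) : L) = algebraMap K L (x : K) := rfl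
  rw [this, σ.commutes]

theorem loInvariant : Stmt_LoInvariant := by
  intro K L _ _ _ _ _ _ h J
  induction J using WellFoundedGT.induction with
  | ind J ih =>
  intro hJ
  by_cases hbot : J = ⊥
  · exact ⟨⊥, by rw [hbot, Ideal.map_bot]⟩
  by_cases htop : J = ⊤
  · exact ⟨⊤, by rw [htop, Ideal.map_top]⟩
  obtain ⟨P, hPmax, hJP⟩ := Ideal.exists_le_maximal J htop
  set 𝔭 : Ideal (𝓞 K) := P.under (𝓞 K) with h𝔭
  have h𝔭max : 𝔭.IsMaximal := inferInstance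
  have hP0 : P ≠ ⊥ := fun h0 => hbot (le_bot_iff.mp (h0 ▸ hJP))
  have h𝔭0 : 𝔭 ≠ ⊥ := Ideal.under_ne_bot _ hP0
  have hmap : 𝔭.map (algebraMap (𝓞 K) (𝓞 L)) = ∏ Q ∈ 𝔭.primesOver (𝓞 L), Q := by
    rw [Ideal.map_algebraMap_eq_finsetProd_pow h𝔭0]
    refine Finset.prod_congr rfl fun Q hQ => ?_
    have hQ' : Q ∈ 𝔭.primesOver (𝓞 L) := by simpa using hQ
    have : Q.IsPrime := hQ'.1
    have : Q.LiesOver 𝔭 := hQ'.2
    have hQmax : Q.IsMaximal := Ideal.IsMaximal.of_liesOver_isMaximal Q 𝔭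
    rw [lo3_ramificationIdx K L h Q, pow_one]
  have hdvd : 𝔭.map (algebraMap (𝓞 K) (𝓞 L)) ∣ J := by
    rw [hmap]
    refine Finset.prod_primes_dvd J (fun Q hQ => ?_) (fun Q hQ => ?_)
    · have hQ' : Q ∈ 𝔭.primesOver (𝓞 L) := by simpa using hQ
      have : Q.IsPrime := hQ'.1
      have : Q.LiesOver 𝔭 := hQ'.2
      refine Ideal.prime_of_isPrime ?_ hQ'.1
      exact Ideal.ne_bot_of_liesOver_of_ne_bot h𝔭0 Q
    · have hQ' : Q ∈ 𝔭.primesOver (𝓞 L) := by simpa using hQ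
      have : Q.IsPrime := hQ'.1
      have : Q.LiesOver 𝔭 := hQ'.2
      obtain ⟨σ, rfl⟩ := Ideal.exists_smul_eq_of_isGaloisGroup 𝔭 P Q (L ≃ₐ[K] L)
      rw [Ideal.dvd_iff_le, ← hJ σ]
      exact Ideal.pointwise_smul_le_pointwise_smul_iff.mpr hJP
  obtain ⟨J1, hJ1⟩ := hdvd
  have hm0 : 𝔭.map (algebraMap (𝓞 K) (𝓞 L)) ≠ 0 := fun h0 => hbot (by rw [hJ1, h0, zero_mul]; rfl)
  have hJ10 : J1 ≠ 0 := fun h0 => hbot (by rw [hJ1, h0, mul_zero]; rfl)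
  have hJ1inv : ∀ σ : L ≃ₐ[K] L, σ • J1 = J1 := by
    intro σ
    have h1 := hJ σ
    rw [hJ1, smul_mul', lo3_smul_map] at h1
    exact mul_left_cancel₀ hm0 h1
  have hlt : J < J1 := by
    refine lt_of_le_of_ne (hJ1 ▸ Ideal.mul_le_right) fun heq => ?_
    have h1 : 𝔭.map (algebraMap (𝓞 K) (𝓞 L)) * J1 = 1 * J1 := by rw [one_mul, ← hJ1, heq]
    have h2 := mul_right_cancel₀ hJ10 h1
    have h3 : 𝔭.map (algebraMap (𝓞 K) (𝓞 L)) ≤ P := Ideal.map_comap_le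
    rw [h2, Ideal.one_eq_top] at h3
    exact hPmax.ne_top (top_le_iff.mp h3)
  obtain ⟨a1, ha1⟩ := ih J1 hlt hJ1inv
  exact ⟨𝔭 * a1, by rw [Ideal.map_mul, ← ha1, ← hJ1]⟩

end Fermat.Agent.S14
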