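import Fermat.Agent.S14.Interface2

set_option autoImplicit false

namespace Fermat.Agent.S14

open NumberField Polynomial IntermediateField

section

variable {r : ℕ} {K L M : Type} [Field K] [Field L] [Field M] [Algebra K L] [Algebra L M]
  [Algebra K M] [IsScalarTower K L M]

/-- Induction principle: `M = L[ζ]`. -/
theorem crg_induction [NeZero r] [IsCyclotomicExtension {r} L M] {ζ : M}
    (hζ : IsPrimitiveRoot ζ r) (P : M → Prop) (h0 : P ζ) (h1 : ∀ x : L, P (algebraMap L M x))
    (hadd : ∀ x y, P x → P y → P (x + y)) (hmul : ∀ x y, P x → P y → P (x * y)) (y : M) : P y := by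
  have hy : y ∈ Algebra.adjoin L ({ζ} : Set M) := by
    rw [IsCyclotomicExtension.adjoin_primitive_root_eq_top hζ]
    trivial
  induction hy using Algebra.adjoin_induction with
  | mem x hx =>
    rw [Set.mem_singleton_iff] at hx
    rw [hx]
    exact h0
  | algebraMap x => exact h1 x
  | add x y _ _ hx hy => exact hadd x y hx hy
  | mul x y _ _ hx hy => exact hmul x y hx hy

theorem crg_normal [NeZero r] [Algebra.IsIntegral K M] [Normal K L]
    [IsCyclotomicExtension {r} L M] {ζ : M} (hζ : IsPrimitiveRoot ζ r) : Normal K M := by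
  let L' : IntermediateField K M := (IsScalarTower.toAlgHom K L M).fieldRange
  have hL' : Normal K L' :=
    Normal.of_algEquiv (AlgEquiv.ofInjectiveField (IsScalarTower.toAlgHom K L M))
  have hcyc : IsCyclotomicExtension {r} K K⟮ζ⟯ :=
    hζ.intermediateField_adjoin_isCyclotomicExtension K
  have hC : Normal K K⟮ζ⟯ := (IsCyclotomicExtension.isGalois {r} K K⟮ζ⟯).to_normal
  have hsup : Normal K (L' ⊔ K⟮ζ⟯ : IntermediateField K M) := inferInstance
  have htop : (L' ⊔ K⟮ζ⟯ : IntermediateField K M) = ⊤ := by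
    rw [eq_top_iff]
    intro y _
    refine crg_induction (L := L) hζ (fun y => y ∈ (L' ⊔ K⟮ζ⟯ : IntermediateField K M))
      ?_ ?_ ?_ ?_ y
    · exact (le_sup_right : K⟮ζ⟯ ≤ L' ⊔ K⟮ζ⟯) (mem_adjoin_simple_self K ζ)
    · intro x
      exact (le_sup_left : L' ≤ L' ⊔ K⟮ζ⟯) ⟨x, rfl⟩
    · intro x y hx hy
      exact add_mem hx hy
    · intro x y hx hy
      exact mul_mem hx hy
  rw [htop] at hsup
  exact Normal.of_algEquiv (topEquiv (F := K) (E := M))

omit [Algebra K L] [IsScalarTower K L M] in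
theorem crg_ext [NeZero r] [IsCyclotomicExtension {r} L M] {ζ : M} (hζ : IsPrimitiveRoot ζ r)
    (g g' : M ≃ₐ[K] M) (h1 : ∀ x : L, g (algebraMap L M x) = g' (algebraMap L M x))
    (h2 : g ζ = g' ζ) : g = g' := by
  ext y
  refine crg_induction hζ (fun y => g y = g' y) h2 h1 ?_ ?_ y
  · intro x y hx hy
    rw [map_add, map_add, hx, hy]
  · intro x y hx hy
    rw [map_mul, map_mul, hx, hy]

theorem crg_irreducible [NeZero r] [IsCyclotomicExtension {r} L M] {ζ : M}
    (hζ : IsPrimitiveRoot ζ r) (hdeg : Module.finrank L M = r.totient) :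
    Irreducible (cyclotomic r L) := by
  have hint : IsIntegral L ζ := hζ.isIntegral (NeZero.pos r) |>.tower_top
  have hroot : aeval ζ (cyclotomic r L) = 0 := by
    rw [aeval_def, eval₂_eq_eval_map, map_cyclotomic]
    exact hζ.isRoot_cyclotomic (NeZero.pos r)
  have hdvd : minpoly L ζ ∣ cyclotomic r L := minpoly.dvd L ζ hroot
  have htop : L⟮ζ⟯ = ⊤ := by
    rw [eq_top_iff]
    intro y _
    refine crg_induction hζ (fun y => y ∈ L⟮ζ⟯) (mem_adjoin_simple_self L ζ)
      (fun x => L⟮ζ⟯.algebraMap_mem x) (fun x y hx hy => add_mem hx hy)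
      (fun x y hx hy => mul_mem hx hy) y
  have hdeg' : (minpoly L ζ).natDegree = r.totient := by
    rw [← adjoin.finrank hint, htop, finrank_top', hdeg]
  have heq : cyclotomic r L = minpoly L ζ := by
    refine eq_of_monic_of_dvd_of_natDegree_le (minpoly.monic hint) (cyclotomic.monic r L) hdvd ?_
    rw [natDegree_cyclotomic, hdeg']
  rw [heq]
  exact minpoly.irreducible hint

theorem crg_exists_aut [NeZero r] [IsCyclotomicExtension {r} L M] {ζ μ : M}
    (hζ : IsPrimitiveRoot ζ r) (hμ : IsPrimitiveRoot μ r) (hirr : Irreducible (cyclotomic r L)) :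
    ∃ t : M ≃ₐ[L] M, t ζ = μ := by
  let t₁ := IsCyclotomicExtension.fromZetaAut hζ hirr
  let t₂ := IsCyclotomicExtension.fromZetaAut hμ hirr
  have h₁ : t₁ (IsCyclotomicExtension.zeta r L M) = ζ := IsCyclotomicExtension.fromZetaAut_spec hζ hirr
  have h₂ : t₂ (IsCyclotomicExtension.zeta r L M) = μ := IsCyclotomicExtension.fromZetaAut_spec hμ hirr
  refine ⟨t₁.symm.trans t₂, ?_⟩
  rw [AlgEquiv.trans_apply, ← h₁, AlgEquiv.symm_apply_apply, h₂]

end

theorem crossGal : Stmt_CrossGal := by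
  intro r K L M _ _ _ _ _ _ _ _ _ _ _ _ ζ hr hζ hdeg
  have : NeZero r := ⟨hr.ne_zero⟩
  have hnormal : Normal K M := crg_normal (L := L) hζ
  have hirr : Irreducible (cyclotomic r L) :=
    crg_irreducible hζ (by rw [hdeg, Nat.totient_prime hr])
  refine ⟨⟨⟩, fun g g' h1 h2 => crg_ext hζ g g' h1 h2, fun g => ⟨⟨g.restrictNormal L, fun x => ?_⟩, ?_⟩,
    fun h a ha => ?_⟩
  · exact (g.restrictNormal_commutes L x).symm
  · have hg : IsPrimitiveRoot (g ζ) r := hζ.map_of_injective g.injective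
    obtain ⟨i, -, hi, hi'⟩ := hζ.isPrimitiveRoot_iff.mp hg
    exact ⟨i, hi, hi'.symm⟩
  · let g₀ : M ≃ₐ[K] M := h.liftNormal M
    have hμ : IsPrimitiveRoot (g₀.symm (ζ ^ a)) r :=
      ((hζ.pow_iff_coprime (NeZero.pos r) a).mpr ha).map_of_injective g₀.symm.injective
    obtain ⟨t, ht⟩ := crg_exists_aut hζ hμ hirr
    refine ⟨(t.restrictScalars K).trans g₀, fun x => ?_, ?_⟩
    · rw [AlgEquiv.trans_apply, AlgEquiv.restrictScalars_apply, t.commutes]
      exact h.liftNormal_commutes M x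
    · rw [AlgEquiv.trans_apply, AlgEquiv.restrictScalars_apply, ht, AlgEquiv.apply_symm_apply]

end Fermat.Agent.S14
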