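/-
S14, package AN3 = (U'): the universal norm index inequality (helper71).
-/
import Fermat.Agent.S14.Interface

set_option autoImplicit false

namespace Fermat.Agent.S14

open NumberField

namespace UIneq

/-! ### Abstract lemmas -/

/-- Pointwise character inequality. -/
theorem re_sum_neg_log {A : Type*} [AddCommGroup A] [Fintype A] [DecidableEq A] (g : A) (x : ℝ)
    (hx0 : 0 ≤ x) (hx1 : x < 1) :
    (if g = 0 then (Fintype.card A : ℝ) * x else 0) ≤
      (∑ ψ : AddChar A ℂ, -Complex.log (1 - ψ g * x)).re := by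
  have h1 : ∀ ψ : AddChar A ℂ, HasSum (fun n : ℕ => (ψ g * x) ^ n / n)
      (-Complex.log (1 - ψ g * x)) := by
    intro ψ
    apply Complex.hasSum_taylorSeries_neg_log
    rw [norm_mul, AddChar.norm_apply, one_mul, Complex.norm_real, Real.norm_eq_abs,
      abs_of_nonneg hx0]
    exact hx1
  have h2 : HasSum (fun n : ℕ => ∑ ψ : AddChar A ℂ, (ψ g * x) ^ n / n)
      (∑ ψ : AddChar A ℂ, -Complex.log (1 - ψ g * x)) :=
    hasSum_sum fun ψ _ => h1 ψ
  have h3 : ∀ n : ℕ, ∑ ψ : AddChar A ℂ, (ψ g * x) ^ n / n =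
      (((if n • g = 0 then (Fintype.card A : ℝ) else 0) * x ^ n / n : ℝ) : ℂ) := by
    intro n
    have : ∀ ψ : AddChar A ℂ, (ψ g * x) ^ n / n = ψ (n • g) * ((x : ℂ) ^ n / n) := by
      intro ψ
      rw [mul_pow, AddChar.map_nsmul_eq_pow]
      ring
    simp_rw [this]
    rw [← Finset.sum_mul, AddChar.sum_apply_eq_ite]
    split_ifs <;> push_cast <;> ring
  simp_rw [h3] at h2
  have h4 := Complex.hasSum_re h2
  simp only [Complex.ofReal_re] at h4
  have h5 := le_hasSum h4 1 (fun n _ => by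
    split_ifs <;> positivity)
  simpa using h5

/-- Fibre counting for sums. -/
theorem tsum_comp_le {α β : Type*} (φ : α → β) (n : ℕ)
    (hfib : ∀ (b : β) (s : Finset α), (∀ a ∈ s, φ a = b) → s.card ≤ n)
    (h : β → ℝ) (h0 : ∀ b, 0 ≤ h b) (hs : Summable h) :
    Summable (fun a => h (φ a)) ∧ ∑' a, h (φ a) ≤ n * ∑' b, h b := by
  classical
  have key : ∀ s : Finset α, ∑ a ∈ s, h (φ a) ≤ n * ∑' b, h b := by
    intro s
    rw [← Finset.sum_fiberwise_of_maps_to (t := s.image φ) (g := φ)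
      (fun a ha => Finset.mem_image_of_mem φ ha)]
    calc ∑ b ∈ s.image φ, ∑ a ∈ s with φ a = b, h (φ a)
        ≤ ∑ b ∈ s.image φ, (n : ℝ) * h b := by
          refine Finset.sum_le_sum fun b _ => ?_
          have : ∑ a ∈ s with φ a = b, h (φ a) = ((s.filter fun a => φ a = b).card : ℝ) * h b := by
            rw [Finset.sum_congr rfl (fun a ha => by rw [(Finset.mem_filter.mp ha).2])]
            simp
          rw [this]
          refine mul_le_mul_of_nonneg_right ?_ (h0 b)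
          exact_mod_cast hfib b _ (fun a ha => (Finset.mem_filter.mp ha).2)
      _ = n * ∑ b ∈ s.image φ, h b := by rw [Finset.mul_sum]
      _ ≤ n * ∑' b, h b := by
          refine mul_le_mul_of_nonneg_left ?_ (Nat.cast_nonneg n)
          exact hs.sum_le_tsum _ (fun b _ => h0 b)
  have hsum : Summable (fun a => h (φ a)) := summable_of_sum_le (fun a => h0 _) key
  exact ⟨hsum, hsum.tsum_le_of_sum_le key⟩

theorem neg_log_one_sub_le {x : ℝ} (hx0 : 0 ≤ x) (hx1 : x ≤ 1 / 2) :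
    -Real.log (1 - x) ≤ x + 2 * x ^ 2 := by
  have h1 : 0 < 1 - x := by linarith
  have h2 := Real.one_sub_inv_le_log_of_pos h1
  have h3 : (1 - x)⁻¹ ≤ 1 + x + 2 * x ^ 2 := by
    rw [inv_le_iff_one_le_mul₀ h1]
    nlinarith [mul_nonneg hx0 hx0, mul_nonneg (mul_nonneg hx0 hx0) (by linarith : 0 ≤ 1 / 2 - x)]
  linarith


/-! ### Norms of ideals -/

section nrm

variable {F : Type} [Field F] [NumberField F]

/-- `N(I)^(-s)`. -/
noncomputable def nrm (I : Ideal (𝓞 F)) (s : ℝ) : ℝ := ((Ideal.absNorm I : ℕ) : ℝ) ^ (-s)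

theorem nrm_nonneg (I : Ideal (𝓞 F)) (s : ℝ) : 0 ≤ nrm I s :=
  Real.rpow_nonneg (Nat.cast_nonneg _) _

theorem nrm_top (s : ℝ) : nrm (⊤ : Ideal (𝓞 F)) s = 1 := by
  simp [nrm]

theorem nrm_mul (I J : Ideal (𝓞 F)) (s : ℝ) : nrm (I * J) s = nrm I s * nrm J s := by
  unfold nrm
  rw [map_mul, Nat.cast_mul, Real.mul_rpow (Nat.cast_nonneg _) (Nat.cast_nonneg _)]

theorem one_le_absNorm {I : Ideal (𝓞 F)} (hI : I ≠ ⊥) : 1 ≤ Ideal.absNorm I :=
  Nat.one_le_iff_ne_zero.mpr (fun h => hI (Ideal.absNorm_eq_zero_iff.mp h))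

theorem two_le_absNorm {q : Ideal (𝓞 F)} (hq : q.IsPrime) (hq0 : q ≠ ⊥) :
    2 ≤ Ideal.absNorm q := by
  have h1 := one_le_absNorm hq0
  have h2 : Ideal.absNorm q ≠ 1 := fun h => hq.ne_top (Ideal.absNorm_eq_one_iff.mp h)
  omega

theorem nrm_le_one {I : Ideal (𝓞 F)} (hI : I ≠ ⊥) {s : ℝ} (hs : 0 ≤ s) : nrm I s ≤ 1 := by
  unfold nrm
  apply Real.rpow_le_one_of_one_le_of_nonpos
  · exact_mod_cast one_le_absNorm hI
  · linarith

theorem nrm_anti {I : Ideal (𝓞 F)} (hI : I ≠ ⊥) {s t : ℝ} (hst : s ≤ t) : nrm I t ≤ nrm I s := by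
  unfold nrm
  apply Real.rpow_le_rpow_of_exponent_le
  · exact_mod_cast one_le_absNorm hI
  · linarith

theorem nrm_prime_le_half {q : Ideal (𝓞 F)} (hq : q.IsPrime) (hq0 : q ≠ ⊥) {s : ℝ} (hs : 1 ≤ s) :
    nrm q s ≤ 1 / 2 := by
  refine (nrm_anti hq0 hs).trans ?_
  unfold nrm
  rw [Real.rpow_neg_one, one_div]
  apply inv_anti₀ (by norm_num)
  exact_mod_cast two_le_absNorm hq hq0

theorem nrm_sq {I : Ideal (𝓞 F)} (s : ℝ) : nrm I s ^ 2 = nrm I (2 * s) := by
  unfold nrm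
  rw [← Real.rpow_natCast, ← Real.rpow_mul (Nat.cast_nonneg _)]
  congr 1
  push_cast
  ring

theorem cls_top : cls (⊤ : Ideal (𝓞 F)) = 1 := by
  unfold cls
  split_ifs with h
  · have : (⟨⊤, h⟩ : nonZeroDivisors (Ideal (𝓞 F))) = 1 := Subtype.ext Ideal.one_eq_top.symm
    rw [this, map_one]
  · rfl

theorem cls_mul {I J : Ideal (𝓞 F)} (hI : I ≠ ⊥) (hJ : J ≠ ⊥) :
    cls (I * J) = cls I * cls J := by
  have hI' : I ∈ nonZeroDivisors (Ideal (𝓞 F)) := mem_nonZeroDivisors_iff_ne_zero.mpr hI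
  have hJ' : J ∈ nonZeroDivisors (Ideal (𝓞 F)) := mem_nonZeroDivisors_iff_ne_zero.mpr hJ
  have hIJ : I * J ∈ nonZeroDivisors (Ideal (𝓞 F)) := mul_mem hI' hJ'
  unfold cls
  rw [dif_pos hI', dif_pos hJ', dif_pos hIJ, ← map_mul]
  rfl

end nrm


/-! ### Twisted `L`-series -/

section Lseries

variable {T : Type} [Field T] [NumberField T]

/-- nonzero ideals -/
abbrev NZ (T : Type) [Field T] [NumberField T] := {I : Ideal (𝓞 T) // I ≠ ⊥}

/-- nonzero primes -/
abbrev Pr (T : Type) [Field T] [NumberField T] := {q : Ideal (𝓞 T) // q.IsPrime ∧ q ≠ ⊥}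

/-- the summand of the `L`-series. -/
noncomputable def fL (a : ClassGroup (𝓞 T) →* ℂ) (s : ℝ) (I : Ideal (𝓞 T)) : ℂ :=
  a (cls I) * (nrm I s : ℂ)

theorem nrm_bot {s : ℝ} (hs : s ≠ 0) : nrm (⊥ : Ideal (𝓞 T)) s = 0 := by
  unfold nrm
  rw [Ideal.absNorm_bot, Nat.cast_zero, Real.zero_rpow (neg_ne_zero.mpr hs)]

theorem fL_top (a : ClassGroup (𝓞 T) →* ℂ) (s : ℝ) : fL a s ⊤ = 1 := by
  simp [fL, cls_top, nrm_top]

theorem fL_mul (a : ClassGroup (𝓞 T) →* ℂ) {s : ℝ} (hs : s ≠ 0) (I J : Ideal (𝓞 T)) :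
    fL a s (I * J) = fL a s I * fL a s J := by
  by_cases hI : I = ⊥
  · subst hI
    simp [fL, nrm_bot hs]
  by_cases hJ : J = ⊥
  · subst hJ
    simp [fL, nrm_bot hs]
  unfold fL
  rw [cls_mul hI hJ, map_mul, nrm_mul]
  push_cast
  ring

theorem norm_fL (a : ClassGroup (𝓞 T) →* ℂ) (ha : ∀ C, ‖a C‖ = 1) (s : ℝ) (I : Ideal (𝓞 T)) :
    ‖fL a s I‖ = nrm I s := by
  unfold fL
  rw [norm_mul, ha, one_mul, Complex.norm_real, Real.norm_eq_abs, abs_of_nonneg (nrm_nonneg I s)]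

theorem summable_nrm (hZ : Stmt_ZetaPole) {s : ℝ} (hs : 1 < s) :
    Summable (fun I : NZ T => nrm I.1 s) := (hZ T).1 s hs

theorem summable_nrm_prime (hZ : Stmt_ZetaPole) {s : ℝ} (hs : 1 < s) :
    Summable (fun q : Pr T => nrm q.1 s) :=
  (summable_nrm (T := T) hZ hs).comp_injective (i := fun q : Pr T => (⟨q.1, q.2.2⟩ : NZ T))
    (fun _ _ h => Subtype.ext (congrArg (fun I : NZ T => I.1) h))

theorem tsum_nrm_prime_le (hZ : Stmt_ZetaPole) {s : ℝ} (hs : 1 < s) :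
    ∑' q : Pr T, nrm q.1 s ≤ zetaI T s :=
  tsum_comp_le_tsum_of_inj (summable_nrm (T := T) hZ hs) (fun I => nrm_nonneg I.1 s)
    (i := fun q : Pr T => (⟨q.1, q.2.2⟩ : NZ T))
    (fun _ _ h => Subtype.ext (congrArg (fun I : NZ T => I.1) h))

theorem one_le_zetaI (hZ : Stmt_ZetaPole) {s : ℝ} (hs : 1 < s) : 1 ≤ zetaI T s := by
  have h := (summable_nrm (T := T) hZ hs).le_tsum (⟨⊤, top_ne_bot⟩ : NZ T)
    (fun I _ => nrm_nonneg I.1 s)
  rw [nrm_top] at h
  exact h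

/-- The `L`-series. -/
noncomputable def Lser (a : ClassGroup (𝓞 T) →* ℂ) (s : ℝ) : ℂ := ∑' I : NZ T, fL a s I.1

/-- Euler product, in norm form. -/
theorem euler_norm (hZ : Stmt_ZetaPole) (hE : Stmt_EulerIdeal) (a : ClassGroup (𝓞 T) →* ℂ)
    (ha : ∀ C, ‖a C‖ = 1) {s : ℝ} (hs : 1 < s) :
    Summable (fun q : Pr T => (-Complex.log (1 - fL a s q.1)).re) ∧
    ‖Lser a s‖ = Real.exp (∑' q : Pr T, (-Complex.log (1 - fL a s q.1)).re) := by
  have hs0 : s ≠ 0 := by linarith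
  obtain ⟨-, h2, h3⟩ := hE T (fL a s) (fL_top a s) (fL_mul a hs0) (by
    simp_rw [norm_fL a ha]
    exact summable_nrm hZ hs)
  refine ⟨(Complex.hasSum_re h2.hasSum).summable, ?_⟩
  unfold Lser
  rw [← h3, Complex.norm_exp, Complex.re_tsum h2]


/-- Regrouping the `L`-series by ideal classes. -/
theorem Lser_eq_sum (hZ : Stmt_ZetaPole) (a : ClassGroup (𝓞 T) →* ℂ)
    (ha : ∀ C, ‖a C‖ = 1) {s : ℝ} (hs : 1 < s) :
    Lser a s = ∑ C : ClassGroup (𝓞 T), a C * (zetaC C s : ℂ) := by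
  have hsum : Summable (fun I : NZ T => fL a s I.1) := by
    apply Summable.of_norm
    simp_rw [norm_fL a ha]
    exact summable_nrm hZ hs
  have h1 := hsum.hasSum.tsum_fiberwise (fun I : NZ T => cls I.1)
  have h2 := h1.unique (hasSum_fintype _)
  unfold Lser
  rw [h2]
  refine Finset.sum_congr rfl fun C _ => ?_
  let e : ((fun I : NZ T => cls I.1) ⁻¹' {C}) ≃ {I : Ideal (𝓞 T) // I ≠ ⊥ ∧ cls I = C} :=
    { toFun := fun b => ⟨b.1.1, b.1.2, b.2⟩
      invFun := fun I => ⟨⟨I.1, I.2.1⟩, I.2.2⟩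
      left_inv := fun _ => rfl
      right_inv := fun _ => rfl }
  unfold zetaC
  rw [Complex.ofReal_tsum, ← tsum_mul_left, ← e.tsum_eq]
  refine tsum_congr fun b => ?_
  have hb : cls b.1.1 = C := b.2
  simp only [fL, hb, nrm, e, Equiv.coe_fn_mk]

theorem norm_Lser_le (hZ : Stmt_ZetaPole) (a : ClassGroup (𝓞 T) →* ℂ)
    (ha : ∀ C, ‖a C‖ = 1) (ha0 : ∑ C : ClassGroup (𝓞 T), a C = 0) {s : ℝ} (hs : 1 < s) :
    ‖Lser a s‖ ≤ ∑ C : ClassGroup (𝓞 T), |zetaC C s - zetaC (1 : ClassGroup (𝓞 T)) s| := by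
  have h1 : Lser a s = ∑ C : ClassGroup (𝓞 T),
      a C * ((zetaC C s - zetaC (1 : ClassGroup (𝓞 T)) s : ℝ) : ℂ) := by
    rw [Lser_eq_sum hZ a ha hs]
    push_cast
    simp_rw [mul_sub]
    rw [Finset.sum_sub_distrib, ← Finset.sum_mul, ha0, zero_mul, sub_zero]
  rw [h1]
  refine (norm_sum_le _ _).trans (Finset.sum_le_sum fun C _ => ?_)
  rw [norm_mul, ha, one_mul, Complex.norm_real, Real.norm_eq_abs]

theorem Lser_one (s : ℝ) : Lser (1 : ClassGroup (𝓞 T) →* ℂ) s = (zetaI T s : ℂ) := by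
  unfold Lser zetaI fL
  rw [Complex.ofReal_tsum]
  simp [nrm]

end Lseries


/-! ### Characters of `Cl(T) / Y` -/

section chars

open Classical

variable {T : Type} [Field T] [NumberField T] (Y : Subgroup (ClassGroup (𝓞 T)))

/-- The character of the class group attached to an additive character of the quotient. -/
noncomputable def chr (ψ : AddChar (Additive (ClassGroup (𝓞 T) ⧸ Y)) ℂ) :
    ClassGroup (𝓞 T) →* ℂ where
  toFun C := ψ (Additive.ofMul (QuotientGroup.mk C : ClassGroup (𝓞 T) ⧸ Y))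
  map_one' := by simp
  map_mul' C C' := by rw [QuotientGroup.mk_mul, ofMul_mul, AddChar.map_add_eq_mul]

theorem chr_apply (ψ : AddChar (Additive (ClassGroup (𝓞 T) ⧸ Y)) ℂ) (C : ClassGroup (𝓞 T)) :
    chr Y ψ C = ψ (Additive.ofMul (QuotientGroup.mk C : ClassGroup (𝓞 T) ⧸ Y)) := rfl

theorem norm_chr (ψ : AddChar (Additive (ClassGroup (𝓞 T) ⧸ Y)) ℂ) (C : ClassGroup (𝓞 T)) :
    ‖chr Y ψ C‖ = 1 := by
  rw [chr_apply, AddChar.norm_apply]

theorem chr_zero : chr Y 0 = 1 := by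
  ext C
  simp [chr_apply]

theorem sum_chr_eq_zero {ψ : AddChar (Additive (ClassGroup (𝓞 T) ⧸ Y)) ℂ} (hψ : ψ ≠ 0) :
    ∑ C : ClassGroup (𝓞 T), chr Y ψ C = 0 := by
  let f : Additive (ClassGroup (𝓞 T)) →+ Additive (ClassGroup (𝓞 T) ⧸ Y) :=
    MonoidHom.toAdditive (QuotientGroup.mk' Y)
  have hf : Function.Surjective f := QuotientGroup.mk'_surjective Y
  have h1 : ψ.compAddMonoidHom f ≠ 0 := by
    intro h
    apply hψ
    apply AddChar.compAddMonoidHom_injective_left f hf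
    simp only [h]
    ext x
    simp
  have h2 := AddChar.sum_eq_zero_iff_ne_zero.mpr h1
  rw [← h2]
  exact Fintype.sum_equiv Additive.ofMul _ _ (fun C => rfl)

/-- The prime sum over the primes whose class lies in `Y`. -/
noncomputable def PY (s : ℝ) : ℝ := ∑' q : Pr T, (if cls q.1 ∈ Y then nrm q.1 s else 0)

theorem summable_PY (hZ : Stmt_ZetaPole) {s : ℝ} (hs : 1 < s) :
    Summable (fun q : Pr T => (if cls q.1 ∈ Y then nrm q.1 s else 0)) := by
  refine Summable.of_nonneg_of_le (fun q => ?_) (fun q => ?_) (summable_nrm_prime (T := T) hZ hs)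
  · split_ifs
    · exact nrm_nonneg _ _
    · exact le_rfl
  · split_ifs
    · exact le_rfl
    · exact nrm_nonneg _ _

theorem main1 (hZ : Stmt_ZetaPole) (hE : Stmt_EulerIdeal) {s : ℝ} (hs : 1 < s) :
    Real.exp ((Fintype.card (Additive (ClassGroup (𝓞 T) ⧸ Y)) : ℝ) * PY Y s) ≤
      ∏ ψ : AddChar (Additive (ClassGroup (𝓞 T) ⧸ Y)) ℂ, ‖Lser (chr Y ψ) s‖ := by
  have hEu := fun ψ : AddChar (Additive (ClassGroup (𝓞 T) ⧸ Y)) ℂ =>
    euler_norm hZ hE (chr Y ψ) (norm_chr Y ψ) hs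
  simp_rw [fun ψ => (hEu ψ).2]
  rw [← Real.exp_sum, ← Summable.tsum_finsetSum (fun ψ _ => (hEu ψ).1)]
  apply Real.exp_le_exp.mpr
  unfold PY
  rw [← tsum_mul_left]
  refine Summable.tsum_le_tsum (fun q => ?_) ((summable_PY Y hZ hs).mul_left _)
    (summable_sum fun ψ _ => (hEu ψ).1)
  have hx0 := nrm_nonneg q.1 s
  have hx1 : nrm q.1 s < 1 :=
    lt_of_le_of_lt (nrm_prime_le_half q.2.1 q.2.2 hs.le) (by norm_num)
  have h := re_sum_neg_log
    (Additive.ofMul (QuotientGroup.mk (cls q.1) : ClassGroup (𝓞 T) ⧸ Y)) (nrm q.1 s) hx0 hx1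
  rw [Complex.re_sum] at h
  refine le_trans (le_of_eq ?_) h
  have hiff : (Additive.ofMul (QuotientGroup.mk (cls q.1) : ClassGroup (𝓞 T) ⧸ Y) = 0) ↔
      cls q.1 ∈ Y := by
    rw [← QuotientGroup.eq_one_iff]
    exact Iff.rfl
  simp only [hiff]
  split_ifs <;> simp


theorem main2 (hZ : Stmt_ZetaPole) (hE : Stmt_EulerIdeal) (hD : Stmt_ZetaCDiff) :
    ∃ C : ℝ, ∀ s : ℝ, 1 < s → s ≤ 2 →
      (Fintype.card (Additive (ClassGroup (𝓞 T) ⧸ Y)) : ℝ) * PY Y s ≤
        Real.log (zetaI T s) + C := by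
  choose B hB using fun C : ClassGroup (𝓞 T) => hD T C 1
  set B1 : ℝ := max (∑ C, B C) 1 with hB1
  have hB1pos : 0 < B1 := lt_of_lt_of_le one_pos (le_max_right _ _)
  set k : ℕ := ((Finset.univ : Finset (AddChar (Additive (ClassGroup (𝓞 T) ⧸ Y)) ℂ)).erase 0).card
  refine ⟨Real.log (B1 ^ k), fun s hs hs2 => ?_⟩
  have h1 := main1 Y hZ hE hs
  have hz : 1 ≤ zetaI T s := one_le_zetaI hZ hs
  have h2 : ∏ ψ : AddChar (Additive (ClassGroup (𝓞 T) ⧸ Y)) ℂ, ‖Lser (chr Y ψ) s‖ ≤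
      zetaI T s * B1 ^ k := by
    rw [← Finset.mul_prod_erase Finset.univ _ (Finset.mem_univ (0 : AddChar _ ℂ))]
    rw [chr_zero, Lser_one, Complex.norm_real, Real.norm_eq_abs, abs_of_nonneg (by linarith)]
    refine mul_le_mul_of_nonneg_left ?_ (by linarith)
    rw [← Finset.prod_const]
    refine Finset.prod_le_prod (fun ψ _ => norm_nonneg _) (fun ψ hψ => ?_)
    have hψ0 : ψ ≠ 0 := (Finset.mem_erase.mp hψ).1
    refine (norm_Lser_le hZ _ (norm_chr Y ψ) (sum_chr_eq_zero Y hψ0) hs).trans ?_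
    exact (Finset.sum_le_sum fun C _ => hB C s hs hs2).trans (le_max_left _ _)
  have h3 := h1.trans h2
  have h4 := Real.log_le_log (Real.exp_pos _) h3
  rw [Real.log_exp, Real.log_mul (by linarith) (by positivity)] at h4
  exact h4

end chars

/-! ### The logarithm of the zeta function and the prime sum -/

section logzeta

variable {F : Type} [Field F] [NumberField F]

theorem log_zetaI_le (hZ : Stmt_ZetaPole) (hE : Stmt_EulerIdeal) {s : ℝ} (hs : 1 < s) :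
    Real.log (zetaI F s) ≤ ∑' q : Pr F, nrm q.1 s + 2 * zetaI F 2 := by
  obtain ⟨h1, h2⟩ := euler_norm (T := F) hZ hE 1 (fun C => by simp) hs
  have hz : 1 ≤ zetaI F s := one_le_zetaI hZ hs
  rw [Lser_one, Complex.norm_real, Real.norm_eq_abs, abs_of_nonneg (by linarith)] at h2
  rw [h2, Real.log_exp]
  have hterm : ∀ q : Pr F, (-Complex.log (1 - fL 1 s q.1)).re ≤ nrm q.1 s + 2 * nrm q.1 2 := by
    intro q
    have e1 : (1 : ℂ) - fL 1 s q.1 = ((1 - nrm q.1 s : ℝ) : ℂ) := by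
      simp [fL]
    rw [e1, Complex.neg_re, Complex.log_ofReal_re]
    refine (neg_log_one_sub_le (nrm_nonneg _ _) (nrm_prime_le_half q.2.1 q.2.2 hs.le)).trans ?_
    rw [nrm_sq]
    have := nrm_anti (I := q.1) q.2.2 (by linarith : (2 : ℝ) ≤ 2 * s)
    linarith
  have hs2 : Summable (fun q : Pr F => nrm q.1 2) := summable_nrm_prime hZ (by norm_num)
  have hs1 : Summable (fun q : Pr F => nrm q.1 s) := summable_nrm_prime hZ hs
  refine (Summable.tsum_le_tsum hterm h1 (hs1.add (hs2.mul_left 2))).trans ?_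
  rw [hs1.tsum_add (hs2.mul_left 2), tsum_mul_left]
  have := tsum_nrm_prime_le (T := F) hZ (by norm_num : (1 : ℝ) < 2)
  linarith

end logzeta


/-! ### Comparison of the primes of `N` and of `T` -/

section compare

open Classical

variable {T N : Type} [Field T] [NumberField T] [Field N] [NumberField N] [Algebra T N]

/-- The prime of `T` below a prime of `N`. -/
noncomputable def below (Q : Pr N) : Pr T :=
  ⟨Q.1.under (𝓞 T), Q.2.1.under _, Ideal.IsIntegral.comap_ne_bot (𝓞 T) Q.2.2⟩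

theorem card_fibre_le (b : Pr T) (s : Finset (Pr N)) (hs : ∀ a ∈ s, below (T := T) a = b) :
    s.card ≤ Module.finrank T N := by
  haveI : b.1.IsMaximal := b.2.1.isMaximal b.2.2
  haveI : NoZeroSMulDivisors (𝓞 T) (𝓞 N) := ⟨fun {c x} h => by
    rw [Algebra.smul_def] at h
    rcases mul_eq_zero.mp h with h | h
    · left
      exact (map_eq_zero_iff _ (FaithfulSMul.algebraMap_injective (𝓞 T) (𝓞 N))).mp h
    · right
      exact h⟩
  refine le_trans ?_ (Ideal.card_primesOverFinset_le_finrank (𝓞 N) T N b.2.2)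
  refine Finset.card_le_card_of_injOn (fun Q => Q.1) (fun Q hQ => ?_)
    (fun Q _ Q' _ h => Subtype.ext h)
  rw [Finset.mem_coe, IsDedekindDomain.mem_primesOverFinset_iff b.2.2]
  refine ⟨Q.2.1, ?_⟩
  have := congrArg Subtype.val (hs Q hQ)
  rw [← this]
  exact Ideal.over_under Q.1

theorem nrm_le_of_below (Y : Subgroup (ClassGroup (𝓞 T))) (S : Finset (Ideal (𝓞 T)))
    (hyp : ∀ (q : Ideal (𝓞 T)) (Q : Ideal (𝓞 N)), q.IsPrime → q ≠ ⊥ → q ∉ S → Q.IsPrime →
      Q.LiesOver q → Ideal.absNorm Q = Ideal.absNorm q → cls q ∈ Y)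
    {s : ℝ} (hs : 1 < s) (Q : Pr N) :
    nrm Q.1 s ≤ (if cls (below (T := T) Q).1 ∈ Y then nrm (below (T := T) Q).1 s else 0) +
      (if (below (T := T) Q).1 ∈ S then 1 else 0) + nrm (below (T := T) Q).1 2 := by
  set q := below (T := T) Q with hq
  haveI hlo : Q.1.LiesOver q.1 := Ideal.over_under Q.1
  haveI : q.1.IsMaximal := q.2.1.isMaximal q.2.2
  have hN := Ideal.absNorm_eq_pow_inertiaDeg'_of_liesOver Q.1 q.1 q.2.1 q.2.2
  have hf0 := Ideal.inertiaDeg'_ne_zero q.1 Q.1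
  have hn2 := nrm_nonneg q.1 2
  by_cases hf1 : q.1.inertiaDeg' Q.1 = 1
  · rw [hf1, pow_one] at hN
    by_cases hS : q.1 ∈ S
    · rw [if_pos hS]
      have h1 := nrm_le_one Q.2.2 (by linarith : (0 : ℝ) ≤ s)
      have h2 : (0 : ℝ) ≤ (if cls q.1 ∈ Y then nrm q.1 s else 0) := by
        split_ifs
        · exact nrm_nonneg _ _
        · exact le_rfl
      linarith
    · rw [if_pos (hyp q.1 Q.1 q.2.1 q.2.2 hS Q.2.1 hlo hN), if_neg hS]
      have : nrm Q.1 s = nrm q.1 s := by unfold nrm; rw [hN]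
      linarith
  · have hf2 : 2 ≤ q.1.inertiaDeg' Q.1 := by omega
    have h1 : (0 : ℝ) ≤ (if cls q.1 ∈ Y then nrm q.1 s else 0) := by
      split_ifs
      · exact nrm_nonneg _ _
      · exact le_rfl
    have h2 : (0 : ℝ) ≤ (if q.1 ∈ S then 1 else 0) := by
      split_ifs <;> norm_num
    have h3 : nrm Q.1 s ≤ nrm q.1 2 := by
      refine (nrm_anti Q.2.2 hs.le).trans ?_
      unfold nrm
      rw [hN, Real.rpow_neg (Nat.cast_nonneg _), Real.rpow_neg (Nat.cast_nonneg _), Real.rpow_one,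
        Real.rpow_two]
      have hq1 : (1 : ℝ) ≤ (Ideal.absNorm q.1 : ℕ) := by exact_mod_cast one_le_absNorm q.2.2
      apply inv_anti₀ (by positivity)
      push_cast
      exact pow_le_pow_right₀ hq1 hf2
    linarith

theorem main3 (hZ : Stmt_ZetaPole) (hE : Stmt_EulerIdeal)
    (Y : Subgroup (ClassGroup (𝓞 T))) (S : Finset (Ideal (𝓞 T)))
    (hyp : ∀ (q : Ideal (𝓞 T)) (Q : Ideal (𝓞 N)), q.IsPrime → q ≠ ⊥ → q ∉ S → Q.IsPrime →
      Q.LiesOver q → Ideal.absNorm Q = Ideal.absNorm q → cls q ∈ Y)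
    {s : ℝ} (hs : 1 < s) :
    Real.log (zetaI N s) ≤ (Module.finrank T N : ℝ) * PY Y s +
      ((Module.finrank T N : ℝ) * (S.card + zetaI T 2) + 2 * zetaI N 2) := by
  refine (log_zetaI_le hZ hE hs).trans ?_
  have hsS : Summable (fun q : Pr T => (if q.1 ∈ S then (1 : ℝ) else 0)) ∧
      ∑' q : Pr T, (if q.1 ∈ S then (1 : ℝ) else 0) ≤ S.card := by
    have h := tsum_comp_le (fun q : Pr T => q.1) 1
      (fun b u hu => Finset.card_le_one.mpr fun a ha a' ha' =>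
        Subtype.ext ((hu a ha).trans (hu a' ha').symm))
      (fun I : Ideal (𝓞 T) => if I ∈ S then (1 : ℝ) else 0)
      (fun I => by split_ifs <;> norm_num)
      (summable_of_ne_finset_zero (s := S) fun I hI => if_neg hI)
    refine ⟨h.1, h.2.trans ?_⟩
    rw [tsum_eq_sum (s := S) fun I hI => if_neg hI]
    rw [Finset.sum_congr rfl fun I hI => if_pos hI]
    simp
  have hs2 : Summable (fun q : Pr T => nrm q.1 2) := summable_nrm_prime hZ (by norm_num)
  have hsY := summable_PY Y hZ hs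
  set h : Pr T → ℝ := fun q => (if cls q.1 ∈ Y then nrm q.1 s else 0) +
      (if q.1 ∈ S then 1 else 0) + nrm q.1 2 with hh
  have hsum : Summable h := (hsY.add hsS.1).add hs2
  have h0 : ∀ q, 0 ≤ h q := by
    intro q
    have h1 : (0 : ℝ) ≤ (if cls q.1 ∈ Y then nrm q.1 s else 0) := by
      split_ifs
      · exact nrm_nonneg _ _
      · exact le_rfl
    have h2 : (0 : ℝ) ≤ (if q.1 ∈ S then 1 else 0) := by
      split_ifs <;> norm_num
    have := nrm_nonneg q.1 2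
    simp only [hh]
    linarith
  obtain ⟨k1, k2⟩ := tsum_comp_le (below (T := T) (N := N)) (Module.finrank T N)
    card_fibre_le h h0 hsum
  have k3 : ∑' Q : Pr N, nrm Q.1 s ≤ ∑' Q : Pr N, h (below Q) :=
    Summable.tsum_le_tsum (nrm_le_of_below Y S hyp hs) (summable_nrm_prime hZ hs) k1
  have k4 : ∑' q, h q = PY Y s + ∑' q : Pr T, (if q.1 ∈ S then (1 : ℝ) else 0) +
      ∑' q : Pr T, nrm q.1 2 := by
    simp only [hh]
    rw [(hsY.add hsS.1).tsum_add hs2, hsY.tsum_add hsS.1]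
    rfl
  have k5 := tsum_nrm_prime_le (T := T) hZ (by norm_num : (1 : ℝ) < 2)
  have k6 : (Module.finrank T N : ℝ) * ∑' q, h q ≤
      (Module.finrank T N : ℝ) * (PY Y s + S.card + zetaI T 2) := by
    refine mul_le_mul_of_nonneg_left ?_ (Nat.cast_nonneg _)
    rw [k4]
    linarith [hsS.2]
  nlinarith [k2, k3, k6]

end compare

end UIneq

open UIneq Filter Topology Classical in
/-- AN3 = (U'): the universal norm index inequality. -/
theorem u_ineq (hZ : Stmt_ZetaPole) (hE : Stmt_EulerIdeal) (hD : Stmt_ZetaCDiff) : Stmt_U := by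
  intro T N _ _ _ _ _ Y S hyp
  by_contra hlt
  push Not at hlt
  have hm : (Fintype.card (Additive (ClassGroup (𝓞 T) ⧸ Y))) = Y.index := by
    rw [Subgroup.index_eq_card, ← Nat.card_eq_fintype_card]
    exact Nat.card_congr Additive.toMul
  set m : ℕ := Fintype.card (Additive (ClassGroup (𝓞 T) ⧸ Y)) with hmdef
  set n : ℕ := Module.finrank T N with hn
  rw [← hm] at hlt
  obtain ⟨C2, hC2⟩ := main2 Y hZ hE hD
  set C1 : ℝ := (n : ℝ) * (S.card + zetaI T 2) + 2 * zetaI N 2 with hC1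
  obtain ⟨κT, hκT, hT⟩ := (hZ T).2
  obtain ⟨κN, hκN, hN⟩ := (hZ N).2
  have hTl := (Real.continuousAt_log hκT.ne').tendsto.comp hT
  have hNl := (Real.continuousAt_log hκN.ne').tendsto.comp hN
  have hsub : Tendsto (fun s : ℝ => s - 1) (𝓝[>] 1) (𝓝[>] 0) := by
    refine tendsto_nhdsWithin_of_tendsto_nhds_of_eventually_within _ ?_ ?_
    · have : Tendsto (fun s : ℝ => s - 1) (𝓝 1) (𝓝 (1 - 1)) := tendsto_id.sub_const 1
      rw [sub_self] at this
      exact this.mono_left nhdsWithin_le_nhds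
    · filter_upwards [self_mem_nhdsWithin] with s hs
      exact Set.mem_Ioi.mpr (sub_pos.mpr (Set.mem_Ioi.mp hs))
  have hlog : Tendsto (fun s : ℝ => Real.log (s - 1)) (𝓝[>] 1) atBot :=
    Real.tendsto_log_nhdsGT_zero.comp hsub
  have hmn : (0 : ℝ) < (m : ℝ) - n := by
    have : (n : ℝ) < m := by exact_mod_cast hlt
    linarith
  have h1 : Tendsto (fun s : ℝ => ((m : ℝ) - n) * (-Real.log (s - 1))) (𝓝[>] 1) atTop :=
    (tendsto_neg_atBot_atTop.comp hlog).const_mul_atTop hmn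
  have h2 : Tendsto (fun s : ℝ => (m : ℝ) * Real.log ((s - 1) * zetaI N s) -
      (n : ℝ) * Real.log ((s - 1) * zetaI T s)) (𝓝[>] 1)
      (𝓝 ((m : ℝ) * Real.log κN - (n : ℝ) * Real.log κT)) :=
    (hNl.const_mul _).sub (hTl.const_mul _)
  have h3 := h1.atTop_add h2
  have h4 : ∀ᶠ s : ℝ in 𝓝[>] 1, ((m : ℝ) - n) * (-Real.log (s - 1)) +
      ((m : ℝ) * Real.log ((s - 1) * zetaI N s) - (n : ℝ) * Real.log ((s - 1) * zetaI T s)) ≤
      (n : ℝ) * C2 + m * C1 := by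
    filter_upwards [Ioc_mem_nhdsGT (one_lt_two : (1 : ℝ) < 2)] with s hs
    have hs1 : 1 < s := hs.1
    have hs0 : 0 < s - 1 := sub_pos.mpr hs1
    have hzT : 0 < zetaI T s := lt_of_lt_of_le one_pos (one_le_zetaI hZ hs1)
    have hzN : 0 < zetaI N s := lt_of_lt_of_le one_pos (one_le_zetaI hZ hs1)
    rw [Real.log_mul hs0.ne' hzT.ne', Real.log_mul hs0.ne' hzN.ne']
    have e1 := hC2 s hs1 hs.2
    have e2 := main3 hZ hE Y S hyp hs1
    have e3 : (m : ℝ) * Real.log (zetaI N s) ≤ m * ((n : ℝ) * PY Y s + C1) :=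
      mul_le_mul_of_nonneg_left e2 (Nat.cast_nonneg _)
    have e4 : (n : ℝ) * ((m : ℝ) * PY Y s) ≤ n * (Real.log (zetaI T s) + C2) :=
      mul_le_mul_of_nonneg_left e1 (Nat.cast_nonneg _)
    nlinarith [e3, e4]
  have h5 := (tendsto_atTop.mp h3 ((n : ℝ) * C2 + m * C1 + 1)).and h4
  obtain ⟨s, hs1, hs2⟩ := h5.exists
  linarith

end Fermat.Agent.S14
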