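/-
S14 team, package AN2a : size and Lipschitz-type bound for the kernel `G_s`.
-/
import Fermat.Agent.S14.Interface

set_option autoImplicit false

namespace Fermat.Agent.S14

open NumberField NumberField.mixedEmbedding NumberField.Units NumberField.InfinitePlace
open NumberField.Units.dirichletUnitTheorem

/-! ### Elementary real analysis -/

theorem gsb_log_sub_log_le {a b η : ℝ} (hη : 0 < η) (ha : η ≤ a) (hb : η ≤ b) :
    Real.log a - Real.log b ≤ |a - b| / η := by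
  have ha0 : 0 < a := lt_of_lt_of_le hη ha
  have hb0 : 0 < b := lt_of_lt_of_le hη hb
  rw [← Real.log_div ha0.ne' hb0.ne']
  have h1 : Real.log (a / b) ≤ a / b - 1 := Real.log_le_sub_one_of_pos (div_pos ha0 hb0)
  have h2 : a / b - 1 = (a - b) / b := by field_simp
  have h3 : (a - b) / b ≤ |a - b| / b := by gcongr; exact le_abs_self _
  have h4 : |a - b| / b ≤ |a - b| / η := by gcongr
  linarith

theorem gsb_abs_log_sub_log_le {a b η : ℝ} (hη : 0 < η) (ha : η ≤ a) (hb : η ≤ b) :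
    |Real.log a - Real.log b| ≤ |a - b| / η := by
  rw [abs_le]
  constructor
  · have := gsb_log_sub_log_le hη hb ha
    rw [abs_sub_comm] at this
    linarith
  · exact gsb_log_sub_log_le hη ha hb

theorem gsb_exp_sub_exp_le {a b c : ℝ} (ha : a ≤ c) :
    Real.exp a - Real.exp b ≤ Real.exp c * |a - b| := by
  have h1 : Real.exp b = Real.exp a * Real.exp (b - a) := by
    rw [← Real.exp_add]; congr 1; ring
  have h2 : (b - a) + 1 ≤ Real.exp (b - a) := Real.add_one_le_exp _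
  have h3 : Real.exp a - Real.exp b ≤ Real.exp a * (a - b) := by
    rw [h1]
    have : 0 < Real.exp a := Real.exp_pos a
    nlinarith
  have h4 : Real.exp a * (a - b) ≤ Real.exp a * |a - b| := by
    gcongr; exact le_abs_self _
  have h5 : Real.exp a * |a - b| ≤ Real.exp c * |a - b| := by
    gcongr
  linarith

theorem gsb_abs_exp_sub_exp_le {a b c : ℝ} (ha : a ≤ c) (hb : b ≤ c) :
    |Real.exp a - Real.exp b| ≤ Real.exp c * |a - b| := by
  rw [abs_le]
  constructor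
  · have := gsb_exp_sub_exp_le (a := b) (b := a) hb
    rw [abs_sub_comm] at this
    linarith
  · exact gsb_exp_sub_exp_le ha

theorem gsb_abs_prod_sub_prod_le {ι : Type*} (s : Finset ι) (u v : ι → ℝ)
    (hu : ∀ i ∈ s, 0 ≤ u i ∧ u i ≤ 1) (hv : ∀ i ∈ s, 0 ≤ v i ∧ v i ≤ 1) :
    |∏ i ∈ s, u i - ∏ i ∈ s, v i| ≤ ∑ i ∈ s, |u i - v i| := by
  classical
  induction s using Finset.induction_on with
  | empty => simp
  | insert a s ha ih =>
    rw [Finset.prod_insert ha, Finset.prod_insert ha, Finset.sum_insert ha]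
    have ih' := ih (fun i hi => hu i (Finset.mem_insert_of_mem hi))
      (fun i hi => hv i (Finset.mem_insert_of_mem hi))
    have hU : 0 ≤ ∏ i ∈ s, u i ∧ ∏ i ∈ s, u i ≤ 1 :=
      ⟨Finset.prod_nonneg fun i hi => (hu i (Finset.mem_insert_of_mem hi)).1,
        Finset.prod_le_one (fun i hi => (hu i (Finset.mem_insert_of_mem hi)).1)
          fun i hi => (hu i (Finset.mem_insert_of_mem hi)).2⟩
    have hva := hv a (Finset.mem_insert_self a s)
    have e : u a * ∏ i ∈ s, u i - v a * ∏ i ∈ s, v i =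
        (u a - v a) * ∏ i ∈ s, u i + v a * (∏ i ∈ s, u i - ∏ i ∈ s, v i) := by ring
    rw [e]
    refine (abs_add_le _ _).trans ?_
    rw [abs_mul, abs_mul, abs_of_nonneg hU.1, abs_of_nonneg hva.1]
    have h1 : |u a - v a| * ∏ i ∈ s, u i ≤ |u a - v a| * 1 := by
      gcongr; exact hU.2
    have h2 : v a * |∏ i ∈ s, u i - ∏ i ∈ s, v i| ≤ 1 * |∏ i ∈ s, u i - ∏ i ∈ s, v i| := by
      gcongr; exact hva.2
    linarith

theorem gsb_tent_lip (c c' : ℝ) : |max 0 (1 - |c|) - max 0 (1 - |c'|)| ≤ |c - c'| := by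
  rw [max_comm 0, max_comm 0]
  refine (abs_max_sub_max_le_abs _ _ _).trans ?_
  have : 1 - |c| - (1 - |c'|) = -(|c| - |c'|) := by ring
  rw [this, abs_neg]
  exact abs_abs_sub_abs_le_abs_sub _ _

theorem gsb_tent_mem (c : ℝ) : 0 ≤ max 0 (1 - |c|) ∧ max 0 (1 - |c|) ≤ 1 :=
  ⟨le_max_left _ _, max_le zero_le_one (by linarith [abs_nonneg c])⟩

/-- `(c ρ)^(-(n s)) ≤ c⁻¹^(2n) ρ^(-(n s))` for `0 < c ≤ 1`, `0 < ρ`, `s ≤ 2`. -/
theorem gsb_rpow_bound' {c ρ s : ℝ} (n : ℕ) (hc : 0 < c) (hc1 : c ≤ 1) (hρ : 0 < ρ)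
    (hs : s ≤ 2) :
    (c * ρ) ^ (-((n : ℝ) * s)) ≤ (c⁻¹) ^ (2 * n) * ρ ^ (-((n : ℝ) * s)) := by
  rw [Real.mul_rpow hc.le hρ.le]
  have h2 : c ^ (-((n : ℝ) * s)) ≤ (c⁻¹) ^ (2 * n) := by
    have : (c⁻¹) ^ (2 * n) = c ^ (-((2 * n : ℕ) : ℝ)) := by
      rw [Real.rpow_neg hc.le, Real.rpow_natCast, inv_pow]
    rw [this]
    apply Real.rpow_le_rpow_of_exponent_ge hc hc1
    push_cast
    have : (n : ℝ) * s ≤ n * 2 := by gcongr
    linarith
  gcongr

/-- `((c ρ)^n)^(-s) ≤ c⁻¹^(2n) ρ^(-(n s))` for `0 < c ≤ 1`, `0 < ρ`, `s ≤ 2`. -/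
theorem gsb_rpow_bound {c ρ s : ℝ} (n : ℕ) (hc : 0 < c) (hc1 : c ≤ 1) (hρ : 0 < ρ)
    (hs : s ≤ 2) :
    ((c * ρ) ^ n) ^ (-s) ≤ (c⁻¹) ^ (2 * n) * ρ ^ (-((n : ℝ) * s)) := by
  have h1 : ((c * ρ) ^ n) ^ (-s) = (c * ρ) ^ (-((n : ℝ) * s)) := by
    rw [← Real.rpow_natCast, ← Real.rpow_mul (mul_pos hc hρ).le]
    congr 1; ring
  rw [h1]
  exact gsb_rpow_bound' n hc hc1 hρ hs

/-! ### The mixed space -/

section NF

open Classical

variable {T : Type} [Field T] [NumberField T]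

theorem gsb_normAtPlace_le_norm (w : InfinitePlace T) (x : mixedSpace T) :
    normAtPlace w x ≤ ‖x‖ := by
  rw [norm_eq_sup'_normAtPlace]
  exact Finset.le_sup' (fun w => normAtPlace w x) (Finset.mem_univ w)

theorem gsb_exists_normAtPlace_eq_norm (x : mixedSpace T) : ∃ w, normAtPlace w x = ‖x‖ := by
  rw [norm_eq_sup'_normAtPlace]
  obtain ⟨w, -, hw⟩ := Finset.exists_mem_eq_sup' Finset.univ_nonempty (fun w => normAtPlace w x)
  exact ⟨w, hw.symm⟩

theorem gsb_normAtPlace_sub_le (w : InfinitePlace T) (x y : mixedSpace T) :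
    normAtPlace w x - normAtPlace w y ≤ ‖x - y‖ := by
  have h1 : normAtPlace w x ≤ normAtPlace w (x - y) + normAtPlace w y := by
    have := normAtPlace_add_le w (x - y) y
    rwa [sub_add_cancel] at this
  have h2 := gsb_normAtPlace_le_norm w (x - y)
  linarith

theorem gsb_abs_normAtPlace_sub_le (w : InfinitePlace T) (x y : mixedSpace T) :
    |normAtPlace w x - normAtPlace w y| ≤ ‖x - y‖ := by
  rw [abs_le]
  constructor
  · have := gsb_normAtPlace_sub_le w y x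
    rw [norm_sub_rev] at this
    linarith
  · exact gsb_normAtPlace_sub_le w x y

/-- normalised logarithm of the absolute value at `w`. -/
noncomputable def gsbD (w : InfinitePlace T) (x : mixedSpace T) : ℝ :=
  Real.log (normAtPlace w x) - Real.log (mixedEmbedding.norm x) * (Module.finrank ℚ T : ℝ)⁻¹

theorem gsb_logMap_apply (x : mixedSpace T) (w : {w : InfinitePlace T // w ≠ w₀}) :
    logMap x w = mult w.val * gsbD w.val x := rfl

theorem gsb_log_norm {x : mixedSpace T} (hx : mixedEmbedding.norm x ≠ 0) :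
    Real.log (mixedEmbedding.norm x) = ∑ w, (mult w : ℝ) * Real.log (normAtPlace w x) := by
  rw [mixedEmbedding.norm_apply, Real.log_prod]
  · refine Finset.sum_congr rfl fun w _ => ?_
    rw [Real.log_pow]
  · intro w _
    exact pow_ne_zero _ (mixedEmbedding.norm_ne_zero_iff.mp hx w)

theorem gsb_sum_mult : ∑ w : InfinitePlace T, (mult w : ℝ) = (Module.finrank ℚ T : ℝ) := by
  rw [← InfinitePlace.sum_mult_eq]
  push_cast
  rfl

theorem gsb_finrank_pos : (0 : ℝ) < (Module.finrank ℚ T : ℝ) := by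
  exact_mod_cast Module.finrank_pos

theorem gsb_sum_mult_D {x : mixedSpace T} (hx : mixedEmbedding.norm x ≠ 0) :
    ∑ w, (mult w : ℝ) * gsbD w x = 0 := by
  simp only [gsbD, mul_sub]
  rw [Finset.sum_sub_distrib, ← gsb_log_norm hx, ← Finset.sum_mul, gsb_sum_mult]
  have := (gsb_finrank_pos (T := T)).ne'
  field_simp
  ring

/-- The real basis of the log space used in `hatW`. -/
noncomputable abbrev gsbB (T : Type) [Field T] [NumberField T] :
    Module.Basis (Fin (rank T)) ℝ (logSpace T) :=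
  (basisUnitLattice T).ofZLatticeBasis ℝ (unitLattice T)

theorem gsb_hatW_eq (x : mixedSpace T) :
    hatW T x = ∏ i, max 0 (1 - |(gsbB T).repr (logMap x) i|) := rfl

theorem gsb_hatW_mem (x : mixedSpace T) : 0 ≤ hatW T x ∧ hatW T x ≤ 1 := by
  rw [gsb_hatW_eq]
  exact ⟨Finset.prod_nonneg fun i _ => (gsb_tent_mem _).1,
    Finset.prod_le_one (fun i _ => (gsb_tent_mem _).1) fun i _ => (gsb_tent_mem _).2⟩

theorem gsb_norm_logMap_le {x : mixedSpace T} (h : hatW T x ≠ 0) :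
    ‖logMap x‖ ≤ ∑ i, ‖gsbB T i‖ := by
  have hc : ∀ i, |(gsbB T).repr (logMap x) i| ≤ 1 := by
    intro i
    by_contra hi
    rw [not_le] at hi
    apply h
    rw [gsb_hatW_eq]
    apply Finset.prod_eq_zero (Finset.mem_univ i)
    apply max_eq_left
    linarith
  conv_lhs => rw [← (gsbB T).sum_repr (logMap x)]
  refine (norm_sum_le _ _).trans ?_
  refine Finset.sum_le_sum fun i _ => ?_
  rw [_root_.norm_smul, Real.norm_eq_abs]
  calc |(gsbB T).repr (logMap x) i| * ‖gsbB T i‖ ≤ 1 * ‖gsbB T i‖ := by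
        gcongr; exact hc i
    _ = ‖gsbB T i‖ := one_mul _

/-- the bound for the normalised logarithms on the support of `hatW`. -/
noncomputable def gsbM (T : Type) [Field T] [NumberField T] : ℝ :=
  (Fintype.card (InfinitePlace T) : ℝ) * ∑ i, ‖gsbB T i‖

theorem gsbM_nonneg : 0 ≤ gsbM T :=
  mul_nonneg (Nat.cast_nonneg _) (Finset.sum_nonneg fun _ _ => norm_nonneg _)

theorem gsb_abs_D_le {x : mixedSpace T} (hx : mixedEmbedding.norm x ≠ 0) (h : hatW T x ≠ 0)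
    (w : InfinitePlace T) : |gsbD w x| ≤ gsbM T := by
  classical
  set M := ∑ i, ‖gsbB T i‖ with hM
  have hM0 : 0 ≤ M := Finset.sum_nonneg fun _ _ => norm_nonneg _
  have hcard : (1 : ℝ) ≤ (Fintype.card (InfinitePlace T) : ℝ) := by
    exact_mod_cast Fintype.card_pos
  have h1 : ∀ w : InfinitePlace T, w ≠ w₀ → |(mult w : ℝ) * gsbD w x| ≤ M := by
    intro w hw
    have := norm_le_pi_norm (logMap x) ⟨w, hw⟩
    rw [gsb_logMap_apply, Real.norm_eq_abs] at this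
    exact this.trans (gsb_norm_logMap_le h)
  have h2 : |(mult w : ℝ) * gsbD w x| ≤ gsbM T := by
    by_cases hw : w = w₀
    · subst hw
      have h3 := gsb_sum_mult_D hx
      rw [← Finset.add_sum_erase _ _ (Finset.mem_univ (w₀ : InfinitePlace T))] at h3
      have h4 : (mult (w₀ : InfinitePlace T) : ℝ) * gsbD w₀ x =
          -∑ w ∈ Finset.univ.erase (w₀ : InfinitePlace T), (mult w : ℝ) * gsbD w x := by
        linarith
      rw [h4, abs_neg]
      refine (Finset.abs_sum_le_sum_abs _ _).trans ?_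
      calc ∑ w ∈ Finset.univ.erase (w₀ : InfinitePlace T), |(mult w : ℝ) * gsbD w x|
          ≤ ∑ _w ∈ Finset.univ.erase (w₀ : InfinitePlace T), M :=
            Finset.sum_le_sum fun w hw => h1 w (Finset.ne_of_mem_erase hw)
        _ = ((Finset.univ.erase (w₀ : InfinitePlace T)).card : ℝ) * M := by
            rw [Finset.sum_const, nsmul_eq_mul]
        _ ≤ (Fintype.card (InfinitePlace T) : ℝ) * M := by
            gcongr
            exact Finset.card_le_univ _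
    · refine (h1 w hw).trans ?_
      unfold gsbM
      nlinarith
  rw [abs_mul] at h2
  have h5 : (1 : ℝ) ≤ |(mult w : ℝ)| := by
    rw [abs_of_nonneg (Nat.cast_nonneg _)]
    exact one_le_mult
  calc |gsbD w x| = 1 * |gsbD w x| := (one_mul _).symm
    _ ≤ |(mult w : ℝ)| * |gsbD w x| := by gcongr
    _ ≤ gsbM T := h2

/-- the constant `δ`. -/
noncomputable def gsbδ (T : Type) [Field T] [NumberField T] : ℝ := Real.exp (-(2 * gsbM T))

theorem gsbδ_pos : 0 < gsbδ T := Real.exp_pos _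

theorem gsbδ_le_one : gsbδ T ≤ 1 := by
  unfold gsbδ
  rw [Real.exp_le_one_iff]
  linarith [gsbM_nonneg (T := T)]

theorem gsb_le_normAtPlace {x : mixedSpace T} (hx : mixedEmbedding.norm x ≠ 0) (h : hatW T x ≠ 0)
    (w : InfinitePlace T) : gsbδ T * ‖x‖ ≤ normAtPlace w x := by
  obtain ⟨w', hw'⟩ := gsb_exists_normAtPlace_eq_norm x
  have hpos : ∀ w, 0 < normAtPlace w x := fun w =>
    lt_of_le_of_ne (normAtPlace_nonneg w x) (mixedEmbedding.norm_ne_zero_iff.mp hx w).symm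
  have h1 := abs_le.mp (gsb_abs_D_le hx h w)
  have h2 := abs_le.mp (gsb_abs_D_le hx h w')
  have h3 : Real.log (normAtPlace w' x) - 2 * gsbM T ≤ Real.log (normAtPlace w x) := by
    unfold gsbD at h1 h2
    linarith [h1.1, h2.2]
  rw [← hw', gsbδ, ← Real.exp_log (hpos w), mul_comm]
  conv_lhs => rw [← Real.exp_log (hpos w')]
  rw [← Real.exp_add]
  apply Real.exp_le_exp.mpr
  linarith

theorem gsb_pow_le_norm {x : mixedSpace T} {η : ℝ} (hη : 0 ≤ η)
    (h : ∀ w, η ≤ normAtPlace w x) : η ^ Module.finrank ℚ T ≤ mixedEmbedding.norm x := by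
  rw [mixedEmbedding.norm_apply, ← InfinitePlace.sum_mult_eq, ← Finset.prod_pow_eq_pow_sum]
  exact Finset.prod_le_prod (fun w _ => pow_nonneg hη _) fun w _ => pow_le_pow_left₀ hη (h w) _

/-! ### Estimates in the good region -/

section Good

variable {x y : mixedSpace T} {η : ℝ}

theorem gsb_norm_ne_zero (hη : 0 < η) (hx : ∀ w, η ≤ normAtPlace w x) :
    mixedEmbedding.norm x ≠ 0 :=
  mixedEmbedding.norm_ne_zero_iff.mpr fun w => (lt_of_lt_of_le hη (hx w)).ne'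

theorem gsb_abs_log_normAtPlace_sub_le (hη : 0 < η) (hx : ∀ w, η ≤ normAtPlace w x)
    (hy : ∀ w, η ≤ normAtPlace w y) (w : InfinitePlace T) :
    |Real.log (normAtPlace w x) - Real.log (normAtPlace w y)| ≤ ‖x - y‖ / η := by
  refine (gsb_abs_log_sub_log_le hη (hx w) (hy w)).trans ?_
  gcongr
  exact gsb_abs_normAtPlace_sub_le w x y

theorem gsb_abs_log_norm_sub_le (hη : 0 < η) (hx : ∀ w, η ≤ normAtPlace w x)
    (hy : ∀ w, η ≤ normAtPlace w y) :
    |Real.log (mixedEmbedding.norm x) - Real.log (mixedEmbedding.norm y)| ≤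
      (Module.finrank ℚ T : ℝ) * (‖x - y‖ / η) := by
  rw [gsb_log_norm (gsb_norm_ne_zero hη hx), gsb_log_norm (gsb_norm_ne_zero hη hy),
    ← Finset.sum_sub_distrib, ← gsb_sum_mult, Finset.sum_mul]
  refine (Finset.abs_sum_le_sum_abs _ _).trans (Finset.sum_le_sum fun w _ => ?_)
  rw [← mul_sub, abs_mul, abs_of_nonneg (Nat.cast_nonneg _)]
  gcongr
  exact gsb_abs_log_normAtPlace_sub_le hη hx hy w

theorem gsb_abs_D_sub_le (hη : 0 < η) (hx : ∀ w, η ≤ normAtPlace w x)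
    (hy : ∀ w, η ≤ normAtPlace w y) (w : InfinitePlace T) :
    |gsbD w x - gsbD w y| ≤ 2 * (‖x - y‖ / η) := by
  have h1 := gsb_abs_log_normAtPlace_sub_le hη hx hy w
  have h2 := gsb_abs_log_norm_sub_le hη hx hy
  have hn := gsb_finrank_pos (T := T)
  have e : gsbD w x - gsbD w y = (Real.log (normAtPlace w x) - Real.log (normAtPlace w y)) -
      (Real.log (mixedEmbedding.norm x) - Real.log (mixedEmbedding.norm y)) *
        (Module.finrank ℚ T : ℝ)⁻¹ := by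
    unfold gsbD; ring
  rw [e]
  refine (abs_sub _ _).trans ?_
  rw [abs_mul, abs_of_pos (inv_pos.mpr hn)]
  have h3 : |Real.log (mixedEmbedding.norm x) - Real.log (mixedEmbedding.norm y)| *
      (Module.finrank ℚ T : ℝ)⁻¹ ≤ ‖x - y‖ / η := by
    rw [← div_eq_mul_inv, div_le_iff₀ hn]
    linarith
  linarith

theorem gsb_norm_logMap_sub_le (hη : 0 < η) (hx : ∀ w, η ≤ normAtPlace w x)
    (hy : ∀ w, η ≤ normAtPlace w y) :
    ‖logMap x - logMap y‖ ≤ 4 * (‖x - y‖ / η) := by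
  have h0 : 0 ≤ ‖x - y‖ / η := div_nonneg (norm_nonneg _) hη.le
  rw [pi_norm_le_iff_of_nonneg (by positivity)]
  intro w
  rw [Pi.sub_apply, gsb_logMap_apply, gsb_logMap_apply, ← mul_sub, Real.norm_eq_abs, abs_mul,
    abs_of_nonneg (Nat.cast_nonneg _)]
  have h1 := gsb_abs_D_sub_le hη hx hy w.val
  have h2 : (mult w.val : ℝ) ≤ 2 := by
    unfold mult
    split_ifs <;> norm_num
  calc (mult w.val : ℝ) * |gsbD w.val x - gsbD w.val y| ≤ 2 * (2 * (‖x - y‖ / η)) := by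
        gcongr
    _ = 4 * (‖x - y‖ / η) := by ring

/-- operator norm of the coordinate map. -/
noncomputable def gsbK (T : Type) [Field T] [NumberField T] : ℝ :=
  ‖((gsbB T).equivFunL : logSpace T →L[ℝ] (Fin (rank T) → ℝ))‖

theorem gsbK_nonneg : 0 ≤ gsbK T := norm_nonneg _

theorem gsb_abs_repr_sub_le (a b : logSpace T) (i : Fin (rank T)) :
    |(gsbB T).repr a i - (gsbB T).repr b i| ≤ gsbK T * ‖a - b‖ := by
  have h1 : (gsbB T).repr a i - (gsbB T).repr b i =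
      ((gsbB T).equivFunL : logSpace T →L[ℝ] (Fin (rank T) → ℝ)) (a - b) i := by
    simp
  rw [h1, ← Real.norm_eq_abs]
  exact (norm_le_pi_norm _ i).trans (ContinuousLinearMap.le_opNorm _ _)

theorem gsb_abs_hatW_sub_le (hη : 0 < η) (hx : ∀ w, η ≤ normAtPlace w x)
    (hy : ∀ w, η ≤ normAtPlace w y) :
    |hatW T x - hatW T y| ≤ (rank T : ℝ) * (gsbK T * (4 * (‖x - y‖ / η))) := by
  rw [gsb_hatW_eq, gsb_hatW_eq]
  refine (gsb_abs_prod_sub_prod_le _ _ _ (fun i _ => gsb_tent_mem _)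
    (fun i _ => gsb_tent_mem _)).trans ?_
  calc ∑ i, |max 0 (1 - |(gsbB T).repr (logMap x) i|) - max 0 (1 - |(gsbB T).repr (logMap y) i|)|
      ≤ ∑ _i : Fin (rank T), gsbK T * (4 * (‖x - y‖ / η)) := by
        refine Finset.sum_le_sum fun i _ => ?_
        refine (gsb_tent_lip _ _).trans ((gsb_abs_repr_sub_le _ _ i).trans ?_)
        gcongr
        · exact gsbK_nonneg
        · exact gsb_norm_logMap_sub_le hη hx hy
    _ = (rank T : ℝ) * (gsbK T * (4 * (‖x - y‖ / η))) := by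
        rw [Finset.sum_const, nsmul_eq_mul, Finset.card_univ, Fintype.card_fin]

theorem gsb_norm_rpow_le {s : ℝ} (hs : 0 ≤ s) (hη : 0 < η) (hx : ∀ w, η ≤ normAtPlace w x) :
    mixedEmbedding.norm x ^ (-s) ≤ (η ^ Module.finrank ℚ T) ^ (-s) :=
  Real.rpow_le_rpow_of_nonpos (pow_pos hη _) (gsb_pow_le_norm hη.le hx) (by linarith)

theorem gsb_abs_norm_rpow_sub_le {s : ℝ} (hs : 0 ≤ s) (hη : 0 < η)
    (hx : ∀ w, η ≤ normAtPlace w x) (hy : ∀ w, η ≤ normAtPlace w y) :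
    |mixedEmbedding.norm x ^ (-s) - mixedEmbedding.norm y ^ (-s)| ≤
      (η ^ Module.finrank ℚ T) ^ (-s) * (s * ((Module.finrank ℚ T : ℝ) * (‖x - y‖ / η))) := by
  have hNx : 0 < mixedEmbedding.norm x :=
    lt_of_le_of_ne (mixedEmbedding.norm_nonneg x) (gsb_norm_ne_zero hη hx).symm
  have hNy : 0 < mixedEmbedding.norm y :=
    lt_of_le_of_ne (mixedEmbedding.norm_nonneg y) (gsb_norm_ne_zero hη hy).symm
  have hE : 0 < η ^ Module.finrank ℚ T := pow_pos hη _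
  have key : ∀ z : mixedSpace T, (∀ w, η ≤ normAtPlace w z) → 0 < mixedEmbedding.norm z →
      Real.log (mixedEmbedding.norm z) * (-s) ≤ Real.log (η ^ Module.finrank ℚ T) * (-s) := by
    intro z hz hNz
    have : Real.log (η ^ Module.finrank ℚ T) ≤ Real.log (mixedEmbedding.norm z) :=
      Real.log_le_log hE (gsb_pow_le_norm hη.le hz)
    nlinarith
  rw [Real.rpow_def_of_pos hNx, Real.rpow_def_of_pos hNy, Real.rpow_def_of_pos hE]
  refine (gsb_abs_exp_sub_exp_le (key x hx hNx) (key y hy hNy)).trans ?_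
  gcongr
  rw [← sub_mul, abs_mul, abs_neg, abs_of_nonneg hs, mul_comm]
  gcongr
  exact gsb_abs_log_norm_sub_le hη hx hy

theorem gsb_abs_Gs_sub_le {s : ℝ} (hs : 0 ≤ s) (hη : 0 < η)
    (hx : ∀ w, η ≤ normAtPlace w x) (hy : ∀ w, η ≤ normAtPlace w y) :
    |Gs T s x - Gs T s y| ≤ (η ^ Module.finrank ℚ T) ^ (-s) *
      (((rank T : ℝ) * gsbK T * 4 + s * (Module.finrank ℚ T : ℝ)) * (‖x - y‖ / η)) := by
  unfold Gs
  have e : hatW T x * mixedEmbedding.norm x ^ (-s) - hatW T y * mixedEmbedding.norm y ^ (-s) =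
      (hatW T x - hatW T y) * mixedEmbedding.norm x ^ (-s) +
        hatW T y * (mixedEmbedding.norm x ^ (-s) - mixedEmbedding.norm y ^ (-s)) := by ring
  rw [e]
  refine (abs_add_le _ _).trans ?_
  rw [abs_mul, abs_mul, abs_of_nonneg (gsb_hatW_mem y).1,
    abs_of_nonneg (Real.rpow_nonneg (mixedEmbedding.norm_nonneg x) (-s))]
  have h1 := gsb_abs_hatW_sub_le hη hx hy
  have h2 := gsb_norm_rpow_le hs hη hx
  have h3 := gsb_abs_norm_rpow_sub_le hs hη hx hy
  have h4 := (gsb_hatW_mem y).2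
  have hE : 0 ≤ (η ^ Module.finrank ℚ T) ^ (-s) := Real.rpow_nonneg (pow_pos hη _).le _
  have h5 : |hatW T x - hatW T y| * mixedEmbedding.norm x ^ (-s) ≤
      ((rank T : ℝ) * (gsbK T * (4 * (‖x - y‖ / η)))) * (η ^ Module.finrank ℚ T) ^ (-s) :=
    mul_le_mul h1 h2 (Real.rpow_nonneg (mixedEmbedding.norm_nonneg x) (-s))
      (le_trans (abs_nonneg _) h1)
  have h6 : hatW T y * |mixedEmbedding.norm x ^ (-s) - mixedEmbedding.norm y ^ (-s)| ≤
      1 * ((η ^ Module.finrank ℚ T) ^ (-s) *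
        (s * ((Module.finrank ℚ T : ℝ) * (‖x - y‖ / η)))) := by
    gcongr
  calc _ ≤ _ := add_le_add h5 h6
    _ = _ := by ring

end Good

/-! ### The main bounds -/

theorem gsb_of_Gs_ne_zero {s : ℝ} (hs : s ≠ 0) {x : mixedSpace T} (h : Gs T s x ≠ 0) :
    mixedEmbedding.norm x ≠ 0 ∧ hatW T x ≠ 0 := by
  unfold Gs at h
  refine ⟨fun h0 => h ?_, fun h0 => h ?_⟩
  · rw [h0, Real.zero_rpow (neg_ne_zero.mpr hs), mul_zero]
  · rw [h0, zero_mul]

/-- the constant of the size bound -/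
noncomputable def gsbC₀ (T : Type) [Field T] [NumberField T] : ℝ :=
  ((gsbδ T)⁻¹) ^ (2 * Module.finrank ℚ T)

theorem gsbC₀_nonneg : 0 ≤ gsbC₀ T := pow_nonneg (inv_nonneg.mpr gsbδ_pos.le) _

theorem gsb_size {s : ℝ} (hs1 : 1 ≤ s) (hs2 : s ≤ 2) {x : mixedSpace T} (hx : x ≠ 0) :
    |Gs T s x| ≤ gsbC₀ T * ‖x‖ ^ (-((Module.finrank ℚ T : ℝ) * s)) := by
  have hρ : 0 < ‖x‖ := norm_pos_iff.mpr hx
  by_cases hG : Gs T s x = 0
  · rw [hG, abs_zero]
    exact mul_nonneg gsbC₀_nonneg (Real.rpow_nonneg hρ.le _)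
  · obtain ⟨hN, hW⟩ := gsb_of_Gs_ne_zero (by linarith) hG
    have hη : 0 < gsbδ T * ‖x‖ := mul_pos gsbδ_pos hρ
    have h1 := gsb_norm_rpow_le (s := s) (by linarith) hη (gsb_le_normAtPlace hN hW)
    have h2 := gsb_rpow_bound (s := s) (Module.finrank ℚ T) (gsbδ_pos (T := T))
      (gsbδ_le_one (T := T)) hρ hs2
    unfold Gs
    rw [abs_mul, abs_of_nonneg (gsb_hatW_mem x).1,
      abs_of_nonneg (Real.rpow_nonneg (mixedEmbedding.norm_nonneg x) (-s))]
    calc hatW T x * mixedEmbedding.norm x ^ (-s) ≤ 1 * mixedEmbedding.norm x ^ (-s) := by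
          gcongr
          · exact Real.rpow_nonneg (mixedEmbedding.norm_nonneg x) (-s)
          · exact (gsb_hatW_mem x).2
      _ = mixedEmbedding.norm x ^ (-s) := one_mul _
      _ ≤ _ := h1.trans h2

/-- the constants of the Lipschitz bound -/
noncomputable def gsbC₁ (T : Type) [Field T] [NumberField T] : ℝ :=
  gsbC₀ T * (4 ^ Module.finrank ℚ T + 1) * (4 / gsbδ T)

noncomputable def gsbC₂ (T : Type) [Field T] [NumberField T] : ℝ :=
  ((gsbδ T / 4)⁻¹) ^ (2 * Module.finrank ℚ T) *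
    (((rank T : ℝ) * gsbK T * 4 + 2 * (Module.finrank ℚ T : ℝ)) * (4 / gsbδ T))

theorem gsbC₁_nonneg : 0 ≤ gsbC₁ T := by
  unfold gsbC₁
  have := gsbC₀_nonneg (T := T)
  have := gsbδ_pos (T := T)
  positivity

theorem gsbC₂_nonneg : 0 ≤ gsbC₂ T := by
  unfold gsbC₂
  have := gsbK_nonneg (T := T)
  have := gsbδ_pos (T := T)
  positivity

theorem gsb_far {s : ℝ} (hs1 : 1 ≤ s) (hs2 : s ≤ 2) {x v : mixedSpace T} (hx : x ≠ 0)
    (hv : 2 * ‖v‖ ≤ ‖x‖) (hfar : gsbδ T / 4 * ‖x‖ ≤ ‖v‖) :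
    |Gs T s (x + v) - Gs T s x| ≤
      gsbC₁ T * ‖v‖ * ‖x‖ ^ (-((Module.finrank ℚ T : ℝ) * s) - 1) := by
  have hρ : 0 < ‖x‖ := norm_pos_iff.mpr hx
  have hδ := gsbδ_pos (T := T)
  have hy : 1 / 2 * ‖x‖ ≤ ‖x + v‖ := by
    have := norm_sub_le (x + v) v
    rw [add_sub_cancel_right] at this
    linarith
  have hy0 : x + v ≠ 0 := by
    rw [← norm_pos_iff]
    linarith
  have h1 := gsb_size hs1 hs2 hx
  have h2 := gsb_size hs1 hs2 hy0
  have hexp : -((Module.finrank ℚ T : ℝ) * s) ≤ 0 := by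
    have := gsb_finrank_pos (T := T)
    nlinarith
  have h3 : ‖x + v‖ ^ (-((Module.finrank ℚ T : ℝ) * s)) ≤
      4 ^ Module.finrank ℚ T * ‖x‖ ^ (-((Module.finrank ℚ T : ℝ) * s)) := by
    refine (Real.rpow_le_rpow_of_nonpos (by positivity) hy hexp).trans ?_
    refine (gsb_rpow_bound' (Module.finrank ℚ T) (by norm_num) (by norm_num) hρ hs2).trans ?_
    rw [pow_mul]
    norm_num
  set R := ‖x‖ ^ (-((Module.finrank ℚ T : ℝ) * s)) with hR
  have hR0 : 0 ≤ R := Real.rpow_nonneg hρ.le _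
  have hC := gsbC₀_nonneg (T := T)
  have h4 : |Gs T s (x + v) - Gs T s x| ≤ gsbC₀ T * (4 ^ Module.finrank ℚ T + 1) * R := by
    refine (abs_sub _ _).trans ?_
    have : gsbC₀ T * ‖x + v‖ ^ (-((Module.finrank ℚ T : ℝ) * s)) ≤
        gsbC₀ T * (4 ^ Module.finrank ℚ T * R) := by gcongr
    linarith
  have h5 : (1 : ℝ) ≤ 4 / gsbδ T * ‖v‖ * ‖x‖⁻¹ := by
    rw [← div_eq_mul_inv, le_div_iff₀ hρ, div_mul_eq_mul_div, le_div_iff₀ hδ]
    linarith
  rw [Real.rpow_sub_one hρ.ne', ← hR]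
  have hA : 0 ≤ gsbC₀ T * (4 ^ Module.finrank ℚ T + 1) * R := by positivity
  calc |Gs T s (x + v) - Gs T s x| ≤ gsbC₀ T * (4 ^ Module.finrank ℚ T + 1) * R * 1 := by
        rw [mul_one]; exact h4
    _ ≤ gsbC₀ T * (4 ^ Module.finrank ℚ T + 1) * R * (4 / gsbδ T * ‖v‖ * ‖x‖⁻¹) := by
        gcongr
    _ = gsbC₁ T * ‖v‖ * (R / ‖x‖) := by
        unfold gsbC₁; ring

theorem gsb_near {s : ℝ} (hs1 : 1 ≤ s) (hs2 : s ≤ 2) {x v : mixedSpace T} (hx : x ≠ 0)
    (h1 : ∀ w, gsbδ T / 4 * ‖x‖ ≤ normAtPlace w x)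
    (h2 : ∀ w, gsbδ T / 4 * ‖x‖ ≤ normAtPlace w (x + v)) :
    |Gs T s (x + v) - Gs T s x| ≤
      gsbC₂ T * ‖v‖ * ‖x‖ ^ (-((Module.finrank ℚ T : ℝ) * s) - 1) := by
  have hρ : 0 < ‖x‖ := norm_pos_iff.mpr hx
  have hδ := gsbδ_pos (T := T)
  have hδ1 := gsbδ_le_one (T := T)
  have hη : 0 < gsbδ T / 4 * ‖x‖ := by positivity
  have h3 := gsb_abs_Gs_sub_le (s := s) (by linarith) hη h2 h1
  rw [add_sub_cancel_left] at h3
  have h4 := gsb_rpow_bound (s := s) (c := gsbδ T / 4) (Module.finrank ℚ T) (by positivity)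
    (by linarith) hρ hs2
  have hK := gsbK_nonneg (T := T)
  rw [Real.rpow_sub_one hρ.ne']
  set R := ‖x‖ ^ (-((Module.finrank ℚ T : ℝ) * s)) with hR
  have hR0 : 0 ≤ R := Real.rpow_nonneg hρ.le _
  refine h3.trans ?_
  calc ((gsbδ T / 4 * ‖x‖) ^ Module.finrank ℚ T) ^ (-s) *
        (((rank T : ℝ) * gsbK T * 4 + s * (Module.finrank ℚ T : ℝ)) *
          (‖v‖ / (gsbδ T / 4 * ‖x‖)))
      ≤ (((gsbδ T / 4)⁻¹) ^ (2 * Module.finrank ℚ T) * R) *
        (((rank T : ℝ) * gsbK T * 4 + 2 * (Module.finrank ℚ T : ℝ)) *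
          (‖v‖ / (gsbδ T / 4 * ‖x‖))) := by
        gcongr
    _ = gsbC₂ T * ‖v‖ * (R / ‖x‖) := by
        unfold gsbC₂
        field_simp

theorem gsb_lip {s : ℝ} (hs1 : 1 ≤ s) (hs2 : s ≤ 2) {x v : mixedSpace T} (hx : x ≠ 0)
    (hv : 2 * ‖v‖ ≤ ‖x‖) :
    |Gs T s (x + v) - Gs T s x| ≤
      (gsbC₁ T + gsbC₂ T) * ‖v‖ * ‖x‖ ^ (-((Module.finrank ℚ T : ℝ) * s) - 1) := by
  have hρ : 0 < ‖x‖ := norm_pos_iff.mpr hx
  have hδ := gsbδ_pos (T := T)
  have hC1 := gsbC₁_nonneg (T := T)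
  have hC2 := gsbC₂_nonneg (T := T)
  set R := ‖x‖ ^ (-((Module.finrank ℚ T : ℝ) * s) - 1) with hR
  have hR0 : 0 ≤ R := Real.rpow_nonneg hρ.le _
  have hvR : 0 ≤ ‖v‖ * R := mul_nonneg (norm_nonneg _) hR0
  have hle1 : gsbC₁ T * ‖v‖ * R ≤ (gsbC₁ T + gsbC₂ T) * ‖v‖ * R := by nlinarith
  have hle2 : gsbC₂ T * ‖v‖ * R ≤ (gsbC₁ T + gsbC₂ T) * ‖v‖ * R := by nlinarith
  by_cases hfar : gsbδ T / 4 * ‖x‖ ≤ ‖v‖
  · exact (gsb_far hs1 hs2 hx hv hfar).trans hle1
  rw [not_le] at hfar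
  have hy : 1 / 2 * ‖x‖ ≤ ‖x + v‖ := by
    have := norm_sub_le (x + v) v
    rw [add_sub_cancel_right] at this
    linarith
  have hdiff : ∀ w, |normAtPlace w (x + v) - normAtPlace w x| ≤ ‖v‖ := by
    intro w
    have := gsb_abs_normAtPlace_sub_le w (x + v) x
    rwa [add_sub_cancel_left] at this
  by_cases hGx : Gs T s x = 0
  · by_cases hGy : Gs T s (x + v) = 0
    · rw [hGx, hGy, sub_zero, abs_zero]
      positivity
    · obtain ⟨hN, hW⟩ := gsb_of_Gs_ne_zero (by linarith) hGy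
      have h2 := gsb_le_normAtPlace hN hW
      refine (gsb_near hs1 hs2 hx (fun w => ?_) (fun w => ?_)).trans hle2
      · have := abs_le.mp (hdiff w)
        have := h2 w
        nlinarith
      · have := h2 w
        nlinarith
  · obtain ⟨hN, hW⟩ := gsb_of_Gs_ne_zero (by linarith) hGx
    have h2 := gsb_le_normAtPlace hN hW
    refine (gsb_near hs1 hs2 hx (fun w => ?_) (fun w => ?_)).trans hle2
    · have := h2 w
      nlinarith
    · have := abs_le.mp (hdiff w)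
      have := h2 w
      nlinarith

end NF

open Classical in
/-- AN2a. -/
theorem gsBound : Stmt_GsBound := by
  intro T _ _
  refine ⟨gsbC₀ T + (gsbC₁ T + gsbC₂ T), fun s hs1 hs2 => ⟨fun x hx => ?_, fun x v hx hv => ?_⟩⟩
  · refine (gsb_size hs1 hs2 hx).trans ?_
    have h1 := gsbC₁_nonneg (T := T)
    have h2 := gsbC₂_nonneg (T := T)
    have h3 : 0 ≤ ‖x‖ ^ (-((Module.finrank ℚ T : ℝ) * s)) := Real.rpow_nonneg (norm_nonneg _) _
    nlinarith
  · refine (gsb_lip hs1 hs2 hx hv).trans ?_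
    have h1 := gsbC₀_nonneg (T := T)
    have h3 : 0 ≤ ‖v‖ * ‖x‖ ^ (-((Module.finrank ℚ T : ℝ) * s) - 1) :=
      mul_nonneg (norm_nonneg _) (Real.rpow_nonneg (norm_nonneg _) _)
    nlinarith

end Fermat.Agent.S14
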