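import Fermat.Agent.S14.Interface2

/-!
# S14 : class group API (`Stmt_ClsBasic`, `Stmt_ClassHom`, `Stmt_ClNorm`)
-/

set_option autoImplicit false

namespace Fermat.Agent.S14

open NumberField

section Basic

variable {K : Type} [Field K] [NumberField K]

theorem capi_cls_of_ne_bot {I : Ideal (𝓞 K)} (h : I ≠ ⊥) :
    cls I = ClassGroup.mk0 ⟨I, mem_nonZeroDivisors_iff_ne_zero.2 h⟩ := by
  unfold cls
  rw [dif_pos]

theorem capi_cls_mul {I J : Ideal (𝓞 K)} (hI : I ≠ ⊥) (hJ : J ≠ ⊥) :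
    cls (I * J) = cls I * cls J := by
  rw [capi_cls_of_ne_bot hI, capi_cls_of_ne_bot hJ, capi_cls_of_ne_bot (mul_ne_zero hI hJ),
    ← map_mul]
  rfl

theorem capi_cls_eq_one_iff {I : Ideal (𝓞 K)} (hI : I ≠ ⊥) : cls I = 1 ↔ I.IsPrincipal := by
  rw [capi_cls_of_ne_bot hI, ClassGroup.mk0_eq_one_iff]

theorem capi_cls_surjective (c : ClassGroup (𝓞 K)) : ∃ I : Ideal (𝓞 K), I ≠ ⊥ ∧ cls I = c := by
  obtain ⟨⟨I, hI⟩, rfl⟩ := ClassGroup.mk0_surjective c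
  exact ⟨I, mem_nonZeroDivisors_iff_ne_zero.1 hI,
    capi_cls_of_ne_bot (mem_nonZeroDivisors_iff_ne_zero.1 hI)⟩

theorem capi_cls_top : cls (⊤ : Ideal (𝓞 K)) = 1 :=
  (capi_cls_eq_one_iff (by simp)).2 ⟨⟨1, by simp⟩⟩

theorem capi_cls_pow {I : Ideal (𝓞 K)} (hI : I ≠ ⊥) (n : ℕ) : cls (I ^ n) = cls I ^ n := by
  induction n with
  | zero => simpa using capi_cls_top
  | succ n ih => rw [pow_succ, pow_succ, capi_cls_mul (pow_ne_zero n hI) hI, ih]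

theorem capi_cls_mem_of_primes (Y : Subgroup (ClassGroup (𝓞 K)))
    (hY : ∀ q : Ideal (𝓞 K), q.IsPrime → q ≠ ⊥ → cls q ∈ Y) (I : Ideal (𝓞 K)) (hI : I ≠ ⊥) :
    cls I ∈ Y := by
  revert hI
  refine UniqueFactorizationMonoid.induction_on_prime
    (P := fun I : Ideal (𝓞 K) => I ≠ ⊥ → cls I ∈ Y) I ?_ ?_ ?_
  · intro h
    exact absurd rfl h
  · intro J hJ _
    rw [Ideal.isUnit_iff] at hJ
    rw [hJ, capi_cls_top]
    exact Y.one_mem
  · intro J q hJ hq ih _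
    rw [capi_cls_mul hq.ne_zero hJ]
    exact Y.mul_mem (hY q (Ideal.isPrime_of_prime hq) hq.ne_zero) (ih hJ)

theorem capi_eq_top_of_primes (Y : Subgroup (ClassGroup (𝓞 K)))
    (hY : ∀ q : Ideal (𝓞 K), q.IsPrime → q ≠ ⊥ → cls q ∈ Y) : Y = ⊤ := by
  rw [eq_top_iff]
  intro c _
  obtain ⟨I, hI, rfl⟩ := capi_cls_surjective c
  exact capi_cls_mem_of_primes Y hY I hI

variable (L : Type) [Field L] [NumberField L] [Algebra K L]

theorem capi_cls_relNorm_mem (J : Ideal (𝓞 L)) (hJ : J ≠ ⊥) :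
    cls (Ideal.relNorm (𝓞 K) J) ∈ normCl K L :=
  Subgroup.subset_closure ⟨J, hJ, rfl⟩

theorem capi_cls_pow_finrank_mem (I : Ideal (𝓞 K)) (hI : I ≠ ⊥) :
    cls I ^ Module.finrank K L ∈ normCl K L := by
  have h1 : Ideal.relNorm (𝓞 K) (I.map (algebraMap (𝓞 K) (𝓞 L))) =
      I ^ Module.finrank K L := by
    rw [Ideal.relNorm_algebraMap, IsFractionRing.finrank_eq (𝓞 K) K (𝓞 L) L]
  have h2 : I.map (algebraMap (𝓞 K) (𝓞 L)) ≠ ⊥ := by
    intro h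
    rw [h, Ideal.relNorm_bot] at h1
    exact pow_ne_zero _ hI h1.symm
  rw [← capi_cls_pow hI, ← h1]
  exact capi_cls_relNorm_mem L _ h2

end Basic

theorem clsBasic : Stmt_ClsBasic := by
  intro K _ _
  exact ⟨fun I J hI hJ => capi_cls_mul hI hJ, fun I hI => capi_cls_eq_one_iff hI,
    capi_cls_surjective, capi_eq_top_of_primes,
    fun L _ _ _ I hI => capi_cls_pow_finrank_mem L I hI,
    fun L _ _ _ J hJ => capi_cls_relNorm_mem L J hJ⟩

theorem classHom : Stmt_ClassHom := by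
  intro T _ _ G _ 𝕊 F h0 hmul hsurj hF hprin
  -- well-definedness
  have hwd : ∀ I ∈ 𝕊, ∀ I' ∈ 𝕊, cls I = cls I' → F I = F I' := by
    intro I hI I' hI' h
    obtain ⟨E, hE, hEc⟩ := hsurj (cls I)⁻¹
    have h1 : F I * F E = 1 := by
      rw [← hF I hI E hE]
      apply hprin _ (hmul I hI E hE)
      rw [← capi_cls_eq_one_iff (mul_ne_zero (h0 I hI) (h0 E hE)),
        capi_cls_mul (h0 I hI) (h0 E hE), hEc, mul_inv_cancel]
    have h2 : F I' * F E = 1 := by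
      rw [← hF I' hI' E hE]
      apply hprin _ (hmul I' hI' E hE)
      rw [← capi_cls_eq_one_iff (mul_ne_zero (h0 I' hI') (h0 E hE)),
        capi_cls_mul (h0 I' hI') (h0 E hE), hEc, ← h, mul_inv_cancel]
    exact mul_right_cancel (h1.trans h2.symm)
  choose rep hrep hrepc using hsurj
  have hkey : ∀ I ∈ 𝕊, F (rep (cls I)) = F I := fun I hI =>
    hwd _ (hrep _) I hI (hrepc _)
  refine ⟨MonoidHom.mk' (fun c => F (rep c)) ?_, hkey⟩
  intro c c'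
  rw [← hF _ (hrep c) _ (hrep c')]
  apply hwd _ (hrep _) _ (hmul _ (hrep c) _ (hrep c'))
  rw [hrepc, capi_cls_mul (h0 _ (hrep c)) (h0 _ (hrep c')), hrepc, hrepc]

theorem clNorm : Stmt_ClNorm := by
  intro K T _ _ _ _ _
  have hne : ∀ I : Ideal (𝓞 T), I ≠ ⊥ → Ideal.relNorm (𝓞 K) I ≠ ⊥ := fun I hI h =>
    hI (Ideal.relNorm_eq_bot_iff.1 h)
  obtain ⟨Ft, hFt⟩ := classHom T (ClassGroup (𝓞 K)) {I | I ≠ ⊥}
    (fun I => cls (Ideal.relNorm (𝓞 K) I)) (fun I hI => hI)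
    (fun I hI J hJ => mul_ne_zero hI hJ)
    (fun c => by
      obtain ⟨I, hI, hc⟩ := capi_cls_surjective c
      exact ⟨I, hI, hc⟩)
    (fun I hI J hJ => by
      show cls (Ideal.relNorm (𝓞 K) (I * J)) = _
      rw [map_mul, capi_cls_mul (hne I hI) (hne J hJ)])
    (fun I hI hp => by
      show cls (Ideal.relNorm (𝓞 K) I) = 1
      rw [capi_cls_eq_one_iff (hne I hI)]
      obtain ⟨⟨a, rfl⟩⟩ := hp
      exact ⟨⟨Algebra.intNorm (𝓞 K) (𝓞 T) a, Ideal.relNorm_singleton (𝓞 K) a⟩⟩)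
  exact ⟨Ft, fun I hI => hFt I hI⟩

end Fermat.Agent.S14
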