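/-
S14 package API1 (helper39): the moving lemma.
-/
import Fermat.Agent.S14.Interface2
import Fermat.Agent.S14.ClassAPI

set_option autoImplicit false

namespace Fermat.Agent.S14

open NumberField Ideal

section MV

variable {T : Type} [Field T] [NumberField T]

/-- an ideal coprime to `(r)` has norm coprime to `r`. -/
theorem mv_coprime_absNorm {B : Ideal (𝓞 T)} {r : ℕ}
    (h : B ⊔ span {(r : 𝓞 T)} = ⊤) : (absNorm B).Coprime r := by
  refine Nat.coprime_of_dvd fun l hl hlB hlr ↦ ?_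
  have : Fact l.Prime := ⟨hl⟩
  have hle : span {(r : 𝓞 T)} ≤ span {(l : 𝓞 T)} := by
    rw [span_singleton_le_iff_mem, mem_span_singleton]
    exact_mod_cast (Nat.cast_dvd_cast (α := 𝓞 T) hlr)
  have h2 : B ⊔ span {(l : 𝓞 T)} = ⊤ := by
    rw [eq_top_iff, ← h]
    exact sup_le_sup_left hle B
  rcases eq_or_ne B ⊥ with rfl | hB
  · rw [bot_sup_eq] at h2
    have h3 := absNorm_span_natCast (S := 𝓞 T) l
    rw [h2, absNorm_top] at h3
    have hd : 0 < Module.finrank ℤ (𝓞 T) := Module.finrank_pos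
    have := hl.one_lt
    have h4 : 1 < l ^ Module.finrank ℤ (𝓞 T) := Nat.one_lt_pow hd.ne' this
    omega
  · have : Finite (𝓞 T ⧸ B) := finiteQuotientOfFreeOfNeBot B hB
    have : Fintype (𝓞 T ⧸ B) := Fintype.ofFinite _
    have hcard : l ∣ Fintype.card (𝓞 T ⧸ B) := by
      rw [← Nat.card_eq_fintype_card, ← Submodule.cardQuot_apply, ← absNorm_apply]
      exact hlB
    apply not_isUnit_prime_of_dvd_card hcard
    have h1 : (1 : 𝓞 T) ∈ B ⊔ span {(l : 𝓞 T)} := by rw [h2]; trivial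
    obtain ⟨b, hb, z, hz, hbz⟩ := Submodule.mem_sup.mp h1
    obtain ⟨y, rfl⟩ := mem_span_singleton'.mp hz
    refine IsUnit.of_mul_eq_one (Ideal.Quotient.mk B y) ?_
    have h5 : Ideal.Quotient.mk B (b + y * (l : 𝓞 T)) = 1 := by rw [hbz, map_one]
    rw [map_add, Ideal.Quotient.eq_zero_iff_mem.mpr hb, zero_add, map_mul, map_natCast] at h5
    rw [mul_comm]
    exact h5

end MV

theorem moving : Stmt_Moving := by
  intro T _ _ r hr c
  obtain ⟨A, hA, hAc⟩ := capi_cls_surjective (K := T) c⁻¹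
  set M : Ideal (𝓞 T) := span {(r : 𝓞 T)} with hM
  have hM0 : M ≠ ⊥ := by
    rw [hM, Ne, span_singleton_eq_bot]
    exact_mod_cast hr
  obtain ⟨a, ha⟩ := IsDedekindDomain.exists_sup_span_eq (I := A * M) (J := A) Ideal.mul_le_left
    (mul_ne_zero hA hM0)
  have haA : span {a} ≤ A := by rw [← ha]; exact le_sup_right
  obtain ⟨B, hB⟩ := Ideal.dvd_iff_le.mpr haA
  have hcop : B ⊔ M = ⊤ := by
    have h1 : A * (M ⊔ B) = A * ⊤ := by
      rw [Ideal.mul_sup, ← hB, ha, Ideal.mul_top]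
    have h2 := mul_left_cancel₀ hA h1
    rw [sup_comm]; exact h2
  rcases eq_or_ne B ⊥ with rfl | hB0
  · -- then `M = ⊤` and any representative works
    obtain ⟨I, hI, hIc⟩ := capi_cls_surjective (K := T) c
    refine ⟨I, mv_coprime_absNorm ?_, hIc⟩
    rw [bot_sup_eq] at hcop
    rw [← hM, hcop, sup_top_eq]
  · refine ⟨B, mv_coprime_absNorm hcop, ?_⟩
    have h3 : cls (A * B) = 1 := by
      rw [capi_cls_eq_one_iff (mul_ne_zero hA hB0), ← hB]
      exact ⟨⟨a, rfl⟩⟩
    rw [capi_cls_mul hA hB0, hAc] at h3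
    exact (inv_mul_eq_one.mp h3).symm

end Fermat.Agent.S14
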