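/-
S14, package AN2c: the shift lemma for lattice sums of `G_s`.
-/
import Fermat.Agent.S14.Interface

set_option autoImplicit false

namespace Fermat.Agent.S14

open NumberField NumberField.mixedEmbedding Classical

section
variable (T : Type) [Field T] [NumberField T]

omit [NumberField T] in
theorem shift_mem (ξ : 𝓞 T) : mixedEmbedding T (ξ : T) ∈ mixedEmbedding.integerLattice T :=
  ⟨ξ, rfl⟩

theorem shift_rank :
    Module.finrank ℤ (mixedEmbedding.integerLattice T) = Module.finrank ℚ T := by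
  rw [ZLattice.rank ℝ, mixedEmbedding.finrank]

theorem shift_summable0 (r : ℝ) (hr : r < -(Module.finrank ℚ T : ℝ)) (x : mixedSpace T) :
    Summable (fun z : mixedEmbedding.integerLattice T => ‖(z : mixedSpace T) - x‖ ^ r) :=
  ZLattice.summable_norm_sub_rpow (mixedEmbedding.integerLattice T) r
    (by rw [shift_rank]; exact hr) x

/-- The map from an ideal to the integer lattice. -/
noncomputable def shiftMap (b : Ideal (𝓞 T)) (ξ : b) : mixedEmbedding.integerLattice T :=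
  ⟨mixedEmbedding T ((ξ : 𝓞 T) : T), shift_mem T ξ⟩

theorem shiftMap_injective (b : Ideal (𝓞 T)) : Function.Injective (shiftMap T b) := by
  intro ξ η hξη
  have h1 : mixedEmbedding T ((ξ : 𝓞 T) : T) = mixedEmbedding T ((η : 𝓞 T) : T) :=
    congrArg Subtype.val hξη
  exact Subtype.ext (RingOfIntegers.ext ((mixedEmbedding_injective T) h1))

theorem shift_summable (b : Ideal (𝓞 T)) (r : ℝ) (hr : r < -(Module.finrank ℚ T : ℝ))
    (x : mixedSpace T) :
    Summable (fun ξ : b => ‖mixedEmbedding T ((ξ : 𝓞 T) : T) - x‖ ^ r) := by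
  have h := (shift_summable0 T r hr x).comp_injective (shiftMap_injective T b)
  have e : ((fun z : mixedEmbedding.integerLattice T => ‖(z : mixedSpace T) - x‖ ^ r) ∘
      shiftMap T b) = fun ξ : b => ‖mixedEmbedding T ((ξ : 𝓞 T) : T) - x‖ ^ r := by
    funext ξ
    rfl
  rw [e] at h
  exact h

theorem shift_Gs_zero {s : ℝ} (hs : s ≠ 0) : Gs T s 0 = 0 := by
  rw [Gs, map_zero, Real.zero_rpow (neg_ne_zero.mpr hs), mul_zero]

end

/-- The majorant `φ(r) = r^(-n-1) + r^(-2n-1)`. -/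
noncomputable def shiftPhi (n : ℕ) (r : ℝ) : ℝ := r ^ (-(n : ℝ) - 1) + r ^ (-(2 * n : ℝ) - 1)

theorem shiftPhi_nonneg (n : ℕ) {r : ℝ} (hr : 0 ≤ r) : 0 ≤ shiftPhi n r := by
  unfold shiftPhi; positivity

theorem shift_rpow_le (n : ℕ) {r s : ℝ} (hr : 0 < r) (h1 : 1 ≤ s) (h2 : s ≤ 2) :
    r ^ (-(n * s) - 1) ≤ shiftPhi n r := by
  have hn : (0 : ℝ) ≤ n := Nat.cast_nonneg n
  unfold shiftPhi
  rcases le_total 1 r with h | h
  · have : r ^ (-(n * s) - 1) ≤ r ^ (-(n : ℝ) - 1) :=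
      Real.rpow_le_rpow_of_exponent_le h (by nlinarith)
    have h' : 0 ≤ r ^ (-(2 * n : ℝ) - 1) := by positivity
    linarith
  · have : r ^ (-(n * s) - 1) ≤ r ^ (-(2 * n : ℝ) - 1) :=
      Real.rpow_le_rpow_of_exponent_ge hr h (by nlinarith)
    have h' : 0 ≤ r ^ (-(n : ℝ) - 1) := by positivity
    linarith

section
variable {T : Type} [Field T] [NumberField T]

/-- Size bound in the form used below. -/
theorem shift_size {C s : ℝ} (h1 : 1 ≤ s) (h2 : s ≤ 2)
    (hC : ∀ x : mixedSpace T, x ≠ 0 → |Gs T s x| ≤ C * ‖x‖ ^ (-(Module.finrank ℚ T * s)))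
    (y : mixedSpace T) {M : ℝ} (hM : ‖y‖ ≤ M) :
    |Gs T s y| ≤ |C| * M * shiftPhi (Module.finrank ℚ T) ‖y‖ := by
  have hM0 : 0 ≤ M := (norm_nonneg y).trans hM
  rcases eq_or_ne y 0 with rfl | hy
  · rw [shift_Gs_zero T (by linarith), abs_zero]
    have := shiftPhi_nonneg (Module.finrank ℚ T) (norm_nonneg (0 : mixedSpace T))
    positivity
  · have hy' : 0 < ‖y‖ := norm_pos_iff.mpr hy
    have e1 : ‖y‖ ^ (-(Module.finrank ℚ T * s)) = ‖y‖ ^ (-(Module.finrank ℚ T * s) - 1) * ‖y‖ := by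
      rw [Real.rpow_sub_one hy'.ne']
      field_simp
    have e2 := shift_rpow_le (Module.finrank ℚ T) hy' h1 h2
    have e3 : 0 ≤ ‖y‖ ^ (-(Module.finrank ℚ T * s) - 1) := by positivity
    calc |Gs T s y| ≤ C * ‖y‖ ^ (-(Module.finrank ℚ T * s)) := hC y hy
      _ ≤ |C| * ‖y‖ ^ (-(Module.finrank ℚ T * s)) :=
          mul_le_mul_of_nonneg_right (le_abs_self C) (by positivity)
      _ = |C| * (‖y‖ ^ (-(Module.finrank ℚ T * s) - 1) * ‖y‖) := by rw [e1]
      _ ≤ |C| * (shiftPhi (Module.finrank ℚ T) ‖y‖ * M) := by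
          have := shiftPhi_nonneg (Module.finrank ℚ T) (norm_nonneg y)
          gcongr
      _ = |C| * M * shiftPhi (Module.finrank ℚ T) ‖y‖ := by ring

/-- The pointwise bound. -/
theorem shift_pointwise {C s : ℝ} (h1 : 1 ≤ s) (h2 : s ≤ 2)
    (hC : ∀ x : mixedSpace T, x ≠ 0 → |Gs T s x| ≤ C * ‖x‖ ^ (-(Module.finrank ℚ T * s)))
    (hL : ∀ x v : mixedSpace T, x ≠ 0 → 2 * ‖v‖ ≤ ‖x‖ →
      |Gs T s (x + v) - Gs T s x| ≤ C * ‖v‖ * ‖x‖ ^ (-(Module.finrank ℚ T * s) - 1))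
    (x w : mixedSpace T) :
    |Gs T s (x + w) - Gs T s x| ≤ 3 * |C| * ‖w‖ *
      (shiftPhi (Module.finrank ℚ T) ‖x‖ + shiftPhi (Module.finrank ℚ T) ‖x + w‖) := by
  have p1 := shiftPhi_nonneg (Module.finrank ℚ T) (norm_nonneg x)
  have p2 := shiftPhi_nonneg (Module.finrank ℚ T) (norm_nonneg (x + w))
  have hw := norm_nonneg w
  have hC0 := abs_nonneg C
  rcases le_or_gt (2 * ‖w‖) ‖x‖ with h | h
  · rcases eq_or_ne x 0 with rfl | hx
    · have hw0 : w = 0 := by
        rw [norm_zero] at h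
        exact norm_le_zero_iff.mp (by linarith)
      subst hw0
      simp
    · have hx' : 0 < ‖x‖ := norm_pos_iff.mpr hx
      have e2 := shift_rpow_le (Module.finrank ℚ T) hx' h1 h2
      calc |Gs T s (x + w) - Gs T s x|
          ≤ C * ‖w‖ * ‖x‖ ^ (-(Module.finrank ℚ T * s) - 1) := hL x w hx h
        _ ≤ |C| * ‖w‖ * ‖x‖ ^ (-(Module.finrank ℚ T * s) - 1) := by
            gcongr
            exact le_abs_self C
        _ ≤ |C| * ‖w‖ * shiftPhi (Module.finrank ℚ T) ‖x‖ := by gcongr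
        _ ≤ 3 * |C| * ‖w‖ * (shiftPhi (Module.finrank ℚ T) ‖x‖
              + shiftPhi (Module.finrank ℚ T) ‖x + w‖) := by
            have : 0 ≤ |C| * ‖w‖ := by positivity
            nlinarith [mul_nonneg this p1, mul_nonneg this p2]
  · have b1 := shift_size h1 h2 hC x (M := 3 * ‖w‖) (by linarith)
    have b2 := shift_size h1 h2 hC (x + w) (M := 3 * ‖w‖)
      ((norm_add_le x w).trans (by linarith))
    calc |Gs T s (x + w) - Gs T s x| ≤ |Gs T s (x + w)| + |Gs T s x| := abs_sub _ _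
      _ ≤ |C| * (3 * ‖w‖) * shiftPhi (Module.finrank ℚ T) ‖x + w‖
            + |C| * (3 * ‖w‖) * shiftPhi (Module.finrank ℚ T) ‖x‖ := add_le_add b2 b1
      _ = _ := by ring

theorem shift_summable_Phi (b : Ideal (𝓞 T)) (x : mixedSpace T) :
    Summable (fun ξ : b =>
      shiftPhi (Module.finrank ℚ T) ‖mixedEmbedding T ((ξ : 𝓞 T) : T) + x‖) := by
  have hn : (0 : ℝ) ≤ (Module.finrank ℚ T : ℝ) := Nat.cast_nonneg _
  have h1 := shift_summable T b (-(Module.finrank ℚ T : ℝ) - 1) (by linarith) (-x)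
  have h2 := shift_summable T b (-(2 * Module.finrank ℚ T : ℝ) - 1) (by linarith) (-x)
  simp only [sub_neg_eq_add] at h1 h2
  exact h1.add h2

theorem shift_summable_Gs {C s : ℝ} (h1 : 1 < s)
    (hC : ∀ x : mixedSpace T, x ≠ 0 → |Gs T s x| ≤ C * ‖x‖ ^ (-(Module.finrank ℚ T * s)))
    (b : Ideal (𝓞 T)) (x : mixedSpace T) :
    Summable (fun ξ : b => Gs T s (mixedEmbedding T ((ξ : 𝓞 T) : T) + x)) := by
  have hn : (0 : ℝ) < (Module.finrank ℚ T : ℝ) := by exact_mod_cast Module.finrank_pos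
  have h := shift_summable T b (-(Module.finrank ℚ T * s)) (by nlinarith) (-x)
  simp only [sub_neg_eq_add] at h
  refine Summable.of_norm_bounded (h.mul_left |C|) fun ξ => ?_
  rw [Real.norm_eq_abs]
  rcases eq_or_ne (mixedEmbedding T ((ξ : 𝓞 T) : T) + x) 0 with h0 | h0
  · rw [h0, shift_Gs_zero T (by linarith), abs_zero]
    positivity
  · exact (hC _ h0).trans (mul_le_mul_of_nonneg_right (le_abs_self C) (by positivity))

end

theorem shift (h : Stmt_GsBound) : Stmt_Shift := by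
  intro T _ _ b _ v
  obtain ⟨C, hC⟩ := h T
  set w : mixedSpace T := mixedEmbedding T (v : T) with hw
  have hS0 := shift_summable_Phi b (0 : mixedSpace T)
  have hSw := shift_summable_Phi b w
  simp only [add_zero] at hS0
  refine ⟨∑' ξ : b, 3 * |C| * ‖w‖ *
      (shiftPhi (Module.finrank ℚ T) ‖mixedEmbedding T ((ξ : 𝓞 T) : T)‖
        + shiftPhi (Module.finrank ℚ T) ‖mixedEmbedding T ((ξ : 𝓞 T) : T) + w‖), ?_⟩
  intro s h1 h2
  obtain ⟨hC1, hC2⟩ := hC s h1.le h2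
  have e : ∀ ξ : b, mixedEmbedding T ((v + ξ : 𝓞 T) : T)
      = mixedEmbedding T ((ξ : 𝓞 T) : T) + w := by
    intro ξ
    rw [hw, ← map_add, add_comm]
    simp
  simp only [e]
  have sa := shift_summable_Gs h1 hC1 b w
  have sc := shift_summable_Gs h1 hC1 b (0 : mixedSpace T)
  simp only [add_zero] at sc
  refine ⟨sa, ?_⟩
  rw [← sa.tsum_sub sc, ← Real.norm_eq_abs]
  refine tsum_of_norm_bounded ((hS0.add hSw).mul_left (3 * |C| * ‖w‖)).hasSum fun ξ => ?_
  rw [Real.norm_eq_abs]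
  exact shift_pointwise h1.le h2 hC1 hC2 _ w

end Fermat.Agent.S14
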