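import Fermat.Agent.S14.Interface

set_option autoImplicit false

namespace Fermat.Agent.S14

open NumberField NumberField.mixedEmbedding NumberField.Units

/-! ### The tent identity -/

/-- The tent function. -/
noncomputable def unfTent (c : ℝ) : ℝ := max 0 (1 - |c|)

theorem unfTent_nonneg (c : ℝ) : 0 ≤ unfTent c := le_max_left _ _

/-- The two integers `k` at which `unfTent (c + k)` may be nonzero. -/
noncomputable def unfSupp (c : ℝ) : Finset ℤ := {-⌊c⌋, -⌊c⌋ - 1}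

theorem unfTent_eq_zero_of_notMem (c : ℝ) (k : ℤ) (hk : k ∉ unfSupp c) : unfTent (c + k) = 0 := by
  simp only [unfSupp, Finset.mem_insert, Finset.mem_singleton, not_or] at hk
  obtain ⟨h1, h2⟩ := hk
  have hfl := Int.floor_le c
  have hlt := Int.lt_floor_add_one c
  unfold unfTent
  apply max_eq_left
  rcases lt_or_gt_of_ne h1 with h | h
  · have h3 : k ≤ -⌊c⌋ - 2 := by
      have : k ≠ -⌊c⌋ - 1 := h2
      omega
    have h4 : (k : ℝ) ≤ -(⌊c⌋ : ℝ) - 2 := by exact_mod_cast h3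
    have : c + k ≤ -1 := by linarith
    rw [abs_of_nonpos (by linarith)]
    linarith
  · have h3 : -⌊c⌋ + 1 ≤ k := by omega
    have h4 : -(⌊c⌋ : ℝ) + 1 ≤ (k : ℝ) := by exact_mod_cast h3
    have : 1 ≤ c + k := by linarith
    rw [abs_of_nonneg (by linarith)]
    linarith

theorem sum_unfTent (c : ℝ) : ∑ k ∈ unfSupp c, unfTent (c + k) = 1 := by
  have hfl := Int.floor_le c
  have hlt := Int.lt_floor_add_one c
  unfold unfSupp
  rw [Finset.sum_pair (by omega)]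
  unfold unfTent
  push_cast
  rw [abs_of_nonneg (by linarith : (0 : ℝ) ≤ c + -(⌊c⌋ : ℝ)),
    abs_of_nonpos (by linarith : c + (-(⌊c⌋ : ℝ) - 1) ≤ 0),
    max_eq_right (by linarith), max_eq_right (by linarith)]
  ring

/-- The multi-dimensional tent identity. -/
theorem hasSum_prod_unfTent {ι : Type*} [Fintype ι] (c : ι → ℝ) :
    HasSum (fun e : ι → ℤ => ∏ i, unfTent (c i + e i)) 1 := by
  classical
  have h1 : ∑ e ∈ Fintype.piFinset (fun i => unfSupp (c i)), ∏ i, unfTent (c i + e i) = 1 := by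
    have h2 := Finset.prod_univ_sum (fun i => unfSupp (c i)) (fun i (k : ℤ) => unfTent (c i + k))
    rw [← h2]
    simp [sum_unfTent]
  rw [← h1]
  apply hasSum_sum_of_ne_finset_zero
  intro e he
  rw [Fintype.mem_piFinset] at he
  push Not at he
  obtain ⟨i, hi⟩ := he
  exact Finset.prod_eq_zero (Finset.mem_univ i) (unfTent_eq_zero_of_notMem _ _ hi)

/-- Variant with an extra finite factor. -/
theorem hasSum_prod_unfTent' {α ι : Type*} [Fintype α] [Fintype ι] (c : ι → ℝ) :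
    HasSum (fun p : α × (ι → ℤ) => ∏ i, unfTent (c i + p.2 i)) (Fintype.card α : ℝ) := by
  classical
  have h1 : ∑ e ∈ Fintype.piFinset (fun i => unfSupp (c i)), ∏ i, unfTent (c i + e i) = 1 := by
    have h2 := Finset.prod_univ_sum (fun i => unfSupp (c i)) (fun i (k : ℤ) => unfTent (c i + k))
    rw [← h2]
    simp [sum_unfTent]
  have h3 : ∑ p ∈ (Finset.univ : Finset α) ×ˢ Fintype.piFinset (fun i => unfSupp (c i)),
      ∏ i, unfTent (c i + p.2 i) = (Fintype.card α : ℝ) := by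
    rw [Finset.sum_product]
    simp only [h1, Finset.sum_const, Finset.card_univ, nsmul_eq_mul, mul_one]
  rw [← h3]
  apply hasSum_sum_of_ne_finset_zero
  intro p hp
  rw [Finset.mem_product, Fintype.mem_piFinset] at hp
  push Not at hp
  obtain ⟨i, hi⟩ := hp (Finset.mem_univ _)
  exact Finset.prod_eq_zero (Finset.mem_univ i) (unfTent_eq_zero_of_notMem _ _ hi)

/-! ### Summing `hatW` over a unit orbit -/

section Units

variable (T : Type) [Field T] [NumberField T]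

/-- The parametrisation of the units by `torsion × ℤ^r`. -/
noncomputable def unfPsi : torsion T × (Fin (rank T) → ℤ) ≃ (𝓞 T)ˣ :=
  Equiv.ofBijective (fun ζe => ζe.1 * ∏ i, (fundSystem T i) ^ (ζe.2 i)) (by
    constructor
    · intro a b hab
      obtain ⟨c, -, hc⟩ := exist_unique_eq_mul_prod T ((a.1 : (𝓞 T)ˣ) * ∏ i, (fundSystem T i) ^ (a.2 i))
      rw [hc a rfl, hc b hab]
    · intro u
      obtain ⟨c, hc, -⟩ := exist_unique_eq_mul_prod T u
      exact ⟨c, hc.symm⟩)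

theorem unfPsi_apply (ζe : torsion T × (Fin (rank T) → ℤ)) :
    unfPsi T ζe = ζe.1 * ∏ i, (fundSystem T i) ^ (ζe.2 i) := rfl

open Classical in
theorem unf_logEmbedding_unfPsi (ζe : torsion T × (Fin (rank T) → ℤ)) :
    logEmbedding T (Additive.ofMul (unfPsi T ζe)) =
      ∑ i, (ζe.2 i : ℝ) • ((basisUnitLattice T).ofZLatticeBasis ℝ (unitLattice T) i) := by
  have h0 : logEmbedding T (Additive.ofMul (ζe.1 : (𝓞 T)ˣ)) = 0 := by
    rw [dirichletUnitTheorem.logEmbedding_eq_zero_iff]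
    exact ζe.1.2
  rw [unfPsi_apply, ofMul_mul, map_add, h0, zero_add, ofMul_prod, map_sum]
  refine Finset.sum_congr rfl fun i _ => ?_
  rw [ofMul_zpow, map_zsmul, logEmbedding_fundSystem, Module.Basis.ofZLatticeBasis_apply,
    Int.cast_smul_eq_zsmul]

open Classical in
theorem unf_hatW_unfPsi_smul (x : mixedSpace T) (hx : mixedEmbedding.norm x ≠ 0)
    (ζe : torsion T × (Fin (rank T) → ℤ)) :
    hatW T (unfPsi T ζe • x) = ∏ i, unfTent
      (((basisUnitLattice T).ofZLatticeBasis ℝ (unitLattice T)).repr (logMap x) i + ζe.2 i) := by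
  unfold hatW unfTent
  refine Finset.prod_congr rfl fun i _ => ?_
  rw [logMap_unit_smul _ hx, unf_logEmbedding_unfPsi, map_add, Finsupp.add_apply,
    Module.Basis.repr_sum_self, add_comm]

theorem unf_hasSum_hatW_unit_smul (x : mixedSpace T) (hx : mixedEmbedding.norm x ≠ 0) :
    HasSum (fun u : (𝓞 T)ˣ => hatW T (u • x)) (torsionOrder T : ℝ) := by
  classical
  rw [← (unfPsi T).hasSum_iff]
  have h1 : ((fun u : (𝓞 T)ˣ => hatW T (u • x)) ∘ unfPsi T) = fun p => ∏ i, unfTent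
      (((basisUnitLattice T).ofZLatticeBasis ℝ (unitLattice T)).repr (logMap x) i + p.2 i) := by
    funext p
    exact unf_hatW_unfPsi_smul T x hx p
  rw [h1]
  let _ : Fintype (torsion T) := Fintype.ofFinite _
  have h2 : (torsionOrder T : ℝ) = (Fintype.card (torsion T) : ℝ) := by
    rw [torsionOrder, Nat.card_eq_fintype_card]
  rw [h2]
  exact hasSum_prod_unfTent' _

theorem unf_hatW_nonneg (x : mixedSpace T) : 0 ≤ hatW T x :=
  Finset.prod_nonneg fun _ _ => le_max_left _ _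

end Units

/-! ### Ideal classes -/

section Ideals

variable {T : Type} [Field T] [NumberField T]

theorem unf_cls_of_ne_bot {I : Ideal (𝓞 T)} (hI : I ≠ ⊥) :
    cls I = ClassGroup.mk0 ⟨I, mem_nonZeroDivisors_of_ne_zero hI⟩ := by
  unfold cls
  rw [dif_pos (mem_nonZeroDivisors_of_ne_zero hI)]

theorem unf_cls_mul {I J : Ideal (𝓞 T)} (hI : I ≠ ⊥) (hJ : J ≠ ⊥) :
    cls (I * J) = cls I * cls J := by
  rw [unf_cls_of_ne_bot hI, unf_cls_of_ne_bot hJ, unf_cls_of_ne_bot (mul_ne_zero hI hJ), ← map_mul]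
  rfl

theorem unf_cls_eq_one_iff {I : Ideal (𝓞 T)} (hI : I ≠ ⊥) : cls I = 1 ↔ I.IsPrincipal := by
  rw [unf_cls_of_ne_bot hI, ClassGroup.mk0_eq_one_iff]

theorem unf_exists_gen {a b : Ideal (𝓞 T)} (ha : a ≠ ⊥) (hb : b ≠ ⊥) (hab : cls a = (cls b)⁻¹) :
    ∃ ξ : 𝓞 T, ξ ≠ 0 ∧ Ideal.span {ξ} = a * b := by
  have h1 : cls (a * b) = 1 := by rw [unf_cls_mul ha hb, hab, inv_mul_cancel]
  rw [unf_cls_eq_one_iff (mul_ne_zero ha hb)] at h1
  obtain ⟨ξ, hξ⟩ := h1.principal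
  refine ⟨ξ, ?_, hξ.symm⟩
  rintro rfl
  apply mul_ne_zero ha hb
  rw [hξ]
  simp

theorem unf_exists_ideal {b : Ideal (𝓞 T)} (hb : b ≠ ⊥) {ξ : 𝓞 T} (hξ : ξ ∈ b) (hξ0 : ξ ≠ 0) :
    ∃ a : Ideal (𝓞 T), a ≠ ⊥ ∧ cls a = (cls b)⁻¹ ∧ Ideal.span {ξ} = a * b := by
  have h1 : b ∣ Ideal.span {ξ} := by
    rw [Ideal.dvd_iff_le, Ideal.span_singleton_le_iff_mem]
    exact hξ
  obtain ⟨a, ha⟩ := h1
  have hspan : Ideal.span {ξ} ≠ ⊥ := by
    rw [Ne, Ideal.span_singleton_eq_bot]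
    exact hξ0
  have ha0 : a ≠ ⊥ := by
    rintro rfl
    apply hspan
    rw [ha]
    simp
  refine ⟨a, ha0, ?_, by rw [ha, mul_comm]⟩
  have h2 : cls (a * b) = 1 := by
    rw [unf_cls_eq_one_iff (mul_ne_zero ha0 hb), mul_comm, ← ha]
    exact ⟨ξ, rfl⟩
  rw [unf_cls_mul ha0 hb] at h2
  exact eq_inv_of_mul_eq_one_left h2

theorem unf_norm_mixedEmbedding (ξ : 𝓞 T) :
    mixedEmbedding.norm (mixedEmbedding T (ξ : T)) = (Ideal.absNorm (Ideal.span {ξ}) : ℝ) := by
  rw [Ideal.absNorm_span_singleton, norm_eq_norm, Nat.cast_natAbs, ← Rat.cast_intCast,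
    Int.cast_abs, Algebra.coe_norm_int]

end Ideals

/-! ### The unfolding -/

theorem unfold (hZ : Stmt_ZetaPole) : Stmt_Unfold := by
  intro T _ _ b hb s hs
  classical
  have hgen : ∀ a : {I : Ideal (𝓞 T) // I ≠ ⊥ ∧ cls I = (cls b)⁻¹},
      ∃ ξ : 𝓞 T, ξ ≠ 0 ∧ Ideal.span {ξ} = a.1 * b := fun a => unf_exists_gen a.2.1 hb a.2.2
  choose g hg0 hg using hgen
  have hgb : ∀ (a : {I : Ideal (𝓞 T) // I ≠ ⊥ ∧ cls I = (cls b)⁻¹}) (u : (𝓞 T)ˣ),
      (u : 𝓞 T) * g a ∈ b := by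
    intro a u
    apply b.mul_mem_left
    have h1 : g a ∈ Ideal.span {g a} := Ideal.mem_span_singleton_self _
    rw [hg a] at h1
    have h2 : a.1 * b ≤ b := Ideal.mul_le_right
    exact h2 h1
  let Φ : {I : Ideal (𝓞 T) // I ≠ ⊥ ∧ cls I = (cls b)⁻¹} × (𝓞 T)ˣ → b :=
    fun p => ⟨(p.2 : 𝓞 T) * g p.1, hgb p.1 p.2⟩
  have hΦinj : Function.Injective Φ := by
    rintro ⟨a, u⟩ ⟨a', u'⟩ h
    have h1 : (u : 𝓞 T) * g a = (u' : 𝓞 T) * g a' := congrArg Subtype.val h
    have h2 : Ideal.span {g a} = Ideal.span {g a'} := by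
      rw [Ideal.span_singleton_eq_span_singleton]
      refine ⟨u'⁻¹ * u, ?_⟩
      rw [Units.val_mul, mul_comm, mul_assoc, h1, ← mul_assoc, Units.inv_mul, one_mul]
    have h3 : a = a' := by
      apply Subtype.ext
      rw [hg, hg] at h2
      exact mul_right_cancel₀ hb h2
    subst h3
    have h4 : u = u' := Units.ext (mul_right_cancel₀ (hg0 a) h1)
    rw [h4]
  let G : b → ℝ := fun ξ => Gs T s (mixedEmbedding T (ξ : 𝓞 T))
  have hsupp : Function.support G ⊆ Set.range Φ := by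
    intro ξ hξ
    have hξ0 : (ξ : 𝓞 T) ≠ 0 := by
      intro h0
      apply hξ
      simp only [G, h0, Gs]
      have h00 : ((0 : 𝓞 T) : T) = 0 := map_zero (algebraMap (𝓞 T) T)
      rw [h00, map_zero, map_zero, Real.zero_rpow (by linarith), mul_zero]
    obtain ⟨a, ha0, hacl, haspan⟩ := unf_exists_ideal hb ξ.2 hξ0
    have h1 : Ideal.span {(ξ : 𝓞 T)} = Ideal.span {g ⟨a, ha0, hacl⟩} := by rw [haspan, hg]
    rw [Ideal.span_singleton_eq_span_singleton] at h1
    obtain ⟨u, hu⟩ := h1.symm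
    exact ⟨(⟨a, ha0, hacl⟩, u), Subtype.ext (by simp only [Φ]; rw [← hu, mul_comm])⟩
  -- the value on an orbit
  have hval : ∀ p, G (Φ p) = hatW T (p.2 • mixedEmbedding T (g p.1 : T)) *
      (((Ideal.absNorm p.1.1 : ℕ) : ℝ) ^ (-s) * ((Ideal.absNorm b : ℕ) : ℝ) ^ (-s)) := by
    rintro ⟨a, u⟩
    have h1 : mixedEmbedding T (((u : 𝓞 T) * g a : 𝓞 T) : T) = u • mixedEmbedding T (g a : T) :=
      (unit_smul_eq_iff_mul_eq.mpr rfl).symm
    simp only [G, Φ, Gs]
    rw [h1, norm_unit_smul, unf_norm_mixedEmbedding, hg, map_mul, Nat.cast_mul,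
      Real.mul_rpow (Nat.cast_nonneg _) (Nat.cast_nonneg _)]
  have hnorm : ∀ a, mixedEmbedding.norm (mixedEmbedding T (g a : T)) ≠ 0 := by
    intro a
    rw [norm_eq_norm]
    simp only [ne_eq, Rat.cast_eq_zero, abs_eq_zero, Algebra.norm_eq_zero_iff]
    exact_mod_cast hg0 a
  have horbit : ∀ a, HasSum (fun u => G (Φ (a, u))) ((torsionOrder T : ℝ) *
      (((Ideal.absNorm a.1 : ℕ) : ℝ) ^ (-s) * ((Ideal.absNorm b : ℕ) : ℝ) ^ (-s))) := by
    intro a
    simp only [hval]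
    exact (unf_hasSum_hatW_unit_smul T _ (hnorm a)).mul_right _
  have hnonneg : 0 ≤ G ∘ Φ := by
    intro p
    simp only [Function.comp_apply, Pi.zero_apply, hval]
    have := unf_hatW_nonneg T (p.2 • mixedEmbedding T (g p.1 : T))
    positivity
  have hsumA : Summable (fun a : {I : Ideal (𝓞 T) // I ≠ ⊥ ∧ cls I = (cls b)⁻¹} =>
      ((Ideal.absNorm a.1 : ℕ) : ℝ) ^ (-s)) := by
    have h1 := (hZ T).1 s hs
    let i : {I : Ideal (𝓞 T) // I ≠ ⊥ ∧ cls I = (cls b)⁻¹} → {I : Ideal (𝓞 T) // I ≠ ⊥} :=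
      fun a => ⟨a.1, a.2.1⟩
    have hi : Function.Injective i := by
      intro a a' h
      have h2 : (i a).1 = (i a').1 := congrArg Subtype.val h
      exact Subtype.ext h2
    have h3 := h1.comp_injective hi
    exact h3
  have hsumΦ : Summable (G ∘ Φ) := by
    rw [summable_prod_of_nonneg hnonneg]
    refine ⟨fun a => (horbit a).summable, ?_⟩
    have h1 : (fun a => ∑' u, (G ∘ Φ) (a, u)) = fun a => (torsionOrder T : ℝ) *
      (((Ideal.absNorm a.1 : ℕ) : ℝ) ^ (-s) * ((Ideal.absNorm b : ℕ) : ℝ) ^ (-s)) := by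
      funext a
      exact (horbit a).tsum_eq
    rw [h1]
    exact (hsumA.mul_right _).mul_left _
  refine ⟨(hΦinj.summable_iff (fun x hx => ?_)).mp hsumΦ, ?_⟩
  · by_contra h
    exact hx (hsupp h)
  · have h1 : ∑' ξ : b, G ξ = ∑' p, (G ∘ Φ) p := (hΦinj.tsum_eq hsupp).symm
    change ∑' ξ : b, G ξ = _
    rw [h1, hsumΦ.tsum_prod]
    have h2 : ∀ a, ∑' u, (G ∘ Φ) (a, u) = (torsionOrder T : ℝ) *
      (((Ideal.absNorm a.1 : ℕ) : ℝ) ^ (-s) * ((Ideal.absNorm b : ℕ) : ℝ) ^ (-s)) :=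
      fun a => (horbit a).tsum_eq
    simp only [h2]
    rw [tsum_mul_left, tsum_mul_right, zetaC]
    ring

end Fermat.Agent.S14
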