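import Fermat.Agent.S14.Interface

/-!
# S14 / AN2d : differences of partial zeta functions are bounded near `s = 1`
-/

set_option autoImplicit false

namespace Fermat.Agent.S14

open NumberField

section Cosets

variable {G : Type*} [AddCommGroup G]

/-- `B ≃ (B/A) × A` through a system of representatives. -/
noncomputable def zcdEquiv (A B : AddSubgroup G) (hAB : A ≤ B) :
    (B ⧸ A.addSubgroupOf B) × A ≃ B where
  toFun z := (Quotient.out z.1 : B) + ⟨z.2, hAB z.2.2⟩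
  invFun x := (QuotientAddGroup.mk x,
    ⟨((-(Quotient.out (QuotientAddGroup.mk x : B ⧸ A.addSubgroupOf B) : B) + x : B) : G), by
      have h : (QuotientAddGroup.mk (Quotient.out (QuotientAddGroup.mk x : B ⧸ A.addSubgroupOf B)) :
          B ⧸ A.addSubgroupOf B) = QuotientAddGroup.mk x := QuotientAddGroup.out_eq' _
      exact AddSubgroup.mem_addSubgroupOf.mp (QuotientAddGroup.eq.mp h)⟩)
  left_inv := by
    rintro ⟨q, y⟩
    have h1 : (QuotientAddGroup.mk ((Quotient.out q : B) + ⟨y, hAB y.2⟩) :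
        B ⧸ A.addSubgroupOf B) = q := by
      rw [← QuotientAddGroup.out_eq' q]
      refine (QuotientAddGroup.eq.mpr ?_).symm
      rw [QuotientAddGroup.out_eq' q, neg_add_cancel_left]
      exact AddSubgroup.mem_addSubgroupOf.mpr y.2
    refine Prod.ext h1 ?_
    apply Subtype.ext
    simp only
    rw [h1]
    simp
  right_inv := by
    intro x
    apply Subtype.ext
    simp

theorem zcd_tsum_cosets (A B : AddSubgroup G) (hAB : A ≤ B)
    [Fintype (B ⧸ A.addSubgroupOf B)] (f : G → ℝ) (hf : Summable (fun x : B => f x)) :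
    ∑' x : B, f x =
      ∑ q : B ⧸ A.addSubgroupOf B, ∑' y : A, f (((Quotient.out q : B) : G) + y) := by
  have h1 : Summable (fun z : (B ⧸ A.addSubgroupOf B) × A => f ((zcdEquiv A B hAB z : B) : G)) :=
    hf.comp_injective (zcdEquiv A B hAB).injective
  have h2 : ∑' x : B, f x =
      ∑' z : (B ⧸ A.addSubgroupOf B) × A, f ((zcdEquiv A B hAB z : B) : G) :=
    ((zcdEquiv A B hAB).tsum_eq (fun x : B => f x)).symm
  rw [h2, h1.tsum_prod, tsum_fintype]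
  rfl

end Cosets

theorem zcd_tsum_and_le {α : Type*} (g : α → ℝ) (hg : ∀ x, 0 ≤ g x) (p q : α → Prop)
    (hsum : Summable (fun x : {x // p x} => g x.1)) :
    ∑' x : {x // p x ∧ q x}, g x.1 ≤ ∑' x : {x // p x}, g x.1 := by
  have he : Function.Injective (fun x : {x // p x ∧ q x} => (⟨x.1, x.2.1⟩ : {x // p x})) := by
    rintro ⟨I, hI⟩ ⟨J, hJ⟩ h
    simp only [Subtype.mk.injEq] at h
    subst h
    rfl
  have hsum' : Summable (fun x : {x // p x ∧ q x} => g x.1) := hsum.comp_injective he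
  exact hsum'.tsum_le_tsum_of_inj _ he (fun _ _ => hg _) (fun _ => le_rfl) hsum

section NF

variable {T : Type} [Field T] [NumberField T]

theorem zcd_cls_of_ne_bot {I : Ideal (𝓞 T)} (h : I ≠ ⊥) :
    cls I = ClassGroup.mk0 ⟨I, mem_nonZeroDivisors_iff_ne_zero.mpr h⟩ := by
  unfold cls
  rw [dif_pos]

theorem zcd_cls_surj (C : ClassGroup (𝓞 T)) : ∃ I : Ideal (𝓞 T), I ≠ ⊥ ∧ cls I = C := by
  obtain ⟨⟨I, hI⟩, rfl⟩ := ClassGroup.mk0_surjective C
  exact ⟨I, mem_nonZeroDivisors_iff_ne_zero.mp hI,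
    zcd_cls_of_ne_bot (mem_nonZeroDivisors_iff_ne_zero.mp hI)⟩

theorem zcd_cls_mul {I J : Ideal (𝓞 T)} (hI : I ≠ ⊥) (hJ : J ≠ ⊥) :
    cls (I * J) = cls I * cls J := by
  rw [zcd_cls_of_ne_bot hI, zcd_cls_of_ne_bot hJ, zcd_cls_of_ne_bot (mul_ne_zero hI hJ), ← map_mul]
  rfl

theorem zcd_one_le_absNorm {I : Ideal (𝓞 T)} (h : I ≠ ⊥) : (1 : ℝ) ≤ (Ideal.absNorm I : ℕ) := by
  have h1 : Ideal.absNorm I ≠ 0 := fun h0 => h (Ideal.absNorm_eq_zero_iff.mp h0)
  exact_mod_cast Nat.one_le_iff_ne_zero.mpr h1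

theorem zcd_zetaC_nonneg (C : ClassGroup (𝓞 T)) (s : ℝ) : 0 ≤ zetaC C s :=
  tsum_nonneg fun _ => Real.rpow_nonneg (Nat.cast_nonneg _) _

theorem zcd_zetaI_nonneg (s : ℝ) : 0 ≤ zetaI T s :=
  tsum_nonneg fun _ => Real.rpow_nonneg (Nat.cast_nonneg _) _

theorem zcd_zetaC_le {s : ℝ}
    (hsum : Summable (fun I : {I : Ideal (𝓞 T) // I ≠ ⊥} => ((Ideal.absNorm I.1 : ℕ) : ℝ) ^ (-s)))
    (C : ClassGroup (𝓞 T)) : zetaC C s ≤ zetaI T s :=
  zcd_tsum_and_le (fun I : Ideal (𝓞 T) => ((Ideal.absNorm I : ℕ) : ℝ) ^ (-s))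
    (fun _ => Real.rpow_nonneg (Nat.cast_nonneg _) _) (fun I => I ≠ ⊥) (fun I => cls I = C) hsum

theorem zcd_zetaI_bound (hZ : Stmt_ZetaPole) (T : Type) [Field T] [NumberField T] :
    ∃ M : ℝ, 0 ≤ M ∧ ∀ s : ℝ, 1 < s → s ≤ 2 → (s - 1) * zetaI T s ≤ M := by
  obtain ⟨hsum, κ, hκ, hlim⟩ := hZ T
  have h1 : ∀ᶠ s in nhdsWithin (1 : ℝ) (Set.Ioi 1), (s - 1) * zetaI T s < κ + 1 :=
    hlim.eventually (gt_mem_nhds (by linarith))
  obtain ⟨u, hu, hsub⟩ := mem_nhdsGT_iff_exists_Ioo_subset.mp h1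
  have hu1 : (1 : ℝ) < u := hu
  refine ⟨max (κ + 1) (zetaI T u), le_max_of_le_left (by linarith), fun s hs1 hs2 => ?_⟩
  by_cases hsu : s < u
  · exact le_max_of_le_left (hsub ⟨hs1, hsu⟩).le
  · push Not at hsu
    refine le_max_of_le_right ?_
    have h2 : zetaI T s ≤ zetaI T u := by
      unfold zetaI
      refine (hsum s hs1).tsum_le_tsum (fun I => ?_) (hsum u hu1)
      exact Real.rpow_le_rpow_of_exponent_le (zcd_one_le_absNorm I.2) (by linarith)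
    have h3 := zcd_zetaI_nonneg (T := T) s
    nlinarith

theorem zcd_card_quot (b c : Ideal (𝓞 T)) (hb : b ≠ ⊥) :
    Nat.card (b.toAddSubgroup ⧸ (b * c).toAddSubgroup.addSubgroupOf b.toAddSubgroup) =
      Ideal.absNorm c := by
  have hle : (b * c).toAddSubgroup ≤ b.toAddSubgroup :=
    Submodule.toAddSubgroup_mono Ideal.mul_le_left
  have h := AddSubgroup.relIndex_mul_index hle
  have h1 : (b * c).toAddSubgroup.index = Ideal.absNorm (b * c) := rfl
  have h2 : b.toAddSubgroup.index = Ideal.absNorm b := rfl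
  rw [h1, h2, map_mul, mul_comm] at h
  have h3 : Ideal.absNorm b ≠ 0 := fun h0 => hb (Ideal.absNorm_eq_zero_iff.mp h0)
  exact Nat.eq_of_mul_eq_mul_left (Nat.pos_of_ne_zero h3) h

/-- The purely real-analytic end of the argument. -/
theorem zcd_final {w Nb Nc s x y S M Z : ℝ} (hw : 1 ≤ w) (hNb : 1 ≤ Nb) (hNc : 1 ≤ Nc)
    (hs1 : 1 < s) (hs2 : s ≤ 2) (hy0 : 0 ≤ y) (hyZ : y ≤ Z) (hZM : (s - 1) * Z ≤ M)
    (h : |w * Nb ^ (-s) * x - Nc * (w * (Nb * Nc) ^ (-s) * y)| ≤ S) :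
    |x - y| ≤ S * Nb ^ (2 : ℝ) + Real.log Nc * M := by
  have hNb0 : 0 < Nb := by linarith
  have hNc0 : 0 < Nc := by linarith
  set t := Nb ^ (-s) with ht
  set u := Nc ^ (1 - s) with hu
  have ht0 : 0 < t := Real.rpow_pos_of_pos hNb0 _
  have hu1 : Nc * Nc ^ (-s) = u := by
    rw [hu, sub_eq_add_neg, Real.rpow_add hNc0, Real.rpow_one]
  have h1 : w * t * x - Nc * (w * (Nb * Nc) ^ (-s) * y) = w * t * (x - u * y) := by
    rw [Real.mul_rpow hNb0.le hNc0.le, ← hu1, ← ht]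
    ring
  rw [h1, abs_mul, abs_of_pos (by positivity : 0 < w * t)] at h
  have ht2 : (Nb ^ (2 : ℝ))⁻¹ ≤ w * t := by
    rw [← Real.rpow_neg hNb0.le]
    have h2 : Nb ^ (-(2 : ℝ)) ≤ t := Real.rpow_le_rpow_of_exponent_le hNb (by linarith)
    nlinarith
  have hN2 : 0 < Nb ^ (2 : ℝ) := Real.rpow_pos_of_pos hNb0 _
  have h3 : |x - u * y| ≤ S * Nb ^ (2 : ℝ) := by
    have h4 : (Nb ^ (2 : ℝ))⁻¹ * |x - u * y| ≤ S :=
      (mul_le_mul_of_nonneg_right ht2 (abs_nonneg _)).trans h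
    rw [inv_mul_le_iff₀ hN2] at h4
    linarith
  have hu_le : u ≤ 1 := Real.rpow_le_one_of_one_le_of_nonpos hNc (by linarith)
  have hu_ge : 1 - u ≤ (s - 1) * Real.log Nc := by
    have h5 : Real.log Nc * (1 - s) + 1 ≤ u := by
      rw [hu, Real.rpow_def_of_pos hNc0]
      exact Real.add_one_le_exp _
    linarith
  have hlog : 0 ≤ Real.log Nc := Real.log_nonneg hNc
  have h6 : |u * y - y| ≤ Real.log Nc * M := by
    have h7 : u * y - y = -((1 - u) * y) := by ring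
    rw [h7, abs_neg, abs_of_nonneg (mul_nonneg (by linarith) hy0)]
    calc (1 - u) * y ≤ ((s - 1) * Real.log Nc) * Z :=
          mul_le_mul hu_ge hyZ hy0 (mul_nonneg (by linarith) hlog)
      _ = Real.log Nc * ((s - 1) * Z) := by ring
      _ ≤ Real.log Nc * M := mul_le_mul_of_nonneg_left hZM hlog
  calc |x - y| = |(x - u * y) + (u * y - y)| := by ring_nf
    _ ≤ |x - u * y| + |u * y - y| := abs_add_le _ _
    _ ≤ _ := add_le_add h3 h6

end NF

open NumberField.mixedEmbedding in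
theorem zetaCDiff (hZ : Stmt_ZetaPole) (hU : Stmt_Unfold) (hS : Stmt_Shift) : Stmt_ZetaCDiff := by
  intro T _ _ C C'
  obtain ⟨b, hb0, hbC⟩ := zcd_cls_surj C⁻¹
  obtain ⟨c, hc0, hcC⟩ := zcd_cls_surj (C * C'⁻¹)
  have hbc0 : b * c ≠ ⊥ := mul_ne_zero hb0 hc0
  have hbcC : cls (b * c) = C'⁻¹ := by
    rw [zcd_cls_mul hb0 hc0, hbC, hcC]
    group
  obtain ⟨M, hM0, hM⟩ := zcd_zetaI_bound hZ T
  have hAB : (b * c).toAddSubgroup ≤ b.toAddSubgroup :=
    Submodule.toAddSubgroup_mono Ideal.mul_le_left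
  have hcard := zcd_card_quot b c hb0
  have hc1 : Ideal.absNorm c ≠ 0 := fun h0 => hc0 (Ideal.absNorm_eq_zero_iff.mp h0)
  have hfin : Finite (b.toAddSubgroup ⧸ (b * c).toAddSubgroup.addSubgroupOf b.toAddSubgroup) :=
    Nat.finite_of_card_ne_zero (by rw [hcard]; exact hc1)
  let _ : Fintype (b.toAddSubgroup ⧸ (b * c).toAddSubgroup.addSubgroupOf b.toAddSubgroup) :=
    Fintype.ofFinite _
  choose Bd hBd using fun q : b.toAddSubgroup ⧸ (b * c).toAddSubgroup.addSubgroupOf b.toAddSubgroup =>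
    hS T (b * c) hbc0 ((Quotient.out q : b.toAddSubgroup) : 𝓞 T)
  refine ⟨(∑ q, Bd q) * ((Ideal.absNorm b : ℕ) : ℝ) ^ (2 : ℝ) +
    Real.log ((Ideal.absNorm c : ℕ) : ℝ) * M, fun s hs1 hs2 => ?_⟩
  let F : 𝓞 T → ℝ := fun x => Gs T s (mixedEmbedding T (x : T))
  obtain ⟨hsb, hUb⟩ := hU T b hb0 s hs1
  obtain ⟨hsbc, hUbc⟩ := hU T (b * c) hbc0 s hs1
  have hdec := zcd_tsum_cosets (b * c).toAddSubgroup b.toAddSubgroup hAB F hsb
  have h1 : |∑' x : b.toAddSubgroup, F x -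
      ((Ideal.absNorm c : ℕ) : ℝ) * ∑' y : (b * c).toAddSubgroup, F y| ≤ ∑ q, Bd q := by
    rw [hdec]
    have h2 : ((Ideal.absNorm c : ℕ) : ℝ) * ∑' y : (b * c).toAddSubgroup, F y =
        ∑ _q : b.toAddSubgroup ⧸ (b * c).toAddSubgroup.addSubgroupOf b.toAddSubgroup,
          ∑' y : (b * c).toAddSubgroup, F y := by
      rw [Finset.sum_const, Finset.card_univ, nsmul_eq_mul, ← Nat.card_eq_fintype_card, hcard]
    rw [h2, ← Finset.sum_sub_distrib]
    exact (Finset.abs_sum_le_sum_abs _ _).trans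
      (Finset.sum_le_sum fun q _ => (hBd q s hs1 hs2).2)
  have h3 : ∑' x : b.toAddSubgroup, F x = _ := hUb
  have h4 : ∑' y : (b * c).toAddSubgroup, F y = _ := hUbc
  rw [h3, h4, hbC, hbcC, inv_inv, inv_inv, map_mul, Nat.cast_mul] at h1
  have hsum := (hZ T).1 s hs1
  exact zcd_final (by exact_mod_cast Units.torsionOrder_pos T) (zcd_one_le_absNorm hb0)
    (zcd_one_le_absNorm hc0) hs1 hs2 (zcd_zetaC_nonneg C' s) (zcd_zetaC_le hsum C')
    (hM s hs1 hs2) h1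

end Fermat.Agent.S14
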