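import Fermat.Agent.S14.Interface2

/-!
# S14 / CR2 : assembly of the comparison lemma from its pieces
-/

set_option autoImplicit false

namespace Fermat.Agent.S14

open NumberField
open scoped Pointwise

theorem cr2 (hA : Stmt_AuxPrime) (hC : Stmt_Cross) (hR : Stmt_CRcore) (hI : Stmt_InertDegOne)
    (hB : Stmt_ClsBasic) : Stmt_CR2 := by
  intro p K L _ _ _ _ _ D lam lam' h h' k hlam hlam0 hlam' hlam0' hpl hpl' hF hF' hh hh' hk hne
  have hp := D.prime
  have hp2 := D.odd
  -- the residue characteristics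
  have hl : (Ideal.absNorm lam).Prime := hI p K L D lam h hlam hlam0 hpl hF hh
  have hl' : (Ideal.absNorm lam').Prime := hI p K L D lam' h' hlam' hlam0' hpl' hF' hh'
  have hlp : Ideal.absNorm lam ≠ p := by
    intro e
    apply hpl
    have := Ideal.absNorm_mem lam
    rwa [e] at this
  have hlp' : Ideal.absNorm lam' ≠ p := by
    intro e
    apply hpl'
    have := Ideal.absNorm_mem lam'
    rwa [e] at this
  -- `h ^ p = 1`
  have := D.galQ
  have : IsGalois K L := IsGalois.tower_top_of_isGalois ℚ K L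
  have hcard : Nat.card (L ≃ₐ[K] L) = p := by
    rw [IsGalois.card_aut_eq_finrank, D.deg]
  have hhp : h ^ p = 1 := by
    rw [← hcard]; exact pow_card_eq_one'
  -- `k₀ = k % p`
  have hk0 : h ^ k = h ^ (k % p) := pow_eq_pow_mod k hhp
  have hk1 : 1 ≤ k % p := by
    rcases Nat.eq_zero_or_pos (k % p) with h0 | h0
    · exfalso
      apply hh'
      rw [hk, hk0, h0, pow_zero]
    · exact h0
  have hk2 : k % p < p := Nat.mod_lt _ hp.pos
  -- the auxiliary prime
  obtain ⟨r, hr, hBr, hrp, hb1, hb2⟩ := hA p (Ideal.absNorm lam) (Ideal.absNorm lam') (k % p) hp hp2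
    hl hl' hne hlp hlp' hk1 hk2
    (max (NumberField.discr L).natAbs (max (Ideal.absNorm lam) (Ideal.absNorm lam')))
  have hr1 : (NumberField.discr L).natAbs < r := lt_of_le_of_lt (le_max_left _ _) hBr
  have hr2 : Ideal.absNorm lam < r :=
    lt_of_le_of_lt ((le_max_left _ _).trans (le_max_right _ _)) hBr
  have hr3 : Ideal.absNorm lam' < r :=
    lt_of_le_of_lt ((le_max_right _ _).trans (le_max_right _ _)) hBr
  have hdisc : ¬ (r : ℤ) ∣ NumberField.discr L := by
    intro hd
    have h1 : r ∣ (NumberField.discr L).natAbs := Int.natCast_dvd.1 hd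
    have h2 : 0 < (NumberField.discr L).natAbs := Int.natAbs_pos.2 (NumberField.discr_ne_zero L)
    exact absurd (Nat.le_of_dvd h2 h1) (not_le.2 hr1)
  have hc1 : (Ideal.absNorm lam).Coprime r := (Nat.coprime_primes hl hr).2 hr2.ne
  have hc2 : (Ideal.absNorm lam').Coprime r := (Nat.coprime_primes hl' hr).2 hr3.ne
  have hrel : h' * h ^ (p - k % p) = 1 := by
    rw [hk, hk0, ← pow_add, Nat.add_sub_cancel' hk2.le, hhp]
  obtain ⟨T, Ω, _, _, _, _, _, _, _, _, hX⟩ := hC p r (p - k % p) K L D lam lam' h h' hlam hlam0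
    hlam' hlam0' hF hF' hh hrel hr hrp hdisc hc1 hc2 hb1
  have hmem : cls lam' * cls lam ^ (p - k % p) ∈ normCl K L :=
    hR p r (p - k % p) K L T Ω lam lam' hp hp2 hr hlam hlam0 hlam' hlam0' hX hc1 hc2 hb1 hb2
  have hpow : cls lam ^ p ∈ normCl K L := by
    have := (hB K).2.2.2.2.1 L lam hlam0
    rwa [D.deg] at this
  have hfin : cls lam' * (cls lam ^ k)⁻¹
      = (cls lam' * cls lam ^ (p - k % p)) * ((cls lam ^ p) ^ (k / p + 1))⁻¹ := by
    have e : cls lam ^ (p - k % p) * cls lam ^ k = (cls lam ^ p) ^ (k / p + 1) := by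
      rw [← pow_add, ← pow_mul]
      congr 1
      have := Nat.div_add_mod k p
      rw [mul_add, mul_one]
      omega
    rw [← e, mul_inv, mul_assoc, mul_inv_cancel_left]
  rw [hfin]
  exact (normCl K L).mul_mem hmem ((normCl K L).inv_mem ((normCl K L).pow_mem hpow _))

end Fermat.Agent.S14
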