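import Fermat.Agent.S14.Interface2

/-!
# S14, package CR-A: the abstract core of the comparison lemma
-/

set_option autoImplicit false

namespace Fermat.Agent.S14

open NumberField

/-- the subgroup of `p`-th powers in `(ℤ/r)ˣ`. -/
def crPw (p r : ℕ) : Subgroup (ZMod r)ˣ := (powMonoidHom p : (ZMod r)ˣ →* (ZMod r)ˣ).range

open Classical in
/-- the class of a natural number in `(ℤ/r)ˣ` modulo `p`-th powers (junk value `1`). -/
noncomputable def crTheta (p r n : ℕ) : (ZMod r)ˣ ⧸ crPw p r :=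
  if h : n.Coprime r then QuotientGroup.mk (ZMod.unitOfCoprime n h) else 1

theorem crTheta_mul (p r : ℕ) {m n : ℕ} (hm : m.Coprime r) (hn : n.Coprime r) :
    crTheta p r (m * n) = crTheta p r m * crTheta p r n := by
  have hmn : (m * n).Coprime r := Nat.Coprime.mul_left hm hn
  rw [crTheta, crTheta, crTheta, dif_pos hmn, dif_pos hm, dif_pos hn, ← QuotientGroup.mk_mul]
  congr 1
  apply Units.ext
  simp

theorem crTheta_eq_one_iff {p r : ℕ} (hp : p ≠ 0) {n : ℕ} (hn : n.Coprime r) :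
    crTheta p r n = 1 ↔ ∃ b : ZMod r, b ^ p = (n : ZMod r) := by
  rw [crTheta, dif_pos hn, QuotientGroup.eq_one_iff]
  constructor
  · rintro ⟨u, hu⟩
    refine ⟨(u : ZMod r), ?_⟩
    have := congrArg (fun x : (ZMod r)ˣ => (x : ZMod r)) hu
    simpa using this
  · rintro ⟨b, hb⟩
    have hun : IsUnit (n : ZMod r) := (ZMod.unitOfCoprime n hn).isUnit
    have hbu : IsUnit b := by
      rw [← hb] at hun
      exact (isUnit_pow_iff hp).1 hun
    obtain ⟨u, rfl⟩ := hbu
    refine ⟨u, ?_⟩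
    apply Units.ext
    simpa using hb

theorem crTheta_quot_pow (p r : ℕ) (x : (ZMod r)ˣ ⧸ crPw p r) : x ^ p = 1 := by
  induction x using QuotientGroup.induction_on with
  | H u =>
    rw [← QuotientGroup.mk_pow, QuotientGroup.eq_one_iff]
    exact ⟨u, rfl⟩

/-- a prime ideal whose norm is not prime to `r` contains `r`. -/
theorem cr_mem_of_not_coprime {T : Type} [Field T] [NumberField T] {r : ℕ} (hr : r.Prime)
    (q : Ideal (𝓞 T)) (hq : q.IsPrime) (hq0 : q ≠ ⊥) (h : ¬ (Ideal.absNorm q).Coprime r) :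
    (r : 𝓞 T) ∈ q := by
  have hdvd : r ∣ Ideal.absNorm q := by
    by_contra hnd
    exact h ((Nat.Prime.coprime_iff_not_dvd hr).2 hnd).symm
  rw [Ideal.absNorm_apply, Submodule.cardQuot_apply] at hdvd
  have hfin : Finite (𝓞 T ⧸ q) := by
    apply Nat.finite_of_card_ne_zero
    rw [← Submodule.cardQuot_apply, ← Ideal.absNorm_apply]
    exact fun h0 => hq0 (Ideal.absNorm_eq_zero_iff.1 h0)
  have := Fintype.ofFinite (𝓞 T ⧸ q)
  have : Fact r.Prime := ⟨hr⟩
  rw [Nat.card_eq_fintype_card] at hdvd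
  obtain ⟨x, hx⟩ := exists_prime_addOrderOf_dvd_card r hdvd
  have hx0 : x ≠ 0 := by
    rintro rfl
    rw [addOrderOf_zero] at hx
    exact hr.one_lt.ne hx
  have h1 : r • x = 0 := by
    rw [← hx]
    exact addOrderOf_nsmul_eq_zero x
  rw [nsmul_eq_mul] at h1
  have h2 : ((r : ℕ) : 𝓞 T ⧸ q) = 0 := by
    rcases mul_eq_zero.1 h1 with h | h
    · exact h
    · exact absurd h hx0
  rw [← Ideal.Quotient.eq_zero_iff_mem, map_natCast]
  exact h2

theorem crcore (hU : Stmt_U) (hCH : Stmt_ClassHom) (hMov : Stmt_Moving) (hCN : Stmt_ClNorm)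
    (hCB : Stmt_ClsBasic) (hD1 : Stmt_DegOne) : Stmt_CRcore := by
  intro p r k K L T Ω _ _ _ _ _ _ _ _ _ _ _ _ _ lam lam' hp hp2 hr hlam hlam0 hlam' hlam0' hX
    hcop hcop' hpow hnpow
  have := hX.towerL
  have := hX.towerT
  have hp0 : p ≠ 0 := hp.ne_zero
  have hpodd : Odd p := hp.odd_of_ne_two hp2
  -- the multiplicative set and the function
  set 𝕊 : Set (Ideal (𝓞 T)) := {B | (Ideal.absNorm B).Coprime r} with h𝕊
  set F : Ideal (𝓞 T) → (ZMod r)ˣ ⧸ crPw p r := fun B => crTheta p r (Ideal.absNorm B) with hF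
  have hS0 : ∀ I ∈ 𝕊, I ≠ ⊥ := by
    rintro I hI rfl
    have : (0 : ℕ).Coprime r := by simpa [h𝕊] using hI
    rw [Nat.coprime_zero_left] at this
    exact hr.one_lt.ne' this
  have hSmul : ∀ I ∈ 𝕊, ∀ J ∈ 𝕊, I * J ∈ 𝕊 := by
    intro I hI J hJ
    show (Ideal.absNorm (I * J)).Coprime r
    rw [map_mul]
    exact Nat.Coprime.mul_left hI hJ
  have hSrep : ∀ c, ∃ I ∈ 𝕊, cls I = c := fun c => hMov T r hr.ne_zero c
  have hFmul : ∀ I ∈ 𝕊, ∀ J ∈ 𝕊, F (I * J) = F I * F J := by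
    intro I hI J hJ
    show crTheta p r (Ideal.absNorm (I * J)) = _
    rw [map_mul]
    exact crTheta_mul p r hI hJ
  have hFprin : ∀ I ∈ 𝕊, I.IsPrincipal → F I = 1 := by
    intro I hI hIp
    obtain ⟨y, rfl⟩ := hIp.principal
    show crTheta p r _ = 1
    rw [crTheta_eq_one_iff hp0 hI]
    obtain ⟨b, hb⟩ := hX.norm_pow y
    have habs : Ideal.absNorm (Submodule.span (𝓞 T) {y}) = (Algebra.norm ℤ y).natAbs :=
      Ideal.absNorm_span_singleton y
    rw [habs]
    rcases Int.natAbs_eq (Algebra.norm ℤ y) with h | h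
    · refine ⟨b, ?_⟩
      rw [hb]
      conv_lhs => rw [h]
      simp
    · refine ⟨-b, ?_⟩
      rw [hpodd.neg_pow, hb]
      conv_lhs => rw [h]
      simp
  obtain ⟨Θ, hΘ⟩ := hCH T _ 𝕊 F hS0 hSmul hSrep hFmul hFprin
  obtain ⟨Nb, hNb⟩ := hCN K T
  obtain ⟨hKmul, -, -, -, -, hKnorm⟩ := hCB K
  obtain ⟨hTmul, -, -, -, -, -⟩ := hCB T
  set Y : Subgroup (ClassGroup (𝓞 T)) := Θ.ker ⊓ (normCl K L).comap Nb with hY
  -- the exceptional set
  set m : ℕ := Ideal.absNorm (Ideal.span {(r : 𝓞 T)}) with hm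
  have hm0 : m ≠ 0 := by
    rw [hm, Ne, Ideal.absNorm_eq_zero_iff, Ideal.span_singleton_eq_bot]
    exact_mod_cast hr.ne_zero
  have hfin : {I : Ideal (𝓞 T) | Ideal.absNorm I ≤ m}.Finite := Ideal.finite_setOfPred_absNorm_le m
  have hindex : Y.index ≤ Module.finrank T Ω := by
    apply hU T Ω Y hfin.toFinset
    intro q Q hq hq0 hqS hQ hQq hNQ
    have hrq : (r : 𝓞 T) ∉ q := by
      intro hmem
      apply hqS
      rw [Set.Finite.mem_toFinset]
      show Ideal.absNorm q ≤ m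
      apply Nat.le_of_dvd (Nat.pos_of_ne_zero hm0)
      apply Ideal.absNorm_dvd_absNorm_of_le
      rw [Ideal.span_singleton_le_iff_mem]
      exact hmem
    have hqcop : (Ideal.absNorm q).Coprime r := by
      by_contra hnc
      exact hrq (cr_mem_of_not_coprime hr q hq hq0 hnc)
    have hQ0 : Q ≠ ⊥ := by
      intro h0
      have : Ideal.absNorm q = 0 := by rw [← hNQ, h0]; simp
      exact hq0 (Ideal.absNorm_eq_zero_iff.1 this)
    have hrQ : (r : 𝓞 Ω) ∉ Q := by
      intro hmem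
      apply hrq
      rw [hQq.over, Ideal.mem_comap, map_natCast]
      exact hmem
    rw [hY, Subgroup.mem_inf]
    refine ⟨?_, ?_⟩
    · rw [MonoidHom.mem_ker, hΘ q hqcop]
      show crTheta p r _ = 1
      rw [crTheta_eq_one_iff hp0 hqcop, ← hNQ]
      exact hX.absNorm_pow Q hQ hQ0 hrQ
    · rw [Subgroup.mem_comap, hNb q hq0]
      have h1 : Ideal.relNorm (𝓞 T) Q = q := (hD1 T Ω q Q hq hq0 hQ hQq).2 hNQ
      have h2 : Ideal.relNorm (𝓞 K) q = Ideal.relNorm (𝓞 K) (Ideal.relNorm (𝓞 L) Q) := by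
        rw [← h1, Ideal.relNorm_relNorm (𝓞 K) (𝓞 T) Q, Ideal.relNorm_relNorm (𝓞 K) (𝓞 L) Q]
      rw [h2]
      apply hKnorm L
      rw [Ne, Ideal.relNorm_eq_bot_iff]
      exact hQ0
  have hindexp : Y.index ≤ p := hindex.trans hX.deg_le
  -- the kernel of `Θ` has index at least `p`
  obtain ⟨P, hP, hPlam, hNP⟩ := hX.split
  obtain ⟨P', hP', hPlam', hNP'⟩ := hX.split'
  have hPS : P ∈ 𝕊 := by show (Ideal.absNorm P).Coprime r; rw [hNP]; exact hcop
  have hPS' : P' ∈ 𝕊 := by show (Ideal.absNorm P').Coprime r; rw [hNP']; exact hcop'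
  have hΘP : Θ (cls P) ≠ 1 := by
    rw [hΘ P hPS]
    show crTheta p r _ ≠ 1
    rw [Ne, crTheta_eq_one_iff hp0 hPS, hNP]
    exact hnpow
  have hker : p ≤ Θ.ker.index := by
    rw [Subgroup.index_ker]
    have : Fact p.Prime := ⟨hp⟩
    have hfinR : Finite Θ.range := inferInstance
    set x : Θ.range := ⟨Θ (cls P), ⟨_, rfl⟩⟩ with hx
    have hx1 : x ≠ 1 := by
      intro h
      exact hΘP (congrArg Subtype.val h)
    have hxp : x ^ p = 1 := by
      apply Subtype.ext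
      exact crTheta_quot_pow p r _
    have hord := orderOf_eq_prime hxp hx1
    exact hord.symm.le.trans orderOf_le_card
  have hYle : Y ≤ Θ.ker := inf_le_left
  have hkerY : Θ.ker ≤ Y := by
    rw [← Subgroup.relIndex_eq_one]
    have hmul := Subgroup.relIndex_mul_index hYle
    have hY0 : Y.index ≠ 0 := Subgroup.index_ne_zero_of_finite
    have hrel0 : Y.relIndex Θ.ker ≠ 0 := by
      intro h0
      rw [h0, zero_mul] at hmul
      exact hY0 hmul.symm
    by_contra hne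
    have h2 : 2 ≤ Y.relIndex Θ.ker := by omega
    have hp1 : 0 < p := hp.pos
    have : 2 * p ≤ Y.index := by
      rw [← hmul]
      exact Nat.mul_le_mul h2 hker
    omega
  -- conclusion
  have hP0 : P ≠ ⊥ := hS0 P hPS
  have hP0' : P' ≠ ⊥ := hS0 P' hPS'
  have hc : cls P' * cls P ^ k ∈ Θ.ker := by
    rw [MonoidHom.mem_ker, map_mul, map_pow, hΘ P hPS, hΘ P' hPS']
    show crTheta p r _ * crTheta p r _ ^ k = 1
    rw [hNP, hNP']
    have hpowk : ∀ j : ℕ, crTheta p r (Ideal.absNorm lam) ^ j = crTheta p r (Ideal.absNorm lam ^ j) := by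
      intro j
      induction j with
      | zero =>
        rw [pow_zero, pow_zero]
        symm
        rw [crTheta_eq_one_iff hp0 (Nat.coprime_one_left r)]
        exact ⟨1, by simp⟩
      | succ j ih =>
        rw [pow_succ, pow_succ, ih, crTheta_mul p r (Nat.Coprime.pow_left j hcop) hcop]
    rw [hpowk, ← crTheta_mul p r hcop' (Nat.Coprime.pow_left k hcop),
      crTheta_eq_one_iff hp0 (Nat.Coprime.mul_left hcop' (Nat.Coprime.pow_left k hcop))]
    obtain ⟨b, hb⟩ := hpow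
    exact ⟨b, by rw [hb]; push_cast; ring⟩
  have hcY : cls P' * cls P ^ k ∈ (normCl K L).comap Nb := (Subgroup.mem_inf.1 (hkerY hc)).2
  rw [Subgroup.mem_comap, map_mul, map_pow, hNb P hP0, hNb P' hP0',
    (hD1 K T lam P hlam hlam0 hP hPlam).2 hNP, (hD1 K T lam' P' hlam' hlam0' hP' hPlam').2 hNP'] at hcY
  exact hcY

end Fermat.Agent.S14
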