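/-
S14 / CRC4 (helper14): pure group theory used in the construction of the crossed fields.
-/
import Mathlib

set_option autoImplicit false

namespace Fermat.Agent.S14

theorem crossGroup {G H X : Type*} [Group G] [Group H] [CommGroup X]
    (hcomm : ∀ a b : G, a * b = b * a) (ρ : G →* H) (χ : G →* X)
    (hsurj : ∀ (h : H) (x : X), ∃ g, ρ g = h ∧ χ g = x) (p : ℕ) (hp : p.Prime)
    (hH : Nat.card H = p) (Pw : Subgroup X) (hPw : Pw.index = p) (hpow : ∀ x : X, x ^ p ∈ Pw)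
    (φ : G) (hφ : ρ φ ≠ 1) :
    ρ.ker ⊔ ((ρ.ker ⊓ Pw.comap χ) ⊔ Subgroup.zpowers φ) = ⊤ ∧
    ((ρ.ker ⊓ Pw.comap χ) ⊔ Subgroup.zpowers φ).index = p ∧
    (ρ.ker ⊓ Pw.comap χ).relIndex ((ρ.ker ⊓ Pw.comap χ) ⊔ Subgroup.zpowers φ) = p := by
  have : Fact p.Prime := ⟨hp⟩
  set W := ρ.ker ⊓ Pw.comap χ with hW
  set Z := W ⊔ Subgroup.zpowers φ with hZ
  have hnorm : ∀ S : Subgroup G, S.Normal := fun S =>
    ⟨fun n hn g => by rw [hcomm g n, mul_inv_cancel_right]; exact hn⟩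
  have hφZ : φ ∈ Z := Subgroup.mem_sup_right (Subgroup.mem_zpowers φ)
  have hWZ : W ≤ Z := le_sup_left
  have hWk : W ≤ ρ.ker := inf_le_left
  -- (1)
  have h1 : ρ.ker ⊔ Z = ⊤ := by
    rw [eq_top_iff]
    intro g _
    have hmem : ρ g ∈ Subgroup.zpowers (ρ φ) := mem_zpowers_of_prime_card hH hφ
    obtain ⟨j, hj⟩ := Subgroup.mem_zpowers_iff.mp hmem
    have hk : g * (φ ^ j)⁻¹ ∈ ρ.ker := by
      rw [MonoidHom.mem_ker, map_mul, map_inv, map_zpow, hj, mul_inv_cancel]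
    have : g = (g * (φ ^ j)⁻¹) * φ ^ j := by group
    rw [this]
    exact Subgroup.mul_mem_sup hk (Z.zpow_mem hφZ j)
  -- order of ρ φ
  have hord : orderOf (ρ φ) = p := orderOf_eq_prime (by rw [← hH]; exact pow_card_eq_one') hφ
  have hφp : φ ^ p ∈ W := by
    refine Subgroup.mem_inf.mpr ⟨?_, ?_⟩
    · rw [MonoidHom.mem_ker, map_pow, ← hord, pow_orderOf_eq_one]
    · rw [Subgroup.mem_comap, map_pow]; exact hpow _
  -- (2)
  have h2 : Z ⊓ ρ.ker = W := by
    apply le_antisymm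
    · intro z hz'
      obtain ⟨hz, hzk⟩ := Subgroup.mem_inf.mp hz'
      have := hnorm (Subgroup.zpowers φ)
      obtain ⟨w, hw, y, hy, rfl⟩ := Subgroup.mem_sup_of_normal_right.mp hz
      obtain ⟨j, rfl⟩ := Subgroup.mem_zpowers_iff.mp hy
      have hwk : ρ w = 1 := hWk hw
      have : (ρ φ) ^ j = 1 := by
        have := (MonoidHom.mem_ker).mp hzk
        rwa [map_mul, hwk, one_mul, map_zpow] at this
      have hdvd : (p : ℤ) ∣ j := by rw [← hord]; exact orderOf_dvd_iff_zpow_eq_one.mpr this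
      obtain ⟨c, rfl⟩ := hdvd
      refine W.mul_mem hw ?_
      rw [zpow_mul, zpow_natCast]
      exact W.zpow_mem hφp c
    · exact le_inf hWZ hWk
  -- (4)
  have h4 : W.relIndex ρ.ker = p := by
    have hsub : W.subgroupOf ρ.ker = Pw.comap (χ.comp ρ.ker.subtype) := by
      ext ⟨x, hx⟩
      simp only [Subgroup.mem_subgroupOf, hW, Subgroup.mem_inf, Subgroup.mem_comap,
        MonoidHom.comp_apply, Subgroup.coe_subtype]
      exact ⟨fun h => h.2, fun h => ⟨hx, h⟩⟩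
    rw [Subgroup.relIndex, hsub, Subgroup.index_comap_of_surjective, hPw]
    intro x
    obtain ⟨g, hg1, hg2⟩ := hsurj 1 x
    exact ⟨⟨g, hg1⟩, hg2⟩
  -- (3)
  have h3 : Z.index = p := by
    have := hnorm Z
    rw [← Subgroup.relIndex_top_right, ← h1, Subgroup.relIndex_sup_right,
      ← Subgroup.inf_relIndex_right, h2, h4]
  have hker : ρ.ker.index = p := by
    rw [Subgroup.index_ker, ← hH]
    have : ρ.range = ⊤ := MonoidHom.range_eq_top.mpr (fun h => (hsurj h 1).imp fun g hg => hg.1)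
    rw [this, Subgroup.card_top]
  have h5 : W.index = p * p := by
    rw [← Subgroup.relIndex_mul_index hWk, h4, hker]
  refine ⟨h1, h3, ?_⟩
  have := Subgroup.relIndex_mul_index hWZ
  rw [h3, h5] at this
  exact Nat.eq_of_mul_eq_mul_right hp.pos this

end Fermat.Agent.S14
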