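/-
S14 / CRC4 (helper14): construction of the crossed fields `T ⊆ Ω` (assembly of CR-C).
-/
import Fermat.Agent.S14.Interface2
import Fermat.Agent.S14.CrossGroup

set_option autoImplicit false
set_option linter.style.haveILetI false

namespace Fermat.Agent.S14

open NumberField
open scoped Pointwise

theorem cross_frob_zeta {K M : Type} [Field K] [NumberField K] [Field M] [NumberField M]
    [Algebra K M] [IsGalois K M] (lam : Ideal (𝓞 K)) (Q : Ideal (𝓞 M)) (hQ : Q.LiesOver lam)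
    (φ : M ≃ₐ[K] M)
    (hφ : ∀ x : 𝓞 M, φ • x - x ^ Ideal.absNorm lam ∈ Q) {r : ℕ} (hr0 : r ≠ 0) (ζ : M)
    (hζ : IsPrimitiveRoot ζ r) (hr : (r : 𝓞 M) ∉ Q) : φ ζ = ζ ^ Ideal.absNorm lam := by
  have : NeZero r := ⟨hr0⟩
  have h2 : Nat.card (𝓞 K ⧸ Q.under (𝓞 K)) = Ideal.absNorm lam := by
    rw [← hQ.over]; rfl
  have hF : (MulSemiringAction.toAlgHom (𝓞 K) (𝓞 M) φ).IsArithFrobAt Q := by
    intro x
    rw [h2]
    exact hφ x
  have h1 := hF.apply_of_pow_eq_one (ζ := hζ.toInteger) (m := r)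
    (hζ.toInteger_isPrimitiveRoot.pow_eq_one) hr
  rw [h2] at h1
  exact congrArg (fun x : 𝓞 M => (x : M)) h1
/-- `r ∉ Q` when `Q` lies over `lam` of norm prime to `r`. -/
theorem cross_r_notMem {K M : Type} [Field K] [NumberField K] [Field M] [NumberField M]
    [Algebra K M] (lam : Ideal (𝓞 K)) (Q : Ideal (𝓞 M)) (hQp : Q.IsPrime) (hQ : Q.LiesOver lam)
    {r : ℕ} (hco : (Ideal.absNorm lam).Coprime r) : (r : 𝓞 M) ∉ Q := by
  intro hr
  have h1 : ((Ideal.absNorm lam : ℕ) : 𝓞 M) ∈ Q := by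
    have := Ideal.absNorm_mem lam
    have h2 := (Ideal.mem_of_liesOver Q lam _).mp this
    simpa using h2
  obtain ⟨u, v, huv⟩ := (Nat.isCoprime_iff_coprime.mpr hco)
  apply hQp.ne_top
  rw [Ideal.eq_top_iff_one]
  have : (1 : 𝓞 M) = (u : 𝓞 M) * ((Ideal.absNorm lam : ℕ) : 𝓞 M) + (v : 𝓞 M) * (r : 𝓞 M) := by
    have := congrArg (fun z : ℤ => (z : 𝓞 M)) huv
    push_cast at this
    exact this.symm
  rw [this]
  exact Q.add_mem (Q.mul_mem_left _ h1) (Q.mul_mem_left _ hr)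

/-- Frobenius data in `M` above a Frobenius in `L`. -/
theorem cross_frob_data (hFE : Stmt_FrobExists) (hPA : Stmt_PrimeAbove)
    {K L M : Type} [Field K] [NumberField K] [Field L] [NumberField L] [Field M]
    [NumberField M] [Algebra K L] [Algebra L M] [Algebra K M] [IsScalarTower K L M]
    [IsGalois K L] [IsGalois K M] (hun : TrivialInertia K L)
    (lam : Ideal (𝓞 K)) (hlam0 : lam ≠ ⊥) (h : L ≃ₐ[K] L) (hF : IsFrob K L lam h)
    {r : ℕ} (hr0 : r ≠ 0) (hco : (Ideal.absNorm lam).Coprime r) (ζ : M)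
    (hζ : IsPrimitiveRoot ζ r) :
    ∃ (Q : Ideal (𝓞 M)) (φ : M ≃ₐ[K] M), Q.IsPrime ∧ Q.LiesOver lam ∧
      (∀ x : 𝓞 M, φ • x - x ^ Ideal.absNorm lam ∈ Q) ∧
      AlgEquiv.restrictNormalHom L φ = h ∧ φ ζ = ζ ^ Ideal.absNorm lam := by
  obtain ⟨P0, hP0p, hP0l, hP0f⟩ := hF
  have hP00 : P0 ≠ ⊥ := Ideal.ne_bot_of_liesOver_of_ne_bot hlam0 P0
  obtain ⟨Q, hQp, hQ0, hQl⟩ := hPA L M P0 hP0p hP00
  have hQlam : Q.LiesOver lam := Ideal.LiesOver.trans Q P0 lam
  obtain ⟨φ, hφ⟩ := hFE K M lam Q hQp hQ0 hQlam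
  refine ⟨Q, φ, hQp, hQlam, hφ, ?_, ?_⟩
  · set ψ := AlgEquiv.restrictNormalHom L φ with hψ
    have hcomm : ∀ x : L, algebraMap L M (ψ x) = φ (algebraMap L M x) :=
      fun x => AlgEquiv.restrictNormal_commutes φ L x
    have h1 : ∀ x : 𝓞 L, ψ • x - x ^ Ideal.absNorm lam ∈ P0 := by
      intro x
      rw [Ideal.mem_of_liesOver Q P0]
      have := hφ (algebraMap (𝓞 L) (𝓞 M) x)
      convert this using 1
      rw [map_sub, map_pow]
      congr 1
      apply RingOfIntegers.ext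
      exact hcomm x
    have hmax : P0.IsMaximal := hP0p.isMaximal hP00
    have h2 : ψ * h⁻¹ = 1 := by
      apply hun P0 hmax
      intro y
      have a1 := h1 (h⁻¹ • y)
      have a2 := hP0f (h⁻¹ • y)
      have := P0.sub_mem a1 a2
      rw [sub_sub_sub_cancel_right, smul_inv_smul, ← mul_smul] at this
      exact this
    exact mul_inv_eq_one.mp h2
  · exact cross_frob_zeta lam Q hQlam φ hφ hr0 ζ hζ (cross_r_notMem lam Q hQp hQlam hco)
theorem cross_package {K L M : Type} [Field K] [NumberField K] [Field L] [NumberField L] [Field M]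
    [NumberField M] [Algebra K L] [Algebra L M] [Algebra K M] [IsScalarTower K L M]
    (p r : ℕ) (lam lam' : Ideal (𝓞 K))
    (TM ΩM : IntermediateField K M) (hle : TM ≤ ΩM) (hL : ∀ x : L, algebraMap L M x ∈ ΩM)
    (hdeg : Module.finrank TM M ≤ p * Module.finrank ΩM M)
    (norm_pow : ∀ y : 𝓞 TM, ∃ b : ZMod r, b ^ p = ((Algebra.norm ℤ y : ℤ) : ZMod r))
    (absNorm_pow : ∀ Q : Ideal (𝓞 ΩM), Q.IsPrime → Q ≠ ⊥ → (r : 𝓞 ΩM) ∉ Q →
      ∃ b : ZMod r, b ^ p = ((Ideal.absNorm Q : ℕ) : ZMod r))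
    (split : ∃ P : Ideal (𝓞 TM), P.IsPrime ∧ P.LiesOver lam ∧
      Ideal.absNorm P = Ideal.absNorm lam)
    (split' : ∃ P : Ideal (𝓞 TM), P.IsPrime ∧ P.LiesOver lam' ∧
      Ideal.absNorm P = Ideal.absNorm lam') :
    ∃ (T Ω : Type) (_ : Field T) (_ : NumberField T) (_ : Field Ω) (_ : NumberField Ω)
      (_ : Algebra K T) (_ : Algebra K Ω) (_ : Algebra L Ω) (_ : Algebra T Ω),
      CrossFields p r K L T Ω lam lam' := by
  letI algLΩ : Algebra L ΩM := ((algebraMap L M).codRestrict ΩM hL).toAlgebra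
  letI algTΩ : Algebra TM ΩM := (IntermediateField.inclusion hle).toRingHom.toAlgebra
  refine ⟨TM, ΩM, inferInstance, inferInstance, inferInstance, inferInstance, inferInstance,
    inferInstance, algLΩ, algTΩ, ?_⟩
  have tw : IsScalarTower TM ΩM M := IsScalarTower.of_algebraMap_eq (fun x => rfl)
  refine ⟨?_, ?_, ?_, norm_pow, absNorm_pow, split, split'⟩
  · refine IsScalarTower.of_algebraMap_eq (fun x => ?_)
    apply Subtype.ext
    exact IsScalarTower.algebraMap_apply K L M x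
  · exact IsScalarTower.of_algebraMap_eq (fun x => rfl)
  · have h1 := Module.finrank_mul_finrank TM ΩM M
    rw [← h1] at hdeg
    have hpos : 0 < Module.finrank ΩM M := Module.finrank_pos
    exact Nat.le_of_mul_le_mul_right hdeg hpos
theorem cross_main (hTR : Stmt_TotRam) (hCG : Stmt_CrossGal) (hSF : Stmt_SplitOfFrobFix)
    (hAP : Stmt_AbsNormPow) (hNP : Stmt_NormPow) (hCS : Stmt_CycSplit) (hFE : Stmt_FrobExists)
    (hPA : Stmt_PrimeAbove) (p r k : ℕ)
    {K L M : Type} [Field K] [NumberField K] [Field L] [NumberField L] [Field M]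
    [NumberField M] [Algebra K L] [Algebra L M] [Algebra K M] [IsScalarTower K L M]
    [IsCyclotomicExtension {r} L M] (hD : NFData p K L) (lam lam' : Ideal (𝓞 K))
    (h h' : L ≃ₐ[K] L) (hlam : lam.IsPrime) (hlam0 : lam ≠ ⊥) (hlam' : lam'.IsPrime)
    (hlam0' : lam' ≠ ⊥) (hF : IsFrob K L lam h) (hF' : IsFrob K L lam' h') (hh1 : h ≠ 1)
    (hhk : h' * h ^ k = 1) (hr : r.Prime) (hrp : r % p = 1)
    (hdisc : ¬ (r : ℤ) ∣ NumberField.discr L)
    (hco : (Ideal.absNorm lam).Coprime r) (hco' : (Ideal.absNorm lam').Coprime r)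
    (hpow : ∃ b : ZMod r, b ^ p = (Ideal.absNorm lam' : ZMod r) * (Ideal.absNorm lam : ZMod r) ^ k) :
    ∃ (T Ω : Type) (_ : Field T) (_ : NumberField T) (_ : Field Ω) (_ : NumberField Ω)
      (_ : Algebra K T) (_ : Algebra K Ω) (_ : Algebra L Ω) (_ : Algebra T Ω),
      CrossFields p r K L T Ω lam lam' := by
  have hp := hD.prime
  haveI := hD.cyc
  haveI := hD.galQ
  haveI : IsGalois K L := IsGalois.tower_top_of_isGalois ℚ K L
  have hr0 : r ≠ 0 := hr.ne_zero
  haveI : NeZero r := ⟨hr0⟩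
  haveI : Fact r.Prime := ⟨hr⟩
  obtain ⟨ζ, hζ⟩ : ∃ ζ : M, IsPrimitiveRoot ζ r :=
    IsCyclotomicExtension.exists_isPrimitiveRoot L M (Set.mem_singleton r) hr0
  obtain ⟨hfin, hin⟩ := hTR r L M hr hdisc
  obtain ⟨hGal, huniq, hshape, hex⟩ := hCG r K L M ζ hr hζ hfin
  haveI := hGal
  set ρ : (M ≃ₐ[K] M) →* (L ≃ₐ[K] L) := AlgEquiv.restrictNormalHom L with hρdef
  set χ : (M ≃ₐ[K] M) →* (ZMod r)ˣ := hζ.autToPow K with hχdef
  have hρ : ∀ (g : M ≃ₐ[K] M) (x : L), algebraMap L M (ρ g x) = g (algebraMap L M x) :=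
    fun g x => AlgEquiv.restrictNormal_commutes g L x
  have hχ : ∀ g : M ≃ₐ[K] M, g ζ = ζ ^ ((χ g : ZMod r).val) :=
    fun g => (hζ.autToPow_spec K g).symm
  have hcardH : Nat.card (L ≃ₐ[K] L) = p := by
    rw [IsGalois.card_aut_eq_finrank, hD.deg]
  haveI : Fact p.Prime := ⟨hp⟩
  -- commutativity of `Gal(M/K)`
  have hcommH : ∀ a b : L ≃ₐ[K] L, a * b = b * a := by
    haveI : IsCyclic (L ≃ₐ[K] L) := isCyclic_of_prime_card hcardH
    exact isMulCommutative_iff.mp IsCyclic.isMulCommutative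
  have hcomm : ∀ a b : M ≃ₐ[K] M, a * b = b * a := by
    intro a b
    apply huniq
    · intro x
      rw [← hρ, ← hρ, map_mul, map_mul, hcommH]
    · rw [hχ, hχ, map_mul, map_mul, mul_comm]
  have hsurj : ∀ (h : L ≃ₐ[K] L) (x : (ZMod r)ˣ), ∃ g, ρ g = h ∧ χ g = x := by
    intro h x
    obtain ⟨g, hg1, hg2⟩ := hex h (x : ZMod r).val (ZMod.val_coe_unit_coprime x)
    refine ⟨g, ?_, ?_⟩
    · ext y
      apply (algebraMap L M).injective
      rw [hρ, hg1]
    · apply Units.ext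
      apply ZMod.val_injective
      apply hζ.pow_inj (ZMod.val_lt _) (ZMod.val_lt _)
      rw [← hχ, hg2]
  -- the subgroup of `p`-th powers
  set Pw : Subgroup (ZMod r)ˣ := (powMonoidHom p : (ZMod r)ˣ →* (ZMod r)ˣ).range with hPwdef
  have hpdvd : p ∣ r - 1 := by
    have := Nat.mod_add_div r p
    rw [hrp] at this
    exact ⟨r / p, by omega⟩
  have hPw : Pw.index = p := by
    rw [hPwdef, IsCyclic.index_powMonoidHom_range, Nat.card_eq_fintype_card, ZMod.card_units]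
    exact Nat.gcd_eq_right hpdvd
  have hPwpow : ∀ x : (ZMod r)ˣ, x ^ p ∈ Pw := fun x => ⟨x, rfl⟩
  -- Frobenius elements
  obtain ⟨Q, φ, hQp, hQl, hφ, hφρ, hφζ⟩ :=
    cross_frob_data hFE hPA hD.unram lam hlam0 h hF hr0 hco ζ hζ
  obtain ⟨Q', φ', hQp', hQl', hφ', hφρ', hφζ'⟩ :=
    cross_frob_data hFE hPA hD.unram lam' hlam0' h' hF' hr0 hco' ζ hζ
  have hmodeq : ∀ a b : ℕ, ζ ^ a = ζ ^ b → a ≡ b [MOD r] := by
    intro a b hab
    have hfo : IsOfFinOrder ζ := isOfFinOrder_iff_pow_eq_one.mpr ⟨r, hr.pos, hζ.pow_eq_one⟩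
    have := hfo.pow_eq_pow_iff_modEq.mp hab
    rwa [← hζ.eq_orderOf] at this
  have hχφ : ((χ φ : (ZMod r)ˣ) : ZMod r) = (Ideal.absNorm lam : ZMod r) := by
    have h1 := hχ φ
    rw [hφζ] at h1
    have h2 := hmodeq _ _ h1
    have h3 := (ZMod.natCast_eq_natCast_iff _ _ _).mpr h2
    rw [h3, ZMod.natCast_zmod_val]
  have hχφ' : ((χ φ' : (ZMod r)ˣ) : ZMod r) = (Ideal.absNorm lam' : ZMod r) := by
    have h1 := hχ φ'
    rw [hφζ'] at h1
    have h2 := hmodeq _ _ h1
    have h3 := (ZMod.natCast_eq_natCast_iff _ _ _).mpr h2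
    rw [h3, ZMod.natCast_zmod_val]
  have hρφ1 : ρ φ ≠ 1 := by rw [hφρ]; exact hh1
  obtain ⟨g1, g3, g5⟩ := crossGroup hcomm ρ χ hsurj p hp hcardH Pw hPw hPwpow φ hρφ1
  set W : Subgroup (M ≃ₐ[K] M) := ρ.ker ⊓ Pw.comap χ with hW
  set Z : Subgroup (M ≃ₐ[K] M) := W ⊔ Subgroup.zpowers φ with hZ
  have hWZ : W ≤ Z := le_sup_left
  have hφZ : φ ∈ Z := Subgroup.mem_sup_right (Subgroup.mem_zpowers φ)
  have hφZ' : φ' ∈ Z := by
    have hw : φ' * φ ^ k ∈ W := by
      refine Subgroup.mem_inf.mpr ⟨?_, ?_⟩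
      · rw [MonoidHom.mem_ker, map_mul, map_pow, hφρ, hφρ', hhk]
      · rw [Subgroup.mem_comap, map_mul, map_pow]
        obtain ⟨b, hb⟩ := hpow
        have hbu : IsUnit b := by
          have : IsUnit (b ^ p) := by
            rw [hb, ← hχφ, ← hχφ']
            exact ((χ φ').isUnit).mul ((χ φ).isUnit.pow k)
          exact (isUnit_pow_iff hp.ne_zero).mp this
        obtain ⟨u, rfl⟩ := hbu
        refine ⟨u, ?_⟩
        apply Units.ext
        simp only [powMonoidHom_apply, Units.val_pow_eq_pow_val, Units.val_mul]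
        rw [hb, hχφ, hχφ']
    have : φ' = (φ' * φ ^ k) * (φ ^ k)⁻¹ := by group
    rw [this]
    exact Z.mul_mem (hWZ hw) (Z.inv_mem (Z.pow_mem hφZ k))
  -- the fields
  have hZnorm : Z.Normal :=
    ⟨fun n hn g => by rw [hcomm g n, mul_inv_cancel_right]; exact hn⟩
  set TM : IntermediateField K M := IntermediateField.fixedField Z with hTM
  set ΩM : IntermediateField K M := IntermediateField.fixedField W with hΩM
  have hfixT : TM.fixingSubgroup = Z := IntermediateField.fixingSubgroup_fixedField Z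
  have hfixΩ : ΩM.fixingSubgroup = W := IntermediateField.fixingSubgroup_fixedField W
  have hle : TM ≤ ΩM := IntermediateField.fixedField_le hWZ
  have hL : ∀ x : L, algebraMap L M x ∈ ΩM := by
    intro x
    rw [hΩM, IntermediateField.mem_fixedField_iff]
    intro f hf
    have : ρ f = 1 := (Subgroup.mem_inf.mp hf).1
    rw [← hρ, this]; rfl
  have hdeg : Module.finrank TM M ≤ p * Module.finrank ΩM M := by
    have hc := Subgroup.relIndex_mul_relIndex ⊥ W Z bot_le hWZ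
    rw [Subgroup.relIndex_bot_left, Subgroup.relIndex_bot_left, g5] at hc
    rw [hTM, hΩM, IntermediateField.finrank_fixedField_eq_card,
      IntermediateField.finrank_fixedField_eq_card, ← hc, mul_comm]
  haveI : IsGalois K TM := IsGalois.of_fixedField_normal_subgroup Z
  haveI : IsGalois ℚ K := IsCyclotomicExtension.isGalois {p} ℚ K
  have hfinT : Module.finrank K TM = p := by
    rw [IntermediateField.finrank_eq_fixingSubgroup_index, hfixT, g3]
  apply cross_package p r lam lam' TM ΩM hle hL hdeg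
  · -- norm_pow
    apply hNP p r K TM hr hfinT
    intro q hqp hrq
    refine ⟨hCS p r K hp hr hrp q hqp hrq, ?_⟩
    have hq0 : q ≠ ⊥ := by
      rintro rfl
      have : (r : 𝓞 K) = 0 := by simpa using hrq
      exact hr0 (by exact_mod_cast this)
    obtain ⟨QM, hQMp, hQM0, hQMl⟩ := hPA K M q hqp hq0
    have hrQM : (r : 𝓞 M) ∈ QM := by
      have := (Ideal.mem_of_liesOver QM q _).mp hrq
      simpa using this
    refine ⟨QM.under (𝓞 TM), Ideal.IsPrime.under _ QM, Ideal.LiesOver.tower_bot QM _ q, ?_⟩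
    intro g x
    obtain ⟨gt, hgt⟩ := AlgEquiv.restrictNormalHom_surjective (F := K) (K₁ := TM) M g
    have hgtop : gt ∈ ρ.ker ⊔ Z := by rw [g1]; trivial
    obtain ⟨i, hi, z, hz, rfl⟩ := Subgroup.mem_sup_of_normal_right.mp hgtop
    have hi1 : ρ i = 1 := hi
    let iL : M ≃ₐ[L] M := AlgEquiv.ofRingEquiv (f := i.toRingEquiv) (fun y => by
      have := hρ i y
      rw [hi1] at this
      exact this.symm)
    have key := hin QM iL hQMp hrQM (algebraMap (𝓞 TM) (𝓞 M) x)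
    rw [Ideal.under_def, Ideal.mem_comap, map_sub]
    convert key using 2
    apply RingOfIntegers.ext
    have e1 : algebraMap TM M (g (x : TM)) = (i * z) (algebraMap TM M (x : TM)) := by
      rw [← hgt]
      exact AlgEquiv.restrictNormal_commutes (i * z) TM (x : TM)
    have e2 : z (algebraMap TM M (x : TM)) = algebraMap TM M (x : TM) := by
      have hz' : z ∈ TM.fixingSubgroup := by rw [hfixT]; exact hz
      exact (IntermediateField.mem_fixingSubgroup_iff TM z).mp hz' _ (x : TM).2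
    rw [AlgEquiv.mul_apply, e2] at e1
    exact e1
  · -- absNorm_pow
    apply hAP p r ΩM M ζ hr hζ
    intro w
    have hw : (w.restrictScalars K) ∈ W := by
      rw [← hfixΩ, IntermediateField.mem_fixingSubgroup_iff]
      intro x hx
      exact w.commutes ⟨x, hx⟩
    refine ⟨((χ (w.restrictScalars K) : (ZMod r)ˣ) : ZMod r).val, hχ (w.restrictScalars K), ?_⟩
    obtain ⟨u, hu⟩ := (Subgroup.mem_inf.mp hw).2
    refine ⟨(u : ZMod r), ?_⟩
    rw [ZMod.natCast_zmod_val, ← hu]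
    simp
  · -- split
    have hmem : φ ∈ TM.fixingSubgroup := by rw [hfixT]; exact hφZ
    exact hSF K TM M lam Q (IntermediateField.fixingSubgroupEquiv TM ⟨φ, hmem⟩) hlam hlam0 hQp hQl
      hφ
  · have hmem : φ' ∈ TM.fixingSubgroup := by rw [hfixT]; exact hφZ'
    exact hSF K TM M lam' Q' (IntermediateField.fixingSubgroupEquiv TM ⟨φ', hmem⟩) hlam' hlam0'
      hQp' hQl' hφ'

/-- CRC4: `Stmt_Cross` from its pieces. -/
theorem cross (hTR : Stmt_TotRam) (hCG : Stmt_CrossGal) (hSF : Stmt_SplitOfFrobFix)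
    (hAP : Stmt_AbsNormPow) (hNP : Stmt_NormPow) (hCS : Stmt_CycSplit) (hFE : Stmt_FrobExists)
    (hPA : Stmt_PrimeAbove) : Stmt_Cross := by
  intro p r k K L _ _ _ _ _ hD lam lam' h h' hlam hlam0 hlam' hlam0' hF hF' hh1 hhk hr hrp hdisc
    hco hco' hpow
  haveI : NeZero r := ⟨hr.ne_zero⟩
  haveI : NumberField (CyclotomicField r L) := IsCyclotomicExtension.numberField {r} L _
  exact cross_main hTR hCG hSF hAP hNP hCS hFE hPA p r k (M := CyclotomicField r L) hD lam lam'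
    h h' hlam hlam0 hlam' hlam0' hF hF' hh1 hhk hr hrp hdisc hco hco' hpow

end Fermat.Agent.S14
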