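import Fermat.Agent.S14.Interface2

/-!
# S14 / CRC1 : SplitOfFrobFix, AbsNormPow, CycSplit
-/

set_option autoImplicit false

namespace Fermat.Agent.S14

open NumberField
open scoped Pointwise

/-- CRC2'. Primes `r ≡ 1 mod p` split completely in `ℚ(ζ_p)`. -/
theorem cycSplit : Stmt_CycSplit := by
  intro p r K _ _ _ hp hr hrp q hq hrq
  have : Fact r.Prime := ⟨hr⟩
  have : NeZero p := ⟨hp.ne_zero⟩
  have := hq
  have hrZ : (Ideal.span {(r : ℤ)}).IsMaximal :=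
    ((Ideal.span_singleton_prime (by exact_mod_cast hr.ne_zero)).2
      (Nat.prime_iff_prime_int.mp hr)).isMaximal (by simpa using hr.ne_zero)
  have hlo : q.LiesOver (Ideal.span {(r : ℤ)}) := by
    constructor
    refine (hrZ.eq_of_le (Ideal.IsPrime.under ℤ q).ne_top ?_)
    rw [Ideal.span_singleton_le_iff_mem, Ideal.mem_comap]
    simpa using hrq
  have hnd : ¬ r ∣ p := by
    intro h
    have := (Nat.prime_dvd_prime_iff_eq hr hp).1 h
    subst this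
    simp [Nat.mod_self] at hrp
  have h1 := IsCyclotomicExtension.Rat.inertiaDeg_eq_of_not_dvd r K q hnd
  have h2 : orderOf (r : ZMod p) = 1 := by
    rw [orderOf_eq_one_iff]
    have : (r : ZMod p) = ((r % p : ℕ) : ZMod p) := by simp
    rw [this, hrp]
    simp
  have : q.IsMaximal := Ideal.IsMaximal.of_liesOver_isMaximal q (Ideal.span {(r : ℤ)})
  rw [Ideal.absNorm_eq_pow_inertiaDeg' q hr, Ideal.inertiaDeg'_eq_inertiaDeg, h1, h2, pow_one]

/-- the action of the Galois group on the ring of integers, on underlying elements. -/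
theorem CRC1_coe_smul {E M : Type} [Field E] [Field M] [Algebra E M] (φ : M ≃ₐ[E] M) (x : 𝓞 M) :
    ((φ • x : 𝓞 M) : M) = φ (x : M) :=
  algebraMap.coe_smul' φ x M

theorem CRC1_smul_algebraMap {E M : Type} [Field E] [Field M] [Algebra E M] (φ : M ≃ₐ[E] M)
    (x : 𝓞 E) : φ • (algebraMap (𝓞 E) (𝓞 M) x) = algebraMap (𝓞 E) (𝓞 M) x := by
  apply RingOfIntegers.ext
  rw [CRC1_coe_smul]
  have : ((algebraMap (𝓞 E) (𝓞 M) x : 𝓞 M) : M) = algebraMap E M (x : E) := rfl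
  rw [this, AlgEquiv.commutes]

/-- CRC1a. -/
theorem splitOfFrobFix (hD : Stmt_DegOne) : Stmt_SplitOfFrobFix := by
  intro K E M _ _ _ _ _ _ _ _ _ _ lam Q φ hlam hlam0 hQ hQl hφ
  have hP : (Q.under (𝓞 E)).IsPrime := Ideal.IsPrime.under (𝓞 E) Q
  have hPl : (Q.under (𝓞 E)).LiesOver lam := Ideal.LiesOver.tower_bot Q (Q.under (𝓞 E)) lam
  refine ⟨Q.under (𝓞 E), hP, hPl, ?_⟩
  apply ((hD K E lam (Q.under (𝓞 E)) hlam hlam0 hP hPl).1).1
  intro x
  rw [Ideal.mem_comap]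
  have := hφ (algebraMap (𝓞 E) (𝓞 M) x)
  rw [CRC1_smul_algebraMap] at this
  rw [map_sub, map_pow, ← neg_sub]
  exact Q.neg_mem this

/-- CRC1b. -/
theorem absNormPow (hF : Stmt_FrobExists) (hA : Stmt_PrimeAbove) : Stmt_AbsNormPow := by
  intro p r Ω M _ _ _ _ _ _ ζ hr hζ hw Q hQ hQ0 hrQ
  obtain ⟨P, hP, hP0, hPl⟩ := hA Ω M Q hQ hQ0
  obtain ⟨w, hwF⟩ := hF Ω M Q P hP hP0 hPl
  obtain ⟨a, ha, b, hb⟩ := hw w
  refine ⟨b, ?_⟩
  rw [hb]
  -- the integral root of unity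
  have hr0 : NeZero r := ⟨hr.ne_zero⟩
  let z : 𝓞 M := hζ.toInteger
  have hz : IsPrimitiveRoot z r := hζ.toInteger_isPrimitiveRoot
  have hFrob : IsArithFrobAt (𝓞 Ω) w P := by
    intro x
    have h1 : Nat.card (𝓞 Ω ⧸ P.under (𝓞 Ω)) = Ideal.absNorm Q := by
      rw [← hPl.over]
      rfl
    rw [h1]
    exact hwF x
  have hrP : ((r : ℕ) : 𝓞 M) ∉ P := by
    intro h
    apply hrQ
    rw [hPl.over, Ideal.mem_comap]
    simpa using h
  have h2 := hFrob.apply_of_pow_eq_one hz.pow_eq_one hrP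
  have h1 : Nat.card (𝓞 Ω ⧸ P.under (𝓞 Ω)) = Ideal.absNorm Q := by
    rw [← hPl.over]
    rfl
  rw [h1] at h2
  have h3 : w ζ = ζ ^ Ideal.absNorm Q := by
    have h5 : ((w • z : 𝓞 M) : M) = ((z ^ Ideal.absNorm Q : 𝓞 M) : M) :=
      congrArg (fun y : 𝓞 M => (y : M)) h2
    rw [CRC1_coe_smul] at h5
    have h6 : ((z ^ Ideal.absNorm Q : 𝓞 M) : M) = (z : M) ^ Ideal.absNorm Q :=
      map_pow (algebraMap (𝓞 M) M) z _
    rw [h6] at h5
    exact h5
  rw [ha] at h3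
  have hfin : IsOfFinOrder ζ := isOfFinOrder_iff_pow_eq_one.2 ⟨r, hr.pos, hζ.pow_eq_one⟩
  have h4 := hfin.pow_eq_pow_iff_modEq.1 h3
  rw [← hζ.eq_orderOf] at h4
  exact (ZMod.natCast_eq_natCast_iff _ _ _).2 h4

end Fermat.Agent.S14
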