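/-
S14, package DI-A: from a non-split admissible extension to the group theoretic data `GData`.
-/
import Fermat.Agent.S14.DIDefs
import Fermat.Prelude.Def_ExtCitation_KummerBridge

set_option autoImplicit false

namespace Fermat.Agent.S14

open Fermat.Agent.S54.Frob95 (GQ Zbar)
open ExtCitation

section Chi

variable (p : ℕ) [Fact p.Prime]

theorem dia_spec (σ : GQ) (ζ : Qb) (hζ : ζ ^ p = 1) : σ ζ = ζ ^ (cycloExp p σ) := by
  have : NeZero p := ⟨(Fact.out : p.Prime).ne_zero⟩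
  have hu : IsUnit ζ := IsUnit.of_pow_eq_one hζ (Fact.out : p.Prime).ne_zero
  obtain ⟨t, rfl⟩ := hu
  have ht : t ∈ rootsOfUnity p Qb := by
    rw [mem_rootsOfUnity]
    ext
    simpa using hζ
  have h := modularCyclotomicCharacter.spec (L := Qb) (card_rootsOfUnity_eq_self p)
    (σ : Qb ≃+* Qb) ht
  exact h

theorem dia_unique (σ : GQ) (a : ℕ) (h : ∀ ζ : Qb, ζ ^ p = 1 → σ ζ = ζ ^ a) :
    (a : ZMod p) = (cycloChar p σ : ZMod p) := by
  have : NeZero p := ⟨(Fact.out : p.Prime).ne_zero⟩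
  refine modularCyclotomicCharacter.unique (L := Qb) (card_rootsOfUnity_eq_self p)
    (σ : Qb ≃+* Qb) (c := (a : ZMod p)) ?_
  intro t ht
  have ht' : (t : Qb) ^ p = 1 := by
    rw [mem_rootsOfUnity] at ht
    have := congrArg (Units.val) ht
    simpa using this
  have h1 := h t ht'
  rw [ZMod.val_natCast, ← pow_eq_pow_mod a ht']
  exact h1

theorem dia_mem_cycH_iff (σ : GQ) : σ ∈ cycH p ↔ (cycloChar p σ : ZMod p) = 1 := by
  constructor
  · intro h
    have := dia_unique p σ 1 (fun ζ hζ => by rw [pow_one]; exact h ζ hζ)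
    rw [← this]; simp
  · intro h ζ hζ
    have h1 : cycloExp p σ = 1 := by
      rw [← val_cycloChar, h]
      have : Fact (1 < p) := ⟨(Fact.out : p.Prime).one_lt⟩
      exact ZMod.val_one p
    rw [dia_spec p σ ζ hζ, h1, pow_one]

/-- Some automorphism moves the `p`-th roots of unity (`p ≥ 3`). -/
theorem dia_exists_chi_ne_one (h3 : 3 ≤ p) : ∃ s : GQ, (cycloChar p s : ZMod p) ≠ 1 := by
  by_contra hcon
  push Not at hcon
  have : NeZero p := ⟨(Fact.out : p.Prime).ne_zero⟩
  have : NeZero (p : Qb) := ⟨Nat.cast_ne_zero.mpr (NeZero.ne p)⟩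
  obtain ⟨z, hz⟩ := HasEnoughRootsOfUnity.exists_primitiveRoot Qb p
  have hfix : ∀ σ : GQ, σ z = z := fun σ =>
    (dia_mem_cycH_iff p σ).2 (hcon σ) z hz.pow_eq_one
  obtain ⟨r, hr⟩ := (InfiniteGalois.mem_range_algebraMap_iff_fixed (k := ℚ) (K := Qb) z).2 hfix
  have hrp : r ^ p = 1 := by
    apply (algebraMap ℚ Qb).injective
    rw [map_pow, hr, hz.pow_eq_one, map_one]
  have hodd : Odd p := (Fact.out : p.Prime).odd_of_ne_two (by omega)
  have hr1 : r = 1 := by
    apply hodd.strictMono_pow.injective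
    simpa using hrp
  apply hz.ne_one (by omega)
  rw [← hr, hr1, map_one]

end Chi

section Main

variable {p : ℕ} [Fact p.Prime] {V : Type} [AddCommGroup V] [Module (ZMod p) V]
  [DistribMulAction (AlgebraicClosure ℚ ≃ₐ[ℚ] AlgebraicClosure ℚ) V]
  [SMulCommClass (AlgebraicClosure ℚ ≃ₐ[ℚ] AlgebraicClosure ℚ) (ZMod p) V]
  {C : Submodule (ZMod p) V}

/-- The kernel of the action on `V`. -/
noncomputable def dia_U (V : Type) [AddCommGroup V]
    [DistribMulAction (AlgebraicClosure ℚ ≃ₐ[ℚ] AlgebraicClosure ℚ) V] : Subgroup GQ :=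
  (MulAction.toPermHom GQ V).ker

omit [Fact p.Prime] [Module (ZMod p) V]
  [SMulCommClass (AlgebraicClosure ℚ ≃ₐ[ℚ] AlgebraicClosure ℚ) (ZMod p) V] in
theorem dia_mem_U {σ : GQ} : σ ∈ dia_U V ↔ ∀ v : V, σ • v = v := by
  rw [dia_U, MonoidHom.mem_ker, Equiv.ext_iff]
  rfl

theorem dia_quot (h : IsAdmissibleExtension p V C) (σ : GQ) (x : V) :
    σ • x - (cycloChar p σ : ZMod p) • x ∈ C := by
  rw [coe_cycloChar]
  exact h.cyclo_quot σ x

theorem dia_sub_mem (h : IsAdmissibleExtension p V C) {σ : GQ} (hσ : σ ∈ cycH p) (x : V) :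
    σ • x - x ∈ C := by
  have := dia_quot h σ x
  rwa [(dia_mem_cycH_iff p σ).1 hσ, one_smul] at this

theorem dia_exists_not_mem (h : IsAdmissibleExtension p V C) : ∃ x0 : V, x0 ∉ C := by
  by_contra hcon
  push Not at hcon
  have htop : C = ⊤ := by
    rw [eq_top_iff]
    exact fun x _ => hcon x
  have h1 := h.card_sub
  rw [htop, Nat.card_congr (Submodule.topEquiv (R := ZMod p) (M := V)).toEquiv, h.card_total] at h1
  have hp := (Fact.out : p.Prime).two_le
  nlinarith

theorem dia_decomp (h : IsAdmissibleExtension p V C) {x0 : V} (hx0 : x0 ∉ C) (v : V) :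
    ∃ c ∈ C, ∃ a : ZMod p, v = c + a • x0 := by
  have hp := (Fact.out : p.Prime)
  have : Finite V := Nat.finite_of_card_ne_zero (by rw [h.card_total]; exact pow_ne_zero _ hp.ne_zero)
  have : Module.Finite (ZMod p) V := Module.Finite.of_finite
  have hV : Module.finrank (ZMod p) V = 2 := by
    have h1 := Module.natCard_eq_pow_finrank (K := ZMod p) (V := V)
    rw [h.card_total, Nat.card_zmod] at h1
    exact (Nat.pow_right_injective hp.two_le h1).symm
  have hC : Module.finrank (ZMod p) C = 1 := by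
    have h1 := Module.natCard_eq_pow_finrank (K := ZMod p) (V := C)
    rw [h.card_sub, Nat.card_zmod] at h1
    exact (Nat.pow_right_injective hp.two_le (by simpa using h1)).symm
  have hlt : C < C ⊔ Submodule.span (ZMod p) {x0} := by
    refine lt_of_le_of_ne le_sup_left ?_
    intro heq
    apply hx0
    rw [heq]
    exact Submodule.mem_sup_right (Submodule.mem_span_singleton_self x0)
  have h2 := Submodule.finrank_lt_finrank_of_lt hlt
  have h3 := Submodule.finrank_le (C ⊔ Submodule.span (ZMod p) {x0})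
  have htop : C ⊔ Submodule.span (ZMod p) {x0} = ⊤ :=
    Submodule.eq_top_of_finrank_eq (by omega)
  have hv : v ∈ C ⊔ Submodule.span (ZMod p) {x0} := by rw [htop]; trivial
  obtain ⟨c, hc, y, hy, rfl⟩ := Submodule.mem_sup.1 hv
  obtain ⟨a, rfl⟩ := Submodule.mem_span_singleton.1 hy
  exact ⟨c, hc, a, rfl⟩

theorem dia_U_le (h : IsAdmissibleExtension p V C) : dia_U V ≤ cycH p := by
  intro σ hσ
  obtain ⟨x0, hx0⟩ := dia_exists_not_mem h
  rw [dia_mem_cycH_iff]
  by_contra hne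
  have h1 := dia_quot h σ x0
  rw [dia_mem_U.1 hσ x0] at h1
  have h2 : ((1 : ZMod p) - (cycloChar p σ : ZMod p)) • x0 ∈ C := by
    rw [sub_smul, one_smul]; exact h1
  have hu : (1 : ZMod p) - (cycloChar p σ : ZMod p) ≠ 0 := sub_ne_zero.2 (Ne.symm hne)
  apply hx0
  have h3 := C.smul_mem ((1 : ZMod p) - (cycloChar p σ : ZMod p))⁻¹ h2
  rwa [smul_smul, inv_mul_cancel₀ hu, one_smul] at h3

/-- An element fixing `x0 ∉ C` acts trivially. -/
theorem dia_mem_U_of_fix (h : IsAdmissibleExtension p V C) {x0 : V} (hx0 : x0 ∉ C) {σ : GQ}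
    (hσ : σ • x0 = x0) : σ ∈ dia_U V := by
  rw [dia_mem_U]
  intro v
  obtain ⟨c, hc, a, rfl⟩ := dia_decomp h hx0 v
  rw [smul_add, h.fixed_sub σ c hc, smul_comm, hσ]

/-- The homomorphism `β : G_K → C`. -/
noncomputable def dia_beta (h : IsAdmissibleExtension p V C) (x0 : V) : cycH p →* Multiplicative C where
  toFun σ := Multiplicative.ofAdd ⟨(σ : GQ) • x0 - x0, dia_sub_mem h σ.2 x0⟩
  map_one' := by
    rw [← ofAdd_zero]
    congr 1
    apply Subtype.ext
    simp
  map_mul' σ τ := by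
    rw [← ofAdd_add]
    congr 1
    apply Subtype.ext
    have h1 : (σ : GQ) • ((τ : GQ) • x0 - x0) = (τ : GQ) • x0 - x0 :=
      h.fixed_sub σ _ (dia_sub_mem h τ.2 x0)
    rw [smul_sub] at h1
    simp only [Subgroup.coe_mul, mul_smul, AddMemClass.mk_add_mk]
    rw [← sub_add_sub_cancel _ ((σ : GQ) • x0) x0, h1]
    abel

theorem dia_ker_beta (h : IsAdmissibleExtension p V C) {x0 : V} (hx0 : x0 ∉ C) :
    (dia_beta h x0).ker = (dia_U V).subgroupOf (cycH p) := by
  ext σ
  rw [MonoidHom.mem_ker, Subgroup.mem_subgroupOf]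
  constructor
  · intro h1
    apply dia_mem_U_of_fix h hx0
    have h2 : (⟨(σ : GQ) • x0 - x0, dia_sub_mem h σ.2 x0⟩ : C) = 0 := by
      exact Multiplicative.ofAdd.injective h1
    have h3 := congrArg Subtype.val h2
    exact sub_eq_zero.1 h3
  · intro h1
    show Multiplicative.ofAdd _ = _
    rw [← ofAdd_zero]
    congr 1
    apply Subtype.ext
    show (σ : GQ) • x0 - x0 = 0
    rw [dia_mem_U.1 h1 x0, sub_self]

theorem dia_relIndex_dvd (h : IsAdmissibleExtension p V C) : (dia_U V).relIndex (cycH p) ∣ p := by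
  obtain ⟨x0, hx0⟩ := dia_exists_not_mem h
  rw [Subgroup.relIndex, ← dia_ker_beta h hx0, Subgroup.index_ker]
  have h1 := Subgroup.card_subgroup_dvd_card (dia_beta h x0).range
  rwa [Nat.card_congr Multiplicative.toAdd, h.card_sub] at h1

/-- If `G_K` acts trivially then the extension splits. -/
theorem dia_splits (h3 : 3 ≤ p) (h : IsAdmissibleExtension p V C) (hle : cycH p ≤ dia_U V) :
    SplitsGlobally C := by
  obtain ⟨s0, hs0⟩ := dia_exists_chi_ne_one p h3
  set χ0 : ZMod p := (cycloChar p s0 : ZMod p) with hχ0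
  have hu : (1 : ZMod p) - χ0 ≠ 0 := sub_ne_zero.2 (Ne.symm hs0)
  let C' : Submodule (ZMod p) V :=
    { carrier := {x | s0 • x = χ0 • x}
      add_mem' := by
        intro a b ha hb
        simp only [Set.mem_ofPred_eq] at *
        rw [smul_add, ha, hb, smul_add]
      zero_mem' := by simp
      smul_mem' := by
        intro c x hx
        simp only [Set.mem_ofPred_eq] at *
        rw [smul_comm, hx, smul_comm] }
  have hmem : ∀ x, x ∈ C' ↔ s0 • x = χ0 • x := fun x => Iff.rfl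
  refine ⟨C', ?_, ?_⟩
  · intro σ x hx
    rw [hmem] at hx ⊢
    have hcomm : σ⁻¹ * s0⁻¹ * σ * s0 ∈ cycH p := by
      rw [dia_mem_cycH_iff]
      have : cycloChar p (σ⁻¹ * s0⁻¹ * σ * s0) = 1 := by
        simp only [map_mul, map_inv]
        rw [mul_comm (cycloChar p σ)⁻¹, mul_assoc, mul_assoc, ← mul_assoc (cycloChar p σ)⁻¹]
        simp
      rw [this]; simp
    have h1 := dia_mem_U.1 (hle hcomm) x
    have h2 : σ • s0 • x = s0 • σ • x := by
      have := congrArg (fun y => s0 • σ • y) h1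
      simpa [mul_smul] using this
    rw [← h2, hx, smul_comm]
  · rw [isCompl_iff]
    constructor
    · rw [Submodule.disjoint_def]
      intro x hxC hxC'
      rw [hmem, h.fixed_sub s0 x hxC] at hxC'
      have h1 : ((1 : ZMod p) - χ0) • x = 0 := by
        rw [sub_smul, one_smul, ← hxC', sub_self]
      exact (smul_eq_zero.1 h1).resolve_left hu
    · rw [codisjoint_iff, eq_top_iff]
      intro x _
      have hc : s0 • x - χ0 • x ∈ C := dia_quot h s0 x
      obtain ⟨c, hcdef⟩ : ∃ c, c = s0 • x - χ0 • x := ⟨_, rfl⟩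
      rw [← hcdef] at hc
      have hx : x = ((1 : ZMod p) - χ0)⁻¹ • c + (x - ((1 : ZMod p) - χ0)⁻¹ • c) := by abel
      rw [hx]
      refine Submodule.add_mem_sup (C.smul_mem _ hc) ?_
      rw [hmem, smul_sub, smul_sub, smul_comm s0, h.fixed_sub s0 c hc]
      have h1 : s0 • x = χ0 • x + c := by rw [hcdef]; abel
      rw [h1]
      have h2 : c = ((1 : ZMod p) - χ0) • (((1 : ZMod p) - χ0)⁻¹ • c) := by
        rw [smul_smul, mul_inv_cancel₀ hu, one_smul]
      obtain ⟨d, hd⟩ : ∃ d, d = ((1 : ZMod p) - χ0)⁻¹ • c := ⟨_, rfl⟩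
      rw [← hd] at h2 ⊢
      rw [h2, sub_smul, one_smul]
      abel

theorem dia_pow_smul (h : IsAdmissibleExtension p V C) {σ : GQ} (hσ : σ ∈ cycH p) (a : ℕ) (x : V) :
    (σ ^ a) • x = x + a • (σ • x - x) := by
  induction a with
  | zero => simp
  | succ n ih =>
    rw [pow_succ', mul_smul, ih, smul_add, smul_comm σ n, h.fixed_sub σ _ (dia_sub_mem h hσ x),
      succ_nsmul]
    abel

theorem dia_conj (h : IsAdmissibleExtension p V C) (g σ : GQ) (a : ℕ) (hσ : σ ∈ cycH p)
    (hg : ∀ ζ : Qb, ζ ^ p = 1 → g ζ = ζ ^ a) : g * σ ^ a * g⁻¹ * σ⁻¹ ∈ dia_U V := by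
  have ha : (a : ZMod p) = (cycloChar p g : ZMod p) := dia_unique p g a hg
  have key : ∀ y : V, (g * σ ^ a * g⁻¹) • y = σ • y := by
    intro y
    obtain ⟨c, hc⟩ : ∃ c, c = g⁻¹ • y - (cycloChar p g⁻¹ : ZMod p) • y := ⟨_, rfl⟩
    have hcC : c ∈ C := by rw [hc]; exact dia_quot h g⁻¹ y
    have hy' : g⁻¹ • y = (cycloChar p g⁻¹ : ZMod p) • y + c := by rw [hc]; abel
    have hδ : σ • (g⁻¹ • y) - g⁻¹ • y = (cycloChar p g⁻¹ : ZMod p) • (σ • y - y) := by
      rw [hy', smul_add, h.fixed_sub σ c hcC, smul_comm σ, smul_sub]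
      abel
    have hmemC : σ • y - y ∈ C := dia_sub_mem h hσ y
    rw [mul_smul, mul_smul, dia_pow_smul h hσ, hδ, smul_add, smul_inv_smul,
      ← Nat.cast_smul_eq_nsmul (ZMod p) a, smul_smul, ha]
    have h1 : (cycloChar p g : ZMod p) * (cycloChar p g⁻¹ : ZMod p) = 1 := by
      rw [map_inv, Units.mul_inv]
    rw [h1, one_smul, h.fixed_sub g _ hmemC]
    abel
  rw [dia_mem_U]
  intro v
  rw [mul_smul, key, smul_inv_smul]

theorem dia_inertia (h : IsAdmissibleExtension p V C) (A : ValuationSubring Qb) (l : ℕ)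
    (hl : l.Prime) (hA : A.LiesOverPrime l) (σ : GQ) (hσ : σ ∈ A.inertiaSubgroupIn ℚ)
    (hσH : σ ∈ cycH p) : σ ∈ dia_U V := by
  rw [dia_mem_U]
  by_cases hlp : l = p
  · subst hlp
    obtain ⟨C', hstab, hcompl⟩ := h.locally_split A hA
    have hdec : σ ∈ A.decompositionSubgroup ℚ := by
      obtain ⟨τ, _, rfl⟩ := Subgroup.mem_map.1 hσ
      exact τ.2
    intro v
    have hv : v ∈ C ⊔ C' := by rw [hcompl.sup_eq_top]; trivial
    obtain ⟨c, hc, c', hc', rfl⟩ := Submodule.mem_sup.1 hv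
    have h1 : σ • c' - c' ∈ C := dia_sub_mem h hσH c'
    have h2 : σ • c' - c' ∈ C' := C'.sub_mem (hstab σ hdec c' hc') hc'
    have h3 : σ • c' - c' = 0 := (Submodule.disjoint_def.1 hcompl.disjoint) _ h1 h2
    rw [smul_add, h.fixed_sub σ c hc, sub_eq_zero.1 h3]
  · exact h.unramified_outside l hl hlp A hA σ hσ

end Main

theorem stmt_DIA : Stmt_DIA := by
  intro p _ h3 V _ _ _ _ C hadm hns
  have h := hadm.toIsAdmissibleExtension
  refine ⟨dia_U V, ?_, ?_, dia_U_le h, ?_, ?_, ?_⟩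
  · have : ((dia_U V : Subgroup GQ) : Set GQ) = {σ : GQ | ∀ v : V, σ • v = v} := by
      ext σ
      exact dia_mem_U
    rw [this]
    exact hadm.open_kernel
  · exact MonoidHom.normal_ker _
  · rcases (Nat.dvd_prime (Fact.out : p.Prime)).1 (dia_relIndex_dvd h) with h1 | h1
    · exact absurd (dia_splits h3 h (Subgroup.relIndex_eq_one.1 h1)) hns
    · exact h1
  · intro g σ a hσ hg
    exact dia_conj h g σ a hσ hg
  · intro A l hl hA σ hσ hσH
    exact dia_inertia h A l hl hA σ hσ hσH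

end Fermat.Agent.S14
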