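/-
S14, package DI-B: Galois theory.  `GData p U` (group level data) gives the number fields `K ⊆ L`.
-/
import Fermat.Agent.S14.DIDefs

set_option autoImplicit false
set_option linter.unusedSectionVars false

namespace Fermat.Agent.S14

open Fermat.Agent.S54.Frob95 (GQ Zbar)
open NumberField IntermediateField

noncomputable section

section Generic

variable {k Ω : Type} [Field k] [Field Ω] [Algebra k Ω] [IsGalois k Ω]

theorem dib_exists_field {U : Subgroup (Ω ≃ₐ[k] Ω)} (hUo : IsOpen (U : Set (Ω ≃ₐ[k] Ω)))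
    (hUn : U.Normal) : ∃ L : IntermediateField k Ω, L.fixingSubgroup = U ∧
      FiniteDimensional k L ∧ IsGalois k L := by
  have h : (fixedField U).fixingSubgroup = U :=
    InfiniteGalois.fixingSubgroup_fixedField ⟨U, Subgroup.isClosed_of_isOpen U hUo⟩
  refine ⟨fixedField U, h, ?_, ?_⟩
  · rw [← InfiniteGalois.isOpen_iff_finite, h]
    exact hUo
  · rw [← InfiniteGalois.normal_iff_isGalois, h]
    exact hUn

variable (L : IntermediateField k Ω) [FiniteDimensional k L] [IsGalois k L]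

/-- `k(z)` as an intermediate field of `L / k` (generic `k`: this fixes the algebra instances). -/
abbrev dibK (z : L) : IntermediateField k L := adjoin k {z}

/-- Every `k`-automorphism of `L` lifts. -/
theorem dib_exists_lift (g : L ≃ₐ[k] L) :
    ∃ σ : Ω ≃ₐ[k] Ω, ∀ x : L, σ (x : Ω) = (g x : Ω) := by
  obtain ⟨σ, rfl⟩ := AlgEquiv.restrictNormalHom_surjective (F := k) (K₁ := L) Ω g
  exact ⟨σ, fun x => (AlgEquiv.restrictNormal_commutes σ L x).symm⟩

theorem dib_finrank (z : L) :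
    Module.finrank (adjoin k {z}) L =
      L.fixingSubgroup.relIndex (MulAction.stabilizer (Ω ≃ₐ[k] Ω) (z : Ω)) := by
  rw [← IsGalois.card_fixingSubgroup_eq_finrank]
  set res := AlgEquiv.restrictNormalHom (F := k) (K₁ := Ω) L with hres
  have hsurj : Function.Surjective res := AlgEquiv.restrictNormalHom_surjective Ω
  have hker : res.ker = L.fixingSubgroup := IntermediateField.restrictNormalHom_ker L
  have hcomap : (adjoin k {z}).fixingSubgroup.comap res =
      MulAction.stabilizer (Ω ≃ₐ[k] Ω) (z : Ω) := by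
    ext σ
    rw [Subgroup.mem_comap, MulAction.mem_stabilizer_iff, IntermediateField.mem_fixingSubgroup_iff]
    have hc : ((res σ z : L) : Ω) = σ (z : Ω) := AlgEquiv.restrictNormal_commutes σ L z
    constructor
    · intro h
      have h1 := h z (mem_adjoin_simple_self k z)
      show σ (z : Ω) = z
      rw [← hc]
      exact congrArg Subtype.val h1
    · intro h
      have hz : res σ z = z := Subtype.ext (hc.trans h)
      have hle : adjoin k {z} ≤ fixedField (Subgroup.zpowers (res σ)) := by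
        rw [adjoin_simple_le_iff, IntermediateField.mem_fixedField_iff]
        intro f hf
        obtain ⟨n, rfl⟩ := Subgroup.mem_zpowers_iff.mp hf
        have : res σ ∈ MulAction.stabilizer (L ≃ₐ[k] L) z := hz
        exact (MulAction.stabilizer (L ≃ₐ[k] L) z).zpow_mem this n
      intro x hx
      exact (IntermediateField.mem_fixedField_iff _ _).mp (hle hx) _ (Subgroup.mem_zpowers _)
  rw [← hcomap, ← hker, ← MonoidHom.comap_bot, Subgroup.relIndex_comap,
    Subgroup.map_comap_eq_self_of_surjective hsurj, Subgroup.relIndex_bot_left]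

/-- Every `k(z)`-automorphism of `L` lifts to an automorphism fixing `z`. -/
theorem dib_exists_lift' (z : L) (h : L ≃ₐ[adjoin k {z}] L) :
    ∃ σ : Ω ≃ₐ[k] Ω, σ (z : Ω) = z ∧ ∀ x : L, σ (x : Ω) = (h x : Ω) := by
  obtain ⟨σ, hσ⟩ := dib_exists_lift L (h.restrictScalars k)
  refine ⟨σ, ?_, hσ⟩
  rw [hσ z]
  have := h.commutes ⟨z, mem_adjoin_simple_self k z⟩
  exact congrArg Subtype.val this

theorem dib_unram (z : L) [NumberField L]
    (hlift : ∀ (V : ValuationSubring Ω) (σ₀ : Ω ≃ₐ[k] Ω),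
      (∃ n : ℕ, n ≠ 0 ∧ (n : Ω) ∈ V.nonunits) → σ₀ (z : Ω) = z →
      (∀ b : Ω, IsIntegral ℤ b → b ∈ L → σ₀ b - b ∈ V.nonunits) → σ₀ ∈ L.fixingSubgroup) :
    TrivialInertia (adjoin k {z}) L := by
  intro P hP h hh
  let φ : 𝓞 L →+* Ω := (algebraMap L Ω).comp (algebraMap (𝓞 L) L)
  have hφinj : Function.Injective φ :=
    (algebraMap L Ω).injective.comp RingOfIntegers.coe_injective
  let A : Subring Ω := φ.range
  let I : Ideal A := P.map φ.rangeRestrict
  have hI : I ≠ ⊤ := by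
    intro hI
    have h1 : (1 : A) ∈ I := hI ▸ Submodule.mem_top
    obtain ⟨x, hx, hx1⟩ := (Ideal.mem_map_iff_of_surjective _ φ.rangeRestrict_surjective).mp h1
    have hx1' : φ x = φ 1 := by
      rw [map_one]
      exact congrArg Subtype.val hx1
    have : x = 1 := hφinj hx1'
    exact hP.ne_top ((Ideal.eq_top_iff_one P).mpr (this ▸ hx))
  obtain ⟨V, -, hV⟩ := Ideal.image_subset_nonunits_valuationSubring I hI
  have hPV : ∀ x ∈ P, φ x ∈ V.nonunits :=
    fun x hx => hV ⟨φ.rangeRestrict x, Ideal.mem_map_of_mem _ hx, rfl⟩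
  obtain ⟨σ₀, hσz, hσ⟩ := dib_exists_lift' L z h
  have hfix : σ₀ ∈ L.fixingSubgroup := by
    refine hlift V σ₀ ⟨Ideal.absNorm P, ?_, ?_⟩ hσz ?_
    · rw [Ne, Ideal.absNorm_eq_zero_iff]
      exact Ring.ne_bot_of_isMaximal_of_not_isField hP (RingOfIntegers.not_isField L)
    · have := hPV _ (Ideal.absNorm_mem P)
      simpa using this
    · intro b hb hbL
      have hb' : IsIntegral ℤ (⟨b, hbL⟩ : L) :=
        (isIntegral_algebraMap_iff (algebraMap L Ω).injective).mp hb
      let x : 𝓞 L := ⟨⟨b, hbL⟩, hb'⟩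
      have h1 := hPV _ (hh x)
      have h2 : φ (h • x - x) = σ₀ b - b := by
        rw [map_sub]
        congr 1
        exact (hσ ⟨b, hbL⟩).symm
      rwa [h2] at h1
  ext x
  have h1 := hσ x
  rw [(IntermediateField.mem_fixingSubgroup_iff L σ₀).mp hfix x x.2] at h1
  exact h1.symm

theorem dib_pow_apply (z : L) (h : L ≃ₐ[adjoin k {z}] L) (σ : Ω ≃ₐ[k] Ω)
    (hσ : ∀ x : L, σ (x : Ω) = (h x : Ω)) (a : ℕ) (x : L) :
    (σ ^ a) (x : Ω) = ((h ^ a) x : Ω) := by
  induction a generalizing x with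
  | zero => rfl
  | succ n ih =>
    rw [pow_succ, pow_succ, AlgEquiv.mul_apply, AlgEquiv.mul_apply, hσ, ih]

theorem dib_conj (z : L) (g : L ≃ₐ[k] L) (h : L ≃ₐ[adjoin k {z}] L) (a : ℕ)
    (hconj : ∀ g' h' : Ω ≃ₐ[k] Ω, h' (z : Ω) = z → g' (z : Ω) = (z : Ω) ^ a →
      g' * h' ^ a * g'⁻¹ * h'⁻¹ ∈ L.fixingSubgroup)
    (hg : g z = z ^ a) (x : L) : g ((h ^ a) (g.symm x)) = h x := by
  obtain ⟨g', hg'⟩ := dib_exists_lift L g
  obtain ⟨h', hh'z, hh'⟩ := dib_exists_lift' L z h
  have hgz : g' (z : Ω) = (z : Ω) ^ a := by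
    rw [hg' z, hg]
    rfl
  have hw := (IntermediateField.mem_fixingSubgroup_iff L _).mp (hconj g' h' hh'z hgz)
    (h x : Ω) (h x).2
  apply Subtype.ext
  rw [← hg', ← dib_pow_apply L z h h' hh']
  have h1 : g'⁻¹ (x : Ω) = (g.symm x : Ω) := by
    show g'.symm (x : Ω) = _
    rw [AlgEquiv.symm_apply_eq, hg', AlgEquiv.apply_symm_apply]
  have h2 : h'⁻¹ (h x : Ω) = (x : Ω) := by
    show h'.symm (h x : Ω) = _
    rw [AlgEquiv.symm_apply_eq, hh']
  rw [← h1]
  have h3 : (g' * h' ^ a * g'⁻¹ * h'⁻¹) (h x : Ω) = g' ((h' ^ a) (g'⁻¹ (x : Ω))) := by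
    rw [AlgEquiv.mul_apply, AlgEquiv.mul_apply, AlgEquiv.mul_apply, h2]
  rw [← h3]
  exact hw

end Generic

/-! ### Changing the `ℚ`-algebra instances -/

theorem dib_numberField (L : Type) [Field L] [CharZero L] [iL : Algebra ℚ L]
    [FiniteDimensional ℚ L] : NumberField L := by
  obtain rfl : iL = DivisionRing.toRatAlgebra := Subsingleton.elim _ _
  exact {}

theorem dib_nfdata_mk (p : ℕ) (K L : Type) [Field K] [NumberField K] [Field L] [NumberField L]
    [Algebra K L] [iK : Algebra ℚ K] [iL : Algebra ℚ L]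
    (prime : p.Prime) (odd : p ≠ 2) (cyc : IsCyclotomicExtension {p} ℚ K)
    (galQ : IsGalois ℚ L) (deg : Module.finrank K L = p) (unram : TrivialInertia K L)
    (conj : ∀ (g : L ≃ₐ[ℚ] L) (h : L ≃ₐ[K] L) (ζ : K) (a : ℕ), IsPrimitiveRoot ζ p →
      g (algebraMap K L ζ) = algebraMap K L ζ ^ a → ∀ x : L, g ((h ^ a) (g.symm x)) = h x) :
    NFData p K L := by
  obtain rfl : iK = DivisionRing.toRatAlgebra := Subsingleton.elim _ _
  obtain rfl : iL = DivisionRing.toRatAlgebra := Subsingleton.elim _ _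
  exact ⟨prime, odd, cyc, galQ, deg, unram, conj⟩

/-! ### Valuation subrings -/

theorem dib_exists_prime (V : ValuationSubring Qb) (n : ℕ) :
    n ≠ 0 → (n : Qb) ∈ V.nonunits → ∃ l : ℕ, l.Prime ∧ V.LiesOverPrime l := by
  induction n using induction_on_primes with
  | zero => intro h; exact absurd rfl h
  | one =>
    intro _ h
    rw [ValuationSubring.mem_nonunits_iff] at h
    simp at h
  | prime_mul q a hq ih =>
    intro h0 h
    by_cases hqV : (q : Qb) ∈ V.nonunits
    · exact ⟨q, hq, hqV⟩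
    · refine ih (fun ha => h0 (by rw [ha, mul_zero])) ?_
      have hq1 : V.valuation (q : Qb) = 1 :=
        Fermat.Agent.S54.Frob95.val_eq_one V (natCast_mem V q) hqV
      rw [ValuationSubring.mem_nonunits_iff] at h ⊢
      rwa [Nat.cast_mul, map_mul, hq1, one_mul] at h

/-! ### The final assembly -/

theorem dib_mem_cycH {p : ℕ} {ζ : Qb} (hζ : IsPrimitiveRoot ζ p) (hp : 0 < p) {σ : GQ} :
    σ ∈ cycH p ↔ σ ζ = ζ := by
  constructor
  · intro h
    exact h ζ hζ.pow_eq_one
  · intro h ξ hξ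
    have : NeZero p := ⟨hp.ne'⟩
    obtain ⟨i, -, rfl⟩ := hζ.eq_pow_of_pow_eq_one hξ
    rw [map_pow, h]

theorem stmt_DIB : Stmt_DIB := by
  intro hC p hp hp2 U hU
  obtain ⟨L, hLU, hfd, hgal⟩ := dib_exists_field (k := ℚ) (Ω := Qb) hU.isOpen hU.normal
  have : NeZero p := ⟨hp.ne_zero⟩
  obtain ⟨ζ, hζ⟩ : ∃ ζ : Qb, IsPrimitiveRoot ζ p :=
    HasEnoughRootsOfUnity.exists_primitiveRoot Qb p
  have hζL : ζ ∈ L := by
    rw [← InfiniteGalois.fixedField_fixingSubgroup L, hLU, IntermediateField.mem_fixedField_iff]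
    intro u hu
    exact hU.le hu ζ hζ.pow_eq_one
  let z : L := ⟨ζ, hζL⟩
  have hz : IsPrimitiveRoot z p :=
    IsPrimitiveRoot.of_map_of_injective (f := algebraMap L Qb) hζ (algebraMap L Qb).injective
  have hNL : NumberField L := @dib_numberField L _ _ (IntermediateField.algebra' L) hfd
  have hNK : NumberField (dibK L z) :=
    @dib_numberField (dibK L z) _ _ (IntermediateField.algebra' _) inferInstance
  refine ⟨dibK L z, L, inferInstance, hNK, inferInstance, hNL, inferInstance, ?_⟩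
  refine @dib_nfdata_mk p (dibK L z) L _ _ _ _ _ (IntermediateField.algebra' _)
    (IntermediateField.algebra' L) hp hp2 ?_ hgal ?_ ?_ ?_
  · exact hz.intermediateField_adjoin_isCyclotomicExtension ℚ
  · rw [dib_finrank L z, hLU]
    have hst : MulAction.stabilizer GQ (z : Qb) = cycH p := by
      ext σ
      rw [MulAction.mem_stabilizer_iff, dib_mem_cycH hζ hp.pos]
      rfl
    rw [hst]
    exact hU.relIndex
  · refine dib_unram L z ?_
    rintro V σ₀ ⟨n, hn0, hn⟩ hσz hb
    obtain ⟨l, hl, hVl⟩ := dib_exists_prime V n hn0 hn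
    obtain ⟨u, hu, huσ⟩ := hC U hU.isOpen hU.normal V l hl hVl σ₀ (fun b hbi hbU => hb b hbi (by
      rw [← InfiniteGalois.fixedField_fixingSubgroup L, hLU,
        IntermediateField.mem_fixedField_iff]
      exact hbU))
    have h1 : u * σ₀ ∈ U := hU.inertia V l hl hVl _ huσ
      ((cycH p).mul_mem (hU.le hu) ((dib_mem_cycH hζ hp.pos).mpr hσz))
    rw [hLU]
    have h2 := U.mul_mem (U.inv_mem hu) h1
    rwa [inv_mul_cancel_left] at h2
  · intro g h ζ' a hζ' hg x
    have hζ'L : IsPrimitiveRoot (algebraMap (dibK L z) L ζ') p :=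
      hζ'.map_of_injective (algebraMap (dibK L z) L).injective
    obtain ⟨i, -, hi⟩ := hζ'L.eq_pow_of_pow_eq_one hz.pow_eq_one
    have hgz : g z = z ^ a := by
      rw [← hi, map_pow, hg, ← pow_mul, ← pow_mul, mul_comm]
    refine dib_conj L z g h a ?_ hgz x
    intro g' h' hh' hg'
    rw [hLU]
    refine hU.conj g' h' a ((dib_mem_cycH hζ hp.pos).mpr hh') ?_
    intro ξ hξ
    obtain ⟨j, -, rfl⟩ := hζ.eq_pow_of_pow_eq_one hξ
    rw [map_pow, hg', ← pow_mul, ← pow_mul, mul_comm]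

end

end Fermat.Agent.S14
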