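/-
S14, package DI: the dictionary (assembly of DI-A, DI-B, DI-C).
-/
import Fermat.Agent.S14.DIA
import Fermat.Agent.S14.DIB
import Fermat.Agent.S14.DIC

set_option autoImplicit false

namespace Fermat.Agent.S14

theorem stmt_DI : Stmt_DI := stmt_DI_of stmt_DIA stmt_DIB stmt_DIC

end Fermat.Agent.S14
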