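/-
S14 team, package FR4: inert primes have degree one.
-/
import Fermat.Agent.S14.Interface2

set_option autoImplicit false
set_option linter.unusedSectionVars false
set_option linter.style.haveILetI false

namespace Fermat.Agent.S14

open NumberField
open scoped Pointwise

section FR4

variable {L : Type} [Field L] [NumberField L]

/-- coercion of the Galois action on the ring of integers -/
theorem FR4_coe_smul {F : Type} [Field F] [Algebra F L] (g : L ≃ₐ[F] L) (x : 𝓞 L) :
    ((g • x : 𝓞 L) : L) = g (x : L) := rfl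

/-- iterating a congruence `h x ≡ x ^ N` -/
theorem FR4_pow_congr {F : Type} [Field F] [Algebra F L] (P : Ideal (𝓞 L)) (h : L ≃ₐ[F] L) (N : ℕ)
    (hfr : ∀ x : 𝓞 L, h • x - x ^ N ∈ P) (j : ℕ) (x : 𝓞 L) : (h ^ j) • x - x ^ (N ^ j) ∈ P := by
  induction j with
  | zero => simp
  | succ j ih =>
    have h1 : (h ^ (j + 1)) • x = h • ((h ^ j) • x) := by
      rw [pow_succ', mul_smul]
    have h2 : ((h ^ j) • x) ^ N - (x ^ (N ^ j)) ^ N ∈ P :=
      Ideal.mem_of_dvd P (sub_dvd_pow_sub_pow _ _ N) ih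
    have h3 := hfr ((h ^ j) • x)
    have h4 : (h ^ (j + 1)) • x - x ^ (N ^ (j + 1)) =
        (h • ((h ^ j) • x) - ((h ^ j) • x) ^ N) + (((h ^ j) • x) ^ N - (x ^ (N ^ j)) ^ N) := by
      rw [h1, pow_succ N j, pow_mul]; ring
    rw [h4]
    exact P.add_mem h3 h2

/-- a finite field all of whose elements satisfy `a ^ l = a`, of characteristic `l`, has `l`
elements -/
theorem FR4_card_eq {k : Type} [Field k] [Finite k] (l : ℕ) (hl : l.Prime) (h0 : (l : k) = 0)
    (hpow : ∀ a : k, a ^ l = a) : Nat.card k = l := by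
  classical
  have := Fintype.ofFinite k
  haveI : CharP k l := by
    have h1 : ringChar k ∣ l := ringChar.dvd h0
    rcases (Nat.dvd_prime hl).1 h1 with h2 | h2
    · exact absurd h2 (CharP.ringChar_ne_one)
    · exact ringChar.of_eq h2
  obtain ⟨n, -, hn⟩ := FiniteField.card k l
  rw [← Nat.card_eq_fintype_card] at hn
  obtain ⟨g, hg⟩ := IsCyclic.exists_generator (α := kˣ)
  have h1 : g ^ (l - 1) = 1 := by
    have h2 : (g : k) ^ l = g := hpow g
    have h3 : (g : k) ^ (l - 1) * g = g := by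
      rw [← pow_succ, Nat.sub_add_cancel hl.one_le, h2]
    ext
    push_cast
    exact mul_right_cancel₀ g.ne_zero (by rw [h3, one_mul])
  have h2 : orderOf g = Nat.card kˣ := orderOf_eq_card_of_forall_mem_zpowers hg
  have h3 : Nat.card k - 1 ∣ l - 1 := by
    rw [← Nat.card_units, ← h2]
    exact orderOf_dvd_of_pow_eq_one h1
  have h4 : Nat.card k - 1 ≤ l - 1 := Nat.le_of_dvd (Nat.sub_pos_of_lt hl.one_lt) h3
  have h5 : l ≤ Nat.card k := by
    rw [hn]
    calc l = l ^ 1 := (pow_one l).symm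
      _ ≤ l ^ (n : ℕ) := Nat.pow_le_pow_right hl.pos n.pos
  have h6 := hl.pos
  omega

end FR4

theorem inertDegOne : Stmt_InertDegOne := by
  intro p K L _ _ _ _ _ hd lam h hlam hlam0 hp hfrob hne
  obtain ⟨P, hP, hPl, hfr⟩ := hfrob
  haveI := hd.galQ
  haveI := hd.cyc
  haveI : NeZero p := ⟨hd.prime.ne_zero⟩
  haveI : IsGalois K L := IsGalois.tower_top_of_isGalois ℚ K L
  set N := Ideal.absNorm lam with hN
  -- `P` is nonzero, with finite residue field
  have hP0 : P ≠ ⊥ := by
    rintro rfl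
    apply hlam0
    rw [hPl.over]
    exact Ideal.under_bot _ _
  haveI : Finite (𝓞 L ⧸ P) := Ideal.finiteQuotientOfFreeOfNeBot P hP0
  -- the Frobenius over `ℤ`
  obtain ⟨φ, hφ'⟩ := IsArithFrobAt.exists_of_isInvariant ℤ (L ≃ₐ[ℚ] L) P
  set l := Nat.card (ℤ ⧸ P.under ℤ) with hl
  have hφ : ∀ x : 𝓞 L, φ • x - x ^ l ∈ P := hφ'
  -- `l` is prime
  have hunder : P.under ℤ = lam.under ℤ := by
    rw [hPl.over, Ideal.under_under]
  have hlabs : l = Ideal.absNorm (P.under ℤ) := by
    rw [hl, Ideal.absNorm_apply, Submodule.cardQuot_apply]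
  have hlpos : 0 < l := hφ'.card_pos
  have hlprime : l.Prime := by
    rw [hlabs, Int.prime_absNorm]
    refine (Ideal.prime_iff_isPrime ?_).2 inferInstance
    intro hbot
    rw [hlabs, hbot] at hlpos
    simp at hlpos
  have hlmem : ((l : ℤ) : 𝓞 L) ∈ P := by
    have h1 : (l : ℤ) ∈ P.under ℤ := by
      rw [hlabs]
      exact Ideal.absNorm_mem _
    simpa [Ideal.under_def, Ideal.mem_comap] using h1
  -- roots of unity
  have hζ : IsPrimitiveRoot (IsCyclotomicExtension.zeta p ℚ K) p :=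
    IsCyclotomicExtension.zeta_spec p ℚ K
  set ζ := IsCyclotomicExtension.zeta p ℚ K with hζdef
  have hζL : IsPrimitiveRoot (algebraMap K L ζ) p :=
    hζ.map_of_injective (algebraMap K L).injective
  have hpP : ((p : ℕ) : 𝓞 L) ∉ P := by
    intro hmem
    apply hp
    rw [hPl.over, Ideal.under_def, Ideal.mem_comap]
    simpa using hmem
  have hφζ' : φ • hζL.toInteger = hζL.toInteger ^ l :=
    hφ'.apply_of_pow_eq_one (m := p) (hζL.toInteger_isPrimitiveRoot.pow_eq_one) hpP
  have hφζ : φ (algebraMap K L ζ) = algebraMap K L ζ ^ l := by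
    have := congrArg (fun x : 𝓞 L => (x : L)) hφζ'
    exact this
  -- the conjugation relation
  have hconj := hd.conj φ h ζ l hζ hφζ
  -- `φ` preserves `P`
  have hφP : ∀ w : 𝓞 L, w ∈ P → φ • w ∈ P := by
    intro w hw
    have h1 := hφ w
    have h2 : w ^ l ∈ P := Ideal.pow_mem_of_mem P hw l hlpos
    simpa using P.add_mem h1 h2
  -- `h ^ l ≡ h` modulo `P`
  have hcongr : ∀ x : 𝓞 L, (h ^ l) • x - h • x ∈ P := by
    intro x
    have h1 := FR4_pow_congr P h N hfr l x
    have h2 := FR4_pow_congr P h N hfr l (φ⁻¹ • x)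
    have h3 := hφP _ h2
    have h4 : φ • ((h ^ l) • (φ⁻¹ • x) - (φ⁻¹ • x) ^ (N ^ l)) = h • x - x ^ (N ^ l) := by
      rw [smul_sub, smul_pow', smul_inv_smul]
      congr 1
      apply RingOfIntegers.ext
      exact hconj x
    rw [h4] at h3
    have h5 : (h ^ l) • x - h • x = ((h ^ l) • x - x ^ (N ^ l)) - (h • x - x ^ (N ^ l)) := by ring
    rw [h5]
    exact P.sub_mem h1 h3
  have hPmax : P.IsMaximal := hP.isMaximal hP0
  have hhl : h ^ l * h⁻¹ = 1 := by
    apply hd.unram P hPmax
    intro x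
    have h1 := hcongr (h⁻¹ • x)
    rwa [smul_inv_smul, ← mul_smul] at h1
  have hhl' : h ^ (l - 1) = 1 := by
    have : h ^ l = h ^ (l - 1) * h := by rw [← pow_succ, Nat.sub_add_cancel hlpos]
    rw [this, mul_assoc, mul_inv_cancel, mul_one] at hhl
    exact hhl
  -- `p ∣ l - 1`
  have hord : orderOf h = p := by
    have h1 : orderOf h ∣ p := by
      have := orderOf_dvd_natCard h
      rwa [IsGalois.card_aut_eq_finrank, hd.deg] at this
    rcases (Nat.dvd_prime hd.prime).1 h1 with h2 | h2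
    · exact absurd (orderOf_eq_one_iff.1 h2) hne
    · exact h2
  have hpl : p ∣ l - 1 := hord ▸ orderOf_dvd_of_pow_eq_one hhl'
  -- `φ` fixes `ζ`, hence `K`
  have hφζ1 : φ (algebraMap K L ζ) = algebraMap K L ζ := by
    obtain ⟨t, ht⟩ := hpl
    have : l = p * t + 1 := by omega
    rw [hφζ, this, pow_succ, pow_mul, hζL.pow_eq_one, one_pow, one_mul]
  have hfix : ∀ z : K, φ (algebraMap K L z) = algebraMap K L z := by
    have h1 : ((φ : L →ₐ[ℚ] L).comp (IsScalarTower.toAlgHom ℚ K L)) =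
        IsScalarTower.toAlgHom ℚ K L := by
      apply (hζ.powerBasis ℚ).algHom_ext
      simpa using hφζ1
    intro z
    exact DFunLike.congr_fun h1 z
  -- conclusion
  have hpow : ∀ x : 𝓞 K, x ^ l - x ∈ lam := by
    intro x
    have h1 := hφ (algebraMap (𝓞 K) (𝓞 L) x)
    have h2 : φ • (algebraMap (𝓞 K) (𝓞 L) x) = algebraMap (𝓞 K) (𝓞 L) x := by
      apply RingOfIntegers.ext
      exact hfix x
    rw [h2] at h1
    rw [hPl.over, Ideal.under_def, Ideal.mem_comap, map_sub, map_pow]
    simpa using P.neg_mem h1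
  have hlammax : lam.IsMaximal := hlam.isMaximal hlam0
  letI : Field (𝓞 K ⧸ lam) := Ideal.Quotient.field lam
  haveI : Finite (𝓞 K ⧸ lam) := Ideal.finiteQuotientOfFreeOfNeBot lam hlam0
  have hcard : Nat.card (𝓞 K ⧸ lam) = l := by
    apply FR4_card_eq l hlprime
    · have h1 : ((l : ℤ) : 𝓞 K) ∈ lam := by
        have h1 : (l : ℤ) ∈ lam.under ℤ := by
          rw [← hunder, hlabs]
          exact Ideal.absNorm_mem _
        simpa [Ideal.under_def, Ideal.mem_comap] using h1
      have h2 := Ideal.Quotient.eq_zero_iff_mem.2 h1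
      simpa using h2
    · intro a
      obtain ⟨x, rfl⟩ := Ideal.Quotient.mk_surjective a
      rw [← map_pow, Ideal.Quotient.eq]
      exact hpow x
  have : N = l := by
    rw [hN, Ideal.absNorm_apply, Submodule.cardQuot_apply]
    exact hcard
  rw [this]
  exact hlprime

end Fermat.Agent.S14
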