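/-
S14, package FR5: infinitely many degree one primes of `K` which do not split in `L`.
-/
import Fermat.Agent.S14.Interface2

set_option autoImplicit false

namespace Fermat.Agent.S14

open NumberField
open scoped Pointwise

theorem inertExists (hGL3 : Stmt_GL3) (hDeg : Stmt_DegOne) : Stmt_InertExists := by
  intro K L _ _ _ _ _ _ hdeg B
  have hlt : Module.finrank ℚ K < Module.finrank ℚ L := by
    rw [← Module.finrank_mul_finrank ℚ K L]
    have hpos : 0 < Module.finrank ℚ K := Module.finrank_pos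
    nlinarith
  obtain ⟨r, hr, hBr, ⟨Q1, hQ1, hN1⟩, hno⟩ := hGL3 K L hlt B
  refine ⟨Q1, hQ1, hN1 ▸ hr, hN1 ▸ hBr, ?_⟩
  rintro ⟨P, hP, hPl, hx⟩
  apply hno
  refine ⟨P, hP, ?_⟩
  have hQ1ne : Q1 ≠ ⊥ := by
    rintro rfl
    rw [Ideal.absNorm_bot] at hN1
    exact hr.ne_zero hN1.symm
  rw [← hN1]
  refine (hDeg K L Q1 P hQ1 hQ1ne hP hPl).1.mp fun x => ?_
  have h := hx x
  rw [one_smul] at h
  have h' := P.neg_mem h
  rwa [neg_sub] at h'

end Fermat.Agent.S14
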