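/-
S14 team, package Lo1 (helper50): the abstract index computation.
-/
import Fermat.Agent.S14.LoInterface

set_option autoImplicit false

namespace Fermat.Agent.S14

open Subgroup

/-- `H ≤ K ≤ L` gives `H.relIndex K ∣ H.relIndex L`. -/
private theorem lo1_relIndex_dvd {G : Type} [Group G] {H K L : Subgroup G}
    (hHK : H ≤ K) (hKL : K ≤ L) : H.relIndex K ∣ H.relIndex L :=
  Dvd.intro _ (relIndex_mul_relIndex H K L hHK hKL)

theorem loAbstract : Stmt_LoAbstract := by
  intro I X U _ _ _ d ι t nI s nX sU nU p hι hιd hds hdn hιs hιn hnt htn hns hsn h90 hP hp h0 h1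
  by_contra hcon
  push Not at hcon
  -- notation
  set δI : I →* I := t / MonoidHom.id I with hδI
  set δX : X →* X := s / MonoidHom.id X with hδX
  set δU : U →* U := sU / MonoidHom.id U with hδU
  have δI_apply : ∀ A, δI A = t A / A := fun A => rfl
  have δX_apply : ∀ x, δX x = s x / x := fun x => rfl
  have δU_apply : ∀ u, δU u = sU u / u := fun u => rfl
  have hdδ : ∀ x, d (δX x) = δI (d x) := fun x => by
    rw [δX_apply, δI_apply, map_div, hds]
  have hιδ : ∀ u, ι (δU u) = δX (ι u) := fun u => by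
    rw [δX_apply, δU_apply, map_div, hιs]
  set P : Subgroup I := d.range with hPdef
  set R : Subgroup I := δI.range with hRdef
  set I0 : Subgroup I := δI.ker with hI0
  set X0 : Subgroup X := δX.ker with hX0
  set P0 : Subgroup I := X0.map d with hP0
  set E : Subgroup X := d.ker with hE
  set I' : Subgroup I := P.comap δI with hI'
  have memI0 : ∀ A, A ∈ I0 ↔ t A = A := fun A => by
    rw [hI0, MonoidHom.mem_ker, δI_apply, div_eq_one]
  have memX0 : ∀ x, x ∈ X0 ↔ s x = x := fun x => by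
    rw [hX0, MonoidHom.mem_ker, δX_apply, div_eq_one]
  have memE : ∀ x, x ∈ E ↔ d x = 1 := fun x => MonoidHom.mem_ker
  -- basic inclusions
  have hNI0 : nI.range ≤ I0 := by
    rintro _ ⟨A, rfl⟩; exact (memI0 _).2 (htn A)
  have hP0I0 : P0 ≤ I0 := by
    rintro _ ⟨x, hx, rfl⟩
    exact (memI0 _).2 (by rw [← hds, (memX0 x).1 hx])
  have hP0P : P0 ≤ P := by
    rintro _ ⟨x, _, rfl⟩; exact ⟨x, rfl⟩
  have hI0eq : I0 = P0 ⊔ nI.range := by
    apply le_antisymm
    · intro A hA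
      obtain ⟨B, x, hx, rfl⟩ := hcon A ((memI0 A).1 hA)
      rw [mul_comm]
      exact Subgroup.mul_mem_sup ⟨x, (memX0 x).2 hx, rfl⟩ ⟨B, rfl⟩
    · exact sup_le hP0I0 hNI0
  have hPI' : P ≤ I' := by
    rintro _ ⟨x, rfl⟩
    exact ⟨δX x, hdδ x⟩
  have hI0I' : I0 ≤ I' := by
    intro A hA
    show δI A ∈ P
    rw [MonoidHom.mem_ker.1 hA]; exact one_mem _
  -- (1)
  have step1 : P0.relIndex I0 ∣ (P ⊔ R).index := by
    rw [hI0eq, relIndex_sup_left, ← index_comap]
    apply index_dvd_of_le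
    apply sup_le
    · rintro _ ⟨x, rfl⟩
      exact ⟨nX x, (memX0 _).2 (hsn x), hdn x⟩
    · rintro _ ⟨A, rfl⟩
      show nI (δI A) ∈ P0
      rw [δI_apply, map_div, hnt, div_self']
      exact one_mem _
  -- (2)
  have step2 : (P ⊔ R).index = P.relIndex I' := by
    have e1 : P.relIndex (P ⊔ R) * (P ⊔ R).index = P.index := relIndex_mul_index le_sup_left
    have e2 : P.relIndex I' * I'.index = P.index := relIndex_mul_index hPI'
    have e3 : I'.index = P.relIndex (P ⊔ R) := by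
      rw [hI', index_comap, relIndex_sup_left]
    have hu : P.relIndex (P ⊔ R) ≠ 0 := by
      intro h; rw [h, zero_mul] at e1; exact hP e1.symm
    rw [e3, mul_comm] at e2
    exact Nat.eq_of_mul_eq_mul_left (Nat.pos_of_ne_zero hu) (e1.trans e2.symm)
  -- (3)
  have hb : P.relIndex I0 ≠ 0 := by
    intro h
    have := relIndex_dvd_index_of_normal P I0
    rw [h, zero_dvd_iff] at this
    exact hP this
  have step3a : P.relIndex I' = P.relIndex I0 * (I0 ⊔ P).relIndex I' := by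
    rw [← relIndex_mul_relIndex P (I0 ⊔ P) I' le_sup_right (sup_le hI0I' hPI'), relIndex_sup_right]
  have step3b : P0.relIndex I0 = P0.relIndex (P ⊓ I0) * P.relIndex I0 := by
    rw [← relIndex_mul_relIndex P0 (P ⊓ I0) I0 (le_inf hP0P hP0I0) inf_le_right,
      inf_relIndex_right]
  -- kernel of the norm = range of δX
  have hker : nX.ker = δX.range := by
    apply le_antisymm
    · intro x hx
      obtain ⟨y, rfl⟩ := h90 x (MonoidHom.mem_ker.1 hx)
      exact ⟨y, rfl⟩
    · rintro _ ⟨y, rfl⟩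
      rw [MonoidHom.mem_ker, δX_apply, map_div, hns, div_self']
  have hEι : E = ι.range := hιd.symm
  -- (4)
  have step4 : P0.relIndex (P ⊓ I0) = δU.range.relIndex nU.ker := by
    have a1 : P ⊓ I0 = (E.comap δX).map d := by
      ext A
      constructor
      · rintro ⟨⟨x, rfl⟩, hA⟩
        refine ⟨x, ?_, rfl⟩
        show δX x ∈ E
        rw [memE, hdδ]; exact MonoidHom.mem_ker.1 hA
      · rintro ⟨x, hx, rfl⟩
        refine ⟨⟨x, rfl⟩, ?_⟩
        show d x ∈ δI.ker
        rw [MonoidHom.mem_ker, ← hdδ]; exact (memE _).1 hx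
    have a2 : E ≤ E.comap δX := by
      intro x hx
      show δX x ∈ E
      rw [memE, hdδ, (memE x).1 hx, map_one]
    have a3 : X0 ⊔ E = (E.map δX).comap δX := by
      rw [comap_map_eq, sup_comm]
    have a4 : E.map δX = δU.range.map ι := by
      rw [hEι]
      ext x
      constructor
      · rintro ⟨_, ⟨u, rfl⟩, rfl⟩
        exact ⟨δU u, ⟨u, rfl⟩, hιδ u⟩
      · rintro ⟨_, ⟨u, rfl⟩, rfl⟩
        exact ⟨ι u, ⟨u, rfl⟩, (hιδ u).symm⟩
    have a5 : δX.range ⊓ E = nU.ker.map ι := by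
      rw [← hker, hEι]
      ext x
      constructor
      · rintro ⟨hx, ⟨u, rfl⟩⟩
        refine ⟨u, ?_, rfl⟩
        show u ∈ nU.ker
        rw [MonoidHom.mem_ker]
        apply hι
        rw [hιn, map_one]; exact MonoidHom.mem_ker.1 hx
      · rintro ⟨u, hu, rfl⟩
        refine ⟨?_, ⟨u, rfl⟩⟩
        show ι u ∈ nX.ker
        rw [MonoidHom.mem_ker, ← hιn, MonoidHom.mem_ker.1 hu, map_one]
    rw [a1, hP0, relIndex_map_map, sup_of_le_left a2, a3, relIndex_comap, map_comap_eq, a4, a5,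
      relIndex_map_map_of_injective _ _ hι]
  -- (5)
  have step5 : (I0 ⊔ P).relIndex I' ∣ nU.range.relIndex δU.ker := by
    have b1 : I0 ⊔ P = (P.map δI).comap δI := by
      rw [comap_map_eq, sup_comm]
    have b2 : P.map δI = δX.range.map d := by
      ext A
      constructor
      · rintro ⟨_, ⟨x, rfl⟩, rfl⟩
        exact ⟨δX x, ⟨x, rfl⟩, hdδ x⟩
      · rintro ⟨_, ⟨x, rfl⟩, rfl⟩
        exact ⟨d x, ⟨x, rfl⟩, (hdδ x).symm⟩
    have b3 : P ⊓ nI.ker = (E.comap nX).map d := by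
      ext A
      constructor
      · rintro ⟨⟨x, rfl⟩, hA⟩
        refine ⟨x, ?_, rfl⟩
        show nX x ∈ E
        rw [memE, hdn]; exact MonoidHom.mem_ker.1 hA
      · rintro ⟨x, hx, rfl⟩
        refine ⟨⟨x, rfl⟩, ?_⟩
        show d x ∈ nI.ker
        rw [MonoidHom.mem_ker, ← hdn]; exact (memE _).1 hx
    have b4 : E ≤ E.comap nX := by
      intro x hx
      show nX x ∈ E
      rw [memE, hdn, (memE x).1 hx, map_one]
    have b5 : δX.range ⊔ E = (E.map nX).comap nX := by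
      rw [comap_map_eq, hker, sup_comm]
    have b6 : E.map nX = nU.range.map ι := by
      rw [hEι]
      ext x
      constructor
      · rintro ⟨_, ⟨u, rfl⟩, rfl⟩
        exact ⟨nU u, ⟨u, rfl⟩, hιn u⟩
      · rintro ⟨_, ⟨u, rfl⟩, rfl⟩
        exact ⟨ι u, ⟨u, rfl⟩, (hιn u).symm⟩
    have b7 : X0 ⊓ E = δU.ker.map ι := by
      rw [hEι]
      ext x
      constructor
      · rintro ⟨hx, ⟨u, rfl⟩⟩
        refine ⟨u, ?_, rfl⟩
        show u ∈ δU.ker
        rw [MonoidHom.mem_ker]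
        apply hι
        rw [hιδ, map_one]; exact MonoidHom.mem_ker.1 hx
      · rintro ⟨u, hu, rfl⟩
        refine ⟨?_, ⟨u, rfl⟩⟩
        show ι u ∈ δX.ker
        rw [MonoidHom.mem_ker, ← hιδ, MonoidHom.mem_ker.1 hu, map_one]
    have hRk : R ≤ nI.ker := by
      rintro _ ⟨A, rfl⟩
      rw [MonoidHom.mem_ker, δI_apply, map_div, hnt, div_self']
    have c1 : (I0 ⊔ P).relIndex I' = (P.map δI).relIndex (R ⊓ P) := by
      rw [b1, hI', relIndex_comap, map_comap_eq]
    have c2 : (P.map δI).relIndex (R ⊓ P) ∣ (P.map δI).relIndex (P ⊓ nI.ker) := by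
      apply lo1_relIndex_dvd
      · rintro _ ⟨_, ⟨x, rfl⟩, rfl⟩
        exact ⟨⟨d x, rfl⟩, ⟨δX x, hdδ x⟩⟩
      · rintro A ⟨hA1, hA2⟩
        exact ⟨hA2, hRk hA1⟩
    have c3 : (P.map δI).relIndex (P ⊓ nI.ker) = (E.map nX).relIndex (nX.range ⊓ E) := by
      rw [b2, b3, relIndex_map_map, sup_of_le_left b4, b5, relIndex_comap, map_comap_eq]
    have c4 : (E.map nX).relIndex (nX.range ⊓ E) ∣ (E.map nX).relIndex (X0 ⊓ E) := by
      apply lo1_relIndex_dvd
      · rintro _ ⟨x, hx, rfl⟩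
        exact ⟨⟨x, rfl⟩, b4 hx⟩
      · rintro x ⟨⟨y, rfl⟩, hx2⟩
        exact ⟨(memX0 _).2 (hsn y), hx2⟩
    have c5 : (E.map nX).relIndex (X0 ⊓ E) = nU.range.relIndex δU.ker := by
      rw [b6, b7, relIndex_map_map_of_injective _ _ hι]
    rw [c1]
    exact c2.trans (c3 ▸ (c5 ▸ c4))
  -- (6)
  rw [step2, step3a, step3b, step4, mul_comm] at step1
  have hdvd : δU.range.relIndex nU.ker ∣ (I0 ⊔ P).relIndex I' :=
    Nat.dvd_of_mul_dvd_mul_left (Nat.pos_of_ne_zero hb) step1
  have hfin : p * nU.range.relIndex δU.ker ∣ nU.range.relIndex δU.ker := h1 ▸ hdvd.trans step5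
  have hle := Nat.le_of_dvd (Nat.pos_of_ne_zero h0) hfin
  have : 2 * nU.range.relIndex δU.ker ≤ p * nU.range.relIndex δU.ker :=
    Nat.mul_le_mul_right _ hp
  have hpos := Nat.pos_of_ne_zero h0
  omega

end Fermat.Agent.S14
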