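/-
S14 team, package Lo5: API for the Galois action on fractional ideals.
-/
import Fermat.Agent.S14.LoInterface

set_option autoImplicit false
set_option linter.unusedSectionVars false

namespace Fermat.Agent.S14

open NumberField
open scoped Pointwise nonZeroDivisors

section

variable (K L : Type) [Field K] [NumberField K] [Field L] [NumberField L] [Algebra K L]

/-- the ring automorphism of `𝓞 L` induced by `σ`. -/
noncomputable abbrev lo5E (σ : L ≃ₐ[K] L) : 𝓞 L ≃+* 𝓞 L :=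
  MulSemiringAction.toRingEquiv (L ≃ₐ[K] L) (𝓞 L) σ

theorem lo5_coe_loT (σ : L ≃ₐ[K] L) (A : (FractionalIdeal (𝓞 L)⁰ L)ˣ) :
    ((loT K L σ A : (FractionalIdeal (𝓞 L)⁰ L)ˣ) : FractionalIdeal (𝓞 L)⁰ L) =
      FractionalIdeal.ringEquivOfRingEquiv L L (lo5E K L σ) (A : FractionalIdeal (𝓞 L)⁰ L) := rfl

theorem lo5_ringEquiv_apply (σ : L ≃ₐ[K] L) (x : L) :
    IsFractionRing.ringEquivOfRingEquiv (K := L) (L := L) (lo5E K L σ) x = σ x := by
  have h : ((IsFractionRing.ringEquivOfRingEquiv (K := L) (L := L) (lo5E K L σ) : L ≃+* L) :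
      L →+* L) = (σ : L →+* L) := by
    refine IsLocalization.ringHom_ext (𝓞 L)⁰ ?_
    ext a
    simp only [RingHom.comp_apply, RingHom.coe_coe]
    rw [IsFractionRing.ringEquivOfRingEquiv_algebraMap]
    rfl
  exact congrArg (fun f : L →+* L => f x) h

theorem lo5_E_one : lo5E K L 1 = RingEquiv.refl (𝓞 L) := by
  ext a
  simp [lo5E]

theorem lo5_E_mul (σ τ : L ≃ₐ[K] L) : lo5E K L (σ * τ) = (lo5E K L τ).trans (lo5E K L σ) := by
  ext a
  simp [lo5E]

end

theorem loAction : Stmt_LoAction := by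
  intro K L _ _ _ _ _
  refine ⟨?_, ?_, ?_, ?_⟩
  · ext A : 2
    rw [lo5_coe_loT, lo5_E_one, FractionalIdeal.ringEquivOfRingEquiv_refl]
    rfl
  · intro σ τ
    ext A : 2
    rw [MonoidHom.comp_apply, lo5_coe_loT, lo5_coe_loT, lo5_coe_loT, lo5_E_mul,
      FractionalIdeal.ringEquivOfRingEquiv_trans_apply L L L]
  · intro σ x
    apply Units.ext
    rw [lo5_coe_loT, coe_toPrincipalIdeal, coe_toPrincipalIdeal,
      FractionalIdeal.ringEquivOfRingEquiv_spanSingleton, lo5_ringEquiv_apply]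
    rfl
  · intro σ A J hA
    rw [lo5_coe_loT, hA]
    apply FractionalIdeal.coeToSubmodule_injective
    show (FractionalIdeal.ringEquivOfRingEquiv L L (lo5E K L σ)
      (J : FractionalIdeal (𝓞 L)⁰ L)).val = _
    rw [FractionalIdeal.ringEquivOfRingEquiv_apply_val]
    ext y
    simp only [FractionalIdeal.val_eq_coe, FractionalIdeal.coe_coeIdeal, Submodule.mem_map,
      IsLocalization.mem_coeSubmodule]
    constructor
    · rintro ⟨_, ⟨a, ha, rfl⟩, rfl⟩
      refine ⟨σ • a, Ideal.smul_mem_pointwise_smul σ a J ha, ?_⟩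
      show _ = IsFractionRing.ringEquivOfRingEquiv (K := L) (L := L) (lo5E K L σ) _
      rw [IsFractionRing.ringEquivOfRingEquiv_algebraMap]
      rfl
    · rintro ⟨b, hb, rfl⟩
      have ha : σ⁻¹ • b ∈ J := Ideal.mem_pointwise_smul_iff_inv_smul_mem.mp hb
      refine ⟨algebraMap (𝓞 L) L (σ⁻¹ • b), ⟨σ⁻¹ • b, ha, rfl⟩, ?_⟩
      show IsFractionRing.ringEquivOfRingEquiv (K := L) (L := L) (lo5E K L σ) _ = _
      rw [IsFractionRing.ringEquivOfRingEquiv_algebraMap]
      show algebraMap (𝓞 L) L (σ • σ⁻¹ • b) = _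
      rw [smul_inv_smul]

end Fermat.Agent.S14
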