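/-
S14 team, package Lo4: the relative norm of an ideal, extended to `𝓞 L`, is the product of the
conjugates.
-/
import Fermat.Agent.S14.LoInterface

set_option autoImplicit false

namespace Fermat.Agent.S14

open NumberField
open scoped Pointwise nonZeroDivisors

section

variable (K L : Type) [Field K] [NumberField K] [Field L] [NumberField L] [Algebra K L]
  [IsGalois K L]

theorem lo4_algebraMap_intNorm (x : 𝓞 L) :
    algebraMap (𝓞 K) (𝓞 L) (Algebra.intNorm (𝓞 K) (𝓞 L) x) = ∏ σ : L ≃ₐ[K] L, σ • x := by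
  apply RingOfIntegers.coe_injective
  have h1 : algebraMap (𝓞 L) L (algebraMap (𝓞 K) (𝓞 L) (Algebra.intNorm (𝓞 K) (𝓞 L) x)) =
      algebraMap K L (algebraMap (𝓞 K) K (Algebra.intNorm (𝓞 K) (𝓞 L) x)) := by
    rw [← IsScalarTower.algebraMap_apply (𝓞 K) (𝓞 L) L, ← IsScalarTower.algebraMap_apply (𝓞 K) K L]
  rw [h1, Algebra.algebraMap_intNorm (K := K) (L := L), Algebra.norm_eq_prod_automorphisms]
  rw [map_prod (algebraMap (𝓞 L) L)]
  rfl

omit [NumberField K] [IsGalois K L] in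
theorem lo4_absNorm_smul (σ : L ≃ₐ[K] L) (J : Ideal (𝓞 L)) :
    Ideal.absNorm (σ • J) = Ideal.absNorm J := by
  have h := Ideal.relNorm_smul ℤ σ J
  rw [Ideal.relNorm_int, Ideal.relNorm_int] at h
  have h2 := congrArg Ideal.absNorm h
  simpa using h2

end

theorem loRelNorm : Stmt_LoRelNorm := by
  intro K L _ _ _ _ _ _ J
  by_cases hJ : J = ⊥
  · subst hJ
    rw [Ideal.relNorm_bot, Ideal.map_bot]
    symm
    rw [← Ideal.zero_eq_bot]
    refine Finset.prod_eq_zero (Finset.mem_univ (1 : L ≃ₐ[K] L)) ?_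
    rw [one_smul]
  -- one inclusion
  have hle : (Ideal.relNorm (𝓞 K) J).map (algebraMap (𝓞 K) (𝓞 L)) ≤ ∏ σ : L ≃ₐ[K] L, σ • J := by
    rw [Ideal.map_relNorm, Ideal.span_le]
    rintro _ ⟨x, hx, rfl⟩
    show algebraMap (𝓞 K) (𝓞 L) (Algebra.intNorm (𝓞 K) (𝓞 L) x) ∈ _
    rw [lo4_algebraMap_intNorm]
    exact Ideal.prod_mem_prod fun σ _ => Ideal.smul_mem_pointwise_smul σ x J hx
  -- equality of absolute norms
  have hcard : Module.finrank (𝓞 K) (𝓞 L) = Fintype.card (L ≃ₐ[K] L) := by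
    rw [← Nat.card_eq_fintype_card, IsGaloisGroup.card_eq_finrank (L ≃ₐ[K] L) K L]
    exact (IsFractionRing.finrank_eq (𝓞 K) K (𝓞 L) L).symm
  have hnorm : Ideal.absNorm ((Ideal.relNorm (𝓞 K) J).map (algebraMap (𝓞 K) (𝓞 L))) =
      Ideal.absNorm (∏ σ : L ≃ₐ[K] L, σ • J) := by
    rw [Ideal.absNorm_algebraMap, Ideal.absNorm_relNorm, map_prod]
    simp only [lo4_absNorm_smul]
    rw [Finset.prod_const, Finset.card_univ, hcard]
  have hJ0 : Ideal.absNorm J ≠ 0 := by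
    rw [Ne, Ideal.absNorm_eq_zero_iff]
    exact hJ
  obtain ⟨C, hC⟩ := Ideal.dvd_iff_le.mpr hle
  rw [hC, map_mul] at hnorm
  have hB0 : Ideal.absNorm (∏ σ : L ≃ₐ[K] L, σ • J) ≠ 0 := by
    rw [map_prod]
    simp only [lo4_absNorm_smul]
    exact Finset.prod_ne_zero_iff.mpr fun _ _ => hJ0
  have hC1 : Ideal.absNorm C = 1 := by
    have : Ideal.absNorm (∏ σ : L ≃ₐ[K] L, σ • J) * Ideal.absNorm C =
        Ideal.absNorm (∏ σ : L ≃ₐ[K] L, σ • J) * 1 := by rw [hnorm, mul_one]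
    exact Nat.eq_of_mul_eq_mul_left (Nat.pos_of_ne_zero hB0) this
  rw [Ideal.absNorm_eq_one_iff] at hC1
  rw [hC, hC1, Ideal.mul_top]

end Fermat.Agent.S14
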