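/-
S14 team, package (Lo): the norm map on class groups is not surjective for an unramified cyclic
extension of prime degree of a totally complex field (sub-lead: helper15).
-/
import Fermat.Agent.S14.LoAssembly
import Fermat.Agent.S14.LoAbstract
import Fermat.Agent.S14.LoUnits
import Fermat.Agent.S14.LoInvariant
import Fermat.Agent.S14.LoRelNorm
import Fermat.Agent.S14.LoAction

set_option autoImplicit false

namespace Fermat.Agent.S14

theorem lo (h : Stmt_Herbrand) : Stmt_Lo :=
  lo_of loAbstract (loUnits h) loInvariant loRelNorm loAction

end Fermat.Agent.S14
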