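/-
S14, package CRC2: norms from a totally ramified `T` are `p`-th powers mod `r`.
-/
import Fermat.Agent.S14.Interface2

set_option autoImplicit false

namespace Fermat.Agent.S14

open NumberField
open scoped Pointwise

/-- Modulo an ideal of prime norm every integer of `F` is congruent to a rational integer. -/
theorem normPow_exists_int {F : Type} [Field F] [NumberField F] (I : Ideal (𝓞 F)) {r : ℕ}
    (hr : r.Prime) (hI : Ideal.absNorm I = r) (x : 𝓞 F) : ∃ n : ℤ, x - (n : 𝓞 F) ∈ I := by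
  have : Fact r.Prime := ⟨hr⟩
  have hcard : Nat.card (𝓞 F ⧸ I) = r := by
    rw [← hI, Ideal.absNorm_apply, Submodule.cardQuot_apply]
  have hne : (1 : 𝓞 F ⧸ I) ≠ 0 := by
    intro h
    have htop : I = ⊤ := by
      rw [Ideal.eq_top_iff_one, ← Ideal.Quotient.eq_zero_iff_mem, map_one, h]
    rw [htop, Ideal.absNorm_top] at hI
    exact hr.one_lt.ne hI
  obtain ⟨n, hn⟩ := mem_zmultiples_of_prime_card hcard hne (g' := Ideal.Quotient.mk I x)
  refine ⟨n, ?_⟩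
  rw [← Ideal.Quotient.eq_zero_iff_mem, map_sub, map_intCast, ← hn]
  simp

/-- A rational integer in a proper ideal containing the prime `r` is divisible by `r`. -/
theorem normPow_dvd_of_mem {F : Type} [Field F] [NumberField F] (I : Ideal (𝓞 F)) (hI : I ≠ ⊤)
    {r : ℕ} (hr : r.Prime) (hrI : (r : 𝓞 F) ∈ I) (m : ℤ) (hm : (m : 𝓞 F) ∈ I) : (r : ℤ) ∣ m := by
  by_contra h
  have hcop : IsCoprime (r : ℤ) m :=
    (Nat.prime_iff_prime_int.mp hr).coprime_iff_not_dvd.mpr h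
  obtain ⟨a, b, hab⟩ := hcop
  apply hI
  rw [Ideal.eq_top_iff_one]
  have : (1 : 𝓞 F) = (a : 𝓞 F) * (r : 𝓞 F) + (b : 𝓞 F) * (m : 𝓞 F) := by
    have := congrArg (Int.cast : ℤ → 𝓞 F) hab
    push_cast at this
    exact this.symm
  rw [this]
  exact I.add_mem (I.mul_mem_left _ hrI) (I.mul_mem_left _ hm)

section
variable {K T : Type} [Field K] [NumberField K] [Field T] [NumberField T] [Algebra K T]

omit [NumberField K] [NumberField T] in
theorem normPow_coe_smul (g : T ≃ₐ[K] T) (y : 𝓞 T) : ((g • y : 𝓞 T) : T) = g (y : T) := rfl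

theorem normPow_algebraMap_norm [IsGalois K T] (y : 𝓞 T) :
    algebraMap (𝓞 K) (𝓞 T) (RingOfIntegers.norm K y) = ∏ g : T ≃ₐ[K] T, g • y := by
  ext
  rw [RingOfIntegers.coe_algebraMap_norm, Algebra.norm_eq_prod_automorphisms]
  change _ = algebraMap (𝓞 T) T _
  rw [map_prod]
  rfl

/-- If all of `Gal(T/K)` is inertia at `Q`, the residue degree is one. -/
theorem normPow_absNorm [IsGalois K T] (q : Ideal (𝓞 K)) (Q : Ideal (𝓞 T)) [q.IsPrime]
    [Q.IsPrime] [Q.LiesOver q] (hq : q ≠ ⊥)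
    (h : ∀ (g : T ≃ₐ[K] T) (x : 𝓞 T), g • x - x ∈ Q) :
    Ideal.absNorm Q = Ideal.absNorm q := by
  have := IsGaloisGroup.of_isFractionRing (T ≃ₐ[K] T) (𝓞 K) (𝓞 T) K T
  have : Finite (𝓞 K ⧸ q) := Ring.HasFiniteQuotients.finiteQuotient hq
  have h1 := Ideal.card_stabilizer_eq_card_inertia_mul_finrank (G := T ≃ₐ[K] T) q Q
  have h2 : Q.inertia (T ≃ₐ[K] T) = ⊤ := by
    rw [eq_top_iff]
    intro g _
    exact h g
  have h3 : Nat.card (MulAction.stabilizer (T ≃ₐ[K] T) Q) ≤ Nat.card (T ≃ₐ[K] T) :=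
    Subgroup.card_le_card_group _
  have h4 : 0 < Nat.card (T ≃ₐ[K] T) := Nat.card_pos
  have h5 : 0 < Q.inertiaDeg (𝓞 K) := Ideal.inertiaDeg_pos Q (𝓞 K)
  rw [h2, Subgroup.card_top] at h1
  have h6 : Q.inertiaDeg (𝓞 K) = 1 := by
    have : Nat.card (T ≃ₐ[K] T) * Q.inertiaDeg (𝓞 K) ≤ Nat.card (T ≃ₐ[K] T) * 1 := by
      rw [mul_one, ← h1]; exact h3
    have := Nat.le_of_mul_le_mul_left this h4
    omega
  have h7 := Ideal.absNorm_pow_inertiaDeg q Q
  rw [h6, pow_one] at h7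
  exact h7.symm

/-- The relative norm is a `p`-th power modulo `q`. -/
theorem normPow_rel [IsGalois K T] {r : ℕ} (hr : r.Prime) (q : Ideal (𝓞 K)) (Q : Ideal (𝓞 T))
    [q.IsPrime] [Q.IsPrime] [Q.LiesOver q] (hq : Ideal.absNorm q = r)
    (h : ∀ (g : T ≃ₐ[K] T) (x : 𝓞 T), g • x - x ∈ Q) (y : 𝓞 T) :
    ∃ n : ℤ, RingOfIntegers.norm K y - (n : 𝓞 K) ^ Module.finrank K T ∈ q := by
  have hq0 : q ≠ ⊥ := by
    rintro rfl
    rw [Ideal.absNorm_bot] at hq
    exact hr.ne_zero hq.symm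
  have hQ : Ideal.absNorm Q = r := (normPow_absNorm q Q hq0 h).trans hq
  obtain ⟨n, hn⟩ := normPow_exists_int Q hr hQ y
  refine ⟨n, ?_⟩
  rw [Ideal.mem_of_liesOver Q q, map_sub, map_pow, map_intCast, normPow_algebraMap_norm,
    ← Ideal.Quotient.eq_zero_iff_mem, map_sub, map_prod, map_pow, map_intCast, sub_eq_zero]
  have h1 : ∀ g : T ≃ₐ[K] T, Ideal.Quotient.mk Q (g • y) = ((n : ℤ) : 𝓞 T ⧸ Q) := by
    intro g
    have e1 : Ideal.Quotient.mk Q (g • y) = Ideal.Quotient.mk Q y :=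
      Ideal.Quotient.eq.mpr (h g y)
    have e2 : Ideal.Quotient.mk Q y = Ideal.Quotient.mk Q (n : 𝓞 T) := Ideal.Quotient.eq.mpr hn
    rw [e1, e2, map_intCast]
  rw [Finset.prod_congr rfl fun g _ => h1 g, Finset.prod_const, Finset.card_univ,
    ← Nat.card_eq_fintype_card, IsGalois.card_aut_eq_finrank]

end

theorem normPow_smul_intCast {K : Type} [Field K] [NumberField K] (σ : K ≃ₐ[ℚ] K) (n : ℤ) :
    σ • (n : 𝓞 K) = n :=
  map_intCast (MulSemiringAction.toRingHom (K ≃ₐ[ℚ] K) (𝓞 K) σ) n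

theorem normPow_smul_natCast {K : Type} [Field K] [NumberField K] (σ : K ≃ₐ[ℚ] K) (n : ℕ) :
    σ • (n : 𝓞 K) = n :=
  map_natCast (MulSemiringAction.toRingHom (K ≃ₐ[ℚ] K) (𝓞 K) σ) n

theorem normPow : Stmt_NormPow := by
  intro p r K T _ _ _ _ _ _ _ hr hp H y
  -- a prime `q0` of `K` above `r`
  have hrZ : (Ideal.span {(r : ℤ)}).IsPrime :=
    (Ideal.span_singleton_prime (by exact_mod_cast hr.ne_zero)).mpr
      (Nat.prime_iff_prime_int.mp hr)
  obtain ⟨⟨q0, hq0p, hq0l⟩⟩ :=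
    (inferInstance : Nonempty ((Ideal.span {(r : ℤ)}).primesOver (𝓞 K)))
  have hr0 : (r : 𝓞 K) ∈ q0 := by
    have := (Ideal.mem_of_liesOver q0 (Ideal.span {(r : ℤ)}) (r : ℤ)).mp
      (Ideal.mem_span_singleton_self _)
    simpa using this
  set z : 𝓞 K := RingOfIntegers.norm K y with hz
  -- each conjugate of `z` is a `p`-th power mod `q0`
  have key : ∀ σ : K ≃ₐ[ℚ] K, ∃ n : ℤ, σ • z - (n : 𝓞 K) ^ p ∈ q0 := by
    intro σ
    have hmem : (r : 𝓞 K) ∈ σ⁻¹ • q0 := by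
      rw [Ideal.mem_inv_pointwise_smul_iff, normPow_smul_natCast]
      exact hr0
    obtain ⟨hN, Q, hQp, hQl, hQ⟩ := H (σ⁻¹ • q0) inferInstance hmem
    obtain ⟨n, hn⟩ := normPow_rel hr (σ⁻¹ • q0) Q hN hQ y
    refine ⟨n, ?_⟩
    rw [Ideal.mem_inv_pointwise_smul_iff, hp] at hn
    rwa [smul_sub, smul_pow', normPow_smul_intCast] at hn
  choose n hn using key
  -- the norm to `ℤ` is the product of the conjugates of `z`
  have hnorm : ((Algebra.norm ℤ y : ℤ) : 𝓞 K) = ∏ σ : K ≃ₐ[ℚ] K, σ • z := by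
    ext
    change algebraMap (𝓞 K) K _ = algebraMap (𝓞 K) K _
    rw [map_prod, map_intCast]
    have e1 : ((Algebra.norm ℤ y : ℤ) : ℚ) = Algebra.norm ℚ (z : K) := by
      rw [Algebra.coe_norm_int, hz, RingOfIntegers.coe_norm, Algebra.norm_norm]
    have e2 := Algebra.norm_eq_prod_automorphisms ℚ (z : K)
    rw [← e1] at e2
    have e3 : (algebraMap ℚ K) ((Algebra.norm ℤ y : ℤ) : ℚ) = ((Algebra.norm ℤ y : ℤ) : K) := by
      simp
    rw [← e3, e2]
    rfl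
  refine ⟨((∏ σ : K ≃ₐ[ℚ] K, n σ : ℤ) : ZMod r), ?_⟩
  have hfin : ((Algebra.norm ℤ y - (∏ σ : K ≃ₐ[ℚ] K, n σ) ^ p : ℤ) : 𝓞 K) ∈ q0 := by
    push_cast
    rw [hnorm, ← Ideal.Quotient.eq_zero_iff_mem, map_sub, map_prod, map_pow, map_prod,
      ← Finset.prod_pow, sub_eq_zero]
    refine Finset.prod_congr rfl fun σ _ => ?_
    rw [← map_pow]
    exact Ideal.Quotient.eq.mpr (hn σ)
  have hdvd := normPow_dvd_of_mem q0 hq0p.ne_top hr hr0 _ hfin
  have := (ZMod.intCast_zmod_eq_zero_iff_dvd _ r).mpr hdvd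
  push_cast at this
  push_cast
  exact (sub_eq_zero.mp this).symm

end Fermat.Agent.S14
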