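import Fermat.Agent.S14.Interface

/-!
# S14 / ST : Stickelberger for the Jacobi sum `J(χ, χ)` (degree one primes of `ℚ(ζ_p)`)
-/

set_option autoImplicit false
set_option linter.style.haveILetI false

open NumberField
open scoped Pointwise

namespace Fermat.Agent.S14

/-- power-sum vanishing for `x^A (1-x)^A`. -/
theorem ST_sum_pow_mul_one_sub_pow {F : Type*} [Field F] [Fintype F] (A : ℕ)
    (hA : 2 * A < Fintype.card F - 1) : ∑ x : F, x ^ A * (1 - x) ^ A = 0 := by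
  have h1 : ∀ x : F, x ^ A * (1 - x) ^ A =
      ∑ j ∈ Finset.range (A + 1), ((-1 : F) ^ j * (A.choose j : F)) * x ^ (A + j) := by
    intro x
    have : (1 - x) ^ A = ∑ j ∈ Finset.range (A + 1), (-x) ^ j * 1 ^ (A - j) * (A.choose j : F) := by
      rw [← add_pow, sub_eq_neg_add]
    rw [this, Finset.mul_sum]
    refine Finset.sum_congr rfl fun j _ => ?_
    rw [neg_pow, pow_add]; ring
  simp_rw [h1]
  rw [Finset.sum_comm]
  refine Finset.sum_eq_zero fun j hj => ?_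
  rw [← Finset.mul_sum, FiniteField.sum_pow_lt_card_sub_one F (A + j), mul_zero]
  have := Finset.mem_range.mp hj
  omega

theorem ST_absNorm_smul {K : Type} [Field K] [NumberField K] (σ : K ≃ₐ[ℚ] K) (I : Ideal (𝓞 K)) :
    Ideal.absNorm (σ • I) = Ideal.absNorm I := by
  rw [Ideal.absNorm_apply, Ideal.absNorm_apply, Submodule.cardQuot_apply, Submodule.cardQuot_apply]
  refine (Nat.card_congr (Ideal.quotientEquiv I (σ • I)
    (MulSemiringAction.toRingEquiv (K ≃ₐ[ℚ] K) (𝓞 K) σ) ?_).toEquiv).symm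
  rw [Ideal.pointwise_smul_def]
  rfl

/-- The `p`-th power residue character with values in `O`. -/
theorem ST_exists_char {O F : Type*} [CommRing O] [Field F] [Fintype F] [DecidableEq F]
    (π : O →+* F) {p : ℕ} (hp : p.Prime) (z : O) (hz : z ^ p = 1)
    (hπz : IsPrimitiveRoot (π z) p) :
    p ∣ Fintype.card F - 1 ∧ ∃ χ : MulChar F O,
      (∀ x, π (χ x) = x ^ ((Fintype.card F - 1) / p)) ∧ χ ^ p = 1 ∧
      (∀ x : Fˣ, ∃ k : ℕ, χ x = z ^ k) := by
  haveI : NeZero p := ⟨hp.ne_zero⟩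
  have hdvd : p ∣ Fintype.card F - 1 := by
    have h1 : (π z) ^ (Fintype.card F - 1) = 1 :=
      FiniteField.pow_card_sub_one_eq_one _ (hπz.ne_zero hp.ne_zero)
    exact hπz.dvd_of_pow_eq_one _ h1
  refine ⟨hdvd, ?_⟩
  obtain ⟨e, he⟩ := hdvd
  have hcard : Fintype.card Fˣ = p * e := by rw [Fintype.card_units, he]
  have he0 : e ≠ 0 := by
    rintro rfl
    have := Fintype.card_pos (α := Fˣ)
    omega
  obtain ⟨g, hg⟩ := IsCyclic.exists_generator (α := Fˣ)
  -- `g ^ e` is a `p`-th root of unity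
  have h1 : ((g ^ e : Fˣ) : F) ^ p = 1 := by
    rw [← Units.val_pow_eq_pow_val, ← pow_mul, mul_comm, ← hcard, pow_card_eq_one, Units.val_one]
  obtain ⟨i, -, hi⟩ := hπz.eq_pow_of_pow_eq_one h1
  have hzu : IsUnit z := IsUnit.of_pow_eq_one hz hp.ne_zero
  let ζ0 : Oˣ := hzu.unit ^ i
  have hζ0 : (ζ0 : O) = z ^ i := by simp [ζ0]
  have hζ0p : ζ0 ^ p = 1 := by
    ext; rw [Units.val_pow_eq_pow_val, hζ0, ← pow_mul, mul_comm, pow_mul, hz, one_pow, Units.val_one]
  have hmem : ζ0 ∈ rootsOfUnity (Fintype.card Fˣ) O := by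
    rw [mem_rootsOfUnity, hcard, pow_mul, hζ0p, one_pow]
  let χ : MulChar F O := MulChar.ofRootOfUnity hmem hg
  have hχg : χ g = ζ0 := MulChar.ofRootOfUnity_spec hmem hg
  have hpow : ∀ x : Fˣ, ∃ k : ℕ, x = g ^ k := by
    intro x
    have := (mem_powers_iff_mem_zpowers (x := g)).mpr (hg x)
    obtain ⟨k, hk⟩ := this
    exact ⟨k, hk.symm⟩
  have hχx : ∀ k : ℕ, χ ((g ^ k : Fˣ) : F) = z ^ (i * k) := by
    intro k
    rw [Units.val_pow_eq_pow_val, map_pow, hχg, hζ0, pow_mul]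
  refine ⟨χ, ?_, ?_, ?_⟩
  · intro x
    have hdiv : (Fintype.card F - 1) / p = e := by rw [he, Nat.mul_div_cancel_left _ hp.pos]
    rw [hdiv]
    by_cases hx : x = 0
    · subst hx
      rw [MulChar.map_zero, map_zero, zero_pow he0]
    · obtain ⟨k, hk⟩ := hpow (Units.mk0 x hx)
      have hx' : x = ((g ^ k : Fˣ) : F) := by rw [← hk]; rfl
      rw [hx', hχx, map_pow, pow_mul, hi, ← Units.val_pow_eq_pow_val, ← Units.val_pow_eq_pow_val,
        ← pow_mul, ← pow_mul, mul_comm]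
  · rw [MulChar.eq_iff hg, MulChar.pow_apply_coe, hχg, ← Units.val_pow_eq_pow_val, hζ0p,
      MulChar.one_apply_coe, Units.val_one]
  · intro x
    obtain ⟨k, hk⟩ := hpow x
    exact ⟨i * k, by rw [hk, hχx]⟩

theorem ST_ringHomComp_eq_pow {O F : Type*} [CommRing O] [Field F] [Fintype F]
    (χ : MulChar F O) (z : O) (hχ : ∀ x : Fˣ, ∃ k : ℕ, χ x = z ^ k) (s : O →+* O) (c : ℕ)
    (hs : s z = z ^ c) : χ.ringHomComp s = χ ^ c := by
  ext x
  obtain ⟨k, hk⟩ := hχ x
  rw [MulChar.ringHomComp_apply, MulChar.pow_apply_coe, hk, map_pow, hs, ← pow_mul, ← pow_mul,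
    mul_comm]

/-- `χ ^ c ≠ 1` for `p ∤ c`. -/
theorem ST_char_pow_ne_one {O F : Type*} [CommRing O] [Field F] [Fintype F] [DecidableEq F]
    (π : O →+* F) {p : ℕ} (hp : p.Prime) (hdvd : p ∣ Fintype.card F - 1) (χ : MulChar F O)
    (hχ : ∀ x, π (χ x) = x ^ ((Fintype.card F - 1) / p)) (c : ℕ) (hc : ¬ p ∣ c) : χ ^ c ≠ 1 := by
  intro h
  obtain ⟨e, he⟩ := hdvd
  have hdiv : (Fintype.card F - 1) / p = e := by rw [he, Nat.mul_div_cancel_left _ hp.pos]
  rw [hdiv] at hχ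
  have hcard : Fintype.card Fˣ = p * e := by rw [Fintype.card_units, he]
  have he0 : 0 < e := by
    rcases Nat.eq_zero_or_pos e with rfl | h
    · have := Fintype.card_pos (α := Fˣ)
      omega
    · exact h
  obtain ⟨g, hg⟩ := IsCyclic.exists_generator (α := Fˣ)
  have hord : orderOf g = p * e := by
    rw [orderOf_eq_card_of_forall_mem_zpowers hg, Nat.card_eq_fintype_card, hcard]
  have h1 : g ^ (e * c) = 1 := by
    ext
    rw [Units.val_pow_eq_pow_val, pow_mul, ← hχ, ← map_pow, ← MulChar.pow_apply_coe, h,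
      MulChar.one_apply_coe, map_one, Units.val_one]
  have h2 : p * e ∣ e * c := hord ▸ orderOf_dvd_of_pow_eq_one h1
  rw [mul_comm p e] at h2
  exact hc ((Nat.mul_dvd_mul_iff_left he0).mp h2)

/-- reduction of `J(χ^c, χ^c)` vanishes for `2c < p`. -/
theorem ST_jacobiSum_pow_mem {O F : Type*} [CommRing O] [Field F] [Fintype F] [DecidableEq F]
    (π : O →+* F) {p : ℕ} (hp : p.Prime) (hdvd : p ∣ Fintype.card F - 1) (χ : MulChar F O)
    (hχ : ∀ x, π (χ x) = x ^ ((Fintype.card F - 1) / p)) (c : ℕ) (hc0 : c ≠ 0) (hc : 2 * c < p) :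
    π (jacobiSum (χ ^ c) (χ ^ c)) = 0 := by
  obtain ⟨e, he⟩ := hdvd
  have hdiv : (Fintype.card F - 1) / p = e := by rw [he, Nat.mul_div_cancel_left _ hp.pos]
  rw [hdiv] at hχ
  have he0 : 0 < e := by
    rcases Nat.eq_zero_or_pos e with rfl | h
    · have := Fintype.one_lt_card (α := F)
      omega
    · exact h
  rw [jacobiSum, map_sum]
  rw [← ST_sum_pow_mul_one_sub_pow (F := F) (e * c)]
  · refine Finset.sum_congr rfl fun x _ => ?_
    rw [map_mul, MulChar.pow_apply' _ hc0, MulChar.pow_apply' _ hc0, map_pow, map_pow, hχ, hχ,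
      ← pow_mul, ← pow_mul]
  · rw [he]
    calc 2 * (e * c) = (2 * c) * e := by ring
      _ < p * e := Nat.mul_lt_mul_of_pos_right hc he0

/-- The element `J` with all the properties needed. -/
theorem ST_exists_J {p : ℕ} [NeZero p] {K : Type} [Field K] [NumberField K] [IsCyclotomicExtension {p} ℚ K]
    (hp : p.Prime) (hp2 : p ≠ 2) (ζ : K) (hζ : IsPrimitiveRoot ζ p)
    (lam : Ideal (𝓞 K)) (l : ℕ) (hlam : lam.IsPrime) (hl : l.Prime) (hlp : l ≠ p)
    (hN : Ideal.absNorm lam = l) :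
    (∀ i j : ℕ, i < p → j < p → hζ.toInteger ^ i - hζ.toInteger ^ j ∈ lam → i = j) ∧
    ∃ (J : 𝓞 K) (τ : K ≃ₐ[ℚ] K), J * τ • J = (l : 𝓞 K) ∧
      ∀ (s : K ≃ₐ[ℚ] K) (c : ℕ), c ≠ 0 → 2 * c < p → s ζ = ζ ^ c → s • J ∈ lam := by
  haveI : Fact p.Prime := ⟨hp⟩
  haveI : NeZero p := ⟨hp.ne_zero⟩
  have hbot : lam ≠ ⊥ := by
    rintro rfl
    rw [Ideal.absNorm_bot] at hN
    exact hl.ne_zero hN.symm
  haveI hmax : lam.IsMaximal := hlam.isMaximal hbot
  letI : Field (𝓞 K ⧸ lam) := Ideal.Quotient.field lam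
  haveI : Finite (𝓞 K ⧸ lam) := Ideal.finiteQuotientOfFreeOfNeBot lam hbot
  letI : Fintype (𝓞 K ⧸ lam) := Fintype.ofFinite _
  classical
  have hcard : Fintype.card (𝓞 K ⧸ lam) = l := by
    rw [← Nat.card_eq_fintype_card, ← hN, Ideal.absNorm_apply, Submodule.cardQuot_apply]
  set π : 𝓞 K →+* (𝓞 K ⧸ lam) := Ideal.Quotient.mk lam with hπ
  set z : 𝓞 K := hζ.toInteger with hzdef
  have hzprim : IsPrimitiveRoot z p := hζ.toInteger_isPrimitiveRoot
  have hz : z ^ p = 1 := hzprim.pow_eq_one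
  have hl0 : ((l : ℕ) : 𝓞 K ⧸ lam) = 0 := by rw [← hcard]; exact Nat.cast_card_eq_zero _
  have hπz1 : π z ≠ 1 := by
    intro h
    have h1 : π (z - 1) = 0 := by rw [map_sub, h, map_one, sub_self]
    obtain ⟨w, hw⟩ := hζ.toInteger_sub_one_dvd_prime'
    have h2 : ((p : ℕ) : 𝓞 K ⧸ lam) = 0 := by
      have : π ((p : ℕ) : 𝓞 K) = 0 := by rw [hw, map_mul, h1, zero_mul]
      simpa using this
    have hcop : IsCoprime (p : ℤ) (l : ℤ) :=
      Nat.isCoprime_iff_coprime.mpr ((Nat.coprime_primes hp hl).mpr hlp.symm)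
    obtain ⟨a, b, hab⟩ := hcop
    have h3 : ((a * p + b * l : ℤ) : 𝓞 K ⧸ lam) = 1 := by rw [hab]; simp
    push_cast at h3
    rw [h2, hl0] at h3
    simp at h3
  have hπz : IsPrimitiveRoot (π z) p := by
    have h1 : (π z) ^ p = 1 := by rw [← map_pow, hz, map_one]
    have := orderOf_eq_prime h1 hπz1
    rw [← this]
    exact IsPrimitiveRoot.orderOf _
  refine ⟨?_, ?_⟩
  · intro i j hi hj hij
    have : π z ^ i = π z ^ j := by
      rw [← map_pow, ← map_pow, ← sub_eq_zero, ← map_sub]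
      exact Ideal.Quotient.eq_zero_iff_mem.mpr hij
    exact hπz.pow_inj hi hj this
  obtain ⟨hdvd, χ, hχ1, hχp, hχz⟩ := ST_exists_char π hp z hz hπz
  -- general Galois action on the Jacobi sum
  have hgal : ∀ (s : K ≃ₐ[ℚ] K) (c : ℕ), s • z = z ^ c →
      s • jacobiSum χ χ = jacobiSum (χ ^ c) (χ ^ c) := by
    intro s c hs
    have := ST_ringHomComp_eq_pow χ z hχz (MulSemiringAction.toRingHom (K ≃ₐ[ℚ] K) (𝓞 K) s) c hs
    rw [← this, jacobiSum_ringHomComp]
    rfl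
  let τ : K ≃ₐ[ℚ] K := (IsCyclotomicExtension.Rat.galEquivZMod p K).symm (-1)
  refine ⟨jacobiSum χ χ, τ, ?_, ?_⟩
  · -- `J * τ J = l`
    have hτz := IsCyclotomicExtension.Rat.galEquivZMod_smul_of_pow_eq p K τ hz
    set c0 := (((IsCyclotomicExtension.Rat.galEquivZMod p K) τ : (ZMod p)ˣ) : ZMod p).val with hc0
    have hc0' : p ∣ c0 + 1 := by
      rw [← ZMod.natCast_eq_zero_iff]
      push_cast
      rw [hc0, ZMod.natCast_zmod_val]
      have : (IsCyclotomicExtension.Rat.galEquivZMod p K) τ = -1 := MulEquiv.apply_symm_apply _ _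
      rw [this]
      simp
    have hinv : χ ^ c0 = χ⁻¹ := by
      rw [eq_inv_iff_mul_eq_one, ← pow_succ]
      obtain ⟨k, hk⟩ := hc0'
      rw [hk, pow_mul, hχp, one_pow]
    rw [hgal τ c0 hτz, hinv]
    have hinj : Function.Injective (algebraMap (𝓞 K) K) := RingOfIntegers.coe_injective
    apply hinj
    rw [map_mul, ← jacobiSum_ringHomComp, ← jacobiSum_ringHomComp, ← MulChar.ringHomComp_inv,
      map_natCast, ← hcard]
    have hne1 : χ ≠ 1 := by
      have := ST_char_pow_ne_one π hp hdvd χ hχ1 1 (by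
        intro h; exact hp.one_lt.ne' (Nat.dvd_one.mp h))
      simpa using this
    have hne2 : χ * χ ≠ 1 := by
      have := ST_char_pow_ne_one π hp hdvd χ hχ1 2 (by
        intro h; exact hp2 ((Nat.prime_dvd_prime_iff_eq hp Nat.prime_two).mp h))
      simpa [pow_two] using this
    refine jacobiSum_mul_jacobiSum_inv ?_ ((MulChar.ringHomComp_ne_one_iff hinj).mpr hne1)
      ((MulChar.ringHomComp_ne_one_iff hinj).mpr hne1) ?_
    · rw [ringChar.eq_zero]
      intro h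
      have h5 : ringChar (𝓞 K ⧸ lam) ∣ l := (ringChar.spec _ _).mp hl0
      rw [← h, zero_dvd_iff] at h5
      exact hl.ne_zero h5
    · rw [← MulChar.ringHomComp_mul]
      exact (MulChar.ringHomComp_ne_one_iff hinj).mpr hne2
  · intro s c hc0 hc hs
    have hsz : s • z = z ^ c := by
      apply RingOfIntegers.coe_injective
      change s (z : K) = _
      have hzK : (z : K) = ζ := rfl
      rw [map_pow, hzK, hs]
      rfl
    rw [hgal s c hsz]
    exact Ideal.Quotient.eq_zero_iff_mem.mp (ST_jacobiSum_pow_mem π hp hdvd χ hχ1 c hc0 hc)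

theorem stickelberger : Stmt_Stickelberger := by
  intro p K _ _ _ hp hp2 ζ hζ lam l hlam hl hlp hN σ hσ
  haveI : NeZero p := ⟨hp.ne_zero⟩
  haveI : Fact l.Prime := ⟨hl⟩
  obtain ⟨hinj, J, τ, hJ, hmem⟩ := ST_exists_J hp hp2 ζ hζ lam l hlam hl hlp hN
  set z : 𝓞 K := hζ.toInteger with hzdef
  have hzK : (z : K) = ζ := rfl
  have hbot : lam ≠ ⊥ := by
    rintro rfl
    rw [Ideal.absNorm_bot] at hN
    exact hl.ne_zero hN.symm
  obtain ⟨m, hm⟩ : ∃ m, p = 2 * m + 1 := (hp.odd_of_ne_two hp2)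
  have hm' : (p - 1) / 2 = m := by omega
  rw [hm'] at hσ ⊢
  -- the conjugates are maximal ideals
  have hfmax : ∀ s : K ≃ₐ[ℚ] K, (s • lam).IsMaximal := by
    intro s
    have h1 : Ideal.absNorm (s • lam) = l := by rw [ST_absNorm_smul, hN]
    have h2 : (s • lam).IsPrime :=
      Ideal.isPrime_of_irreducible_absNorm (by rw [h1]; exact hl.prime.irreducible)
    refine h2.isMaximal ?_
    intro h
    rw [h, Ideal.absNorm_bot] at h1
    exact hl.ne_zero h1.symm
  -- every element is congruent to an integer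
  have hint : ∀ x : 𝓞 K, ∃ n : ℤ, x - (n : 𝓞 K) ∈ lam := by
    intro x
    have hc : Nat.card (𝓞 K ⧸ lam) = l := by
      rw [← hN, Ideal.absNorm_apply, Submodule.cardQuot_apply]
    haveI : Nontrivial (𝓞 K ⧸ lam) := Ideal.Quotient.nontrivial_iff.mpr hlam.ne_top
    have htop := zmultiples_eq_top_of_prime_card hc (one_ne_zero (α := 𝓞 K ⧸ lam))
    have hx : Ideal.Quotient.mk lam x ∈ AddSubgroup.zmultiples (1 : 𝓞 K ⧸ lam) := by
      rw [htop]; trivial
    obtain ⟨n, hn⟩ := AddSubgroup.mem_zmultiples_iff.mp hx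
    refine ⟨n, Ideal.Quotient.eq_zero_iff_mem.mp ?_⟩
    rw [map_sub, ← hn, map_intCast]
    simp
  have hfix : ∀ ρ : K ≃ₐ[ℚ] K, ρ • lam = lam → ∀ x : 𝓞 K, ρ • x - x ∈ lam := by
    intro ρ hρ x
    obtain ⟨n, hn⟩ := hint x
    have h1 : ρ • (x - (n : 𝓞 K)) ∈ lam := by
      have := Ideal.smul_mem_pointwise_smul ρ _ lam hn
      rwa [hρ] at this
    have h2 : ρ • (n : 𝓞 K) = (n : 𝓞 K) :=
      map_intCast (MulSemiringAction.toRingHom (K ≃ₐ[ℚ] K) (𝓞 K) ρ) n
    have h3 : ρ • x - x = ρ • (x - (n : 𝓞 K)) - (x - (n : 𝓞 K)) := by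
      rw [smul_sub, h2]; ring
    rw [h3]
    exact lam.sub_mem h1 hn
  have hσz : ∀ c ∈ Finset.Icc 1 m, σ c • z = z ^ c := by
    intro c hc
    apply RingOfIntegers.coe_injective
    change σ c (z : K) = _
    rw [map_pow, hzK, hσ c hc]
    rfl
  have hdist : ∀ c ∈ Finset.Icc 1 m, ∀ c' ∈ Finset.Icc 1 m,
      (σ c)⁻¹ • lam = (σ c')⁻¹ • lam → c = c' := by
    intro c hc c' hc' h
    have hρ : (σ c' * (σ c)⁻¹) • lam = lam := by
      rw [mul_smul, h, smul_inv_smul]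
    have h1 := hfix _ hρ (z ^ c)
    rw [mul_smul, ← hσz c hc, inv_smul_smul, hσz c hc, hσz c' hc'] at h1
    have hc1 := Finset.mem_Icc.mp hc
    have hc2 := Finset.mem_Icc.mp hc'
    exact (hinj c' c (by omega) (by omega) h1).symm
  -- divisibility
  have hdvd : (∏ c ∈ Finset.Icc 1 m, ((σ c)⁻¹ • lam : Ideal (𝓞 K))) ∣ Ideal.span {J} := by
    refine Finset.prod_dvd_of_coprime ?_ ?_
    · intro c hc c' hc' hne
      rw [Function.onFun, Ideal.isCoprime_iff_sup_eq]
      exact Ideal.IsMaximal.coprime_of_ne (hfmax _) (hfmax _) fun h => hne (hdist c hc c' hc' h)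
    · intro c hc
      rw [Ideal.dvd_span_singleton, Ideal.mem_inv_pointwise_smul_iff]
      have hc1 := Finset.mem_Icc.mp hc
      exact hmem (σ c) c (by omega) (by omega) (hσ c hc)
  -- norms
  have hnorm1 : Ideal.absNorm (∏ c ∈ Finset.Icc 1 m, ((σ c)⁻¹ • lam : Ideal (𝓞 K))) = l ^ m := by
    rw [map_prod]
    simp only [ST_absNorm_smul, hN]
    rw [Finset.prod_const, Nat.card_Icc]
    simp
  have hnorm2 : Ideal.absNorm (Ideal.span {J}) = l ^ m := by
    have h1 : Ideal.span {τ • J} = τ • Ideal.span {J} := by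
      rw [Ideal.pointwise_smul_def, Ideal.map_span, Set.image_singleton]
      rfl
    have h2 : Ideal.absNorm (Ideal.span {J}) * Ideal.absNorm (Ideal.span {τ • J}) = l ^ (2 * m) := by
      rw [← map_mul, Ideal.span_singleton_mul_span_singleton, hJ, Ideal.absNorm_span_natCast,
        RingOfIntegers.rank, IsCyclotomicExtension.Rat.finrank p K, Nat.totient_prime hp, hm]
      simp
    rw [h1, ST_absNorm_smul] at h2
    have h3 : l ^ (2 * m) = l ^ m * l ^ m := by rw [two_mul, pow_add]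
    rw [h3] at h2
    exact Nat.mul_self_inj.mp h2
  obtain ⟨A, hA⟩ := hdvd
  have hA1 : Ideal.absNorm A = 1 := by
    have := congrArg Ideal.absNorm hA
    rw [map_mul, hnorm1, hnorm2] at this
    have hpos : 0 < l ^ m := pow_pos hl.pos m
    exact (Nat.eq_of_mul_eq_mul_left hpos (by rw [mul_one]; exact this)).symm
  rw [Ideal.absNorm_eq_one_iff] at hA1
  rw [hA1, Ideal.mul_top] at hA
  exact ⟨⟨J, hA.symm⟩⟩

end Fermat.Agent.S14
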