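import Fermat.Agent.S14.Interface2

/-!
# S14, CR-B : `L(ζ_r)/L` is totally ramified above `r` when `r` is unramified in `L`
-/

set_option autoImplicit false

namespace Fermat.Agent.S14

open NumberField
open scoped Pointwise

section TotRam

/-- A prime of a domain containing `r` contains `ζ - 1`. -/
theorem totRam_sub_one_mem {R : Type*} [CommRing R] [IsDomain R] {r : ℕ} {ζ : R} (hr : r.Prime)
    (hζ : IsPrimitiveRoot ζ r) (Q : Ideal R) [hQ : Q.IsPrime] (hrQ : (r : R) ∈ Q) :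
    ζ - 1 ∈ Q := by
  obtain ⟨n, rfl⟩ : ∃ n, r = n + 1 := ⟨r - 1, by have := hr.pos; omega⟩
  have h := hζ.prod_one_sub_pow_eq_order
  have h2 : ∏ k ∈ Finset.range n, (1 - ζ ^ (k + 1)) ∈ Q := by
    rw [h]; exact_mod_cast hrQ
  obtain ⟨k, hk, hkQ⟩ := (hQ.prod_mem_iff).mp h2
  have hk' : k + 1 < n + 1 := by simpa using hk
  have hcop : (k + 1).Coprime (n + 1) :=
    (Nat.coprime_of_lt_prime (by omega) hk' hr).symm
  have hass := hζ.associated_sub_one_pow_sub_one_of_coprime hcop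
  have : ζ ^ (k + 1) - 1 ∈ Q := by
    have := Q.neg_mem hkQ
    simpa using this
  exact Q.mem_of_dvd hass.symm.dvd this

/-- `r ∈ Q ^ (r - 1)`. -/
theorem totRam_mem_pow {R : Type*} [CommRing R] [IsDomain R] {r : ℕ} {ζ : R} (hr : r.Prime)
    (hζ : IsPrimitiveRoot ζ r) (Q : Ideal R) [hQ : Q.IsPrime] (hrQ : (r : R) ∈ Q) :
    (r : R) ∈ Q ^ (r - 1) := by
  obtain ⟨z, -, hz⟩ := hζ.self_sub_one_pow_dvd_order (k := r - 1) (by have := hr.pos; omega)
  rw [hz]
  exact Ideal.mul_mem_left _ _ (Ideal.pow_mem_pow (totRam_sub_one_mem hr hζ Q hrQ) _)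

/-- lower bound for the absolute ramification index. -/
theorem totRam_le_ramificationIdx {M : Type} [Field M] [NumberField M] {r : ℕ} {ζ : M}
    (hr : r.Prime) (hζ : IsPrimitiveRoot ζ r) (Q : Ideal (𝓞 M)) [hQ : Q.IsPrime]
    (hrQ : (r : 𝓞 M) ∈ Q) : r - 1 ≤ Q.ramificationIdx ℤ := by
  have : NeZero r := ⟨hr.ne_zero⟩
  have hζ' : IsPrimitiveRoot hζ.toInteger r := hζ.toInteger_isPrimitiveRoot
  have hmem := totRam_mem_pow hr hζ' Q hrQ
  have hrp : Prime (r : ℤ) := Nat.prime_iff_prime_int.mp hr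
  have hlo : Q.LiesOver (Ideal.span {(r : ℤ)}) :=
    (Ideal.liesOver_span_iff hQ.ne_top hrp).mpr (by simpa using hrQ)
  have hmap : (Ideal.span {(r : ℤ)}).map (algebraMap ℤ (𝓞 M)) ≠ ⊥ :=
    Ideal.map_ne_bot_of_ne_bot (by simpa using hr.ne_zero)
  rw [Ideal.IsDedekindDomain.ramificationIdx_eq_multiplicity (Ideal.span {(r : ℤ)}) Q hmap]
  have hQ0 : Q ≠ ⊥ := by
    rintro rfl
    have : (r : 𝓞 M) = 0 := by simpa using hrQ
    exact hr.ne_zero (by exact_mod_cast this)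
  have hfin : FiniteMultiplicity Q ((Ideal.span {(r : ℤ)}).map (algebraMap ℤ (𝓞 M))) :=
    FiniteMultiplicity.of_prime_left (Ideal.prime_of_isPrime hQ0 hQ) hmap
  refine hfin.le_multiplicity_of_pow_dvd ?_
  rw [Ideal.dvd_iff_le, Ideal.map_span, Set.image_singleton, Ideal.span_singleton_le_iff_mem]
  simpa using hmem

/-- `[L(ζ_r) : L] ≤ r - 1`. -/
theorem totRam_card_le (r : ℕ) (L M : Type) [Field L] [Field M] [Algebra L M]
    [IsCyclotomicExtension {r} L M] (hr : r.Prime) : Nat.card (M ≃ₐ[L] M) ≤ r - 1 := by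
  have : NeZero r := ⟨hr.ne_zero⟩
  have : Fact r.Prime := ⟨hr⟩
  have hζ := IsCyclotomicExtension.zeta_spec r L M
  have h := Nat.card_le_card_of_injective _ (hζ.autToPow_injective L)
  have h2 : Nat.card (ZMod r)ˣ = r - 1 := by
    rw [Nat.card_eq_fintype_card, ZMod.card_units_eq_totient, Nat.totient_prime hr]
  omega

theorem totRam : Stmt_TotRam := by
  intro r L M _ _ _ _ _ _ hr hdisc
  have : NeZero r := ⟨hr.ne_zero⟩
  have hζ := IsCyclotomicExtension.zeta_spec r L M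
  have hgal : IsGalois L M := IsCyclotomicExtension.isGalois {r} L M
  have hcard : Nat.card (M ≃ₐ[L] M) = Module.finrank L M := IsGalois.card_aut_eq_finrank L M
  have hle := totRam_card_le r L M hr
  have hrp : Prime (r : ℤ) := Nat.prime_iff_prime_int.mp hr
  have hunr : Algebra.IsUnramifiedIn (𝓞 L) (Ideal.span {(r : ℤ)}) :=
    (NumberField.not_dvd_discr_iff_isUnramifiedIn L (𝓞 L) hrp).mp hdisc
  -- the key computation at a prime `Q` above `r`
  have key : ∀ (Q : Ideal (𝓞 M)), Q.IsPrime → (r : 𝓞 M) ∈ Q →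
      r - 1 ≤ Nat.card (Q.inertia (M ≃ₐ[L] M)) := by
    intro Q hQ hrQ
    have h1 := totRam_le_ramificationIdx hr hζ Q hrQ
    have hlo : Q.LiesOver (Ideal.span {(r : ℤ)}) :=
      (Ideal.liesOver_span_iff hQ.ne_top hrp).mpr (by simpa using hrQ)
    have hq : (Q.under (𝓞 L)).IsPrime := inferInstance
    have hlo2 : (Q.under (𝓞 L)).LiesOver (Ideal.span {(r : ℤ)}) :=
      Ideal.LiesOver.tower_bot Q (Q.under (𝓞 L)) (Ideal.span {(r : ℤ)})
    have h2 : (Q.under (𝓞 L)).ramificationIdx ℤ = 1 := hunr.ramificationIdx_eq_one hlo2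
    have h3 := Ideal.ramificationIdx_tower (R := ℤ) (Q.under (𝓞 L)) Q
    rw [h2, one_mul] at h3
    rw [Ideal.card_inertia_eq_ramificationIdxIn (Q.under (𝓞 L)) Q,
      Ideal.ramificationIdxIn_eq_ramificationIdx (Q.under (𝓞 L)) Q (M ≃ₐ[L] M), ← h3]
    exact h1
  have hsub : ∀ (Q : Ideal (𝓞 M)), Nat.card (Q.inertia (M ≃ₐ[L] M)) ≤ Nat.card (M ≃ₐ[L] M) :=
    fun Q => Subgroup.card_le_card_group _
  constructor
  · -- existence of a prime above `r`
    have hpr : (Ideal.span {(r : ℤ)}).IsPrime := (Ideal.span_singleton_prime hrp.ne_zero).mpr hrp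
    obtain ⟨⟨Q, hQ, hQlo⟩⟩ :=
      (inferInstance : Nonempty (Ideal.primesOver (Ideal.span {(r : ℤ)}) (𝓞 M)))
    have hrQ : (r : 𝓞 M) ∈ Q := by
      have := (Ideal.liesOver_span_iff hQ.ne_top hrp).mp hQlo
      simpa using this
    have := key Q hQ hrQ
    have := hsub Q
    omega
  · intro Q g hQ hrQ
    have h1 := key Q hQ hrQ
    have h2 := hsub Q
    have htop : Q.inertia (M ≃ₐ[L] M) = ⊤ :=
      Subgroup.eq_top_of_card_eq _ (by omega)
    have hg : g ∈ Q.inertia (M ≃ₐ[L] M) := htop ▸ Subgroup.mem_top g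
    exact hg

end TotRam

end Fermat.Agent.S14
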