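/-
# S14 / END : Theorem NF from (Lo), (CR2), Stickelberger and the Frobenius / class group API
(helper55, task 152)
-/
import Fermat.Agent.S14.Interface2

set_option autoImplicit false
set_option linter.unusedSectionVars false

namespace Fermat.Agent.S14

open NumberField
open scoped Pointwise

section nf

variable {K L : Type} [Field K] [NumberField K] [Field L] [NumberField L] [Algebra K L]

/-- A prime above a nonzero ideal is nonzero. -/
lemma nf_ne_bot_of_liesOver {lam : Ideal (𝓞 K)} {P : Ideal (𝓞 L)} (hlam : lam ≠ ⊥)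
    (hP : P.LiesOver lam) : P ≠ ⊥ := by
  rintro rfl
  apply hlam
  rw [hP.over]
  exact Ideal.comap_bot_of_injective _ (RingOfIntegers.algebraMap.injective K L)

/-- Frobenius elements exist. -/
lemma nf_exists_isFrob (hPA : Stmt_PrimeAbove) (hFE : Stmt_FrobExists) [IsGalois K L]
    {lam : Ideal (𝓞 K)} (h1 : lam.IsPrime) (h2 : lam ≠ ⊥) : ∃ h, IsFrob K L lam h := by
  obtain ⟨P, hP, hP0, hPl⟩ := hPA K L lam h1 h2
  obtain ⟨h, hh⟩ := hFE K L lam P hP hP0 hPl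
  exact ⟨h, P, hP, hPl, hh⟩

/-- A prime with trivial Frobenius is a relative norm. -/
lemma nf_cls_mem_of_isFrob_one (hDO : Stmt_DegOne) (hCB : Stmt_ClsBasic) {lam : Ideal (𝓞 K)}
    (h1 : lam.IsPrime) (h2 : lam ≠ ⊥) (hF : IsFrob K L lam 1) : cls lam ∈ normCl K L := by
  obtain ⟨P, hP, hPl, hx⟩ := hF
  obtain ⟨hiff, hrel⟩ := hDO K L lam P h1 h2 hP hPl
  have hN : Ideal.absNorm P = Ideal.absNorm lam := hiff.1 (fun x => by
    have h3 := hx x
    rw [one_smul] at h3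
    have h4 := P.neg_mem h3
    simpa using h4)
  have h5 := (hCB K).2.2.2.2.2 L P (nf_ne_bot_of_liesOver h2 hPl)
  rwa [hrel hN] at h5

/-- A prime of prime norm `> p` does not contain `p`. -/
lemma nf_not_mem_of_lt {p : ℕ} (hp : p.Prime) {lam : Ideal (𝓞 K)} (hl : lam.IsPrime)
    (hN : (Ideal.absNorm lam).Prime) (hlt : p < Ideal.absNorm lam) : (p : 𝓞 K) ∉ lam := by
  intro hmem
  have hcop : Nat.Coprime p (Ideal.absNorm lam) := (Nat.coprime_primes hp hN).2 hlt.ne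
  have h1 : ((Ideal.absNorm lam : ℕ) : 𝓞 K) ∈ lam := Ideal.absNorm_mem lam
  obtain ⟨a, b, hab⟩ := Nat.isCoprime_iff_coprime.2 hcop
  apply hl.ne_top
  rw [Ideal.eq_top_iff_one]
  have h2 : (1 : 𝓞 K) = (a : 𝓞 K) * (p : 𝓞 K) + (b : 𝓞 K) * ((Ideal.absNorm lam : ℕ) : 𝓞 K) := by
    have h3 := congrArg (Int.cast : ℤ → 𝓞 K) hab
    push_cast at h3
    exact h3.symm
  rw [h2]
  exact lam.add_mem (lam.mul_mem_left _ hmem) (lam.mul_mem_left _ h1)

lemma nf_ne_bot_of_prime_absNorm {lam : Ideal (𝓞 K)} (hN : (Ideal.absNorm lam).Prime) :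
    lam ≠ ⊥ := by
  rintro rfl
  rw [Ideal.absNorm_bot] at hN
  exact Nat.not_prime_zero hN

lemma nf_absNorm_smul (g : K ≃ₐ[ℚ] K) (I : Ideal (𝓞 K)) :
    Ideal.absNorm (g • I) = Ideal.absNorm I := by
  have e : (𝓞 K ⧸ I) ≃+* (𝓞 K ⧸ (g • I)) :=
    Ideal.quotientEquiv I (g • I) (MulSemiringAction.toRingEquiv _ (𝓞 K) g) rfl
  exact (Nat.card_congr e.toEquiv).symm

lemma nf_isPrime_smul (g : K ≃ₐ[ℚ] K) {I : Ideal (𝓞 K)} (hI : I.IsPrime) : (g • I).IsPrime := by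
  rw [Ideal.pointwise_smul_eq_comap]
  exact Ideal.comap_isPrime _ _

lemma nf_cls_prod (hCB : Stmt_ClsBasic) {ι : Type} (s : Finset ι) (f : ι → Ideal (𝓞 K))
    (hf : ∀ i ∈ s, f i ≠ ⊥) :
    (∏ i ∈ s, f i) ≠ ⊥ ∧ cls (∏ i ∈ s, f i) = ∏ i ∈ s, cls (f i) := by
  classical
  induction s using Finset.induction_on with
  | empty =>
    simp only [Finset.prod_empty]
    have h1 : (1 : Ideal (𝓞 K)) ≠ ⊥ := one_ne_zero
    refine ⟨h1, ((hCB K).2.1 1 h1).2 ?_⟩
    rw [Ideal.one_eq_top]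
    exact ⟨1, Ideal.span_singleton_one.symm⟩
  | insert a s ha ih =>
    obtain ⟨h1, h2⟩ := ih (fun i hi => hf i (Finset.mem_insert_of_mem hi))
    have h3 := hf a (Finset.mem_insert_self a s)
    rw [Finset.prod_insert ha, Finset.prod_insert ha]
    refine ⟨mul_ne_zero h3 h1, ?_⟩
    rw [(hCB K).1 _ _ h3 h1, h2]

lemma nf_sum_Icc (m : ℕ) : 2 * ∑ c ∈ Finset.Icc 1 m, c = m * (m + 1) := by
  induction m with
  | zero => simp
  | succ n ih =>
    rw [Finset.sum_Icc_succ_top (by omega), mul_add, ih]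
    ring

lemma nf_coprime_sum {p : ℕ} (hp : p.Prime) (h2 : p ≠ 2) :
    Nat.Coprime (∑ c ∈ Finset.Icc 1 ((p - 1) / 2), c) p := by
  have h3 : 3 ≤ p := by
    have := hp.two_le
    omega
  rw [Nat.coprime_comm, hp.coprime_iff_not_dvd]
  intro hd
  have h4 : p ∣ ((p - 1) / 2) * ((p - 1) / 2 + 1) := by
    rw [← nf_sum_Icc]
    exact Dvd.dvd.mul_left hd 2
  rcases (hp.dvd_mul).1 h4 with h5 | h5
  · have := Nat.le_of_dvd (by omega) h5
    omega
  · have := Nat.le_of_dvd (by omega) h5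
    omega

lemma nf_card {p : ℕ} (d : NFData p K L) : Nat.card (L ≃ₐ[K] L) = p := by
  have := d.galQ
  have : IsGalois K L := IsGalois.tower_top_of_isGalois ℚ K L
  rw [IsGalois.card_aut_eq_finrank, d.deg]

/-- The general comparison lemma (no condition on the norms). -/
lemma nf_cr (hCR : Stmt_CR2) (hIE : Stmt_InertExists) (hPA : Stmt_PrimeAbove)
    (hFE : Stmt_FrobExists) {p : ℕ} (d : NFData p K L) {lam lam' : Ideal (𝓞 K)}
    {h h' : L ≃ₐ[K] L} {k : ℕ} (hl : lam.IsPrime) (hl0 : lam ≠ ⊥) (hl' : lam'.IsPrime)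
    (hl0' : lam' ≠ ⊥) (hp : (p : 𝓞 K) ∉ lam) (hp' : (p : 𝓞 K) ∉ lam')
    (hF : IsFrob K L lam h) (hF' : IsFrob K L lam' h') (hh : h ≠ 1) (hh' : h' ≠ 1)
    (hk : h' = h ^ k) : cls lam' * (cls lam ^ k)⁻¹ ∈ normCl K L := by
  have := d.galQ
  have : IsGalois K L := IsGalois.tower_top_of_isGalois ℚ K L
  have : Fact p.Prime := ⟨d.prime⟩
  have hdeg : 1 < Module.finrank K L := by
    rw [d.deg]
    exact d.prime.one_lt
  obtain ⟨lam2, h2p, h2N, h2B, h2F⟩ :=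
    hIE K L hdeg (Ideal.absNorm lam + Ideal.absNorm lam' + p)
  have h20 : lam2 ≠ ⊥ := nf_ne_bot_of_prime_absNorm h2N
  have h2np : (p : 𝓞 K) ∉ lam2 := nf_not_mem_of_lt d.prime h2p h2N (by omega)
  obtain ⟨h2, hF2⟩ := nf_exists_isFrob (L := L) hPA hFE h2p h20
  have hh2 : h2 ≠ 1 := by
    rintro rfl
    exact h2F hF2
  obtain ⟨i, hi⟩ := mem_powers_of_prime_card (nf_card d) (g' := h) hh2
  have hi' : h = h2 ^ i := hi.symm
  have hik : h' = h2 ^ (i * k) := by rw [hk, hi', pow_mul]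
  have m1 := hCR p K L d lam2 lam h2 h i h2p h20 hl hl0 h2np hp hF2 hF hh2 hh hi' (by omega)
  have m2 := hCR p K L d lam2 lam' h2 h' (i * k) h2p h20 hl' hl0' h2np hp' hF2 hF' hh2 hh' hik
    (by omega)
  have key : cls lam' * (cls lam ^ k)⁻¹ =
      (cls lam' * (cls lam2 ^ (i * k))⁻¹) * ((cls lam * (cls lam2 ^ i)⁻¹) ^ k)⁻¹ := by
    rw [mul_pow, inv_pow, ← pow_mul, mul_inv, inv_inv, mul_mul_mul_comm, inv_mul_cancel, mul_one]
  rw [key]
  exact (normCl K L).mul_mem m2 ((normCl K L).inv_mem ((normCl K L).pow_mem m1 k))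

/-- The prime(s) of `ℚ(ζ_p)` above `p` are principal. -/
lemma nf_principal_of_mem {p : ℕ} (hp : p.Prime) [IsCyclotomicExtension {p} ℚ K]
    {lam : Ideal (𝓞 K)} (hl : lam.IsPrime) (hmem : (p : 𝓞 K) ∈ lam) : lam.IsPrincipal := by
  have : Fact p.Prime := ⟨hp⟩
  have := hl
  have hmax : (Ideal.span {(p : ℤ)}).IsMaximal := Int.ideal_span_isMaximal_of_prime p
  have : lam.LiesOver (Ideal.span {(p : ℤ)}) := by
    constructor
    apply hmax.eq_of_le (Ideal.comap_ne_top _ hl.ne_top)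
    rw [Ideal.span_singleton_le_iff_mem, Ideal.mem_comap]
    simpa using hmem
  have hζ := IsCyclotomicExtension.zeta_spec p ℚ K
  rw [IsCyclotomicExtension.Rat.eq_span_zeta_sub_one_of_liesOver' p K hζ lam]
  exact ⟨_, rfl⟩

/-- The automorphisms `σ_c : ζ ↦ ζ ^ c` of `ℚ(ζ_p)`. -/
lemma nf_exists_sigma {p : ℕ} (hp : p.Prime) [IsCyclotomicExtension {p} ℚ K] {ζ : K}
    (hζ : IsPrimitiveRoot ζ p) :
    ∃ σ : ℕ → (K ≃ₐ[ℚ] K), ∀ c : ℕ, 1 ≤ c → c < p → σ c ζ = ζ ^ c := by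
  classical
  have : Fact p.Prime := ⟨hp⟩
  have : NeZero p := ⟨hp.ne_zero⟩
  refine ⟨fun c => if hc : c.Coprime p then
    (IsCyclotomicExtension.Rat.galEquivZMod p K).symm (ZMod.unitOfCoprime c hc) else 1, ?_⟩
  intro c hc1 hcp
  have hc : c.Coprime p :=
    (Nat.coprime_comm.1 ((hp.coprime_iff_not_dvd).2 (fun hd => by
      have := Nat.le_of_dvd (by omega) hd
      omega)))
  simp only [dif_pos hc]
  rw [IsCyclotomicExtension.Rat.galEquivZMod_apply_of_pow_eq p K _ hζ.pow_eq_one,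
    MulEquiv.apply_symm_apply, ZMod.coe_unitOfCoprime, ZMod.val_natCast, Nat.mod_eq_of_lt hcp]

/-- In the situation `NFData`, `σ_c⁻¹ λ` has Frobenius `h ^ c`. -/
lemma nf_frob_conj (hFC : Stmt_FrobConj) {p : ℕ} (d : NFData p K L) {ζ : K}
    (hζ : IsPrimitiveRoot ζ p) {lam : Ideal (𝓞 K)} {h : L ≃ₐ[K] L} (hF : IsFrob K L lam h)
    (s : K ≃ₐ[ℚ] K) (c : ℕ) (hs : s ζ = ζ ^ c) : IsFrob K L (s⁻¹ • lam) (h ^ c) := by
  have := d.galQ
  have := d.cyc
  have : IsGalois ℚ K := IsCyclotomicExtension.isGalois {p} ℚ K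
  obtain ⟨g, hg⟩ := AlgEquiv.restrictNormalHom_surjective (F := ℚ) (K₁ := K) L s
  have hcomm : ∀ x : K, algebraMap K L (s x) = g (algebraMap K L x) := by
    intro x
    rw [← hg]
    exact AlgEquiv.restrictNormal_commutes g K x
  have hgζ : g (algebraMap K L ζ) = algebraMap K L ζ ^ c := by
    rw [← hcomm, hs, map_pow]
  have hconj := d.conj g h ζ c hζ hgζ
  refine hFC K L lam h (h ^ c) g.symm s⁻¹ ?_ ?_ hF
  · intro z
    have h1 := hcomm (s⁻¹ z)
    have h2 : s (s⁻¹ z) = z := by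
      change (s * s⁻¹) z = z
      simp
    rw [h2] at h1
    rw [h1, AlgEquiv.symm_apply_apply]
  · intro x
    have h1 := hconj (g x)
    rw [AlgEquiv.symm_apply_apply] at h1
    rw [AlgEquiv.symm_symm, ← h1, AlgEquiv.symm_apply_apply]

/-- **Theorem NF**, from its ingredients. -/
theorem nf (hLo : Stmt_Lo) (hCR : Stmt_CR2) (hST : Stmt_Stickelberger) (hIE : Stmt_InertExists)
    (hFE : Stmt_FrobExists) (hPA : Stmt_PrimeAbove) (hDO : Stmt_DegOne) (hFC : Stmt_FrobConj)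
    (hCB : Stmt_ClsBasic) : Stmt_NF := by
  intro p K L _ _ _ _ _ d
  have := d.galQ
  have := d.cyc
  have : IsGalois K L := IsGalois.tower_top_of_isGalois ℚ K L
  have : Fact p.Prime := ⟨d.prime⟩
  have : NeZero p := ⟨d.prime.ne_zero⟩
  have hp3 : 3 ≤ p := by
    have h1 := d.prime.two_le
    have h2 := d.odd
    omega
  have hcard := nf_card d
  have hTC : IsTotallyComplex K := IsCyclotomicExtension.Rat.isTotallyComplex K (n := p) (by omega)
  have hY : normCl K L ≠ ⊤ := hLo p K L d.prime d.odd d.deg d.unram hTC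
  have hdeg : 1 < Module.finrank K L := by
    rw [d.deg]
    exact d.prime.one_lt
  -- (1) a prime whose class is not a norm
  obtain ⟨lam0, h0p, h00, h0Y⟩ : ∃ q : Ideal (𝓞 K), q.IsPrime ∧ q ≠ ⊥ ∧ cls q ∉ normCl K L := by
    by_contra hcon
    push Not at hcon
    exact hY ((hCB K).2.2.2.1 (normCl K L) hcon)
  have h0np : (p : 𝓞 K) ∉ lam0 := by
    intro hmem
    apply h0Y
    rw [((hCB K).2.1 lam0 h00).2 (nf_principal_of_mem d.prime h0p hmem)]
    exact (normCl K L).one_mem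
  obtain ⟨f0, hF0⟩ := nf_exists_isFrob (L := L) hPA hFE h0p h00
  have hf0 : f0 ≠ 1 := by
    rintro rfl
    exact h0Y (nf_cls_mem_of_isFrob_one hDO hCB h0p h00 hF0)
  -- (3) a degree one prime whose class is not a norm
  obtain ⟨lam1, h1p, h1N, h1B, h1F⟩ := hIE K L hdeg p
  have h10 : lam1 ≠ ⊥ := nf_ne_bot_of_prime_absNorm h1N
  have h1np : (p : 𝓞 K) ∉ lam1 := nf_not_mem_of_lt d.prime h1p h1N h1B
  obtain ⟨f1, hF1⟩ := nf_exists_isFrob (L := L) hPA hFE h1p h10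
  have hf1 : f1 ≠ 1 := by
    rintro rfl
    exact h1F hF1
  obtain ⟨k, hk⟩ := mem_powers_of_prime_card hcard (g' := f0) hf1
  have hc01 := nf_cr hCR hIE hPA hFE d h1p h10 h0p h00 h1np h0np hF1 hF0 hf1 hf0 hk.symm
  have h1Y : cls lam1 ∉ normCl K L := by
    intro hmem
    apply h0Y
    exact ((normCl K L).mul_mem_cancel_right
      ((normCl K L).inv_mem ((normCl K L).pow_mem hmem k))).1 hc01
  -- (4) the conjugates
  have hζ := IsCyclotomicExtension.zeta_spec p ℚ K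
  obtain ⟨σ, hσ⟩ := nf_exists_sigma d.prime hζ
  have hσ' : ∀ c ∈ Finset.Icc 1 ((p - 1) / 2), σ c (IsCyclotomicExtension.zeta p ℚ K) =
      IsCyclotomicExtension.zeta p ℚ K ^ c := by
    intro c hc
    rw [Finset.mem_Icc] at hc
    exact hσ c hc.1 (by omega)
  have hmu : ∀ c ∈ Finset.Icc 1 ((p - 1) / 2),
      ((σ c)⁻¹ • lam1 : Ideal (𝓞 K)) ≠ ⊥ ∧
      cls ((σ c)⁻¹ • lam1 : Ideal (𝓞 K)) * (cls lam1 ^ c)⁻¹ ∈ normCl K L := by
    intro c hc
    have hFc := nf_frob_conj hFC d hζ hF1 (σ c) c (hσ' c hc)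
    rw [Finset.mem_Icc] at hc
    have hNc : (Ideal.absNorm ((σ c)⁻¹ • lam1 : Ideal (𝓞 K))).Prime := by
      rw [nf_absNorm_smul]
      exact h1N
    have hpc := nf_isPrime_smul (σ c)⁻¹ h1p
    have hne := nf_ne_bot_of_prime_absNorm hNc
    have hnp : (p : 𝓞 K) ∉ ((σ c)⁻¹ • lam1 : Ideal (𝓞 K)) :=
      nf_not_mem_of_lt d.prime hpc hNc (by rw [nf_absNorm_smul]; exact h1B)
    have hfc : f1 ^ c ≠ 1 := by
      intro h1
      have h2 : f1 ^ p = 1 := by
        rw [← hcard]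
        exact pow_card_eq_one'
      have h3 : c.gcd p = 1 :=
        Nat.coprime_comm.1 ((d.prime.coprime_iff_not_dvd).2 (fun hd => by
          have := Nat.le_of_dvd (by omega) hd
          omega))
      have h4 := pow_gcd_eq_one.2 ⟨h1, h2⟩
      rw [h3, pow_one] at h4
      exact hf1 h4
    exact ⟨hne, nf_cr hCR hIE hPA hFE d h1p h10 hpc hne h1np hnp hF1 hFc hf1 hfc rfl⟩
  -- (5) Stickelberger
  have hprin := hST p K d.prime d.odd _ hζ lam1 _ h1p h1N h1B.ne' rfl σ hσ'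
  obtain ⟨hprod0, hprodcls⟩ := nf_cls_prod hCB (Finset.Icc 1 ((p - 1) / 2))
    (fun c => ((σ c)⁻¹ • lam1 : Ideal (𝓞 K))) (fun c hc => (hmu c hc).1)
  have hone : ∏ c ∈ Finset.Icc 1 ((p - 1) / 2), cls ((σ c)⁻¹ • lam1 : Ideal (𝓞 K)) = 1 := by
    rw [← hprodcls]
    exact ((hCB K).2.1 _ hprod0).2 hprin
  have hmem : ∏ c ∈ Finset.Icc 1 ((p - 1) / 2),
      (cls ((σ c)⁻¹ • lam1 : Ideal (𝓞 K)) * (cls lam1 ^ c)⁻¹) ∈ normCl K L :=
    (normCl K L).prod_mem (fun c hc => (hmu c hc).2)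
  rw [Finset.prod_mul_distrib, hone, one_mul, Finset.prod_inv_distrib, Finset.prod_pow_eq_pow_sum,
    inv_mem_iff] at hmem
  have hmemp : cls lam1 ^ p ∈ normCl K L := by
    have h1 := (hCB K).2.2.2.2.1 L lam1 h10
    rwa [d.deg] at h1
  apply h1Y
  rw [← QuotientGroup.eq_one_iff] at hmem hmemp ⊢
  rw [QuotientGroup.mk_pow] at hmem hmemp
  have h4 := pow_gcd_eq_one.2 ⟨hmem, hmemp⟩
  rw [nf_coprime_sum d.prime d.odd, pow_one] at h4
  exact h4

end nf

end Fermat.Agent.S14
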