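/-
S14 shared lemmas (helper39): sums over prime ideals versus `log ζ`.
-/
import Fermat.Agent.S14.ZetaPole

set_option autoImplicit false

namespace Fermat.Agent.S14

open NumberField Filter Topology Ideal

/-- nonzero prime ideals of `𝓞 T`. -/
abbrev Pr (T : Type) [Field T] [NumberField T] : Type :=
  {q : Ideal (𝓞 T) // q.IsPrime ∧ q ≠ ⊥}

/-- `∑_q N(q)^{-s}` over the nonzero primes. -/
noncomputable def primeSum (T : Type) [Field T] [NumberField T] (s : ℝ) : ℝ :=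
  ∑' q : Pr T, ((absNorm q.1 : ℕ) : ℝ) ^ (-s)

section PS

variable (T : Type) [Field T] [NumberField T]

theorem ps_summable {s : ℝ} (hs : 1 < s) :
    Summable (fun q : Pr T ↦ ((absNorm q.1 : ℕ) : ℝ) ^ (-s)) := by
  have h := an0_summable_ideals T hs
  have hinj : Function.Injective
      (fun q : Pr T ↦ (⟨q.1, q.2.2⟩ : {I : Ideal (𝓞 T) // I ≠ ⊥})) := by
    intro a b hab
    exact Subtype.ext (congrArg (fun z : {I : Ideal (𝓞 T) // I ≠ ⊥} ↦ z.1) hab)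
  have h2 := h.comp_injective hinj
  simp only [Function.comp_def] at h2
  exact h2

theorem ps_two_le_absNorm (q : Pr T) : 2 ≤ absNorm q.1 := by
  have h0 : absNorm q.1 ≠ 0 := by
    rw [Ne, absNorm_eq_zero_iff]; exact q.2.2
  have h1 : absNorm q.1 ≠ 1 := by
    rw [Ne, absNorm_eq_one_iff]; exact q.2.1.ne_top
  omega

theorem ps_term_le_half {s : ℝ} (hs : 1 < s) (q : Pr T) :
    ((absNorm q.1 : ℕ) : ℝ) ^ (-s) ≤ 1 / 2 := by
  have h2 : (2 : ℝ) ≤ (absNorm q.1 : ℕ) := by exact_mod_cast ps_two_le_absNorm T q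
  have hpos : (0 : ℝ) < (absNorm q.1 : ℕ) := by linarith
  calc ((absNorm q.1 : ℕ) : ℝ) ^ (-s) ≤ ((absNorm q.1 : ℕ) : ℝ) ^ (-1 : ℝ) :=
        Real.rpow_le_rpow_of_exponent_le (by linarith) (by linarith)
    _ = (((absNorm q.1 : ℕ) : ℝ))⁻¹ := Real.rpow_neg_one _
    _ ≤ 1 / 2 := by
        rw [one_div]
        exact inv_anti₀ (by norm_num) h2

theorem ps_term_pos (s : ℝ) (q : Pr T) : 0 < ((absNorm q.1 : ℕ) : ℝ) ^ (-s) := by
  have h2 : (2 : ℝ) ≤ (absNorm q.1 : ℕ) := by exact_mod_cast ps_two_le_absNorm T q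
  exact Real.rpow_pos_of_pos (by linarith) _

/-- the Euler product in real exp-log form. -/
theorem ps_log_zetaI_eq (hE : Stmt_EulerIdeal) {s : ℝ} (hs : 1 < s) :
    Summable (fun q : Pr T ↦ -Real.log (1 - ((absNorm q.1 : ℕ) : ℝ) ^ (-s))) ∧
    Real.log (zetaI T s) = ∑' q : Pr T, -Real.log (1 - ((absNorm q.1 : ℕ) : ℝ) ^ (-s)) := by
  have hs0 : -s ≠ 0 := by linarith
  obtain ⟨_, h2, h3⟩ := hE T (fun I ↦ ((((absNorm I : ℕ) : ℝ) ^ (-s) : ℝ) : ℂ))
    (by simp)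
    (by
      intro I J
      rw [map_mul, Nat.cast_mul, Real.mul_rpow (Nat.cast_nonneg _) (Nat.cast_nonneg _)]
      push_cast; ring)
    (by
      have := an0_summable_ideals T hs
      refine this.congr fun I ↦ ?_
      rw [Complex.norm_real, Real.norm_of_nonneg (Real.rpow_nonneg (Nat.cast_nonneg _) _)])
  have hterm : ∀ q : Pr T,
      -Complex.log (1 - ((((absNorm q.1 : ℕ) : ℝ) ^ (-s) : ℝ) : ℂ)) =
        ((-Real.log (1 - ((absNorm q.1 : ℕ) : ℝ) ^ (-s)) : ℝ) : ℂ) := by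
    intro q
    have hle := ps_term_le_half T hs q
    rw [Complex.ofReal_neg, Complex.ofReal_log (by linarith)]
    push_cast; ring
  have h2' : Summable (fun q : Pr T ↦
      ((-Real.log (1 - ((absNorm q.1 : ℕ) : ℝ) ^ (-s)) : ℝ) : ℂ)) :=
    h2.congr fun q ↦ hterm q
  have h2r := Complex.summable_ofReal.mp h2'
  refine ⟨h2r, ?_⟩
  rw [tsum_congr hterm, ← Complex.ofReal_tsum, ← Complex.ofReal_exp, ← Complex.ofReal_tsum] at h3
  have h4 := Complex.ofReal_injective h3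
  rw [zetaI, ← h4, Real.log_exp]

theorem ps_log_term_bound {x : ℝ} (h0 : 0 ≤ x) (h1 : x ≤ 1 / 2) :
    |-Real.log (1 - x) - x| ≤ 2 * x ^ 2 := by
  have h := Real.abs_log_sub_add_sum_range_le (x := x) (by rw [abs_of_nonneg h0]; linarith) 1
  simp only [Finset.sum_range_one, zero_add, pow_one, Nat.cast_zero, div_one,
    abs_of_nonneg h0] at h
  have e : |-Real.log (1 - x) - x| = |x + Real.log (1 - x)| := by
    rw [← abs_neg]; congr 1; ring
  rw [e]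
  refine h.trans ?_
  rw [div_le_iff₀ (by linarith)]
  have : 0 ≤ x ^ 2 := by positivity
  norm_num
  nlinarith

/-- `log ζ_T(s) = ∑_q N(q)^{-s} + O(1)`, uniformly for `s > 1`. -/
theorem ps_log_zetaI (hE : Stmt_EulerIdeal) :
    ∃ B : ℝ, ∀ s : ℝ, 1 < s → |Real.log (zetaI T s) - primeSum T s| ≤ B := by
  refine ⟨∑' q : Pr T, 2 * ((absNorm q.1 : ℕ) : ℝ) ^ (-2 : ℝ), fun s hs ↦ ?_⟩
  obtain ⟨hsum, heq⟩ := ps_log_zetaI_eq T hE hs
  have hps := ps_summable T hs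
  have h2 : Summable (fun q : Pr T ↦ 2 * ((absNorm q.1 : ℕ) : ℝ) ^ (-2 : ℝ)) :=
    (ps_summable T (s := 2) (by norm_num)).mul_left 2
  rw [heq, primeSum, ← hsum.tsum_sub hps]
  have hb : ∀ q : Pr T, ‖-Real.log (1 - ((absNorm q.1 : ℕ) : ℝ) ^ (-s)) -
      ((absNorm q.1 : ℕ) : ℝ) ^ (-s)‖ ≤ 2 * ((absNorm q.1 : ℕ) : ℝ) ^ (-2 : ℝ) := by
    intro q
    rw [Real.norm_eq_abs]
    refine (ps_log_term_bound (ps_term_pos T s q).le (ps_term_le_half T hs q)).trans ?_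
    have h2 : (2 : ℝ) ≤ (absNorm q.1 : ℕ) := by exact_mod_cast ps_two_le_absNorm T q
    have hpos : (0 : ℝ) < (absNorm q.1 : ℕ) := by linarith
    rw [← Real.rpow_natCast, ← Real.rpow_mul hpos.le]
    refine mul_le_mul_of_nonneg_left ?_ (by norm_num)
    refine Real.rpow_le_rpow_of_exponent_le (by linarith) ?_
    push_cast; linarith
  rw [← Real.norm_eq_abs]
  exact tsum_of_norm_bounded h2.hasSum hb

/-- `∑_q N(q)^{-s} = log (1/(s-1)) + O(1)` near `1⁺`. -/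
theorem ps_primeSum_log (hE : Stmt_EulerIdeal) : ∃ B δ : ℝ, 0 < δ ∧ ∀ s : ℝ, 1 < s → s ≤ 1 + δ →
    |primeSum T s - Real.log (1 / (s - 1))| ≤ B := by
  obtain ⟨B₁, h1⟩ := ps_log_zetaI T hE
  obtain ⟨B₂, δ, hδ, h2⟩ := an0_log_bound T
  refine ⟨B₁ + B₂, δ, hδ, fun s hs hs' ↦ ?_⟩
  have a := h1 s hs
  have b := h2 s hs hs'
  rw [abs_le] at a b ⊢
  constructor <;> linarith [a.1, a.2, b.1, b.2]

end PS

end Fermat.Agent.S14
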